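import Mathlib
import Fermat.Agent.S17.RRAvoid

/-!
# TRACK 9 (S19), generic geometry (helper14), prefix `S19MU_`: products of Riemann–Roch spaces

`K` an infinite field of ANY characteristic, `F / K` a function field with `RR_Hyp K F`
(Riemann's theorem), `g = RR_genus K F`.  Everything here is linear algebra on the spaces `L(D)`.

* `S19MU_mul_mem`        : `L(D₁) · L(D₂) ⊂ L(D₁ + D₂)`.
* `S19MU_inf`            : `L(D) ⊓ L(D') = L(D ⊓ D')`.
* `S19MU_IsPencil D s t` : `s, t ∈ L(D)` nonzero without common base point: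
                           `ord_v s = − D v ∨ ord_v t = − D v` at every place.
* `S19MU_exists_pencil`  : pencils exist for `deg D ≥ 2 g + 1` (first member prescribed or not).
* `S19MU_pencil_ker`     : **base-point-free pencil trick**: `s a + t b = 0`, `a, b ∈ L(D₁)` ⇒
                           `a = t c`, `b = − s c` with `c ∈ L(D₁ − D₂)`.
* `S19MU_pencil_finrank` : `dim (s L(D₁) + t L(D₁)) + dim L(D₁ − D₂) = 2 dim L(D₁)`.
* `S19MU_pencil_eq`      : `s L(D₁) + t L(D₁) = L(D₁ + D₂)` if `deg D₂ ≥ 0`,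
                           `deg D₁ − deg D₂ ≥ 2 g`.
* `S19MU_mul_eq`         : `L(D₂) * L(D₁) = L(D₁ + D₂)` if `deg D₂ ≥ 2 g + 1`,
                           `deg D₁ − deg D₂ ≥ 2 g` (the substitute for Mumford's theorem).
* `S19MU_colon`          : **colon lemma**: `deg D ≥ 2 g + 1` ⇒
                           `(∀ a ∈ L(D), w a ∈ L(E)) ↔ w ∈ L(E − D)`.
* `S19MU_smul_eq`        : `z · L(E) = L(E − div z)`.
-/

set_option autoImplicit false

open AlgebraicCurve WithZero

namespace Fermat.Agent.S19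

open Fermat.Agent.Lib Fermat.Agent.S17

variable {K F : Type*} [Field K] [Field F] [Algebra K F]

/-- `ord_v (-f) = ord_v f`. -/
theorem S19MU_ord_neg (v : Place K F) (f : F) : v.ord (-f) = v.ord f := by
  unfold Place.ord
  rw [Valuation.map_neg]

/-- `L(D₁) · L(D₂) ⊂ L(D₁ + D₂)`. -/
theorem S19MU_mul_mem {D₁ D₂ : Divisor K F} {a b : F} (ha : a ∈ riemannRochSpace D₁)
    (hb : b ∈ riemannRochSpace D₂) : a * b ∈ riemannRochSpace (D₁ + D₂) := by
  rcases eq_or_ne a 0 with rfl | ha0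
  · rw [zero_mul]; exact Submodule.zero_mem _
  rcases eq_or_ne b 0 with rfl | hb0
  · rw [mul_zero]; exact Submodule.zero_mem _
  rw [S17RS_mem_iff_ord (mul_ne_zero ha0 hb0)]
  intro v
  have h1 := (S17RS_mem_iff_ord ha0).1 ha v
  have h2 := (S17RS_mem_iff_ord hb0).1 hb v
  rw [v.ord_mul ha0 hb0, Finsupp.add_apply]
  linarith

/-- `L(D) ⊓ L(D') = L(D ⊓ D')`. -/
theorem S19MU_inf (D D' : Divisor K F) :
    riemannRochSpace D ⊓ riemannRochSpace D' = riemannRochSpace (D ⊓ D') := by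
  ext f
  rw [Submodule.mem_inf]
  rcases eq_or_ne f 0 with rfl | hf
  · simp
  rw [S17RS_mem_iff_ord hf, S17RS_mem_iff_ord hf, S17RS_mem_iff_ord hf]
  constructor
  · rintro ⟨h1, h2⟩ v
    rw [Finsupp.inf_apply]
    rcases le_total (D v) (D' v) with h | h
    · rw [inf_eq_left.2 h]; exact h1 v
    · rw [inf_eq_right.2 h]; exact h2 v
  · intro h
    refine ⟨fun v => ?_, fun v => ?_⟩
    · have := h v
      rw [Finsupp.inf_apply] at this
      have h3 : D v ⊓ D' v ≤ D v := inf_le_left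
      linarith
    · have := h v
      rw [Finsupp.inf_apply] at this
      have h3 : D v ⊓ D' v ≤ D' v := inf_le_right
      linarith

/-- a pencil without base points in `L(D)`. -/
def S19MU_IsPencil (D : Divisor K F) (s t : F) : Prop :=
  s ∈ riemannRochSpace D ∧ t ∈ riemannRochSpace D ∧ s ≠ 0 ∧ t ≠ 0 ∧
    ∀ v : Place K F, v.ord s = - D v ∨ v.ord t = - D v

theorem S19MU_IsPencil.symm {D : Divisor K F} {s t : F} (h : S19MU_IsPencil D s t) :
    S19MU_IsPencil D t s :=
  ⟨h.2.1, h.1, h.2.2.2.1, h.2.2.1, fun v => (h.2.2.2.2 v).symm⟩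

/-- the set of places where `s ∈ L(D)` does not generate is finite. -/
theorem S19MU_finite_bad (h : RR_Hyp K F) (D : Divisor K F) (s : F) :
    {v : Place K F | v.ord s ≠ - D v}.Finite := by
  classical
  refine ((RR_div h.principal s).support ∪ D.support).finite_toSet.subset ?_
  intro v hv
  by_contra hcon
  rw [Finset.mem_coe, Finset.mem_union, not_or, Finsupp.notMem_support_iff,
    Finsupp.notMem_support_iff, RR_div_apply] at hcon
  apply hv
  rw [hcon.1, hcon.2, neg_zero]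

/-- every nonzero `s ∈ L(D)`, `deg D ≥ 2 g + 1`, is the first member of a pencil without base
points; the second member can be chosen with exact orders on a given finite set. -/
theorem S19MU_exists_pencil_of [Infinite K] (h : RR_Hyp K F) (D : Divisor K F)
    (hD : 2 * (RR_genus K F : ℤ) + 1 ≤ D.degree) {s : F} (hs : s ∈ riemannRochSpace D)
    (hs0 : s ≠ 0) (T : Finset (Place K F)) :
    ∃ t : F, S19MU_IsPencil D s t ∧ ∀ v ∈ T, v.ord t = - D v := by
  classical
  obtain ⟨t, ht0, ht, hord⟩ := S17RS_exists_ord_eq h D hD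
    ((S19MU_finite_bad h D s).toFinset ∪ T)
  refine ⟨t, ⟨hs, ht, hs0, ht0, fun v => ?_⟩, fun v hv => hord v (Finset.mem_union_right _ hv)⟩
  by_cases hv : v.ord s = - D v
  · exact Or.inl hv
  · exact Or.inr (hord v (Finset.mem_union_left _ ((Set.Finite.mem_toFinset _).2 hv)))

/-- pencils without base points exist for `deg D ≥ 2 g + 1`. -/
theorem S19MU_exists_pencil [Infinite K] (h : RR_Hyp K F) (D : Divisor K F)
    (hD : 2 * (RR_genus K F : ℤ) + 1 ≤ D.degree) (T : Finset (Place K F)) :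
    ∃ s t : F, S19MU_IsPencil D s t ∧ (∀ v ∈ T, v.ord s = - D v) ∧ ∀ v ∈ T, v.ord t = - D v := by
  obtain ⟨s, hs0, hs, hord⟩ := S17RS_exists_ord_eq h D hD T
  obtain ⟨t, hst, ht⟩ := S19MU_exists_pencil_of h D hD hs hs0 T
  exact ⟨s, t, hst, hord, ht⟩

/-- `t c ∈ L(D₁)` for `t ∈ L(D₂)`, `c ∈ L(D₁ − D₂)`. -/
theorem S19MU_mul_mem_sub {D₁ D₂ : Divisor K F} {t c : F} (ht : t ∈ riemannRochSpace D₂)
    (hc : c ∈ riemannRochSpace (D₁ - D₂)) : t * c ∈ riemannRochSpace D₁ := by
  have := S19MU_mul_mem ht hc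
  rwa [add_sub_cancel] at this

/-- **the base-point-free pencil trick**. -/
theorem S19MU_pencil_ker {D₁ D₂ : Divisor K F} {s t : F} (hst : S19MU_IsPencil D₂ s t)
    {a b : F} (ha : a ∈ riemannRochSpace D₁) (hb : b ∈ riemannRochSpace D₁)
    (hab : s * a + t * b = 0) :
    ∃ c ∈ riemannRochSpace (D₁ - D₂), a = t * c ∧ b = - (s * c) := by
  obtain ⟨hs, ht, hs0, ht0, hbpf⟩ := hst
  have hsa : s * a = - (t * b) := eq_neg_of_add_eq_zero_left hab
  refine ⟨a / t, ?_, ?_, ?_⟩
  · rcases eq_or_ne a 0 with rfl | ha0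
    · rw [zero_div]; exact Submodule.zero_mem _
    have hb0 : b ≠ 0 := by
      rintro rfl
      rw [mul_zero, neg_zero] at hsa
      exact (mul_ne_zero hs0 ha0) hsa
    have hc0 : a / t ≠ 0 := div_ne_zero ha0 ht0
    have hcb : a / t = - (b / s) := by
      field_simp
      linear_combination hsa
    rw [S17RS_mem_iff_ord hc0]
    intro v
    rw [Finsupp.sub_apply]
    have h1 := (S17RS_mem_iff_ord ha0).1 ha v
    have h2 := (S17RS_mem_iff_ord hb0).1 hb v
    rcases hbpf v with hv | hv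
    · rw [hcb, S19MU_ord_neg, div_eq_mul_inv, v.ord_mul hb0 (inv_ne_zero hs0), v.ord_inv, hv]
      linarith
    · rw [div_eq_mul_inv, v.ord_mul ha0 (inv_ne_zero ht0), v.ord_inv, hv]
      linarith
  · field_simp
  · field_simp
    linear_combination hab

/-- the map `(a, b) ↦ s a + t b` on `L(D₁) × L(D₁)`. -/
noncomputable def S19MU_phi (D₁ : Divisor K F) (s t : F) :
    (riemannRochSpace D₁ × riemannRochSpace D₁) →ₗ[K] F :=
  ((LinearMap.mulLeft K s).comp (riemannRochSpace D₁).subtype).coprod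
    ((LinearMap.mulLeft K t).comp (riemannRochSpace D₁).subtype)


theorem S19MU_phi_apply (D₁ : Divisor K F) (s t : F)
    (p : riemannRochSpace D₁ × riemannRochSpace D₁) :
    S19MU_phi D₁ s t p = s * (p.1 : F) + t * (p.2 : F) := rfl

/-- the space `s L(D₁) + t L(D₁)`. -/
noncomputable def S19MU_span (D₁ : Divisor K F) (s t : F) : Submodule K F :=
  LinearMap.range (S19MU_phi D₁ s t)

theorem S19MU_mem_span {D₁ : Divisor K F} {s t f : F} :
    f ∈ S19MU_span D₁ s t ↔
      ∃ a ∈ riemannRochSpace D₁, ∃ b ∈ riemannRochSpace D₁, f = s * a + t * b := by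
  unfold S19MU_span
  rw [LinearMap.mem_range]
  constructor
  · rintro ⟨⟨a, b⟩, rfl⟩
    exact ⟨a, a.2, b, b.2, rfl⟩
  · rintro ⟨a, ha, b, hb, rfl⟩
    exact ⟨(⟨a, ha⟩, ⟨b, hb⟩), rfl⟩

theorem S19MU_span_le {D₁ D₂ : Divisor K F} {s t : F} (hs : s ∈ riemannRochSpace D₂)
    (ht : t ∈ riemannRochSpace D₂) : S19MU_span D₁ s t ≤ riemannRochSpace (D₁ + D₂) := by
  intro f hf
  obtain ⟨a, ha, b, hb, rfl⟩ := S19MU_mem_span.1 hf
  rw [add_comm D₁ D₂]
  exact Submodule.add_mem _ (S19MU_mul_mem hs ha) (S19MU_mul_mem ht hb)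

/-- the kernel of `(a, b) ↦ s a + t b` is `L(D₁ − D₂)`. -/
noncomputable def S19MU_kerMap (D₁ D₂ : Divisor K F) {s t : F}
    (hs : s ∈ riemannRochSpace D₂) (ht : t ∈ riemannRochSpace D₂) :
    riemannRochSpace (D₁ - D₂) →ₗ[K] LinearMap.ker (S19MU_phi D₁ s t) where
  toFun c := ⟨(⟨t * c, S19MU_mul_mem_sub ht c.2⟩,
      ⟨-(s * c), Submodule.neg_mem _ (S19MU_mul_mem_sub hs c.2)⟩), by
    rw [LinearMap.mem_ker, S19MU_phi_apply]
    show s * (t * (c : F)) + t * (-(s * (c : F))) = 0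
    ring⟩
  map_add' c c' := by
    apply Subtype.ext
    apply Prod.ext
    · apply Subtype.ext
      show t * ((c : F) + (c' : F)) = t * (c : F) + t * (c' : F)
      ring
    · apply Subtype.ext
      show -(s * ((c : F) + (c' : F))) = -(s * (c : F)) + -(s * (c' : F))
      ring
  map_smul' r c := by
    apply Subtype.ext
    apply Prod.ext
    · apply Subtype.ext
      show t * (r • (c : F)) = r • (t * (c : F))
      rw [mul_smul_comm]
    · apply Subtype.ext
      show -(s * (r • (c : F))) = r • (-(s * (c : F)))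
      rw [mul_smul_comm, smul_neg]

theorem S19MU_kerMap_bijective {D₁ D₂ : Divisor K F} {s t : F}
    (hst : S19MU_IsPencil D₂ s t) :
    Function.Bijective (S19MU_kerMap D₁ D₂ hst.1 hst.2.1) := by
  constructor
  · intro c c' h
    have h1 := congrArg
      (fun x : LinearMap.ker (S19MU_phi D₁ s t) =>
        (((x : riemannRochSpace D₁ × riemannRochSpace D₁).1 : riemannRochSpace D₁) : F)) h
    have h2 : t * (c : F) = t * (c' : F) := h1
    exact Subtype.ext (mul_left_cancel₀ hst.2.2.2.1 h2)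
  · rintro ⟨⟨a, b⟩, hab⟩
    rw [LinearMap.mem_ker, S19MU_phi_apply] at hab
    obtain ⟨c, hc, h1, h2⟩ := S19MU_pencil_ker hst a.2 b.2 hab
    refine ⟨⟨c, hc⟩, ?_⟩
    apply Subtype.ext
    apply Prod.ext
    · exact Subtype.ext h1.symm
    · exact Subtype.ext h2.symm

/-- **the dimension formula of the pencil trick**. -/
theorem S19MU_pencil_finrank (h : RR_Hyp K F) {D₁ D₂ : Divisor K F} {s t : F}
    (hst : S19MU_IsPencil D₂ s t) :
    Module.finrank K (S19MU_span D₁ s t) + Module.finrank K (riemannRochSpace (D₁ - D₂)) =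
      2 * Module.finrank K (riemannRochSpace D₁) := by
  have hfin : Module.Finite K (riemannRochSpace D₁) := RR_finite h D₁
  have h1 := LinearMap.finrank_range_add_finrank_ker (S19MU_phi D₁ s t)
  have e := LinearEquiv.ofBijective (S19MU_kerMap D₁ D₂ hst.1 hst.2.1)
    (S19MU_kerMap_bijective hst)
  rw [← e.finrank_eq, Module.finrank_prod] at h1
  unfold S19MU_span
  omega

/-- **the pencil trick, surjectivity**: `s L(D₁) + t L(D₁) = L(D₁ + D₂)` for `deg D₂ ≥ 0`,
`deg D₁ − deg D₂ ≥ 2 g`. -/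
theorem S19MU_pencil_eq [Infinite K] (h : RR_Hyp K F) {D₁ D₂ : Divisor K F} {s t : F}
    (hst : S19MU_IsPencil D₂ s t) (hD₂ : 0 ≤ D₂.degree)
    (hD : 2 * (RR_genus K F : ℤ) ≤ D₁.degree - D₂.degree) :
    S19MU_span D₁ s t = riemannRochSpace (D₁ + D₂) := by
  have hfin : Module.Finite K (riemannRochSpace (D₁ + D₂)) := RR_finite h _
  apply Submodule.eq_of_le_of_finrank_eq (S19MU_span_le hst.1 hst.2.1)
  have h1 := S19MU_pencil_finrank h (D₁ := D₁) hst
  have h2 := S17RS_riemann_eq h D₁ (by linarith)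
  have h3 := S17RS_riemann_eq h (D₁ - D₂) (by rw [map_sub]; linarith)
  have h4 := S17RS_riemann_eq h (D₁ + D₂) (by rw [map_add]; linarith)
  rw [map_sub] at h3
  rw [map_add] at h4
  have h1' : (Module.finrank K (S19MU_span D₁ s t) : ℤ) +
      Module.finrank K (riemannRochSpace (D₁ - D₂)) =
      2 * Module.finrank K (riemannRochSpace D₁) := by exact_mod_cast h1
  have : (Module.finrank K (S19MU_span D₁ s t) : ℤ) =
      Module.finrank K (riemannRochSpace (D₁ + D₂)) := by linarith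
  exact_mod_cast this

/-- **products of Riemann–Roch spaces** (the substitute for Mumford's theorem):
`L(D₂) · L(D₁) = L(D₁ + D₂)` for `deg D₂ ≥ 2 g + 1`, `deg D₁ − deg D₂ ≥ 2 g`. -/
theorem S19MU_mul_eq [Infinite K] (h : RR_Hyp K F) (D₁ D₂ : Divisor K F)
    (hD₂ : 2 * (RR_genus K F : ℤ) + 1 ≤ D₂.degree)
    (hD : 2 * (RR_genus K F : ℤ) ≤ D₁.degree - D₂.degree) :
    riemannRochSpace D₂ * riemannRochSpace D₁ = riemannRochSpace (D₁ + D₂) := by
  apply le_antisymm
  · rw [Submodule.mul_le]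
    intro a ha b hb
    rw [add_comm D₁ D₂]
    exact S19MU_mul_mem ha hb
  · obtain ⟨s, t, hst, -, -⟩ := S19MU_exists_pencil h D₂ hD₂ ∅
    rw [← S19MU_pencil_eq h hst (by linarith) hD]
    intro f hf
    obtain ⟨a, ha, b, hb, rfl⟩ := S19MU_mem_span.1 hf
    exact Submodule.add_mem _ (Submodule.mul_mem_mul hst.1 ha) (Submodule.mul_mem_mul hst.2.1 hb)

/-- **the colon lemma**: for `deg D ≥ 2 g + 1`, `w · L(D) ⊂ L(E) ↔ w ∈ L(E − D)`. -/
theorem S19MU_colon [Infinite K] (h : RR_Hyp K F) (D E : Divisor K F)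
    (hD : 2 * (RR_genus K F : ℤ) + 1 ≤ D.degree) (w : F) :
    (∀ a ∈ riemannRochSpace D, w * a ∈ riemannRochSpace E) ↔ w ∈ riemannRochSpace (E - D) := by
  constructor
  · intro hw
    rcases eq_or_ne w 0 with rfl | hw0
    · exact Submodule.zero_mem _
    rw [S17RS_mem_iff_ord hw0]
    intro v
    obtain ⟨a, ha0, ha, hord⟩ := S17RS_exists_ord_eq h D hD {v}
    have h1 := (S17RS_mem_iff_ord (mul_ne_zero hw0 ha0)).1 (hw a ha) v
    rw [v.ord_mul hw0 ha0, hord v (Finset.mem_singleton_self v)] at h1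
    rw [Finsupp.sub_apply]
    linarith
  · intro hw a ha
    have := S19MU_mul_mem hw ha
    rwa [sub_add_cancel] at this

/-- the colon lemma for a pencil: `w s, w t ∈ L(E) ↔ w ∈ L(E − D)`. -/
theorem S19MU_colon_pencil {D E : Divisor K F} {s t : F} (hst : S19MU_IsPencil D s t) (w : F) :
    (w * s ∈ riemannRochSpace E ∧ w * t ∈ riemannRochSpace E) ↔
      w ∈ riemannRochSpace (E - D) := by
  obtain ⟨hs, ht, hs0, ht0, hbpf⟩ := hst
  constructor
  · rintro ⟨h1, h2⟩
    rcases eq_or_ne w 0 with rfl | hw0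
    · exact Submodule.zero_mem _
    rw [S17RS_mem_iff_ord hw0]
    intro v
    rw [Finsupp.sub_apply]
    rcases hbpf v with hv | hv
    · have := (S17RS_mem_iff_ord (mul_ne_zero hw0 hs0)).1 h1 v
      rw [v.ord_mul hw0 hs0, hv] at this
      linarith
    · have := (S17RS_mem_iff_ord (mul_ne_zero hw0 ht0)).1 h2 v
      rw [v.ord_mul hw0 ht0, hv] at this
      linarith
  · intro hw
    have h1 := S19MU_mul_mem hw hs
    have h2 := S19MU_mul_mem hw ht
    rw [sub_add_cancel] at h1 h2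
    exact ⟨h1, h2⟩

/-- `z f ∈ L(E − div z) ↔ f ∈ L(E)`. -/
theorem S19MU_mul_mem_iff (h : RR_Hyp K F) (E : Divisor K F) {z : F} (hz : z ≠ 0) (f : F) :
    z * f ∈ riemannRochSpace (E - RR_div h.principal z) ↔ f ∈ riemannRochSpace E := by
  rw [RR_mul_mem_iff h.principal _ hz, sub_add_cancel]

/-- `z · L(E) = L(E − div z)`. -/
theorem S19MU_smul_eq (h : RR_Hyp K F) (E : Divisor K F) {z : F} (hz : z ≠ 0) :
    (riemannRochSpace E).map (LinearMap.mulLeft K z) =
      riemannRochSpace (E - RR_div h.principal z) := by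
  ext f
  rw [Submodule.mem_map]
  constructor
  · rintro ⟨g, hg, rfl⟩
    exact (S19MU_mul_mem_iff h E hz g).2 hg
  · intro hf
    refine ⟨z⁻¹ * f, (S19MU_mul_mem_iff h E hz _).1 ?_, ?_⟩
    · rwa [← mul_assoc, mul_inv_cancel₀ hz, one_mul]
    · show z * (z⁻¹ * f) = f
      rw [← mul_assoc, mul_inv_cancel₀ hz, one_mul]

/-- the zero divisor of `f ∈ L(D)`: `div f + D ≥ 0`. -/
theorem S19MU_div_add_nonneg (h : RR_Hyp K F) {D : Divisor K F} {f : F} (hf0 : f ≠ 0)
    (hf : f ∈ riemannRochSpace D) : 0 ≤ RR_div h.principal f + D := by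
  rw [Finsupp.le_def]
  intro v
  have := (S17RS_mem_iff_ord hf0).1 hf v
  rw [Finsupp.add_apply, RR_div_apply, Finsupp.zero_apply]
  linarith

end Fermat.Agent.S19
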