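import Mathlib
import Fermat.Agent.S19.Mult

/-!
# TRACK 9 (S19), generic geometry (helper14), prefix `S19AC_`: the addition steps on ONE curve

`K` an infinite field of ANY characteristic, `F / K` with `h : RR_Hyp K F`, `g = RR_genus K F`,
`D₀` a divisor of degree `m ≥ 3 g + 1`, `B₀, E_x, E_y` divisors of degree `g` (effective in the
application), `R'` effective with support disjoint from `E_x + E_y`, `s'` with
`div s' = B₀ + R' − 3 D₀`.  The Khuri-Makdisi steps, as identities of subspaces of `F`: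

* `S19AC_step0` : `s L(2D₀) + t L(2D₀) = L(3D₀ − E_x)`       (`s, t` a pencil of `L(D₀ − E_x)`)
* `S19AC_step1` : `s L(3D₀ − E_x) + t L(3D₀ − E_x) = L(4D₀ − E_x − E_y)`
                                                              (`s, t` a pencil of `L(D₀ − E_y)`)
* `S19AC_step2` : `L(4D₀ − E_x − E_y) ⊓ L(4D₀ − R') = L(4D₀ − E_x − E_y − R')`
* `S19AC_step3` : `w s, w t ∈ v₀ · L(D₀) ↔ w ∈ L(D₀ − T)`, `T = div v₀ + D_V`
                                                              (`s, t` a pencil of `L(D_V)`)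
* `S19AC_step3_finrank` : `dim L(D₀ − T) = dim L(E_x + E_y − B₀)`   (`= 1` in the application)
* `S19AC_step4` : `w v₀ ∈ w₀ · L(D_V) ↔ w ∈ L(D₀ − E'')`,  `E'' = div w₀ + D₀ − T ≥ 0`,
                  `deg E'' = g`,  `E'' + B₀ − E_x − E_y = div (w₀ s' / v₀)`.
* `S19AC_base_locus` : `L(D₀ − E) = L(D₀ − E')` ⇒ `E = E'` (`deg (D₀ − E), deg (D₀ − E') ≥ 2g+1`).

Used twice: on `F` (at every point of the family) and on the reduction `F̄`.
-/

set_option autoImplicit false

open AlgebraicCurve WithZero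

namespace Fermat.Agent.S19

open Fermat.Agent.Lib Fermat.Agent.S17

variable {K F : Type*} [Field K] [Field F] [Algebra K F]

/-- `div (f g) = div f + div g`. -/
theorem S19AC_div_mul (hP : HasPrincipalDivisors K F) {f g : F} (hf : f ≠ 0) (hg : g ≠ 0) :
    RR_div hP (f * g) = RR_div hP f + RR_div hP g := by
  ext v
  rw [Finsupp.add_apply, RR_div_apply, RR_div_apply, RR_div_apply, v.ord_mul hf hg]

/-- `div (f / g) = div f − div g`. -/
theorem S19AC_div_div (hP : HasPrincipalDivisors K F) {f g : F} (hf : f ≠ 0) (hg : g ≠ 0) :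
    RR_div hP (f / g) = RR_div hP f - RR_div hP g := by
  rw [div_eq_mul_inv, S19AC_div_mul hP hf (inv_ne_zero hg), RR_div_inv, sub_eq_add_neg]

/-- the degree of a multiple. -/
theorem S19AC_degree_nsmul (n : ℕ) (D : Divisor K F) : (n • D).degree = n * D.degree := by
  rw [map_nsmul, nsmul_eq_mul]

/-- `dim L(D) = deg D + 1 − g` in the form with natural numbers. -/
theorem S19AC_finrank [Infinite K] (h : RR_Hyp K F) (D : Divisor K F) (d : ℕ)
    (hd : D.degree = d) (hD : 2 * RR_genus K F ≤ d) :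
    Module.finrank K (riemannRochSpace D) = d + 1 - RR_genus K F := by
  have h1 := S17RS_riemann_eq h D (by rw [hd]; exact_mod_cast hD)
  rw [hd] at h1
  omega

/-- **step 0**: `s L(2D₀) + t L(2D₀) = L(3D₀ − E_x)`. -/
theorem S19AC_step0 [Infinite K] (h : RR_Hyp K F) (D₀ Ex : Divisor K F)
    (hEx : Ex.degree = RR_genus K F) (hm : 3 * (RR_genus K F : ℤ) + 1 ≤ D₀.degree)
    {s t : F} (hst : S19MU_IsPencil (D₀ - Ex) s t) :
    S19MU_span (2 • D₀) s t = riemannRochSpace (3 • D₀ - Ex) := by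
  have h1 := S19MU_pencil_eq h (D₁ := 2 • D₀) hst (by rw [map_sub, hEx]; linarith)
    (by rw [S19AC_degree_nsmul, map_sub, hEx]; push_cast; linarith)
  rw [h1]
  congr 1
  abel

/-- **step 1**: `s L(3D₀ − E_x) + t L(3D₀ − E_x) = L(4D₀ − E_x − E_y)`. -/
theorem S19AC_step1 [Infinite K] (h : RR_Hyp K F) (D₀ Ex Ey : Divisor K F)
    (hEx : Ex.degree = RR_genus K F) (hEy : Ey.degree = RR_genus K F)
    (hm : 3 * (RR_genus K F : ℤ) + 1 ≤ D₀.degree)
    {s t : F} (hst : S19MU_IsPencil (D₀ - Ey) s t) :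
    S19MU_span (3 • D₀ - Ex) s t = riemannRochSpace (4 • D₀ - Ex - Ey) := by
  have h1 := S19MU_pencil_eq h (D₁ := 3 • D₀ - Ex) hst (by rw [map_sub, hEy]; linarith)
    (by rw [map_sub, map_sub, S19AC_degree_nsmul, hEx, hEy]; push_cast; linarith)
  rw [h1]
  congr 1
  abel

/-- the infimum of `D − A` and `D − B` for effective `A`, `B` with disjoint supports. -/
theorem S19AC_inf_sub (D A B : Divisor K F) (hA : 0 ≤ A) (hB : 0 ≤ B)
    (hdisj : ∀ v, A v = 0 ∨ B v = 0) : (D - A) ⊓ (D - B) = D - A - B := by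
  ext v
  rw [Finsupp.inf_apply, Finsupp.sub_apply, Finsupp.sub_apply, Finsupp.sub_apply,
    Finsupp.sub_apply]
  have h1 : 0 ≤ A v := hA v
  have h2 : 0 ≤ B v := hB v
  rcases hdisj v with h0 | h0
  · rw [h0, sub_zero, inf_eq_right.2 (by linarith)]
  · rw [h0, sub_zero, inf_eq_left.2 (by linarith), sub_zero]

/-- **step 2**: `L(4D₀ − E_x − E_y) ⊓ L(4D₀ − R') = L(4D₀ − E_x − E_y − R')`. -/
theorem S19AC_step2 (D₀ Ex Ey R' : Divisor K F) (hEx : 0 ≤ Ex) (hEy : 0 ≤ Ey) (hR : 0 ≤ R')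
    (hdisj : ∀ v, (Ex + Ey) v = 0 ∨ R' v = 0) :
    riemannRochSpace (4 • D₀ - Ex - Ey) ⊓ riemannRochSpace (4 • D₀ - R') =
      riemannRochSpace (4 • D₀ - Ex - Ey - R') := by
  rw [S19MU_inf]
  congr 1
  have := S19AC_inf_sub (4 • D₀) (Ex + Ey) R' (add_nonneg hEx hEy) hR hdisj
  rw [← sub_sub] at this
  exact this

/-- **step 3**: for a pencil `s, t` of `L(D_V)` and `v₀ ≠ 0`:
`w s, w t ∈ v₀ · L(D₀) ↔ w ∈ L(D₀ − (div v₀ + D_V))`. -/
theorem S19AC_step3 (h : RR_Hyp K F) (D₀ DV : Divisor K F) {s t : F}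
    (hst : S19MU_IsPencil DV s t) {v₀ : F} (hv₀ : v₀ ≠ 0) (w : F) :
    (w * s ∈ (riemannRochSpace D₀).map (LinearMap.mulLeft K v₀) ∧
      w * t ∈ (riemannRochSpace D₀).map (LinearMap.mulLeft K v₀)) ↔
      w ∈ riemannRochSpace (D₀ - (RR_div h.principal v₀ + DV)) := by
  rw [S19MU_smul_eq h D₀ hv₀, S19MU_colon_pencil hst, sub_sub]

/-- the residual divisor `T = div v₀ + D_V` of `v₀ ∈ L(D_V)` is effective. -/
theorem S19AC_T_nonneg (h : RR_Hyp K F) {DV : Divisor K F} {v₀ : F} (hv₀0 : v₀ ≠ 0)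
    (hv₀ : v₀ ∈ riemannRochSpace DV) : 0 ≤ RR_div h.principal v₀ + DV :=
  S19MU_div_add_nonneg h hv₀0 hv₀

/-- `dim L(D + div z) = dim L(D)`, subtraction form. -/
theorem S19AC_finrank_sub_div (h : RR_Hyp K F) (D : Divisor K F) {z : F} (hz : z ≠ 0) :
    Module.finrank K (riemannRochSpace (D - RR_div h.principal z)) =
      Module.finrank K (riemannRochSpace D) := by
  have := RR_finrank_add_div h.principal D (inv_ne_zero hz)
  rw [RR_div_inv, ← sub_eq_add_neg] at this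
  exact this

/-- **step 3, dimension**: `dim L(D₀ − T) = dim L(E_x + E_y − B₀)`. -/
theorem S19AC_step3_finrank (h : RR_Hyp K F) (D₀ B₀ Ex Ey R' : Divisor K F) {s' v₀ : F}
    (hs'0 : s' ≠ 0) (hs' : RR_div h.principal s' = B₀ + R' - 3 • D₀) (hv₀ : v₀ ≠ 0) :
    Module.finrank K (riemannRochSpace
        (D₀ - (RR_div h.principal v₀ + (4 • D₀ - Ex - Ey - R')))) =
      Module.finrank K (riemannRochSpace (Ex + Ey - B₀)) := by
  have h1 : D₀ - (RR_div h.principal v₀ + (4 • D₀ - Ex - Ey - R')) =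
      (Ex + Ey - B₀) - RR_div h.principal (v₀ / s') := by
    rw [S19AC_div_div h.principal hv₀ hs'0, hs']
    abel
  rw [h1, S19AC_finrank_sub_div h _ (div_ne_zero hv₀ hs'0)]

/-- **step 4**: the divisor `E'' = div w₀ + D₀ − T` of the sum, and `L(D₀ − E'')`. -/
theorem S19AC_step4 (h : RR_Hyp K F) (D₀ B₀ Ex Ey R' : Divisor K F)
    (hB₀ : B₀.degree = RR_genus K F) (hEx : Ex.degree = RR_genus K F)
    (hEy : Ey.degree = RR_genus K F) {s' v₀ w₀ : F}
    (hs'0 : s' ≠ 0) (hs' : RR_div h.principal s' = B₀ + R' - 3 • D₀) (hv₀ : v₀ ≠ 0)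
    (hw₀0 : w₀ ≠ 0)
    (hw₀ : w₀ ∈ riemannRochSpace
      (D₀ - (RR_div h.principal v₀ + (4 • D₀ - Ex - Ey - R')))) :
    ∃ E'' : Divisor K F, 0 ≤ E'' ∧ E''.degree = RR_genus K F ∧
      E'' + B₀ - Ex - Ey = RR_div h.principal (w₀ * s' / v₀) ∧
      E'' = RR_div h.principal w₀ + D₀ - (RR_div h.principal v₀ + (4 • D₀ - Ex - Ey - R')) ∧
      ∀ w : F, w * v₀ ∈ (riemannRochSpace (4 • D₀ - Ex - Ey - R')).map
          (LinearMap.mulLeft K w₀) ↔ w ∈ riemannRochSpace (D₀ - E'') := by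
  set DV := 4 • D₀ - Ex - Ey - R' with hDV
  set T := RR_div h.principal v₀ + DV with hT
  have hdegs : (RR_div h.principal s').degree = 0 := RR_div_degree _ _
  rw [hs', map_sub, map_add, S19AC_degree_nsmul, hB₀] at hdegs
  refine ⟨RR_div h.principal w₀ + D₀ - T, ?_, ?_, ?_, rfl, fun w => ?_⟩
  · have := S19MU_div_add_nonneg h hw₀0 hw₀
    rwa [add_sub_assoc]
  · rw [map_sub, map_add, RR_div_degree, hT, map_add, RR_div_degree, hDV, map_sub, map_sub,
      map_sub, S19AC_degree_nsmul, hEx, hEy]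
    push_cast at hdegs ⊢
    linarith
  · rw [S19AC_div_div h.principal (mul_ne_zero hw₀0 hs'0) hv₀,
      S19AC_div_mul h.principal hw₀0 hs'0, hs', hT, hDV]
    abel
  · rw [S19MU_smul_eq h DV hw₀0]
    have h1 : DV - RR_div h.principal w₀ =
        (D₀ - (RR_div h.principal w₀ + D₀ - T)) - RR_div h.principal v₀ := by
      rw [hT]
      abel
    rw [h1, mul_comm w v₀, S19MU_mul_mem_iff h _ hv₀]

/-- **the base locus**: `L(D₀ − E)` determines `E` (degrees `≥ 2g + 1`). -/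
theorem S19AC_base_locus [Infinite K] (h : RR_Hyp K F) (D D' : Divisor K F)
    (hD : 2 * (RR_genus K F : ℤ) + 1 ≤ D.degree) (hD' : 2 * (RR_genus K F : ℤ) + 1 ≤ D'.degree)
    (heq : riemannRochSpace D = riemannRochSpace D') : D = D' := by
  ext v
  obtain ⟨a, ha0, ha, hord⟩ := S17RS_exists_ord_eq h D hD {v}
  obtain ⟨b, hb0, hb, hord'⟩ := S17RS_exists_ord_eq h D' hD' {v}
  have h1 := (S17RS_mem_iff_ord ha0).1 (heq ▸ ha) v
  have h2 := (S17RS_mem_iff_ord hb0).1 (heq.symm ▸ hb) v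
  rw [hord v (Finset.mem_singleton_self v)] at h1
  rw [hord' v (Finset.mem_singleton_self v)] at h2
  linarith

/-- the spaces of the steps are nonzero: `L(D)` contains a nonzero element for
`deg D ≥ g`. -/
theorem S19AC_exists_ne_zero (h : RR_Hyp K F) (D : Divisor K F)
    (hD : (RR_genus K F : ℤ) ≤ D.degree) : ∃ f : F, f ≠ 0 ∧ f ∈ riemannRochSpace D := by
  have h1 := RR_riemann_ineq h D
  have hpos : 0 < Module.finrank K (riemannRochSpace D) := by
    have : (0 : ℤ) < Module.finrank K (riemannRochSpace D) := by linarith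
    exact_mod_cast this
  exact RR_exists_ne_zero_of_finrank_pos hpos

end Fermat.Agent.S19
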