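import Mathlib

/-!
# TRACK 9 (S19), shared definitions for LINB and ADD3 (helper14), prefix `S19BT_`, Mathlib-only

* `S19BT_beta sc`    : the bilinear map `L^ι × L^κ → L^μ` with structure constants
                       `sc : ι → κ → μ → L`,  `β u v l = ∑ i, ∑ j, u i * v j * sc i j l`;
* `S19BT_betaB sc`   : the same formula for vectors over a commutative ring `B`;
* `S19BT_map_betaB`  : `φ ∘ βB sc u v = β (φ ∘ sc) (φ ∘ u) (φ ∘ v)` for a ring homomorphism `φ`;
* `S19BT_colon β V P`: the colon space `{w | ∀ v ∈ V, β w v ∈ P}`.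
-/

set_option autoImplicit false
set_option linter.unusedSectionVars false

namespace Fermat.Agent.S19

variable {ι κ μ : Type*} [Fintype ι] [Fintype κ]

/-- the product of two vectors over a commutative ring w.r.t. structure constants. -/
def S19BT_betaB {B : Type*} [CommRing B] (sc : ι → κ → μ → B) (u : ι → B) (v : κ → B) :
    μ → B :=
  fun l => ∑ i, ∑ j, u i * v j * sc i j l

/-- the bilinear map of the structure constants. -/
def S19BT_beta {L : Type*} [Field L] (sc : ι → κ → μ → L) :
    (ι → L) →ₗ[L] (κ → L) →ₗ[L] (μ → L) :=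
  LinearMap.mk₂ L (S19BT_betaB sc)
    (fun u u' v => by
      funext l
      simp only [S19BT_betaB, Pi.add_apply, add_mul, Finset.sum_add_distrib])
    (fun r u v => by
      funext l
      simp only [S19BT_betaB, Pi.smul_apply, smul_eq_mul, Finset.mul_sum, mul_assoc])
    (fun u v v' => by
      funext l
      simp only [S19BT_betaB, Pi.add_apply, mul_add, add_mul, Finset.sum_add_distrib])
    (fun r u v => by
      funext l
      simp only [S19BT_betaB, Pi.smul_apply, smul_eq_mul, Finset.mul_sum]
      refine Finset.sum_congr rfl fun i _ => Finset.sum_congr rfl fun j _ => ?_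
      ring)

theorem S19BT_beta_apply {L : Type*} [Field L] (sc : ι → κ → μ → L) (u : ι → L) (v : κ → L)
    (l : μ) : S19BT_beta sc u v l = ∑ i, ∑ j, u i * v j * sc i j l := rfl

theorem S19BT_beta_eq {L : Type*} [Field L] (sc : ι → κ → μ → L) (u : ι → L) (v : κ → L) :
    S19BT_beta sc u v = S19BT_betaB sc u v := rfl

/-- ring homomorphisms commute with the product. -/
theorem S19BT_map_betaB {B L : Type*} [CommRing B] [Field L] (φ : B →+* L)
    (sc : ι → κ → μ → B) (u : ι → B) (v : κ → B) :
    (φ : B → L) ∘ S19BT_betaB sc u v =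
      S19BT_beta (fun i j l => φ (sc i j l)) ((φ : B → L) ∘ u) ((φ : B → L) ∘ v) := by
  funext l
  simp only [Function.comp_apply, S19BT_betaB, S19BT_beta_apply, map_sum, map_mul]

/-- the colon space `{w | ∀ v ∈ V, β w v ∈ P}`. -/
def S19BT_colon {L : Type*} [Field L] (β : (ι → L) →ₗ[L] (κ → L) →ₗ[L] (μ → L))
    (V : Submodule L (κ → L)) (P : Submodule L (μ → L)) : Submodule L (ι → L) where
  carrier := {w | ∀ v ∈ V, β w v ∈ P}
  add_mem' := by
    intro w w' hw hw' v hv
    rw [map_add, LinearMap.add_apply]
    exact P.add_mem (hw v hv) (hw' v hv)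
  zero_mem' := by
    intro v _
    rw [map_zero, LinearMap.zero_apply]
    exact P.zero_mem
  smul_mem' := by
    intro r w hw v hv
    rw [map_smul, LinearMap.smul_apply]
    exact P.smul_mem r (hw v hv)

theorem S19BT_mem_colon {L : Type*} [Field L]
    {β : (ι → L) →ₗ[L] (κ → L) →ₗ[L] (μ → L)}
    {V : Submodule L (κ → L)} {P : Submodule L (μ → L)} {w : ι → L} :
    w ∈ S19BT_colon β V P ↔ ∀ v ∈ V, β w v ∈ P := Iff.rfl

/-- the colon space is determined by a spanning set of `V`. -/
theorem S19BT_mem_colon_span {L : Type*} [Field L]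
    {β : (ι → L) →ₗ[L] (κ → L) →ₗ[L] (μ → L)}
    {T : Set (κ → L)} {P : Submodule L (μ → L)} {w : ι → L} :
    w ∈ S19BT_colon β (Submodule.span L T) P ↔ ∀ v ∈ T, β w v ∈ P := by
  constructor
  · intro h v hv
    exact h v (Submodule.subset_span hv)
  · intro h v hv
    induction hv using Submodule.span_induction with
    | mem x hx => exact h x hx
    | zero => rw [map_zero]; exact P.zero_mem
    | add x y _ _ hx hy => rw [map_add]; exact P.add_mem hx hy
    | smul r x _ hx => rw [map_smul]; exact P.smul_mem r hx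

end Fermat.Agent.S19
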