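import Mathlib
import Fermat.Agent.S19.AddCurve
import Fermat.Agent.S19.Beta

/-!
# TRACK 9 (S19), package ADD3, the curve side in coordinates (helper14), prefix `S19AD_`

Generic coordinate layer (any field `K`, any `K`-algebra `F` which is a field):

* `S19AD_lc a`        : `(ι → K) →ₗ[K] F`, `u ↦ ∑ u i • a i`;
* `S19AD_coord a M`   : the coordinate subspace `{u | ∑ u i • a i ∈ M}` of `M ⊂ F`;
* `S19BT_beta sc`     : the bilinear map `K^ι × K^κ → K^μ` of structure constants `sc`;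
* `S19AD_lc_beta`     : `lc c (β u v) = lc a u * lc b v` if `a i * b j = ∑ sc i j l • c l`;
* `S19AD_coord_mul`   : `coord c (M * N) = map₂ β (coord a M) (coord b N)`;
* `S19AD_coord_colon` : `coord a {w | w N ⊂ P} = {u | ∀ v ∈ coord b N, β u v ∈ coord c P}`.
-/

set_option autoImplicit false
set_option linter.unusedSectionVars false

open AlgebraicCurve

namespace Fermat.Agent.S19

open Fermat.Agent.Lib Fermat.Agent.S17

variable {K F : Type*} [Field K] [Field F] [Algebra K F]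
variable {ι κ μ : Type*} [Fintype ι] [Fintype κ] [Fintype μ]

/-- coordinates `↦` functions. -/
noncomputable def S19AD_lc (a : ι → F) : (ι → K) →ₗ[K] F := Fintype.linearCombination K a

theorem S19AD_lc_apply (a : ι → F) (u : ι → K) : S19AD_lc a u = ∑ i, u i • a i :=
  Fintype.linearCombination_apply K a u

theorem S19AD_range_lc (a : ι → F) :
    LinearMap.range (S19AD_lc (K := K) a) = Submodule.span K (Set.range a) :=
  Fintype.range_linearCombination K a

theorem S19AD_lc_injective {a : ι → F} (ha : LinearIndependent K a) :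
    Function.Injective (S19AD_lc (K := K) a) := by
  rw [← LinearMap.ker_eq_bot, LinearMap.ker_eq_bot']
  intro u hu
  rw [S19AD_lc_apply] at hu
  funext i
  exact Fintype.linearIndependent_iff.1 ha u hu i

theorem S19AD_lc_single [DecidableEq ι] (a : ι → F) (i : ι) :
    S19AD_lc (K := K) a (Pi.single i 1) = a i := by
  rw [S19AD_lc_apply, Finset.sum_eq_single i]
  · rw [Pi.single_eq_same, one_smul]
  · intro j _ hj
    rw [Pi.single_eq_of_ne hj, zero_smul]
  · intro h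
    exact absurd (Finset.mem_univ i) h

/-- the coordinate subspace of `M ⊂ F`. -/
noncomputable def S19AD_coord (a : ι → F) (M : Submodule K F) : Submodule K (ι → K) :=
  M.comap (S19AD_lc a)

theorem S19AD_mem_coord {a : ι → F} {M : Submodule K F} {u : ι → K} :
    u ∈ S19AD_coord a M ↔ S19AD_lc a u ∈ M := Iff.rfl

theorem S19AD_map_coord {a : ι → F} {M : Submodule K F}
    (hM : M ≤ Submodule.span K (Set.range a)) :
    (S19AD_coord a M).map (S19AD_lc a) = M := by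
  unfold S19AD_coord
  rw [Submodule.map_comap_eq, S19AD_range_lc]
  exact inf_eq_right.2 hM

theorem S19AD_coord_mono {a : ι → F} {M N : Submodule K F} (h : M ≤ N) :
    S19AD_coord a M ≤ S19AD_coord a N := Submodule.comap_mono h

theorem S19AD_coord_inf (a : ι → F) (M N : Submodule K F) :
    S19AD_coord a (M ⊓ N) = S19AD_coord a M ⊓ S19AD_coord a N := rfl

theorem S19AD_coord_top_of_le {a : ι → F} {M : Submodule K F}
    (hM : Submodule.span K (Set.range a) ≤ M) : S19AD_coord a M = ⊤ := by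
  rw [eq_top_iff]
  intro u _
  rw [S19AD_mem_coord]
  apply hM
  rw [← S19AD_range_lc]
  exact LinearMap.mem_range_self _ u

theorem S19AD_finrank_coord {a : ι → F} (ha : LinearIndependent K a) {M : Submodule K F}
    (hM : M ≤ Submodule.span K (Set.range a)) :
    Module.finrank K (S19AD_coord a M) = Module.finrank K M := by
  have h1 := LinearEquiv.finrank_eq
    (Submodule.equivMapOfInjective (S19AD_lc a) (S19AD_lc_injective ha) (S19AD_coord a M))
  rw [h1, S19AD_map_coord hM]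

theorem S19AD_coord_eq_iff {a : ι → F} {M N : Submodule K F}
    (hM : M ≤ Submodule.span K (Set.range a)) (hN : N ≤ Submodule.span K (Set.range a)) :
    S19AD_coord a M = S19AD_coord a N ↔ M = N := by
  constructor
  · intro h
    rw [← S19AD_map_coord hM, ← S19AD_map_coord hN, h]
  · rintro rfl
    rfl

/-- the coordinate subspace of a map of a coordinate subspace. -/
theorem S19AD_coord_map {a : ι → F} (ha : LinearIndependent K a) (W : Submodule K (ι → K)) :
    S19AD_coord a (W.map (S19AD_lc a)) = W :=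
  Submodule.comap_map_eq_of_injective (S19AD_lc_injective ha) W

/-- `lc c (β u v) = lc a u * lc b v`. -/
theorem S19AD_lc_beta {a : ι → F} {b : κ → F} {c : μ → F} {sc : ι → κ → μ → K}
    (hmul : ∀ i j, a i * b j = ∑ l, sc i j l • c l) (u : ι → K) (v : κ → K) :
    S19AD_lc c (S19BT_beta sc u v) = S19AD_lc a u * S19AD_lc b v := by
  rw [S19AD_lc_apply, S19AD_lc_apply, S19AD_lc_apply, Finset.sum_mul_sum]
  simp only [S19BT_beta_apply, Finset.sum_smul]
  rw [Finset.sum_comm]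
  refine Finset.sum_congr rfl fun i _ => ?_
  rw [Finset.sum_comm]
  refine Finset.sum_congr rfl fun j _ => ?_
  rw [smul_mul_smul_comm, hmul, Finset.smul_sum]
  refine Finset.sum_congr rfl fun l _ => ?_
  rw [smul_smul]

/-- products land in the span of `c`. -/
theorem S19AD_mul_le_span {a : ι → F} {b : κ → F} {c : μ → F} {sc : ι → κ → μ → K}
    (hmul : ∀ i j, a i * b j = ∑ l, sc i j l • c l) {M N : Submodule K F}
    (hM : M ≤ Submodule.span K (Set.range a)) (hN : N ≤ Submodule.span K (Set.range b)) :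
    M * N ≤ Submodule.span K (Set.range c) := by
  rw [Submodule.mul_le]
  intro x hx y hy
  have hx' := hM hx
  have hy' := hN hy
  rw [← S19AD_range_lc] at hx' hy' ⊢
  obtain ⟨u, rfl⟩ := hx'
  obtain ⟨v, rfl⟩ := hy'
  rw [← S19AD_lc_beta hmul]
  exact LinearMap.mem_range_self _ _

/-- **products in coordinates**. -/
theorem S19AD_coord_mul {a : ι → F} {b : κ → F} {c : μ → F} {sc : ι → κ → μ → K}
    (hc : LinearIndependent K c)
    (hmul : ∀ i j, a i * b j = ∑ l, sc i j l • c l) {M N : Submodule K F}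
    (hM : M ≤ Submodule.span K (Set.range a)) (hN : N ≤ Submodule.span K (Set.range b)) :
    S19AD_coord c (M * N) =
      Submodule.map₂ (S19BT_beta sc) (S19AD_coord a M) (S19AD_coord b N) := by
  have h1 : (Submodule.map₂ (S19BT_beta sc) (S19AD_coord a M) (S19AD_coord b N)).map
      (S19AD_lc c) = M * N := by
    apply le_antisymm
    · rw [Submodule.map_le_iff_le_comap, Submodule.map₂_le]
      intro u hu v hv
      rw [Submodule.mem_comap, S19AD_lc_beta hmul]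
      exact Submodule.mul_mem_mul hu hv
    · rw [Submodule.mul_le]
      intro x hx y hy
      have hx' := hM hx
      have hy' := hN hy
      rw [← S19AD_range_lc] at hx' hy'
      obtain ⟨u, rfl⟩ := hx'
      obtain ⟨v, rfl⟩ := hy'
      rw [← S19AD_lc_beta hmul]
      exact Submodule.mem_map_of_mem (Submodule.apply_mem_map₂ _ hx hy)
  rw [← h1, S19AD_coord_map hc]

/-- **colon spaces in coordinates**. -/
theorem S19AD_coord_colon {a : ι → F} {b : κ → F} {c : μ → F} {sc : ι → κ → μ → K}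
    (hmul : ∀ i j, a i * b j = ∑ l, sc i j l • c l) {N P : Submodule K F}
    (hN : N ≤ Submodule.span K (Set.range b)) (u : ι → K) :
    (∀ y ∈ N, S19AD_lc a u * y ∈ P) ↔
      ∀ v ∈ S19AD_coord b N, S19BT_beta sc u v ∈ S19AD_coord c P := by
  constructor
  · intro h v hv
    rw [S19AD_mem_coord, S19AD_lc_beta hmul]
    exact h _ hv
  · intro h y hy
    have hy' := hN hy
    rw [← S19AD_range_lc] at hy'
    obtain ⟨v, rfl⟩ := hy'
    rw [← S19AD_lc_beta hmul]
    exact h v hy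

/-! ## one side (one curve): the coordinatisation of `L(n D₀)`, `n = 1, …, 5` -/

/-- the coordinatisation of the spaces `L(n D₀)`, `n = 1, …, 5`, with the structure constants of
the multiplications `L(D₀) × L(n D₀) → L((n+1) D₀)`, `n = 2, 3, 4`.  The space `L(D₀)` carries
THREE bases `a₁, a₂, a₃` (the bases of the three charts): `a₁` is used for the first summand
(step 0), `a₂` for the second summand (step 1), `a₃` for the sum (steps 3, 4). -/
structure S19AD_Side {ι₁ ι₂ ι₃ ι₄ ι₅ : Type*} [Fintype ι₁] [Fintype ι₂] [Fintype ι₃]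
    [Fintype ι₄] [Fintype ι₅] (D₀ : Divisor K F)
    (a₁ a₂ a₃ : ι₁ → F) (c₂ : ι₂ → F) (c₃ : ι₃ → F) (c₄ : ι₄ → F) (c₅ : ι₅ → F)
    (sc₂ : ι₁ → ι₂ → ι₃ → K) (sc₃ : ι₁ → ι₃ → ι₄ → K) (sc₄ : ι₁ → ι₄ → ι₅ → K) : Prop where
  li₁ : LinearIndependent K a₁
  li₂ : LinearIndependent K a₂
  li₃ : LinearIndependent K a₃
  lic₃ : LinearIndependent K c₃
  lic₄ : LinearIndependent K c₄
  lic₅ : LinearIndependent K c₅
  sp₁ : Submodule.span K (Set.range a₁) = riemannRochSpace D₀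
  sp₂ : Submodule.span K (Set.range a₂) = riemannRochSpace D₀
  sp₃ : Submodule.span K (Set.range a₃) = riemannRochSpace D₀
  spc₂ : Submodule.span K (Set.range c₂) = riemannRochSpace (2 • D₀)
  spc₃ : Submodule.span K (Set.range c₃) = riemannRochSpace (3 • D₀)
  spc₄ : Submodule.span K (Set.range c₄) = riemannRochSpace (4 • D₀)
  mul₂ : ∀ i j, a₁ i * c₂ j = ∑ l, sc₂ i j l • c₃ l
  mul₃ : ∀ i j, a₂ i * c₃ j = ∑ l, sc₃ i j l • c₄ l
  mul₄ : ∀ i j, a₃ i * c₄ j = ∑ l, sc₄ i j l • c₅ l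

section side

variable {ι₁ ι₂ ι₃ ι₄ ι₅ : Type*} [Fintype ι₁] [Fintype ι₂] [Fintype ι₃] [Fintype ι₄]
  [Fintype ι₅] {D₀ : Divisor K F}
  {a₁ a₂ a₃ : ι₁ → F} {c₂ : ι₂ → F} {c₃ : ι₃ → F} {c₄ : ι₄ → F} {c₅ : ι₅ → F}
  {sc₂ : ι₁ → ι₂ → ι₃ → K} {sc₃ : ι₁ → ι₃ → ι₄ → K} {sc₄ : ι₁ → ι₄ → ι₅ → K}

/-- `L(n D₀ − E) ⊂ L(n D₀)` for effective `E`. -/
theorem S19AD_sub_le (D E : Divisor K F) (hE : 0 ≤ E) :
    riemannRochSpace (D - E) ≤ riemannRochSpace D :=
  RR_mono (sub_le_self D hE)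

/-- **step 0 in coordinates**: `coord₁ L(D₀ − E₁) · ⊤ = coord₃ L(3D₀ − E₁)`. -/
theorem S19AD_step0 [Infinite K] (h : RR_Hyp K F)
    (hS : S19AD_Side D₀ a₁ a₂ a₃ c₂ c₃ c₄ c₅ sc₂ sc₃ sc₄) (E₁ : Divisor K F) (hE₁ : 0 ≤ E₁)
    (hdE₁ : E₁.degree = RR_genus K F) (hm : 3 * (RR_genus K F : ℤ) + 1 ≤ D₀.degree) :
    Submodule.map₂ (S19BT_beta sc₂) (S19AD_coord a₁ (riemannRochSpace (D₀ - E₁))) ⊤ =
      S19AD_coord c₃ (riemannRochSpace (3 • D₀ - E₁)) := by
  have h1 := S19AD_coord_mul (M := riemannRochSpace (D₀ - E₁)) (N := riemannRochSpace (2 • D₀))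
    hS.lic₃ hS.mul₂ (by rw [hS.sp₁]; exact S19AD_sub_le D₀ E₁ hE₁) (by rw [hS.spc₂])
  rw [S19AD_coord_top_of_le (a := c₂) (by rw [hS.spc₂])] at h1
  rw [← h1, S19MU_mul_eq h (2 • D₀) (D₀ - E₁) (by rw [map_sub, hdE₁]; linarith)
    (by rw [S19AC_degree_nsmul, map_sub, hdE₁]; push_cast; linarith)]
  congr 2
  abel

/-- **step 1 in coordinates**. -/
theorem S19AD_step1 [Infinite K] (h : RR_Hyp K F)
    (hS : S19AD_Side D₀ a₁ a₂ a₃ c₂ c₃ c₄ c₅ sc₂ sc₃ sc₄) (E₁ E₂ : Divisor K F) (hE₁ : 0 ≤ E₁)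
    (hE₂ : 0 ≤ E₂) (hdE₁ : E₁.degree = RR_genus K F) (hdE₂ : E₂.degree = RR_genus K F)
    (hm : 3 * (RR_genus K F : ℤ) + 1 ≤ D₀.degree) :
    Submodule.map₂ (S19BT_beta sc₃) (S19AD_coord a₂ (riemannRochSpace (D₀ - E₂)))
        (S19AD_coord c₃ (riemannRochSpace (3 • D₀ - E₁))) =
      S19AD_coord c₄ (riemannRochSpace (4 • D₀ - E₁ - E₂)) := by
  have h1 := S19AD_coord_mul (M := riemannRochSpace (D₀ - E₂))
    (N := riemannRochSpace (3 • D₀ - E₁)) hS.lic₄ hS.mul₃
    (by rw [hS.sp₂]; exact S19AD_sub_le D₀ E₂ hE₂)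
    (by rw [hS.spc₃]; exact S19AD_sub_le _ E₁ hE₁)
  rw [← h1, S19MU_mul_eq h (3 • D₀ - E₁) (D₀ - E₂) (by rw [map_sub, hdE₂]; linarith)
    (by rw [map_sub, map_sub, S19AC_degree_nsmul, hdE₁, hdE₂]; push_cast; linarith)]
  congr 2
  abel

/-- **step 2 in coordinates**. -/
theorem S19AD_step2 (E₁ E₂ R' : Divisor K F) (hE₁ : 0 ≤ E₁) (hE₂ : 0 ≤ E₂) (hR : 0 ≤ R')
    (hdisj : ∀ v, (E₁ + E₂) v = 0 ∨ R' v = 0) :
    S19AD_coord c₄ (riemannRochSpace (4 • D₀ - E₁ - E₂)) ⊓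
        S19AD_coord c₄ (riemannRochSpace (4 • D₀ - R')) =
      S19AD_coord c₄ (riemannRochSpace (4 • D₀ - E₁ - E₂ - R')) := by
  rw [← S19AD_coord_inf, S19AC_step2 D₀ E₁ E₂ R' hE₁ hE₂ hR hdisj]

/-- the coordinate subspace of a line. -/
theorem S19AD_coord_span_singleton {ι : Type*} [Fintype ι] {a : ι → F}
    (ha : LinearIndependent K a) (u : ι → K) :
    S19AD_coord a (Submodule.span K {S19AD_lc a u}) = Submodule.span K {u} := by
  have : Submodule.span K {S19AD_lc (K := K) a u} =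
      (Submodule.span K {u}).map (S19AD_lc a) := by
    rw [Submodule.map_span, Set.image_singleton]
  rw [this, S19AD_coord_map ha]

/-- `L · (K z) = z · L`. -/
theorem S19AD_mul_span_singleton (M : Submodule K F) (z : F) :
    M * Submodule.span K {z} = M.map (LinearMap.mulLeft K z) := by
  apply le_antisymm
  · rw [Submodule.mul_le]
    intro x hx y hy
    obtain ⟨r, rfl⟩ := Submodule.mem_span_singleton.1 hy
    refine ⟨r • x, M.smul_mem r hx, ?_⟩
    show z * (r • x) = x * (r • z)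
    rw [mul_smul_comm, mul_smul_comm, mul_comm]
  · rintro _ ⟨x, hx, rfl⟩
    have h1 : x * z ∈ M * Submodule.span K {z} :=
      Submodule.mul_mem_mul hx (Submodule.mem_span_singleton_self z)
    have h2 : (LinearMap.mulLeft K z) x = x * z := mul_comm z x
    rw [h2]
    exact h1

/-- `(K z) · L = z · L`. -/
theorem S19AD_span_singleton_mul (M : Submodule K F) (z : F) :
    Submodule.span K {z} * M = M.map (LinearMap.mulLeft K z) := by
  rw [mul_comm, S19AD_mul_span_singleton]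

/-- **step 3a in coordinates**: `⊤ · (K v₀) = coord₅ (v₀ · L(D₀))`. -/
theorem S19AD_step3a (hS : S19AD_Side D₀ a₁ a₂ a₃ c₂ c₃ c₄ c₅ sc₂ sc₃ sc₄) (v₀ : ι₄ → K) :
    Submodule.map₂ (S19BT_beta sc₄) ⊤ (Submodule.span K {v₀}) =
      S19AD_coord c₅ ((riemannRochSpace D₀).map (LinearMap.mulLeft K (S19AD_lc c₄ v₀))) := by
  have h1 := S19AD_coord_mul (M := riemannRochSpace D₀)
    (N := Submodule.span K {S19AD_lc (K := K) c₄ v₀}) hS.lic₅ hS.mul₄ (by rw [hS.sp₃])
    (by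
      rw [Submodule.span_singleton_le_iff_mem, ← S19AD_range_lc]
      exact LinearMap.mem_range_self _ _)
  rw [S19AD_coord_top_of_le (a := a₃) (by rw [hS.sp₃]), S19AD_coord_span_singleton hS.lic₄,
    S19AD_mul_span_singleton] at h1
  exact h1.symm

/-- the dimension of `z · M`. -/
theorem S19AD_finrank_map_mulLeft (M : Submodule K F) {z : F} (hz : z ≠ 0) :
    Module.finrank K (M.map (LinearMap.mulLeft K z)) = Module.finrank K M :=
  LinearEquiv.finrank_eq
    (Submodule.equivMapOfInjective (LinearMap.mulLeft K z)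
      (fun _ _ hxy => mul_left_cancel₀ hz hxy) M).symm

/-- **step 3b in coordinates**: the colon space is `coord₁ L(D₀ − T)`, `T = div v₀ + D_V`. -/
theorem S19AD_step3b [Infinite K] (h : RR_Hyp K F)
    (hS : S19AD_Side D₀ a₁ a₂ a₃ c₂ c₃ c₄ c₅ sc₂ sc₃ sc₄) (DV : Divisor K F)
    (hDV : 2 * (RR_genus K F : ℤ) + 1 ≤ DV.degree)
    (hDV4 : riemannRochSpace DV ≤ riemannRochSpace (4 • D₀)) (v₀ : ι₄ → K)
    (hv₀ : S19AD_lc c₄ v₀ ≠ 0) :
    S19BT_colon (S19BT_beta sc₄) (S19AD_coord c₄ (riemannRochSpace DV))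
        (Submodule.map₂ (S19BT_beta sc₄) ⊤ (Submodule.span K {v₀})) =
      S19AD_coord a₃ (riemannRochSpace
        (D₀ - (RR_div h.principal (S19AD_lc c₄ v₀) + DV))) := by
  ext w
  rw [S19BT_mem_colon, S19AD_step3a hS v₀,
    ← S19AD_coord_colon hS.mul₄ (by rw [hS.spc₄]; exact hDV4), S19AD_mem_coord,
    S19MU_smul_eq h D₀ hv₀, S19MU_colon h DV _ hDV, sub_sub]

/-- **step 4a in coordinates**: `(K w₀) · coord₄ L(D_V) = coord₅ (w₀ · L(D_V))`. -/
theorem S19AD_step4a (hS : S19AD_Side D₀ a₁ a₂ a₃ c₂ c₃ c₄ c₅ sc₂ sc₃ sc₄) (DV : Divisor K F)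
    (hDV4 : riemannRochSpace DV ≤ riemannRochSpace (4 • D₀)) (w₀ : ι₁ → K) :
    Submodule.map₂ (S19BT_beta sc₄) (Submodule.span K {w₀})
        (S19AD_coord c₄ (riemannRochSpace DV)) =
      S19AD_coord c₅ ((riemannRochSpace DV).map (LinearMap.mulLeft K (S19AD_lc a₃ w₀))) := by
  have h1 := S19AD_coord_mul (M := Submodule.span K {S19AD_lc (K := K) a₃ w₀})
    (N := riemannRochSpace DV) hS.lic₅ hS.mul₄
    (by
      rw [Submodule.span_singleton_le_iff_mem, ← S19AD_range_lc]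
      exact LinearMap.mem_range_self _ _)
    (by rw [hS.spc₄]; exact hDV4)
  rw [S19AD_coord_span_singleton hS.li₃, S19AD_span_singleton_mul] at h1
  exact h1.symm

/-- **step 4b in coordinates**: `{w | w v₀ ∈ w₀ · L(D_V)} = coord₁ L(D₀ − E'')`. -/
theorem S19AD_step4b (h : RR_Hyp K F)
    (hS : S19AD_Side D₀ a₁ a₂ a₃ c₂ c₃ c₄ c₅ sc₂ sc₃ sc₄) (B₀ E₁ E₂ R' : Divisor K F)
    (hB₀ : B₀.degree = RR_genus K F) (hdE₁ : E₁.degree = RR_genus K F)
    (hdE₂ : E₂.degree = RR_genus K F) {s' : F}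
    (hs'0 : s' ≠ 0) (hs' : RR_div h.principal s' = B₀ + R' - 3 • D₀)
    (hDV4 : riemannRochSpace (4 • D₀ - E₁ - E₂ - R') ≤ riemannRochSpace (4 • D₀))
    (v₀ : ι₄ → K) (hv₀ : S19AD_lc c₄ v₀ ≠ 0) (w₀ : ι₁ → K) (hw₀0 : S19AD_lc a₃ w₀ ≠ 0)
    (hw₀ : S19AD_lc a₃ w₀ ∈ riemannRochSpace
      (D₀ - (RR_div h.principal (S19AD_lc c₄ v₀) + (4 • D₀ - E₁ - E₂ - R')))) :
    ∃ E'' : Divisor K F, 0 ≤ E'' ∧ E''.degree = RR_genus K F ∧
      E'' + B₀ - E₁ - E₂ =
        RR_div h.principal (S19AD_lc a₃ w₀ * s' / S19AD_lc c₄ v₀) ∧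
      S19BT_colon (S19BT_beta sc₄) (Submodule.span K {v₀})
          (Submodule.map₂ (S19BT_beta sc₄) (Submodule.span K {w₀})
            (S19AD_coord c₄ (riemannRochSpace (4 • D₀ - E₁ - E₂ - R')))) =
        S19AD_coord a₃ (riemannRochSpace (D₀ - E'')) := by
  obtain ⟨E'', hE0, hEd, hEcl, -, hEw⟩ := S19AC_step4 h D₀ B₀ E₁ E₂ R' hB₀ hdE₁ hdE₂ hs'0 hs'
    hv₀ hw₀0 hw₀
  refine ⟨E'', hE0, hEd, hEcl, ?_⟩
  ext w
  rw [S19BT_mem_colon_span, S19AD_step4a hS _ hDV4 w₀, S19AD_mem_coord, ← hEw]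
  constructor
  · intro hw
    have := hw v₀ (Set.mem_singleton _)
    rwa [S19AD_mem_coord, S19AD_lc_beta hS.mul₄] at this
  · intro hw v hv
    rw [Set.mem_singleton_iff] at hv
    subst hv
    rwa [S19AD_mem_coord, S19AD_lc_beta hS.mul₄]

end side

end Fermat.Agent.S19
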