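import Fermat.Agent.S19.LinB
import Fermat.Agent.S19.Beta

/-!
# TRACK 9 "FLAT" (S19), package LINB (helper6), part 3: operations on `B`-families

* `S19LB_image` : `Y(s) = ⨆_j L_j(s)(W₀ s)` is a `B`-family if `finrank Y(s) ≤ ρ ≤ finrank Ȳ`;
* `S19LB_pre`   : `X(s) = W₀ s ⊓ ⨅_j comap L_j(s) (W₂ s)` is a `B`-family if
  `finrank X̄ ≤ ρ ≤ finrank X(s)` (intersections, colons / divisions, kernels on a family);
* `S19LB_topFam`, `S19LB_inf`, `S19LB_mul`, `S19LB_colon` : the shapes consumed by ADD3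
  (helper14, `S19/Beta.lean`).
-/

set_option autoImplicit false
set_option linter.unusedSectionVars false
set_option linter.unusedVariables false
set_option linter.unusedDecidableInType false

namespace Fermat.Agent.S19

open Matrix

section ops

variable {B K k S : Type*} [CommRing B] [Field K] [Field k]
variable {ev : S → B →+* K} {π : B →+* k}

/-- images of a span under finitely (or infinitely) many matrices. -/
theorem S19LB_iSup_map_span {L : Type*} [Field L] (φ : B →+* L) {ι₀ ι₁ : Type*} [Fintype ι₀]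
    {ρ₀ : ℕ} (vec : Fin ρ₀ → ι₀ → B) {J : Type*} (M : J → Matrix ι₁ ι₀ B) :
    (⨆ j, (Submodule.span L (Set.range fun a => (φ : B → L) ∘ vec a)).map
        ((M j).map φ).mulVecLin) =
      Submodule.span L (Set.range fun p : J × Fin ρ₀ => (φ : B → L) ∘ ((M p.1) *ᵥ vec p.2)) := by
  simp only [Submodule.map_span]
  rw [← Submodule.span_iUnion]
  congr 1
  ext x
  simp only [Set.mem_iUnion, Set.mem_image, Set.mem_range, Prod.exists]
  constructor
  · rintro ⟨j, _, ⟨a, rfl⟩, rfl⟩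
    exact ⟨j, a, by rw [S19LB_map_mulVec]; rfl⟩
  · rintro ⟨j, a, rfl⟩
    exact ⟨j, _, ⟨a, rfl⟩, by rw [S19LB_map_mulVec]; rfl⟩

/-- **(IMAGE)**: the sum of the images of a `B`-family under matrices over `B` is a `B`-family
as soon as its rank is `≤ ρ` at every point and `≥ ρ` on the reduction. -/
theorem S19LB_image (h : S19LB_Loc ev π) {ι₀ ι₁ : Type*} [Fintype ι₀] [Fintype ι₁] {J : Type*}
    {W₀ : S → Submodule K (ι₀ → K)} {W₀b : Submodule k (ι₀ → k)}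
    (hW₀ : S19LB_IsFam ev π W₀ W₀b) (M : J → Matrix ι₁ ι₀ B) (ρ : ℕ)
    (h1 : ∀ s, Module.finrank K ↥(⨆ j, (W₀ s).map ((M j).map (ev s)).mulVecLin) ≤ ρ)
    (h2 : ρ ≤ Module.finrank k ↥(⨆ j, W₀b.map ((M j).map π).mulVecLin)) :
    S19LB_IsFam ev π (fun s => ⨆ j, (W₀ s).map ((M j).map (ev s)).mulVecLin)
      (⨆ j, W₀b.map ((M j).map π).mulVecLin) := by
  obtain ⟨ρ₀, vec, hli, hb, hs⟩ := hW₀
  have hπ := S19LB_iSup_map_span π vec M
  have hev := fun s => S19LB_iSup_map_span (ev s) vec M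
  rw [hb] at hπ
  simp only [hs] at hev
  have key := S19LB_span h (fun p : J × Fin ρ₀ => (M p.1) *ᵥ vec p.2) ρ
    (fun s => by rw [← hev s]; exact h1 s) (by rw [← hπ]; exact h2)
  rw [← hπ] at key
  have : (fun s => Submodule.span K
      (Set.range fun p : J × Fin ρ₀ => (ev s : B → K) ∘ ((M p.1) *ᵥ vec p.2))) =
      fun s => ⨆ j, (W₀ s).map ((M j).map (ev s)).mulVecLin := funext fun s => (hev s).symm
  rw [this] at key
  exact key

/-! ### column matrices and equation matrices -/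

/-- the matrix with columns `vec a`. -/
def S19LB_colMat {ι : Type*} {ρ : ℕ} (vec : Fin ρ → ι → B) : Matrix ι (Fin ρ) B :=
  Matrix.of fun i a => vec a i

theorem S19LB_colMat_mulVec {L : Type*} [Field L] (φ : B →+* L) {ι : Type*} {ρ : ℕ}
    (vec : Fin ρ → ι → B) (c : Fin ρ → L) :
    ((S19LB_colMat vec).map φ) *ᵥ c = ∑ a, c a • ((φ : B → L) ∘ vec a) := by
  funext i
  simp [S19LB_colMat, Matrix.mulVec, dotProduct, mul_comm]

theorem S19LB_colMat_mulVec' {ι : Type*} {ρ : ℕ}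
    (vec : Fin ρ → ι → B) (c : Fin ρ → B) :
    (S19LB_colMat vec) *ᵥ c = ∑ a, c a • vec a := by
  funext i
  simp [S19LB_colMat, Matrix.mulVec, dotProduct, mul_comm]

theorem S19LB_colMat_range {L : Type*} [Field L] (φ : B →+* L) {ι : Type*} {ρ : ℕ}
    (vec : Fin ρ → ι → B) :
    LinearMap.range ((S19LB_colMat vec).map φ).mulVecLin =
      Submodule.span L (Set.range fun a => (φ : B → L) ∘ vec a) := by
  ext x
  rw [LinearMap.mem_range, Submodule.mem_span_range_iff_exists_fun]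
  constructor
  · rintro ⟨c, rfl⟩
    exact ⟨c, by rw [Matrix.mulVecLin_apply, S19LB_colMat_mulVec]⟩
  · rintro ⟨c, rfl⟩
    exact ⟨c, by rw [Matrix.mulVecLin_apply, S19LB_colMat_mulVec]⟩

theorem S19LB_colMat_injective {L : Type*} [Field L] (φ : B →+* L) {ι : Type*} {ρ : ℕ}
    (vec : Fin ρ → ι → B) (hli : LinearIndependent L (fun a => (φ : B → L) ∘ vec a)) :
    Function.Injective ((S19LB_colMat vec).map φ).mulVecLin := by
  rw [← LinearMap.ker_eq_bot, LinearMap.ker_eq_bot']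
  intro c hc
  rw [Matrix.mulVecLin_apply, S19LB_colMat_mulVec] at hc
  funext a
  exact (Fintype.linearIndependent_iff.1 hli) c hc a

/-- the selection of the rows `r`. -/
def S19LB_rowSel {ι : Type*} [DecidableEq ι] {ρ : ℕ} (r : Fin ρ → ι) : Matrix (Fin ρ) ι B :=
  Matrix.of fun a i => if i = r a then 1 else 0

theorem S19LB_rowSel_mul {ι : Type*} [Fintype ι] [DecidableEq ι] {ρ : ℕ}
    (vec : Fin ρ → ι → B) (r : Fin ρ → ι) :
    (S19LB_rowSel r : Matrix (Fin ρ) ι B) * S19LB_colMat vec =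
      Matrix.of fun a b => vec b (r a) := by
  ext a b
  simp [S19LB_rowSel, S19LB_colMat, Matrix.mul_apply]

/-- the pivot matrix. -/
def S19LB_pivMat {ι : Type*} {ρ : ℕ} (vec : Fin ρ → ι → B) (r : Fin ρ → ι) :
    Matrix (Fin ρ) (Fin ρ) B :=
  Matrix.of fun a b => vec b (r a)

/-- `D⁻¹ R`. -/
noncomputable def S19LB_solMat {ι : Type*} [DecidableEq ι] {ρ : ℕ} (vec : Fin ρ → ι → B) (r : Fin ρ → ι) :
    Matrix (Fin ρ) ι B :=
  (S19LB_pivMat vec r)⁻¹ * (S19LB_rowSel r : Matrix (Fin ρ) ι B)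

/-- the equations of the span of `vec` (pivot rows `r`): `1 − M D⁻¹ R`. -/
noncomputable def S19LB_eqMat {ι : Type*} [Fintype ι] [DecidableEq ι] {ρ : ℕ} (vec : Fin ρ → ι → B)
    (r : Fin ρ → ι) : Matrix ι ι B :=
  1 - S19LB_colMat vec * S19LB_solMat vec r

theorem S19LB_eqMat_mul {ι : Type*} [Fintype ι] [DecidableEq ι] {ρ : ℕ} (vec : Fin ρ → ι → B)
    (r : Fin ρ → ι) (hr : IsUnit (Matrix.of fun a b => vec b (r a)).det) :
    S19LB_eqMat vec r * S19LB_colMat vec = 0 := by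
  have hr' : IsUnit (S19LB_pivMat vec r).det := hr
  rw [S19LB_eqMat, S19LB_solMat, Matrix.sub_mul, Matrix.one_mul, Matrix.mul_assoc,
    Matrix.mul_assoc, S19LB_rowSel_mul]
  change S19LB_colMat vec - S19LB_colMat vec * ((S19LB_pivMat vec r)⁻¹ * S19LB_pivMat vec r) = 0
  rw [Matrix.nonsing_inv_mul _ hr', Matrix.mul_one, sub_self]

theorem S19LB_eqMat_ker {L : Type*} [Field L] (φ : B →+* L) {ι : Type*} [Fintype ι]
    [DecidableEq ι] {ρ : ℕ} (vec : Fin ρ → ι → B)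
    (r : Fin ρ → ι) (hr : IsUnit (Matrix.of fun a b => vec b (r a)).det) :
    LinearMap.ker ((S19LB_eqMat vec r).map φ).mulVecLin =
      Submodule.span L (Set.range fun a => (φ : B → L) ∘ vec a) := by
  apply le_antisymm
  · intro x hx
    rw [LinearMap.mem_ker, Matrix.mulVecLin_apply] at hx
    rw [← S19LB_colMat_range, LinearMap.mem_range]
    refine ⟨((S19LB_solMat vec r).map φ) *ᵥ x, ?_⟩
    rw [Matrix.mulVecLin_apply, Matrix.mulVec_mulVec, ← Matrix.map_mul]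
    have h1 : (S19LB_colMat vec * S19LB_solMat vec r) = 1 - S19LB_eqMat vec r := by
      rw [S19LB_eqMat, sub_sub_cancel]
    rw [h1, Matrix.map_sub (f := (φ : B → L)) (map_sub φ), Matrix.sub_mulVec, hx, sub_zero,
      Matrix.map_one _ (map_zero φ) (map_one φ), Matrix.one_mulVec]
  · rw [Submodule.span_le]
    rintro _ ⟨a, rfl⟩
    rw [SetLike.mem_coe, LinearMap.mem_ker, Matrix.mulVecLin_apply]
    have h1 : (S19LB_eqMat vec r) *ᵥ vec a = 0 := by
      have h2 : vec a = S19LB_colMat vec *ᵥ (Pi.single a 1) := by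
        rw [Matrix.mulVec_single_one]; rfl
      rw [h2, Matrix.mulVec_mulVec, S19LB_eqMat_mul vec r hr, Matrix.zero_mulVec]
    rw [← S19LB_map_mulVec, h1]
    funext i
    simp

/-! ### preimages -/

/-- the stacked matrix `(E₂ · M_j · M₀)_j`. -/
noncomputable def S19LB_preMat {ι₀ ι₂ : Type*} [Fintype ι₀] [Fintype ι₂] [DecidableEq ι₂]
    {J : Type*} {ρ₀ ρ₂ : ℕ} (vec₀ : Fin ρ₀ → ι₀ → B) (vec₂ : Fin ρ₂ → ι₂ → B)
    (r₂ : Fin ρ₂ → ι₂) (M : J → Matrix ι₂ ι₀ B) : Matrix (J × ι₂) (Fin ρ₀) B :=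
  Matrix.of fun p a => (S19LB_eqMat vec₂ r₂ * M p.1 * S19LB_colMat vec₀) p.2 a

theorem S19LB_preMat_mulVec {L : Type*} [Field L] (φ : B →+* L)
    {ι₀ ι₂ : Type*} [Fintype ι₀] [Fintype ι₂] [DecidableEq ι₂]
    {J : Type*} {ρ₀ ρ₂ : ℕ} (vec₀ : Fin ρ₀ → ι₀ → B) (vec₂ : Fin ρ₂ → ι₂ → B)
    (r₂ : Fin ρ₂ → ι₂) (M : J → Matrix ι₂ ι₀ B) (c : Fin ρ₀ → L) (j : J) (i : ι₂) :
    (((S19LB_preMat vec₀ vec₂ r₂ M).map φ) *ᵥ c) (j, i) =
      (((S19LB_eqMat vec₂ r₂).map φ) *ᵥ (((M j).map φ) *ᵥ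
        (((S19LB_colMat vec₀).map φ) *ᵥ c))) i := by
  rw [Matrix.mulVec_mulVec, Matrix.mulVec_mulVec, ← Matrix.map_mul, ← Matrix.map_mul]
  rfl

/-- the preimage as the image of a kernel. -/
theorem S19LB_pre_eq {L : Type*} [Field L] (φ : B →+* L)
    {ι₀ ι₂ : Type*} [Fintype ι₀] [Fintype ι₂] [DecidableEq ι₂]
    {J : Type*} {ρ₀ ρ₂ : ℕ} (vec₀ : Fin ρ₀ → ι₀ → B) (vec₂ : Fin ρ₂ → ι₂ → B)
    (r₂ : Fin ρ₂ → ι₂) (hr₂ : IsUnit (Matrix.of fun a b => vec₂ b (r₂ a)).det)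
    (M : J → Matrix ι₂ ι₀ B) :
    (Submodule.span L (Set.range fun a => (φ : B → L) ∘ vec₀ a) ⊓
      ⨅ j, (Submodule.span L (Set.range fun a => (φ : B → L) ∘ vec₂ a)).comap
        ((M j).map φ).mulVecLin) =
    (LinearMap.ker ((S19LB_preMat vec₀ vec₂ r₂ M).map φ).mulVecLin).map
      ((S19LB_colMat vec₀).map φ).mulVecLin := by
  ext x
  simp only [Submodule.mem_inf, Submodule.mem_iInf, Submodule.mem_comap, Submodule.mem_map,
    LinearMap.mem_ker, Matrix.mulVecLin_apply]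
  rw [← S19LB_colMat_range, LinearMap.mem_range]
  simp only [← S19LB_eqMat_ker φ vec₂ r₂ hr₂, LinearMap.mem_ker, Matrix.mulVecLin_apply]
  constructor
  · rintro ⟨⟨c, rfl⟩, hx⟩
    refine ⟨c, ?_, rfl⟩
    funext p
    obtain ⟨j, i⟩ := p
    rw [S19LB_preMat_mulVec, hx j]
    rfl
  · rintro ⟨c, hc, rfl⟩
    refine ⟨⟨c, rfl⟩, fun j => ?_⟩
    funext i
    have := congrFun hc (j, i)
    rw [S19LB_preMat_mulVec] at this
    exact this

theorem S19LB_comp_colMat {L : Type*} [Field L] (φ : B →+* L) {ι₀ : Type*} {ρ₀ d : ℕ}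
    (vec₀ : Fin ρ₀ → ι₀ → B) (c : Fin d → Fin ρ₀ → B) (a : Fin d) :
    (φ : B → L) ∘ (S19LB_colMat vec₀ *ᵥ c a) =
      ((S19LB_colMat vec₀).map φ).mulVecLin ((φ : B → L) ∘ c a) := by
  rw [S19LB_map_mulVec]; rfl

theorem S19LB_range_comp_colMat {L : Type*} [Field L] (φ : B →+* L) {ι₀ : Type*} {ρ₀ d : ℕ}
    (vec₀ : Fin ρ₀ → ι₀ → B) (c : Fin d → Fin ρ₀ → B) :
    Submodule.span L (Set.range fun a => (φ : B → L) ∘ (S19LB_colMat vec₀ *ᵥ c a)) =
      (Submodule.span L (Set.range fun a => (φ : B → L) ∘ c a)).map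
        ((S19LB_colMat vec₀).map φ).mulVecLin := by
  rw [Submodule.map_span]
  congr 1
  ext x
  simp only [Set.mem_range, Set.mem_image]
  constructor
  · rintro ⟨a, rfl⟩
    exact ⟨_, ⟨a, rfl⟩, (S19LB_comp_colMat φ vec₀ c a).symm⟩
  · rintro ⟨_, ⟨a, rfl⟩, rfl⟩
    exact ⟨a, S19LB_comp_colMat φ vec₀ c a⟩

/-- **(PRE)**: `X(s) = W₀ s ⊓ ⨅_j comap M_j(s) (W₂ s)` (intersection, colon, kernel on a family)
is a `B`-family as soon as its rank is `≥ ρ` at every point and `≤ ρ` on the reduction. -/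
theorem S19LB_pre (h : S19LB_Loc ev π) {ι₀ ι₂ : Type*} [Fintype ι₀] [Fintype ι₂] {J : Type*}
    [Fintype J]
    {W₀ : S → Submodule K (ι₀ → K)} {W₀b : Submodule k (ι₀ → k)}
    (hW₀ : S19LB_IsFam ev π W₀ W₀b)
    {W₂ : S → Submodule K (ι₂ → K)} {W₂b : Submodule k (ι₂ → k)}
    (hW₂ : S19LB_IsFam ev π W₂ W₂b) (M : J → Matrix ι₂ ι₀ B) (ρ : ℕ)
    (h1 : ∀ s, ρ ≤ Module.finrank K
      ↥(W₀ s ⊓ ⨅ j, (W₂ s).comap ((M j).map (ev s)).mulVecLin))
    (h2 : Module.finrank k ↥(W₀b ⊓ ⨅ j, W₂b.comap ((M j).map π).mulVecLin) ≤ ρ) :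
    S19LB_IsFam ev π (fun s => W₀ s ⊓ ⨅ j, (W₂ s).comap ((M j).map (ev s)).mulVecLin)
      (W₀b ⊓ ⨅ j, W₂b.comap ((M j).map π).mulVecLin) := by
  classical
  obtain ⟨ρ₀, vec₀, hli₀, hb₀, hs₀⟩ := hW₀
  obtain ⟨ρ₂, vec₂, hli₂, hb₂, hs₂⟩ := hW₂
  obtain ⟨r₂, hr₂⟩ := S19LB_unit_minor h vec₂ hli₂
  have hπ := S19LB_pre_eq π vec₀ vec₂ r₂ hr₂ M
  have hev := fun s => S19LB_pre_eq (ev s) vec₀ vec₂ r₂ hr₂ M
  rw [hb₀, hb₂] at hπ
  simp only [hs₀, hs₂] at hev
  have hinjπ := S19LB_colMat_injective π vec₀ hli₀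
  have hinjev := fun s => S19LB_colMat_injective (ev s) vec₀ (S19LB_indep_ev h vec₀ hli₀ s)
  -- ranks of the kernels
  have hfrπ : Module.finrank k
      ↥(LinearMap.ker ((S19LB_preMat vec₀ vec₂ r₂ M).map π).mulVecLin) ≤ ρ := by
    rw [(Submodule.equivMapOfInjective _ hinjπ _).finrank_eq, ← hπ]
    exact h2
  have hfrev : ∀ s, ρ ≤ Module.finrank K
      ↥(LinearMap.ker ((S19LB_preMat vec₀ vec₂ r₂ M).map (ev s)).mulVecLin) := by
    intro s
    rw [(Submodule.equivMapOfInjective _ (hinjev s) _).finrank_eq, ← hev s]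
    exact h1 s
  obtain ⟨d, c, -, hcli, hcb, hcs⟩ := S19LB_ker h (S19LB_preMat vec₀ vec₂ r₂ M) ρ hfrev hfrπ
  -- the basis of the preimage
  refine ⟨d, fun a => S19LB_colMat vec₀ *ᵥ c a, ?_, ?_, fun s => ?_⟩
  · have := hcli.map' _ (LinearMap.ker_eq_bot.2 hinjπ)
    have h3 : (fun a => (π : B → k) ∘ (S19LB_colMat vec₀ *ᵥ c a)) =
        (((S19LB_colMat vec₀).map π).mulVecLin ∘ fun a => (π : B → k) ∘ c a) :=
      funext fun a => S19LB_comp_colMat π vec₀ c a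
    rw [h3]
    exact this
  · rw [hπ, ← hcb]
    exact S19LB_range_comp_colMat π vec₀ c
  · show _ = W₀ s ⊓ ⨅ j, (W₂ s).comap ((M j).map (ev s)).mulVecLin
    rw [hev s, ← hcs s]
    exact S19LB_range_comp_colMat (ev s) vec₀ c

/-! ### the shapes consumed by ADD3 -/

theorem S19LB_span_single {L : Type*} [Field L] (φ : B →+* L) (ι : Type*) [Fintype ι]
    [DecidableEq ι] :
    Submodule.span L (Set.range fun i : ι => (φ : B → L) ∘ (Pi.single i (1 : B))) = ⊤ := by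
  have h1 : (fun i : ι => (φ : B → L) ∘ (Pi.single i (1 : B))) = fun i => Pi.basisFun L ι i := by
    funext i j
    rw [Pi.basisFun_apply, Function.comp_apply, Pi.single_apply, Pi.single_apply]
    split_ifs <;> simp
  rw [h1]
  exact (Pi.basisFun L ι).span_eq

/-- **(TOP)**: the full space is a `B`-family. -/
theorem S19LB_topFam (h : S19LB_Loc ev π) (ι : Type*) [Fintype ι] :
    S19LB_IsFam ev π (fun _ => (⊤ : Submodule K (ι → K))) ⊤ := by
  classical
  have key := S19LB_span h (fun i : ι => (Pi.single i (1 : B) : ι → B)) (Fintype.card ι)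
    (fun s => by
      rw [S19LB_span_single, finrank_top, Module.finrank_fintype_fun_eq_card])
    (by rw [S19LB_span_single, finrank_top, Module.finrank_fintype_fun_eq_card])
  simp only [S19LB_span_single] at key
  exact key

/-- **(TOP)**, the name consumed by ADD3 (`S19/LinB2.lean` has no `top` any more). -/
theorem S19LB_top (h : S19LB_Loc ev π) (ι : Type*) [Fintype ι] :
    S19LB_IsFam ev π (fun _ => (⊤ : Submodule K (ι → K))) ⊤ :=
  S19LB_topFam h ι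

theorem S19LB_inf_aux {L : Type*} [Field L] (φ : B →+* L) {ι : Type*} [Fintype ι]
    [DecidableEq ι] (W₁ W₂ : Submodule L (ι → L)) :
    (W₁ ⊓ ⨅ _j : Unit, W₂.comap (((fun _ => (1 : Matrix ι ι B)) _j).map φ).mulVecLin) =
      W₁ ⊓ W₂ := by
  have h1 : ((1 : Matrix ι ι B).map φ).mulVecLin = LinearMap.id := by
    rw [Matrix.map_one _ (map_zero φ) (map_one φ), Matrix.mulVecLin_one]
  simp only [h1, Submodule.comap_id, iInf_const]

/-- **(INF)**: the intersection of two `B`-families is a `B`-family as soon as its rank is `≥ ρ`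
at every point and `≤ ρ` on the reduction. -/
theorem S19LB_inf (h : S19LB_Loc ev π) {ι : Type*} [Fintype ι]
    {W₁ W₂ : S → Submodule K (ι → K)} {W₁b W₂b : Submodule k (ι → k)}
    (hW₁ : S19LB_IsFam ev π W₁ W₁b) (hW₂ : S19LB_IsFam ev π W₂ W₂b) (ρ : ℕ)
    (h1 : ∀ s, ρ ≤ Module.finrank K ↥(W₁ s ⊓ W₂ s))
    (h2 : Module.finrank k ↥(W₁b ⊓ W₂b) ≤ ρ) :
    S19LB_IsFam ev π (fun s => W₁ s ⊓ W₂ s) (W₁b ⊓ W₂b) := by
  classical
  have key := S19LB_pre h hW₁ hW₂ (fun _ : Unit => (1 : Matrix ι ι B)) ρ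
    (fun s => by rw [S19LB_inf_aux]; exact h1 s) (by rw [S19LB_inf_aux]; exact h2)
  simp only [S19LB_inf_aux] at key
  exact key

theorem S19LB_mul_aux {L : Type*} [Field L] (φ : B →+* L) {ι κ μ : Type*} [Fintype ι]
    [Fintype κ] (sc : ι → κ → μ → B) {ρ₁ ρ₂ : ℕ} (vec₁ : Fin ρ₁ → ι → B)
    (vec₂ : Fin ρ₂ → κ → B) :
    Submodule.map₂ (S19BT_beta (fun i j l => φ (sc i j l)))
      (Submodule.span L (Set.range fun a => (φ : B → L) ∘ vec₁ a))
      (Submodule.span L (Set.range fun a => (φ : B → L) ∘ vec₂ a)) =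
    Submodule.span L (Set.range fun p : Fin ρ₁ × Fin ρ₂ =>
      (φ : B → L) ∘ S19BT_betaB sc (vec₁ p.1) (vec₂ p.2)) := by
  rw [Submodule.map₂_span_span]
  congr 1
  ext x
  simp only [Set.mem_image2, Set.mem_range, Prod.exists]
  constructor
  · rintro ⟨_, ⟨a, rfl⟩, _, ⟨b, rfl⟩, rfl⟩
    exact ⟨a, b, S19BT_map_betaB φ sc _ _⟩
  · rintro ⟨a, b, rfl⟩
    exact ⟨_, ⟨a, rfl⟩, _, ⟨b, rfl⟩, (S19BT_map_betaB φ sc _ _).symm⟩

/-- **(MUL)**: the product of two `B`-families w.r.t. structure constants over `B` is a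
`B`-family as soon as its rank is `≤ ρ` at every point and `≥ ρ` on the reduction. -/
theorem S19LB_mul (h : S19LB_Loc ev π) {ι κ μ : Type*} [Fintype ι] [Fintype κ] [Fintype μ]
    (sc : ι → κ → μ → B)
    {W₁ : S → Submodule K (ι → K)} {W₁b : Submodule k (ι → k)}
    {W₂ : S → Submodule K (κ → K)} {W₂b : Submodule k (κ → k)}
    (hW₁ : S19LB_IsFam ev π W₁ W₁b) (hW₂ : S19LB_IsFam ev π W₂ W₂b) (ρ : ℕ)
    (h1 : ∀ s, Module.finrank K
      ↥(Submodule.map₂ (S19BT_beta (fun i j l => ev s (sc i j l))) (W₁ s) (W₂ s)) ≤ ρ)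
    (h2 : ρ ≤ Module.finrank k
      ↥(Submodule.map₂ (S19BT_beta (fun i j l => π (sc i j l))) W₁b W₂b)) :
    S19LB_IsFam ev π
      (fun s => Submodule.map₂ (S19BT_beta (fun i j l => ev s (sc i j l))) (W₁ s) (W₂ s))
      (Submodule.map₂ (S19BT_beta (fun i j l => π (sc i j l))) W₁b W₂b) := by
  obtain ⟨ρ₁, vec₁, hli₁, hb₁, hs₁⟩ := hW₁
  obtain ⟨ρ₂, vec₂, hli₂, hb₂, hs₂⟩ := hW₂
  have hπ := S19LB_mul_aux π sc vec₁ vec₂
  have hev := fun s => S19LB_mul_aux (ev s) sc vec₁ vec₂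
  rw [hb₁, hb₂] at hπ
  simp only [hs₁, hs₂] at hev
  have key := S19LB_span h
    (fun p : Fin ρ₁ × Fin ρ₂ => S19BT_betaB sc (vec₁ p.1) (vec₂ p.2)) ρ
    (fun s => by rw [← hev s]; exact h1 s) (by rw [← hπ]; exact h2)
  rw [← hπ] at key
  have : (fun s => Submodule.span K (Set.range fun p : Fin ρ₁ × Fin ρ₂ =>
      (ev s : B → K) ∘ S19BT_betaB sc (vec₁ p.1) (vec₂ p.2))) =
      fun s => Submodule.map₂ (S19BT_beta (fun i j l => ev s (sc i j l))) (W₁ s) (W₂ s) :=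
    funext fun s => (hev s).symm
  rw [this] at key
  exact key

/-- the matrix of `w ↦ β(w, v)`. -/
def S19LB_mulMat {ι κ μ : Type*} [Fintype κ] (sc : ι → κ → μ → B) (v : κ → B) :
    Matrix μ ι B :=
  Matrix.of fun l i => ∑ j, v j * sc i j l

theorem S19LB_mulMat_mulVec {L : Type*} [Field L] (φ : B →+* L) {ι κ μ : Type*} [Fintype ι]
    [Fintype κ] (sc : ι → κ → μ → B) (v : κ → B) (w : ι → L) :
    ((S19LB_mulMat sc v).map φ).mulVecLin w =
      S19BT_beta (fun i j l => φ (sc i j l)) w ((φ : B → L) ∘ v) := by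
  funext l
  rw [Matrix.mulVecLin_apply, S19BT_beta_apply]
  simp only [Matrix.mulVec, dotProduct, S19LB_mulMat, Matrix.map_apply, Matrix.of_apply,
    map_sum, map_mul, Function.comp_apply, Finset.sum_mul]
  refine Finset.sum_congr rfl fun i _ => Finset.sum_congr rfl fun j _ => ?_
  ring

theorem S19LB_colon_aux {L : Type*} [Field L] (φ : B →+* L) {ι κ μ : Type*} [Fintype ι]
    [Fintype κ] (sc : ι → κ → μ → B) {ρ₁ : ℕ} (vecV : Fin ρ₁ → κ → B)
    (P : Submodule L (μ → L)) :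
    S19BT_colon (S19BT_beta (fun i j l => φ (sc i j l)))
      (Submodule.span L (Set.range fun a => (φ : B → L) ∘ vecV a)) P =
    (⊤ : Submodule L (ι → L)) ⊓
      ⨅ a, P.comap ((S19LB_mulMat sc (vecV a)).map φ).mulVecLin := by
  ext w
  rw [S19BT_mem_colon_span]
  simp only [Submodule.mem_inf, Submodule.mem_top, true_and, Submodule.mem_iInf,
    Submodule.mem_comap, Set.forall_mem_range, S19LB_mulMat_mulVec]

/-- **(COLON)**: the colon `{w | ∀ v ∈ V, β w v ∈ P}` of two `B`-families is a `B`-family as soon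
as its rank is `≥ ρ` at every point and `≤ ρ` on the reduction. -/
theorem S19LB_colon (h : S19LB_Loc ev π) {ι κ μ : Type*} [Fintype ι] [Fintype κ] [Fintype μ]
    (sc : ι → κ → μ → B)
    {V : S → Submodule K (κ → K)} {Vb : Submodule k (κ → k)}
    {P : S → Submodule K (μ → K)} {Pb : Submodule k (μ → k)}
    (hV : S19LB_IsFam ev π V Vb) (hP : S19LB_IsFam ev π P Pb) (ρ : ℕ)
    (h1 : ∀ s, ρ ≤ Module.finrank K
      ↥(S19BT_colon (ι := ι) (S19BT_beta (fun i j l => ev s (sc i j l))) (V s) (P s)))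
    (h2 : Module.finrank k
      ↥(S19BT_colon (ι := ι) (S19BT_beta (fun i j l => π (sc i j l))) Vb Pb) ≤ ρ) :
    S19LB_IsFam ev π
      (fun s => S19BT_colon (ι := ι) (S19BT_beta (fun i j l => ev s (sc i j l))) (V s) (P s))
      (S19BT_colon (ι := ι) (S19BT_beta (fun i j l => π (sc i j l))) Vb Pb) := by
  obtain ⟨ρ₁, vecV, hliV, hbV, hsV⟩ := hV
  have hπ := S19LB_colon_aux (ι := ι) π sc vecV Pb
  have hev := fun s => S19LB_colon_aux (ι := ι) (ev s) sc vecV (P s)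
  rw [hbV] at hπ
  simp only [hsV] at hev
  have key := S19LB_pre h (S19LB_topFam h ι) hP (fun a => S19LB_mulMat sc (vecV a)) ρ
    (fun s => by rw [← hev s]; exact h1 s) (by rw [← hπ]; exact h2)
  rw [← hπ] at key
  have : (fun s => (⊤ : Submodule K (ι → K)) ⊓
      ⨅ a, (P s).comap ((S19LB_mulMat sc (vecV a)).map (ev s)).mulVecLin) =
      fun s => S19BT_colon (ι := ι) (S19BT_beta (fun i j l => ev s (sc i j l))) (V s) (P s) :=
    funext fun s => (hev s).symm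
  rw [this] at key
  exact key

end ops

end Fermat.Agent.S19
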