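import Mathlib
import Fermat.Agent.S19.AddCoord
import Fermat.Agent.S19.LinB3

/-!
# TRACK 9 (S19), package ADD3, the family theorem (helper14), prefix `S19AF_`

Abstract setting: a ring `B` with evaluations `ev s : B →+* K` (`s ∈ S`) and a reduction
`π : B →+* k` with `S19LB_Loc ev π` (helper6, `S19/LinB.lean`); a curve `F / K` and a curve
`Fk / k` of the same genus `g`, coordinatised by two `S19AD_Side`s whose structure constants are the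
evaluations / the reduction of structure constants over `B`.

`S19AF_main`: if `s ↦ coord_{a₁} L(D₀ − E₁ s)` and `s ↦ coord_{a₂} L(D₀ − E₂ s)` are `B`-families
(with reductions `coord L̄(D̄₀ − Ē₁)`, `coord L̄(D̄₀ − Ē₂)`) then there are effective divisors
`E₃ s ∼ E₁ s + E₂ s − B*`, `Ē₃ ∼ Ē₁ + Ē₂ − B̄*` of degree `g` such that
`s ↦ coord_{a₃} L(D₀ − E₃ s)` is a `B`-family with reduction `coord L̄(D̄₀ − Ē₃)`.
(Khuri-Makdisi's addition, steps 0–4, every step being an operation of `S19/LinB3.lean`.)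
-/

set_option autoImplicit false
set_option linter.unusedSectionVars false
set_option linter.unusedVariables false

open AlgebraicCurve

namespace Fermat.Agent.S19

open Fermat.Agent.Lib Fermat.Agent.S17

section wrappers

variable {B K k S : Type*} [CommRing B] [Field K] [Field k]
variable {ev : S → B →+* K} {π : B →+* k}
variable {ι κ μ : Type*} [Fintype ι] [Fintype κ] [Fintype μ]

/-- transport of a `B`-family along equalities. -/
theorem S19AF_congr {W W' : S → Submodule K (ι → K)} {Wb Wb' : Submodule k (ι → k)}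
    (hW : S19LB_IsFam ev π W Wb) (h1 : ∀ s, W s = W' s) (h2 : Wb = Wb') :
    S19LB_IsFam ev π W' Wb' := by
  obtain ⟨ρ, vec, hli, hb, hs⟩ := hW
  exact ⟨ρ, vec, hli, hb.trans h2, fun s => (hs s).trans (h1 s)⟩

/-- the line spanned by a vector over `B` with nonzero reduction. -/
theorem S19AF_single (u : ι → B) (hu : (π : B → k) ∘ u ≠ 0) :
    S19LB_IsFam ev π (fun s => Submodule.span K {(ev s : B → K) ∘ u})
      (Submodule.span k {(π : B → k) ∘ u}) := by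
  refine ⟨1, fun _ => u, ?_, ?_, fun s => ?_⟩
  · exact LinearIndependent.of_subsingleton (v := fun _ : Fin 1 => (π : B → k) ∘ u) 0 hu
  · congr 1
    ext x
    simp
  · congr 1
    ext x
    simp

/-- a member of a `B`-family of positive rank: a vector over `B` which is a nonzero element of
the family at every point and on the reduction. -/
theorem S19AF_exists_vec (h : S19LB_Loc ev π) {W : S → Submodule K (ι → K)}
    {Wb : Submodule k (ι → k)} (hW : S19LB_IsFam ev π W Wb)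
    (hpos : 0 < Module.finrank k Wb) :
    ∃ u : ι → B, (π : B → k) ∘ u ≠ 0 ∧ (π : B → k) ∘ u ∈ Wb ∧
      ∀ s, (ev s : B → K) ∘ u ≠ 0 ∧ (ev s : B → K) ∘ u ∈ W s := by
  obtain ⟨ρ, vec, hli, hb, hs⟩ := hW
  have hρ : 0 < ρ := by
    rw [← hb, finrank_span_eq_card hli, Fintype.card_fin] at hpos
    exact hpos
  refine ⟨vec ⟨0, hρ⟩, hli.ne_zero ⟨0, hρ⟩, ?_, fun s => ⟨?_, ?_⟩⟩
  · rw [← hb]
    exact Submodule.subset_span ⟨⟨0, hρ⟩, rfl⟩
  · exact (S19LB_indep_ev h vec hli s).ne_zero ⟨0, hρ⟩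
  · rw [← hs s]
    exact Submodule.subset_span ⟨⟨0, hρ⟩, rfl⟩

variable {scK : ι → κ → μ → K} {sck : ι → κ → μ → k}

/-- **(MUL)** with constant structure constants and identified products. -/
theorem S19AF_mul (h : S19LB_Loc ev π) (sc : ι → κ → μ → B)
    (hev : ∀ s i j l, ev s (sc i j l) = scK i j l) (hπ : ∀ i j l, π (sc i j l) = sck i j l)
    {W₁ : S → Submodule K (ι → K)} {W₁b : Submodule k (ι → k)}
    {W₂ : S → Submodule K (κ → K)} {W₂b : Submodule k (κ → k)}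
    (hW₁ : S19LB_IsFam ev π W₁ W₁b) (hW₂ : S19LB_IsFam ev π W₂ W₂b)
    {X : S → Submodule K (μ → K)} {Xb : Submodule k (μ → k)}
    (hX : ∀ s, Submodule.map₂ (S19BT_beta scK) (W₁ s) (W₂ s) = X s)
    (hXb : Submodule.map₂ (S19BT_beta sck) W₁b W₂b = Xb) (ρ : ℕ)
    (hρ : ∀ s, Module.finrank K (X s) ≤ ρ) (hρb : ρ ≤ Module.finrank k Xb) :
    S19LB_IsFam ev π X Xb := by
  have e : ∀ s, (fun i j l => ev s (sc i j l)) = scK := fun s => by
    funext i j l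
    exact hev s i j l
  have eb : (fun i j l => π (sc i j l)) = sck := by
    funext i j l
    exact hπ i j l
  refine S19AF_congr (S19LB_mul h sc hW₁ hW₂ ρ (fun s => ?_) ?_) (fun s => ?_) ?_
  · rw [e s, hX s]
    exact hρ s
  · rw [eb, hXb]
    exact hρb
  · show Submodule.map₂ (S19BT_beta (fun i j l => ev s (sc i j l))) (W₁ s) (W₂ s) = X s
    rw [e s]
    exact hX s
  · rw [eb]
    exact hXb

/-- **(COLON)** with constant structure constants and identified colon spaces. -/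
theorem S19AF_colon (h : S19LB_Loc ev π) (sc : ι → κ → μ → B)
    (hev : ∀ s i j l, ev s (sc i j l) = scK i j l) (hπ : ∀ i j l, π (sc i j l) = sck i j l)
    {V : S → Submodule K (κ → K)} {Vb : Submodule k (κ → k)}
    {P : S → Submodule K (μ → K)} {Pb : Submodule k (μ → k)}
    (hV : S19LB_IsFam ev π V Vb) (hP : S19LB_IsFam ev π P Pb)
    {X : S → Submodule K (ι → K)} {Xb : Submodule k (ι → k)}
    (hX : ∀ s, S19BT_colon (S19BT_beta scK) (V s) (P s) = X s)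
    (hXb : S19BT_colon (S19BT_beta sck) Vb Pb = Xb) (ρ : ℕ)
    (hρ : ∀ s, ρ ≤ Module.finrank K (X s)) (hρb : Module.finrank k Xb ≤ ρ) :
    S19LB_IsFam ev π X Xb := by
  have e : ∀ s, (fun i j l => ev s (sc i j l)) = scK := fun s => by
    funext i j l
    exact hev s i j l
  have eb : (fun i j l => π (sc i j l)) = sck := by
    funext i j l
    exact hπ i j l
  refine S19AF_congr (S19LB_colon (ι := ι) h sc hV hP ρ (fun s => ?_) ?_) (fun s => ?_) ?_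
  · rw [e s, hX s]
    exact hρ s
  · rw [eb, hXb]
    exact hρb
  · show S19BT_colon (S19BT_beta (fun i j l => ev s (sc i j l))) (V s) (P s) = X s
    rw [e s]
    exact hX s
  · rw [eb]
    exact hXb

/-- **(INF)** with identified intersections. -/
theorem S19AF_inf (h : S19LB_Loc ev π)
    {W₁ W₂ : S → Submodule K (ι → K)} {W₁b W₂b : Submodule k (ι → k)}
    (hW₁ : S19LB_IsFam ev π W₁ W₁b) (hW₂ : S19LB_IsFam ev π W₂ W₂b)
    {X : S → Submodule K (ι → K)} {Xb : Submodule k (ι → k)}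
    (hX : ∀ s, W₁ s ⊓ W₂ s = X s) (hXb : W₁b ⊓ W₂b = Xb) (ρ : ℕ)
    (hρ : ∀ s, ρ ≤ Module.finrank K (X s)) (hρb : Module.finrank k Xb ≤ ρ) :
    S19LB_IsFam ev π X Xb := by
  refine S19AF_congr (S19LB_inf h hW₁ hW₂ ρ (fun s => ?_) ?_) hX hXb
  · rw [hX s]
    exact hρ s
  · rw [hXb]
    exact hρb

end wrappers

/-! ## the steps on one curve: identifications and dimensions -/

section fibre

variable {K F : Type*} [Field K] [Field F] [Algebra K F]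

/-- the data of the addition at one point (on one curve). -/
structure S19AF_Pt (hK : RR_Hyp K F) (D₀ : Divisor K F) (m : ℕ)
    (E₁ E₂ Bst R' : Divisor K F) (s' : F) : Prop where
  hm : D₀.degree = m
  hmg : 3 * RR_genus K F + 1 ≤ m
  hE₁ : 0 ≤ E₁
  hE₂ : 0 ≤ E₂
  hdE₁ : E₁.degree = RR_genus K F
  hdE₂ : E₂.degree = RR_genus K F
  hBst : Bst.degree = RR_genus K F
  hR : 0 ≤ R'
  hs'0 : s' ≠ 0
  hs' : RR_div hK.principal s' = Bst + R' - 3 • D₀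
  hdisj : ∀ v, (E₁ + E₂) v = 0 ∨ R' v = 0

variable {ι₁ ι₂ ι₃ ι₄ ι₅ : Type*} [Fintype ι₁] [Fintype ι₂] [Fintype ι₃] [Fintype ι₄]
  [Fintype ι₅] {D₀ : Divisor K F}
  {a₁ a₂ a₃ : ι₁ → F} {c₂ : ι₂ → F} {c₃ : ι₃ → F} {c₄ : ι₄ → F} {c₅ : ι₅ → F}
  {sc₂ : ι₁ → ι₂ → ι₃ → K} {sc₃ : ι₁ → ι₃ → ι₄ → K} {sc₄ : ι₁ → ι₄ → ι₅ → K}
  {hK : RR_Hyp K F} {m : ℕ} {E₁ E₂ Bst R' : Divisor K F} {s' : F}

/-- the dimension of a coordinate subspace of a Riemann–Roch space. -/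
theorem S19AF_finrank [Infinite K] (hK : RR_Hyp K F) {ι : Type*} [Fintype ι] {c : ι → F}
    (hc : LinearIndependent K c) (D : Divisor K F) (d : ℕ) (hd : D.degree = d)
    (hD : 2 * RR_genus K F ≤ d)
    (hle : riemannRochSpace D ≤ Submodule.span K (Set.range c)) :
    Module.finrank K (S19AD_coord c (riemannRochSpace D)) = d + 1 - RR_genus K F := by
  rw [S19AD_finrank_coord hc hle, S19AC_finrank hK D d hd hD]

theorem S19AF_Pt.deg_R (hp : S19AF_Pt hK D₀ m E₁ E₂ Bst R' s') :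
    R'.degree = 3 * (m : ℤ) - RR_genus K F := by
  have hdegs : (RR_div hK.principal s').degree = 0 := RR_div_degree _ _
  rw [hp.hs', map_sub, map_add, S19AC_degree_nsmul, hp.hBst, hp.hm] at hdegs
  push_cast at hdegs
  linarith

theorem S19AF_Pt.le₃ (hp : S19AF_Pt hK D₀ m E₁ E₂ Bst R' s') :
    riemannRochSpace (3 • D₀ - E₁) ≤ riemannRochSpace (3 • D₀) :=
  S19AD_sub_le _ _ hp.hE₁

theorem S19AF_Pt.le₄ (hp : S19AF_Pt hK D₀ m E₁ E₂ Bst R' s') :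
    riemannRochSpace (4 • D₀ - E₁ - E₂) ≤ riemannRochSpace (4 • D₀) :=
  (S19AD_sub_le _ _ hp.hE₂).trans (S19AD_sub_le _ _ hp.hE₁)

theorem S19AF_Pt.leV (hp : S19AF_Pt hK D₀ m E₁ E₂ Bst R' s') :
    riemannRochSpace (4 • D₀ - E₁ - E₂ - R') ≤ riemannRochSpace (4 • D₀) :=
  (S19AD_sub_le _ _ hp.hR).trans hp.le₄

theorem S19AF_Pt.degV (hp : S19AF_Pt hK D₀ m E₁ E₂ Bst R' s') :
    (4 • D₀ - E₁ - E₂ - R').degree = ((m - RR_genus K F : ℕ) : ℤ) := by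
  rw [map_sub, map_sub, map_sub, S19AC_degree_nsmul, hp.hm, hp.hdE₁, hp.hdE₂, hp.deg_R]
  have := hp.hmg
  push_cast
  omega

/-- **step 0**. -/
theorem S19AF_Pt.step0 [Infinite K] (hp : S19AF_Pt hK D₀ m E₁ E₂ Bst R' s')
    (hS : S19AD_Side D₀ a₁ a₂ a₃ c₂ c₃ c₄ c₅ sc₂ sc₃ sc₄) :
    Submodule.map₂ (S19BT_beta sc₂) (S19AD_coord a₁ (riemannRochSpace (D₀ - E₁))) ⊤ =
        S19AD_coord c₃ (riemannRochSpace (3 • D₀ - E₁)) ∧
      Module.finrank K (S19AD_coord c₃ (riemannRochSpace (3 • D₀ - E₁))) =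
        3 * m + 1 - 2 * RR_genus K F := by
  have hmg := hp.hmg
  refine ⟨S19AD_step0 hK hS E₁ hp.hE₁ hp.hdE₁ (by rw [hp.hm]; exact_mod_cast hmg), ?_⟩
  rw [S19AF_finrank hK hS.lic₃ (3 • D₀ - E₁) (3 * m - RR_genus K F)
    (by rw [map_sub, S19AC_degree_nsmul, hp.hm, hp.hdE₁]; push_cast; omega) (by omega)
    (by rw [hS.spc₃]; exact hp.le₃)]
  omega

/-- **step 1**. -/
theorem S19AF_Pt.step1 [Infinite K] (hp : S19AF_Pt hK D₀ m E₁ E₂ Bst R' s')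
    (hS : S19AD_Side D₀ a₁ a₂ a₃ c₂ c₃ c₄ c₅ sc₂ sc₃ sc₄) :
    Submodule.map₂ (S19BT_beta sc₃) (S19AD_coord a₂ (riemannRochSpace (D₀ - E₂)))
        (S19AD_coord c₃ (riemannRochSpace (3 • D₀ - E₁))) =
        S19AD_coord c₄ (riemannRochSpace (4 • D₀ - E₁ - E₂)) ∧
      Module.finrank K (S19AD_coord c₄ (riemannRochSpace (4 • D₀ - E₁ - E₂))) =
        4 * m + 1 - 3 * RR_genus K F := by
  have hmg := hp.hmg
  refine ⟨S19AD_step1 hK hS E₁ E₂ hp.hE₁ hp.hE₂ hp.hdE₁ hp.hdE₂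
    (by rw [hp.hm]; exact_mod_cast hmg), ?_⟩
  rw [S19AF_finrank hK hS.lic₄ (4 • D₀ - E₁ - E₂) (4 * m - 2 * RR_genus K F)
    (by rw [map_sub, map_sub, S19AC_degree_nsmul, hp.hm, hp.hdE₁, hp.hdE₂]; push_cast; omega)
    (by omega) (by rw [hS.spc₄]; exact hp.le₄)]
  omega

/-- **step 2**. -/
theorem S19AF_Pt.step2 [Infinite K] (hp : S19AF_Pt hK D₀ m E₁ E₂ Bst R' s')
    (hS : S19AD_Side D₀ a₁ a₂ a₃ c₂ c₃ c₄ c₅ sc₂ sc₃ sc₄) :
    S19AD_coord c₄ (riemannRochSpace (4 • D₀ - E₁ - E₂)) ⊓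
        S19AD_coord c₄ (riemannRochSpace (4 • D₀ - R')) =
        S19AD_coord c₄ (riemannRochSpace (4 • D₀ - E₁ - E₂ - R')) ∧
      Module.finrank K (S19AD_coord c₄ (riemannRochSpace (4 • D₀ - E₁ - E₂ - R'))) =
        m + 1 - 2 * RR_genus K F := by
  have hmg := hp.hmg
  refine ⟨S19AD_step2 E₁ E₂ R' hp.hE₁ hp.hE₂ hp.hR hp.hdisj, ?_⟩
  rw [S19AF_finrank hK hS.lic₄ (4 • D₀ - E₁ - E₂ - R') (m - RR_genus K F) hp.degV
    (by omega) (by rw [hS.spc₄]; exact hp.leV)]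
  omega

/-- `lc c v ≠ 0` for `v ≠ 0`. -/
theorem S19AF_lc_ne_zero {ι : Type*} [Fintype ι] {c : ι → F} (hc : LinearIndependent K c)
    {v : ι → K} (hv : v ≠ 0) : S19AD_lc c v ≠ 0 := by
  intro h0
  apply hv
  apply S19AD_lc_injective hc
  rw [h0, map_zero]

/-- `lc c v ∈ span c`. -/
theorem S19AF_lc_mem_span {ι : Type*} [Fintype ι] (c : ι → F) (v : ι → K) :
    Submodule.span K {S19AD_lc (K := K) c v} ≤ Submodule.span K (Set.range c) := by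
  rw [Submodule.span_singleton_le_iff_mem, ← S19AD_range_lc]
  exact LinearMap.mem_range_self _ _

/-- **step 3a**: the dimension of `⊤ · (K v₀)`. -/
theorem S19AF_Pt.step3a [Infinite K] (hp : S19AF_Pt hK D₀ m E₁ E₂ Bst R' s')
    (hS : S19AD_Side D₀ a₁ a₂ a₃ c₂ c₃ c₄ c₅ sc₂ sc₃ sc₄) {v₀ : ι₄ → K} (hv₀ : v₀ ≠ 0) :
    Module.finrank K (Submodule.map₂ (S19BT_beta sc₄) ⊤ (Submodule.span K {v₀})) =
      m + 1 - RR_genus K F := by
  have hmg := hp.hmg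
  have hz := S19AF_lc_ne_zero hS.lic₄ hv₀
  have hle : (riemannRochSpace D₀).map (LinearMap.mulLeft K (S19AD_lc c₄ v₀)) ≤
      Submodule.span K (Set.range c₅) := by
    rw [← S19AD_mul_span_singleton]
    exact S19AD_mul_le_span hS.mul₄ (by rw [hS.sp₃]) (S19AF_lc_mem_span c₄ v₀)
  rw [S19AD_step3a hS v₀, S19AD_finrank_coord hS.lic₅ hle, S19AD_finrank_map_mulLeft _ hz,
    S19AC_finrank hK D₀ m hp.hm (by omega)]

/-- **step 3b**: the colon space `Y = coord L(D₀ − T)` and its dimension. -/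
theorem S19AF_Pt.step3b [Infinite K] (hp : S19AF_Pt hK D₀ m E₁ E₂ Bst R' s')
    (hS : S19AD_Side D₀ a₁ a₂ a₃ c₂ c₃ c₄ c₅ sc₂ sc₃ sc₄) {v₀ : ι₄ → K} (hv₀ : v₀ ≠ 0)
    (hv₀V : v₀ ∈ S19AD_coord c₄ (riemannRochSpace (4 • D₀ - E₁ - E₂ - R'))) :
    S19BT_colon (S19BT_beta sc₄) (S19AD_coord c₄ (riemannRochSpace (4 • D₀ - E₁ - E₂ - R')))
        (Submodule.map₂ (S19BT_beta sc₄) ⊤ (Submodule.span K {v₀})) =
      S19AD_coord a₃ (riemannRochSpace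
        (D₀ - (RR_div hK.principal (S19AD_lc c₄ v₀) + (4 • D₀ - E₁ - E₂ - R')))) ∧
    Module.finrank K (S19AD_coord a₃ (riemannRochSpace
        (D₀ - (RR_div hK.principal (S19AD_lc c₄ v₀) + (4 • D₀ - E₁ - E₂ - R'))))) =
      Module.finrank K (riemannRochSpace (E₁ + E₂ - Bst)) ∧
    1 ≤ Module.finrank K (riemannRochSpace (E₁ + E₂ - Bst)) := by
  have hmg := hp.hmg
  have hz := S19AF_lc_ne_zero hS.lic₄ hv₀
  refine ⟨S19AD_step3b hK hS _ (by rw [hp.degV]; omega) hp.leV v₀ hz, ?_, ?_⟩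
  · rw [S19AD_finrank_coord hS.li₃ (by
      rw [hS.sp₃]
      exact S19AD_sub_le _ _ (S19AC_T_nonneg hK hz hv₀V)),
      S19AC_step3_finrank hK D₀ Bst E₁ E₂ R' hp.hs'0 hp.hs' hz]
  · have h1 := RR_riemann_ineq hK (E₁ + E₂ - Bst)
    rw [map_sub, map_add, hp.hdE₁, hp.hdE₂, hp.hBst] at h1
    have h2 : (1 : ℤ) ≤ Module.finrank K (riemannRochSpace (E₁ + E₂ - Bst)) := by linarith
    exact_mod_cast h2

/-- **step 4a**: the dimension of `(K w₀) · V`. -/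
theorem S19AF_Pt.step4a [Infinite K] (hp : S19AF_Pt hK D₀ m E₁ E₂ Bst R' s')
    (hS : S19AD_Side D₀ a₁ a₂ a₃ c₂ c₃ c₄ c₅ sc₂ sc₃ sc₄) {w₀ : ι₁ → K} (hw₀ : w₀ ≠ 0) :
    Module.finrank K (Submodule.map₂ (S19BT_beta sc₄) (Submodule.span K {w₀})
        (S19AD_coord c₄ (riemannRochSpace (4 • D₀ - E₁ - E₂ - R')))) =
      m + 1 - 2 * RR_genus K F := by
  have hmg := hp.hmg
  have hz := S19AF_lc_ne_zero hS.li₃ hw₀
  have hle : (riemannRochSpace (4 • D₀ - E₁ - E₂ - R')).map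
      (LinearMap.mulLeft K (S19AD_lc a₃ w₀)) ≤ Submodule.span K (Set.range c₅) := by
    rw [← S19AD_span_singleton_mul]
    exact S19AD_mul_le_span hS.mul₄ (S19AF_lc_mem_span a₃ w₀) (by rw [hS.spc₄]; exact hp.leV)
  rw [S19AD_step4a hS _ hp.leV w₀, S19AD_finrank_coord hS.lic₅ hle,
    S19AD_finrank_map_mulLeft _ hz, S19AC_finrank hK _ (m - RR_genus K F) hp.degV (by omega)]
  omega

/-- **step 4b**: the divisor of the sum and the final colon space. -/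
theorem S19AF_Pt.step4b [Infinite K] (hp : S19AF_Pt hK D₀ m E₁ E₂ Bst R' s')
    (hS : S19AD_Side D₀ a₁ a₂ a₃ c₂ c₃ c₄ c₅ sc₂ sc₃ sc₄) {v₀ : ι₄ → K} (hv₀ : v₀ ≠ 0)
    {w₀ : ι₁ → K} (hw₀ : w₀ ≠ 0)
    (hw₀Y : w₀ ∈ S19BT_colon (S19BT_beta sc₄)
        (S19AD_coord c₄ (riemannRochSpace (4 • D₀ - E₁ - E₂ - R')))
        (Submodule.map₂ (S19BT_beta sc₄) ⊤ (Submodule.span K {v₀}))) :
    ∃ E'' : Divisor K F, 0 ≤ E'' ∧ E''.degree = RR_genus K F ∧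
      (∃ φ : F, φ ≠ 0 ∧ E'' + Bst - E₁ - E₂ = RR_div hK.principal φ) ∧
      S19BT_colon (S19BT_beta sc₄) (Submodule.span K {v₀})
          (Submodule.map₂ (S19BT_beta sc₄) (Submodule.span K {w₀})
            (S19AD_coord c₄ (riemannRochSpace (4 • D₀ - E₁ - E₂ - R')))) =
        S19AD_coord a₃ (riemannRochSpace (D₀ - E'')) ∧
      Module.finrank K (S19AD_coord a₃ (riemannRochSpace (D₀ - E''))) =
        m + 1 - 2 * RR_genus K F := by
  have hmg := hp.hmg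
  have hz := S19AF_lc_ne_zero hS.lic₄ hv₀
  have hw := S19AF_lc_ne_zero hS.li₃ hw₀
  have hmem : S19AD_lc a₃ w₀ ∈ riemannRochSpace
      (D₀ - (RR_div hK.principal (S19AD_lc c₄ v₀) + (4 • D₀ - E₁ - E₂ - R'))) := by
    have h1 := S19AD_step3b hK hS (4 • D₀ - E₁ - E₂ - R')
      (by rw [hp.degV]; omega) hp.leV v₀ hz
    rw [h1] at hw₀Y
    exact hw₀Y
  obtain ⟨E'', hE0, hEd, hEcl, hEq⟩ := S19AD_step4b hK hS Bst E₁ E₂ R' hp.hBst hp.hdE₁ hp.hdE₂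
    hp.hs'0 hp.hs' hp.leV v₀ hz w₀ hw hmem
  refine ⟨E'', hE0, hEd, ⟨_, div_ne_zero (mul_ne_zero hw hp.hs'0) hz, hEcl⟩, hEq, ?_⟩
  rw [S19AF_finrank hK hS.li₃ (D₀ - E'') (m - RR_genus K F)
    (by rw [map_sub, hp.hm, hEd]; omega) (by omega)
    (by rw [hS.sp₃]; exact S19AD_sub_le _ _ hE0)]
  omega

end fibre

/-! ## the family theorem -/

section main

variable {B K k S : Type*} [CommRing B] [Field K] [Field k] [Infinite K] [Infinite k]
variable {F Fk : Type*} [Field F] [Algebra K F] [Field Fk] [Algebra k Fk]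
variable {ev : S → B →+* K} {π : B →+* k}
variable {ι₁ ι₂ ι₃ ι₄ ι₅ : Type*} [Fintype ι₁] [Fintype ι₂] [Fintype ι₃] [Fintype ι₄]
  [Fintype ι₅] {D₀ : Divisor K F} {D₀b : Divisor k Fk}
  {a₁ a₂ a₃ : ι₁ → F} {c₂ : ι₂ → F} {c₃ : ι₃ → F} {c₄ : ι₄ → F} {c₅ : ι₅ → F}
  {sc₂ : ι₁ → ι₂ → ι₃ → K} {sc₃ : ι₁ → ι₃ → ι₄ → K} {sc₄ : ι₁ → ι₄ → ι₅ → K}
  {a₁b a₂b a₃b : ι₁ → Fk} {c₂b : ι₂ → Fk} {c₃b : ι₃ → Fk} {c₄b : ι₄ → Fk} {c₅b : ι₅ → Fk}
  {sc₂b : ι₁ → ι₂ → ι₃ → k} {sc₃b : ι₁ → ι₃ → ι₄ → k} {sc₄b : ι₁ → ι₄ → ι₅ → k}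

/-- **ADD3, the family theorem**: the coordinates of the sum form a `B`-family. -/
theorem S19AF_main (h : S19LB_Loc ev π) {hK : RR_Hyp K F} {hk : RR_Hyp k Fk}
    (hg : RR_genus k Fk = RR_genus K F)
    (hS : S19AD_Side D₀ a₁ a₂ a₃ c₂ c₃ c₄ c₅ sc₂ sc₃ sc₄)
    (hSb : S19AD_Side D₀b a₁b a₂b a₃b c₂b c₃b c₄b c₅b sc₂b sc₃b sc₄b)
    (scB₂ : ι₁ → ι₂ → ι₃ → B) (scB₃ : ι₁ → ι₃ → ι₄ → B) (scB₄ : ι₁ → ι₄ → ι₅ → B)
    (hev₂ : ∀ s i j l, ev s (scB₂ i j l) = sc₂ i j l)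
    (hπ₂ : ∀ i j l, π (scB₂ i j l) = sc₂b i j l)
    (hev₃ : ∀ s i j l, ev s (scB₃ i j l) = sc₃ i j l)
    (hπ₃ : ∀ i j l, π (scB₃ i j l) = sc₃b i j l)
    (hev₄ : ∀ s i j l, ev s (scB₄ i j l) = sc₄ i j l)
    (hπ₄ : ∀ i j l, π (scB₄ i j l) = sc₄b i j l)
    {m : ℕ} {E₁ E₂ : S → Divisor K F} {Bst R' : Divisor K F} {s' : F}
    {E₁b E₂b Bstb R'b : Divisor k Fk} {s'b : Fk}
    (hp : ∀ s, S19AF_Pt hK D₀ m (E₁ s) (E₂ s) Bst R' s')
    (hpb : S19AF_Pt hk D₀b m E₁b E₂b Bstb R'b s'b)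
    (hgood : Module.finrank k (riemannRochSpace (E₁b + E₂b - Bstb)) ≤ 1)
    (hW₁ : S19LB_IsFam ev π (fun s => S19AD_coord a₁ (riemannRochSpace (D₀ - E₁ s)))
      (S19AD_coord a₁b (riemannRochSpace (D₀b - E₁b))))
    (hW₂ : S19LB_IsFam ev π (fun s => S19AD_coord a₂ (riemannRochSpace (D₀ - E₂ s)))
      (S19AD_coord a₂b (riemannRochSpace (D₀b - E₂b))))
    (hC : S19LB_IsFam ev π (fun _ => S19AD_coord c₄ (riemannRochSpace (4 • D₀ - R')))
      (S19AD_coord c₄b (riemannRochSpace (4 • D₀b - R'b)))) :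
    ∃ (E₃ : S → Divisor K F) (E₃b : Divisor k Fk),
      (∀ s, 0 ≤ E₃ s ∧ (E₃ s).degree = RR_genus K F ∧
        ∃ φ : F, φ ≠ 0 ∧ E₃ s + Bst - E₁ s - E₂ s = RR_div hK.principal φ) ∧
      (0 ≤ E₃b ∧ E₃b.degree = RR_genus k Fk ∧
        ∃ φ : Fk, φ ≠ 0 ∧ E₃b + Bstb - E₁b - E₂b = RR_div hk.principal φ) ∧
      S19LB_IsFam ev π (fun s => S19AD_coord a₃ (riemannRochSpace (D₀ - E₃ s)))
        (S19AD_coord a₃b (riemannRochSpace (D₀b - E₃b))) := by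
  classical
  have hmg := hpb.hmg
  -- step 0
  have f0 : S19LB_IsFam ev π (fun s => S19AD_coord c₃ (riemannRochSpace (3 • D₀ - E₁ s)))
      (S19AD_coord c₃b (riemannRochSpace (3 • D₀b - E₁b))) :=
    S19AF_mul h scB₂ hev₂ hπ₂ hW₁ (S19LB_topFam h ι₂) (fun s => ((hp s).step0 hS).1)
      (hpb.step0 hSb).1 (3 * m + 1 - 2 * RR_genus K F) (fun s => ((hp s).step0 hS).2.le)
      (by rw [(hpb.step0 hSb).2, hg])
  -- step 1
  have f1 : S19LB_IsFam ev π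
      (fun s => S19AD_coord c₄ (riemannRochSpace (4 • D₀ - E₁ s - E₂ s)))
      (S19AD_coord c₄b (riemannRochSpace (4 • D₀b - E₁b - E₂b))) :=
    S19AF_mul h scB₃ hev₃ hπ₃ hW₂ f0 (fun s => ((hp s).step1 hS).1)
      (hpb.step1 hSb).1 (4 * m + 1 - 3 * RR_genus K F) (fun s => ((hp s).step1 hS).2.le)
      (by rw [(hpb.step1 hSb).2, hg])
  -- step 2
  have f2 : S19LB_IsFam ev π
      (fun s => S19AD_coord c₄ (riemannRochSpace (4 • D₀ - E₁ s - E₂ s - R')))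
      (S19AD_coord c₄b (riemannRochSpace (4 • D₀b - E₁b - E₂b - R'b))) :=
    S19AF_inf h f1 hC (fun s => ((hp s).step2 hS).1) (hpb.step2 hSb).1
      (m + 1 - 2 * RR_genus K F) (fun s => ((hp s).step2 hS).2.ge)
      (by rw [(hpb.step2 hSb).2, hg])
  -- the vector `v₀`
  have hposV : 0 < Module.finrank k
      (S19AD_coord c₄b (riemannRochSpace (4 • D₀b - E₁b - E₂b - R'b))) := by
    rw [(hpb.step2 hSb).2]
    omega
  obtain ⟨v₀, hv₀π, hv₀πV, hv₀ev⟩ := S19AF_exists_vec h f2 hposV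
  have fv := S19AF_single (ev := ev) (π := π) v₀ hv₀π
  -- step 3a
  have f3a : S19LB_IsFam ev π
      (fun s => Submodule.map₂ (S19BT_beta sc₄) ⊤ (Submodule.span K {(ev s : B → K) ∘ v₀}))
      (Submodule.map₂ (S19BT_beta sc₄b) ⊤ (Submodule.span k {(π : B → k) ∘ v₀})) :=
    S19AF_mul h scB₄ hev₄ hπ₄ (S19LB_topFam h ι₁) fv (fun s => rfl) rfl
      (m + 1 - RR_genus K F) (fun s => ((hp s).step3a hS (hv₀ev s).1).le)
      (by rw [hpb.step3a hSb hv₀π, hg])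
  -- step 3b
  have f3b : S19LB_IsFam ev π
      (fun s => S19BT_colon (S19BT_beta sc₄)
        (S19AD_coord c₄ (riemannRochSpace (4 • D₀ - E₁ s - E₂ s - R')))
        (Submodule.map₂ (S19BT_beta sc₄) ⊤ (Submodule.span K {(ev s : B → K) ∘ v₀})))
      (S19BT_colon (S19BT_beta sc₄b)
        (S19AD_coord c₄b (riemannRochSpace (4 • D₀b - E₁b - E₂b - R'b)))
        (Submodule.map₂ (S19BT_beta sc₄b) ⊤ (Submodule.span k {(π : B → k) ∘ v₀}))) :=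
    S19AF_colon h scB₄ hev₄ hπ₄ f2 f3a (fun s => rfl) rfl 1
      (fun s => by
        obtain ⟨e1, e2, e3⟩ := (hp s).step3b hS (hv₀ev s).1 (hv₀ev s).2
        rw [e1, e2]
        exact e3)
      (by
        obtain ⟨e1, e2, e3⟩ := hpb.step3b hSb hv₀π hv₀πV
        rw [e1, e2]
        exact hgood)
  -- the vector `w₀`
  have hposY : 0 < Module.finrank k (S19BT_colon (S19BT_beta sc₄b)
        (S19AD_coord c₄b (riemannRochSpace (4 • D₀b - E₁b - E₂b - R'b)))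
        (Submodule.map₂ (S19BT_beta sc₄b) ⊤ (Submodule.span k {(π : B → k) ∘ v₀}))) := by
    obtain ⟨e1, e2, e3⟩ := hpb.step3b hSb hv₀π hv₀πV
    rw [e1, e2]
    exact e3
  obtain ⟨w₀, hw₀π, hw₀πY, hw₀ev⟩ := S19AF_exists_vec h f3b hposY
  have fw := S19AF_single (ev := ev) (π := π) w₀ hw₀π
  -- step 4a
  have f4a : S19LB_IsFam ev π
      (fun s => Submodule.map₂ (S19BT_beta sc₄) (Submodule.span K {(ev s : B → K) ∘ w₀})
        (S19AD_coord c₄ (riemannRochSpace (4 • D₀ - E₁ s - E₂ s - R'))))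
      (Submodule.map₂ (S19BT_beta sc₄b) (Submodule.span k {(π : B → k) ∘ w₀})
        (S19AD_coord c₄b (riemannRochSpace (4 • D₀b - E₁b - E₂b - R'b)))) :=
    S19AF_mul h scB₄ hev₄ hπ₄ fw f2 (fun s => rfl) rfl
      (m + 1 - 2 * RR_genus K F) (fun s => ((hp s).step4a hS (hw₀ev s).1).le)
      (by rw [hpb.step4a hSb hw₀π, hg])
  -- step 4b
  choose E₃ hE₃0 hE₃d hE₃cl hE₃eq hE₃fr using fun s =>
    (hp s).step4b hS (hv₀ev s).1 (hw₀ev s).1 (hw₀ev s).2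
  obtain ⟨E₃b, hE₃b0, hE₃bd, hE₃bcl, hE₃beq, hE₃bfr⟩ := hpb.step4b hSb hv₀π hw₀π hw₀πY
  refine ⟨E₃, E₃b, fun s => ⟨hE₃0 s, hE₃d s, hE₃cl s⟩, ⟨hE₃b0, hE₃bd, hE₃bcl⟩, ?_⟩
  exact S19AF_colon h scB₄ hev₄ hπ₄ fv f4a hE₃eq hE₃beq (m + 1 - 2 * RR_genus K F)
    (fun s => (hE₃fr s).ge) (by rw [hE₃bfr, hg])

end main

end Fermat.Agent.S19
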