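import Mathlib
import Fermat.Agent.S18.Spec
import Fermat.Agent.Lib.RiemannThm

/-!
# TRACK 9 (S19), interface of the GEOMETRY packages (designer helper16), prefix `S19IF_`

Abstract setting: `S : S18_Spec L F k Fk` (TRACK 3).  NO Galois group in this file.
See `NOTES/items/18_route_helper16.md`, §3.

* `S19IF_rdiv S D`            : the reduction `r_* D` of a divisor;
* `S19IF_J1 S y`              : the class `y ∈ Pic⁰(F)` has trivial reduction (`y ∈ J¹`);
* `S19IF_Chart S D₀ n g`      : CHART DATA `(b, B₀, P)`: `b` an orthonormal basis of `L(D₀)`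
                                 (`b i ∈ S.O`, reductions `k`-independent), `B₀ ≥ 0` of degree `g` with
                                 `ℓ̄(r_* B₀) = 1`, `P` a pivot set for `L̄(r_*D₀ − r_*B₀)`;
* `S19IF_IsCoord S C y κ`     : `κ : Fin n × Fin n → L` are THE coordinates of `y` in the chart `C`:
                                 `b_j + Σ_i κ (i, j) b_i ∈ L(D₀ − E_y)` for `j ∈ P`, where `E_y ≥ 0`,
                                 `[E_y − B₀] = y`; `κ (i, j) = 0` unless `i ∉ P`, `j ∈ P`;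
* the statements of the packages: `S19IF_CoordEx`, `S19IF_CoordUniq`, `S19IF_Sep`, `S19IF_Add3`.

The index type of the coordinates is `Fin n × Fin n` for EVERY chart (irrelevant coordinates are `0`),
so that coordinate systems of different charts have the same type.
-/

set_option autoImplicit false

open AlgebraicCurve

namespace Fermat.Agent.S19

open Fermat.Agent.S18 Fermat.Agent.Lib

variable {L F k Fk : Type*} [Field L] [Field F] [Algebra L F] [Field k] [Field Fk]
  [Algebra k Fk] (S : S18_Spec L F k Fk)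

/-- the reduction `r_* D` of a divisor. -/
noncomputable abbrev S19IF_rdiv (D : Divisor L F) : Divisor k Fk := Finsupp.mapDomain S.r D

/-- the class `y` has trivial reduction: it is the class of a divisor of degree `0` whose
reduction is principal. -/
def S19IF_J1 (y : Pic0 L F) : Prop :=
  ∃ D : Divisor.degZero (K := L) (F := F), Pic0.mk D = y ∧
    Divisor.IsPrincipal (S19IF_rdiv S (D : Divisor L F))

/-- CHART DATA. -/
structure S19IF_Chart (D₀ : Divisor L F) (n g : ℕ) where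
  /-- the orthonormal basis of `L(D₀)` -/
  b : Fin n → F
  b_mem_O : ∀ i, b i ∈ S.O
  b_mem : ∀ i, b i ∈ riemannRochSpace D₀
  b_span : ∀ f ∈ riemannRochSpace D₀, ∃ c : Fin n → L, f = ∑ i, c i • b i
  b_red : LinearIndependent k (fun i => S.red ⟨b i, b_mem_O i⟩)
  /-- the base divisor -/
  B₀ : Divisor L F
  B₀_nonneg : 0 ≤ B₀
  B₀_deg : B₀.degree = g
  B₀_good : Module.finrank k (riemannRochSpace (S19IF_rdiv S B₀)) = 1
  /-- the pivot set -/
  P : Finset (Fin n)
  P_card : P.card + g = n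
  P_inj : ∀ c : Fin n → k,
    (∑ i, c i • S.red ⟨b i, b_mem_O i⟩) ∈
        riemannRochSpace (S19IF_rdiv S D₀ - S19IF_rdiv S B₀) →
      (∀ j ∈ P, c j = 0) → c = 0

variable {S} {D₀ : Divisor L F} {n g : ℕ}

/-- `κ` are the coordinates of the class `y` in the chart `C`. -/
def S19IF_IsCoord (C : S19IF_Chart S D₀ n g) (y : Pic0 L F) (κ : Fin n × Fin n → L) : Prop :=
  (∀ i j, (i ∈ C.P ∨ j ∉ C.P) → κ (i, j) = 0) ∧
  ∃ E : Divisor L F, 0 ≤ E ∧
    (∃ h : E - C.B₀ ∈ Divisor.degZero (K := L) (F := F), Pic0.mk ⟨E - C.B₀, h⟩ = y) ∧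
    ∀ j ∈ C.P, C.b j + ∑ i, κ (i, j) • C.b i ∈ riemannRochSpace (D₀ - E)

/-- COORD, existence + integrality (g1). -/
def S19IF_CoordEx (C : S19IF_Chart S D₀ n g) : Prop :=
  ∀ y, S19IF_J1 S y → ∃ κ, S19IF_IsCoord C y κ ∧ ∀ p, κ p ∈ S.A

/-- COORD, uniqueness. -/
def S19IF_CoordUniq (C : S19IF_Chart S D₀ n g) : Prop :=
  ∀ y κ κ', S19IF_J1 S y → S19IF_IsCoord C y κ → S19IF_IsCoord C y κ' → κ = κ'

/-- SEP (g3): the coordinates separate the points of `J¹`. -/
def S19IF_Sep (C : S19IF_Chart S D₀ n g) : Prop :=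
  ∀ y y' κ, S19IF_J1 S y → S19IF_J1 S y' → S19IF_IsCoord C y κ → S19IF_IsCoord C y' κ → y = y'

/-- ADD3 (g2): on finite subsets `S₁, S₂ ⊂ J¹` the coordinates (chart `C''`) of `x + y` lie in
the `A`-algebra generated by the coordinates of `x` (chart `C`) and of `y` (chart `C'`). -/
def S19IF_Add3 (C C' C'' : S19IF_Chart S D₀ n g) : Prop :=
  ∀ (S₁ S₂ : Finset (Pic0 L F)) (κ κ' κ'' : Fin n × Fin n → Pic0 L F → L),
    (∀ y ∈ S₁, S19IF_J1 S y) → (∀ y ∈ S₂, S19IF_J1 S y) →
    (∀ y ∈ S₁, S19IF_IsCoord C y (fun p => κ p y)) →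
    (∀ y ∈ S₂, S19IF_IsCoord C' y (fun p => κ' p y)) →
    (∀ x ∈ S₁, ∀ y ∈ S₂, S19IF_IsCoord C'' (x + y) (fun p => κ'' p (x + y))) →
    ∀ p, (fun q : ↥S₁ × ↥S₂ => κ'' p ((q.1 : Pic0 L F) + (q.2 : Pic0 L F))) ∈
      Algebra.adjoin ↥S.A
        (Set.range (fun (i : Fin n × Fin n) (q : ↥S₁ × ↥S₂) => κ i (q.1 : Pic0 L F)) ∪
          Set.range (fun (i : Fin n × Fin n) (q : ↥S₁ × ↥S₂) => κ' i (q.2 : Pic0 L F)))

/-- the numerical hypotheses of the geometry packages (`m = deg D₀`). -/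
structure S19IF_Num (S : S18_Spec L F k Fk) (D₀ : Divisor L F) (n g : ℕ) : Prop where
  hL : RR_Hyp L F
  hk : RR_Hyp k Fk
  genus_L : RR_genus L F = g
  genus_k : RR_genus k Fk = g
  deg_D₀ : D₀.degree + 1 = n + g
  large : 4 * g + 3 ≤ n

end Fermat.Agent.S19
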