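import Mathlib
import Fermat.Agent.S18.Spec
import Fermat.Agent.S18.LiftVal

/-!
# TRACK 9 (S19), package RED-RR (helper5): reduction of Riemann–Roch spaces, abstract form

`S : S18_Spec L F k Fk` (TRACK 3): a function field `F / L`, a valuation ring `A ⊂ L` with residue
field `k`, the Gauss valuation ring `O ⊂ F` with residue field `Fk` (a function field over `k`)
and the specialisation map of places `r : Pl(F) → Pl(Fk)` with `r_*(div x) = div (red x)` for
the units `x` of `O`.  `r_* D := Finsupp.mapDomain S.r D`.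

Hypothesis `S19RR_Lat S` (the lattice lemma of TRACK 3/7, shape of `S18_Val.SemiHyp.lattice`):
`finrank_L V ≤ finrank_k red(V ∩ O)` for every finite dimensional `V ⊂ F`.

* `S19RR_mapDomain_nonneg`, `S19RR_mapDomain_mono` : `r_*` preserves `≥ 0` and `≤`;
* `S19RR_red_mem`      : `f ∈ O ∩ L(D) ⇒ red f ∈ L̄(r_* D)`;
* `S19RR_redSub_le`    : `red (L(D) ∩ O) ≤ L̄(r_* D)`;
* `S19RR_finrank_redSub_le` : `finrank_k red(V ∩ O) ≤ finrank_L V` (the easy inequality);
* `S19RR_finrank_redSub`    : `= ` under `S19RR_Lat`;
* `S19RR_exists_orthonormal` : an orthonormal basis of `V` (elements of `V ∩ O` whose reductions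
  are a `k`-basis of `red (V ∩ O)`, spanning `V`);
* `S19RR_finrank_le`   : semicontinuity `ℓ(D) ≤ ℓ̄(r_* D)`;
* `S19RR_onto`         : `ℓ̄(r_* D) ≤ ℓ(D) ⇒ red (L(D) ∩ O) = L̄(r_* D)`;
* `S19RR_bpf_lift`     : a pair of sections whose reductions have no common zero relative to
  `r_* D` has no common zero relative to `D`;
* `S19RR_chart_red`    : `B₀ ≥ 0`, `ℓ̄(r_* B₀) = 1`, `E ≥ 0`, `r_*(E − B₀) = div w` ⇒ `r_* E = r_* B₀`;
* `S19RR_chart_unique` : `ℓ(E) ≤ 1`, `E, E' ≥ 0`, `E' − E = div φ` ⇒ `E' = E`.
-/

set_option autoImplicit false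

open AlgebraicCurve

namespace Fermat.Agent.S19

open Fermat.Agent.S18

variable {L F k Fk : Type*} [Field L] [Field F] [Algebra L F] [Field k] [Field Fk]
  [Algebra k Fk]

/-- the lattice lemma (hypothesis of the package; shape of `S18_Val.SemiHyp.lattice`). -/
def S19RR_Lat (S : S18_Spec L F k Fk) : Prop :=
  ∀ V : Submodule L F, FiniteDimensional L V →
    Module.finrank L V ≤ Module.finrank k (S.toVal.redSub V)

section MapDomain

variable {α β : Type*}

/-- a fibre sum of a pointwise non-negative finitely supported function is non-negative. -/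
theorem S19RR_mapDomain_nonneg (r : α → β) (D : α →₀ ℤ) (hD : ∀ P, 0 ≤ D P) (Q : β) :
    0 ≤ Finsupp.mapDomain r D Q := by
  classical
  rw [Finsupp.mapDomain, Finsupp.sum_apply, Finsupp.sum]
  refine Finset.sum_nonneg fun P _ => ?_
  rw [Finsupp.single_apply]
  split_ifs
  · exact hD P
  · exact le_refl _

/-- `r_*` is monotone. -/
theorem S19RR_mapDomain_mono (r : α → β) (D E : α →₀ ℤ) (h : ∀ P, D P ≤ E P) (Q : β) :
    Finsupp.mapDomain r D Q ≤ Finsupp.mapDomain r E Q := by
  have h1 : E = D + (E - D) := by
    ext P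
    simp
  have h2 := S19RR_mapDomain_nonneg r (E - D) (fun P => by
    rw [Finsupp.sub_apply]
    exact sub_nonneg.mpr (h P)) Q
  rw [h1, Finsupp.mapDomain_add, Finsupp.add_apply]
  linarith

/-- a fibre sum that is positive at some point of the fibre. -/
theorem S19RR_mapDomain_pos (r : α → β) (D : α →₀ ℤ) (hD : ∀ P, 0 ≤ D P) (P₀ : α)
    (hP₀ : 0 < D P₀) : 0 < Finsupp.mapDomain r D (r P₀) :=
  S18_Spec.mapDomain_pos r D (r P₀) (fun P _ => hD P) P₀ rfl hP₀

end MapDomain

variable (S : S18_Spec L F k Fk)

section RedMem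

variable (hPD : HasPrincipalDivisors L F)

include hPD

/-- **(1)** the reduction of an integral element of `L(D)` lies in `L̄(r_* D)`. -/
theorem S19RR_red_mem (D : Divisor L F) (f : S.O) (hf : (f : F) ∈ riemannRochSpace D) :
    S.red f ∈ riemannRochSpace (Finsupp.mapDomain S.r D : Divisor k Fk) := by
  rw [mem_riemannRochSpace_iff]
  intro Q
  by_cases h0 : S.red f = 0
  · exact Or.inl h0
  · right
    have hf0 : (f : F) ≠ 0 := S.ne_zero_of_red_ne_zero h0
    obtain ⟨Df, hDf, -⟩ := hPD.exists_divisor (f : F) hf0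
    have h1 := S.mapDomain_div f h0 Df hDf Q
    rw [mem_riemannRochSpace_iff] at hf
    have h2 : ∀ P, 0 ≤ (Df + D) P := by
      intro P
      rw [Finsupp.add_apply, hDf P]
      have := (hf P).resolve_left hf0
      linarith
    have h3 := S19RR_mapDomain_nonneg S.r (Df + D) h2 Q
    rw [Finsupp.mapDomain_add, Finsupp.add_apply, h1] at h3
    linarith

/-- **(1')** `red (L(D) ∩ O) ≤ L̄(r_* D)`. -/
theorem S19RR_redSub_le (D : Divisor L F) :
    S.toVal.redSub (riemannRochSpace D) ≤
      riemannRochSpace (Finsupp.mapDomain S.r D : Divisor k Fk) := by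
  rintro _ ⟨f, hf, rfl⟩
  exact S19RR_red_mem S hPD D f hf

end RedMem

section Finrank

/-- a finite family of elements of `V ∩ O` with `k`-independent reductions has at most
`dim_L V` members. -/
theorem S19RR_card_le (V : Submodule L F) [FiniteDimensional L V] {ι : Type*} [Fintype ι]
    (f : ι → S.O) (hfV : ∀ i, (f i : F) ∈ V)
    (hf : LinearIndependent k (fun i => S.red (f i))) :
    Fintype.card ι ≤ Module.finrank L V := by
  have h1 : LinearIndependent L (fun i => (f i : F)) :=
    S.toVal.linearIndependent_of_red f hf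
  have h2 : LinearIndependent L (fun i => (⟨(f i : F), hfV i⟩ : V)) := by
    apply LinearIndependent.of_comp V.subtype
    exact h1
  exact h2.fintype_card_le_finrank

/-- the easy inequality, as a bound for the rank. -/
theorem S19RR_rank_redSub_le (V : Submodule L F) [FiniteDimensional L V] :
    Module.rank k (S.toVal.redSub V) ≤ (Module.finrank L V : ℕ) := by
  classical
  apply rank_le
  intro s hs
  have hmem : ∀ w : s, ∃ f : S.O, (f : F) ∈ V ∧ S.red f = ((w : S.toVal.redSub V) : Fk) :=
    fun w => (w : S.toVal.redSub V).2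
  choose f hfV hfw using hmem
  have hind : LinearIndependent k (fun w : s => S.red (f w)) := by
    have h1 : LinearIndependent k
        (fun w : s => (S.toVal.redSub V).subtype (w : S.toVal.redSub V)) :=
      hs.map' _ (Submodule.ker_subtype _)
    have h2 : (fun w : s => S.red (f w)) =
        fun w : s => (S.toVal.redSub V).subtype (w : S.toVal.redSub V) := by
      funext w
      exact hfw w
    rw [h2]
    exact h1
  have := S19RR_card_le S V f hfV hind
  simpa using this

/-- `red (V ∩ O)` is finite dimensional. -/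
theorem S19RR_finite_redSub (V : Submodule L F) [FiniteDimensional L V] :
    FiniteDimensional k (S.toVal.redSub V) := by
  rw [FiniteDimensional, ← Module.rank_lt_aleph0_iff]
  exact lt_of_le_of_lt (S19RR_rank_redSub_le S V) (Cardinal.natCast_lt_aleph0)

/-- **the easy inequality** `dim_k red (V ∩ O) ≤ dim_L V`. -/
theorem S19RR_finrank_redSub_le (V : Submodule L F) [FiniteDimensional L V] :
    Module.finrank k (S.toVal.redSub V) ≤ Module.finrank L V :=
  Module.finrank_le_of_rank_le (S19RR_rank_redSub_le S V)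

variable {S} in
/-- under the lattice lemma, `dim_k red (V ∩ O) = dim_L V`. -/
theorem S19RR_finrank_redSub (hLat : S19RR_Lat S) (V : Submodule L F) [FiniteDimensional L V] :
    Module.finrank k (S.toVal.redSub V) = Module.finrank L V :=
  le_antisymm (S19RR_finrank_redSub_le S V) (hLat V inferInstance)

variable {S} in
/-- **orthonormal bases**: under the lattice lemma every finite dimensional `V ⊂ F` has a basis
of elements of `O` whose reductions are a `k`-basis of `red (V ∩ O)`. -/
theorem S19RR_exists_orthonormal (hLat : S19RR_Lat S) (V : Submodule L F)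
    [FiniteDimensional L V] :
    ∃ b : Fin (Module.finrank L V) → S.O,
      (∀ i, (b i : F) ∈ V) ∧
      LinearIndependent k (fun i => S.red (b i)) ∧
      LinearIndependent L (fun i => (b i : F)) ∧
      V = Submodule.span L (Set.range fun i => (b i : F)) ∧
      S.toVal.redSub V = Submodule.span k (Set.range fun i => S.red (b i)) := by
  classical
  have := S19RR_finite_redSub S V
  have hn := S19RR_finrank_redSub hLat V
  set B := Module.finBasisOfFinrankEq k (S.toVal.redSub V) hn with hB
  have hmem : ∀ i, ∃ f : S.O, (f : F) ∈ V ∧ S.red f = ((B i : S.toVal.redSub V) : Fk) :=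
    fun i => (B i).2
  choose b hbV hbw using hmem
  have hind : LinearIndependent k (fun i => S.red (b i)) := by
    have h1 : LinearIndependent k (fun i => (S.toVal.redSub V).subtype (B i)) :=
      B.linearIndependent.map' _ (Submodule.ker_subtype _)
    have h2 : (fun i => S.red (b i)) = fun i => (S.toVal.redSub V).subtype (B i) := by
      funext i
      exact hbw i
    rw [h2]
    exact h1
  have hindL : LinearIndependent L (fun i => (b i : F)) :=
    S.toVal.linearIndependent_of_red b hind
  have hindV : LinearIndependent L (fun i => (⟨(b i : F), hbV i⟩ : V)) := by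
    apply LinearIndependent.of_comp V.subtype
    exact hindL
  have htop := hindV.span_eq_top_of_card_eq_finrank' (by simp)
  have hspan : V = Submodule.span L (Set.range fun i => (b i : F)) := by
    apply le_antisymm
    · intro x hx
      have hx' : (⟨x, hx⟩ : V) ∈ Submodule.span L (Set.range fun i => (⟨(b i : F), hbV i⟩ : V)) := by
        rw [htop]
        exact Submodule.mem_top
      have := Submodule.apply_mem_span_image_of_mem_span V.subtype hx'
      rw [← Set.range_comp] at this
      exact this
    · rw [Submodule.span_le]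
      rintro _ ⟨i, rfl⟩
      exact hbV i
  exact ⟨b, hbV, hind, hindL, hspan, S.toVal.redSub_eq_span V b hbV hind hspan.le⟩

end Finrank

section Semicontinuity

variable {S}
variable (hLat : S19RR_Lat S) (hPD : HasPrincipalDivisors L F)

include hLat hPD

/-- a finite dimensional subspace of `L(D)` has dimension at most `ℓ̄(r_* D)`. -/
theorem S19RR_finrank_sub_le (D : Divisor L F)
    [FiniteDimensional k (riemannRochSpace (Finsupp.mapDomain S.r D : Divisor k Fk))]
    (V : Submodule L F) [FiniteDimensional L V] (hV : V ≤ riemannRochSpace D) :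
    Module.finrank L V ≤
      Module.finrank k (riemannRochSpace (Finsupp.mapDomain S.r D : Divisor k Fk)) := by
  refine (hLat V inferInstance).trans (Submodule.finrank_mono ?_)
  rintro _ ⟨f, hf, rfl⟩
  exact S19RR_red_mem S hPD D f (hV hf)

/-- **semicontinuity, part 1**: `L(D)` is finite dimensional as soon as `L̄(r_* D)` is. -/
theorem S19RR_finite (D : Divisor L F)
    [FiniteDimensional k (riemannRochSpace (Finsupp.mapDomain S.r D : Divisor k Fk))] :
    FiniteDimensional L (riemannRochSpace D) := by
  classical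
  rw [FiniteDimensional, ← Module.rank_lt_aleph0_iff]
  refine lt_of_le_of_lt (rank_le (n := Module.finrank k
    (riemannRochSpace (Finsupp.mapDomain S.r D : Divisor k Fk))) ?_) Cardinal.natCast_lt_aleph0
  intro s hs
  -- the span of the family, as a subspace of `F`
  have h1 : LinearIndependent L
      (fun w : s => (riemannRochSpace D).subtype (w : riemannRochSpace D)) :=
    hs.map' _ (Submodule.ker_subtype _)
  set V : Submodule L F := Submodule.span L
    (Set.range fun w : s => (riemannRochSpace D).subtype (w : riemannRochSpace D)) with hVdef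
  have hVle : V ≤ riemannRochSpace D := by
    rw [hVdef, Submodule.span_le]
    rintro _ ⟨w, rfl⟩
    exact (w : riemannRochSpace D).2
  have hfin : FiniteDimensional L V := FiniteDimensional.span_of_finite L (Set.finite_range _)
  have hcard : Module.finrank L V = s.card := by
    rw [hVdef, finrank_span_eq_card h1]
    simp
  have := S19RR_finrank_sub_le hLat hPD D V hVle
  rw [hcard] at this
  exact this

/-- **(2) semicontinuity**: `ℓ(D) ≤ ℓ̄(r_* D)`. -/
theorem S19RR_finrank_le (D : Divisor L F)
    [FiniteDimensional k (riemannRochSpace (Finsupp.mapDomain S.r D : Divisor k Fk))] :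
    Module.finrank L (riemannRochSpace D) ≤
      Module.finrank k (riemannRochSpace (Finsupp.mapDomain S.r D : Divisor k Fk)) := by
  have := S19RR_finite hLat hPD D
  exact S19RR_finrank_sub_le hLat hPD D _ le_rfl

/-- **(3) ONTO**: if `ℓ̄(r_* D) ≤ ℓ(D)` then `red (L(D) ∩ O) = L̄(r_* D)`. -/
theorem S19RR_redSub_eq (D : Divisor L F)
    [FiniteDimensional k (riemannRochSpace (Finsupp.mapDomain S.r D : Divisor k Fk))]
    (hle : Module.finrank k (riemannRochSpace (Finsupp.mapDomain S.r D : Divisor k Fk)) ≤
      Module.finrank L (riemannRochSpace D)) :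
    S.toVal.redSub (riemannRochSpace D) =
      riemannRochSpace (Finsupp.mapDomain S.r D : Divisor k Fk) := by
  have := S19RR_finite hLat hPD D
  refine Submodule.eq_of_le_of_finrank_le (S19RR_redSub_le S hPD D) ?_
  rw [S19RR_finrank_redSub hLat]
  exact hle

/-- **(3') ONTO**, elementwise. -/
theorem S19RR_onto (D : Divisor L F)
    [FiniteDimensional k (riemannRochSpace (Finsupp.mapDomain S.r D : Divisor k Fk))]
    (hle : Module.finrank k (riemannRochSpace (Finsupp.mapDomain S.r D : Divisor k Fk)) ≤
      Module.finrank L (riemannRochSpace D))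
    (w : Fk) (hw : w ∈ riemannRochSpace (Finsupp.mapDomain S.r D : Divisor k Fk)) :
    ∃ f : S.O, (f : F) ∈ riemannRochSpace D ∧ S.red f = w := by
  rw [← S19RR_redSub_eq hLat hPD D hle] at hw
  exact hw

/-- **(4) orthonormal basis of `L(D)`** reducing to a basis of `L̄(r_* D)`, when
`ℓ̄(r_* D) ≤ ℓ(D)`. -/
theorem S19RR_basis (D : Divisor L F)
    [FiniteDimensional k (riemannRochSpace (Finsupp.mapDomain S.r D : Divisor k Fk))]
    (hle : Module.finrank k (riemannRochSpace (Finsupp.mapDomain S.r D : Divisor k Fk)) ≤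
      Module.finrank L (riemannRochSpace D)) :
    ∃ b : Fin (Module.finrank L (riemannRochSpace D)) → S.O,
      (∀ i, (b i : F) ∈ riemannRochSpace D) ∧
      LinearIndependent k (fun i => S.red (b i)) ∧
      LinearIndependent L (fun i => (b i : F)) ∧
      riemannRochSpace D = Submodule.span L (Set.range fun i => (b i : F)) ∧
      riemannRochSpace (Finsupp.mapDomain S.r D : Divisor k Fk) =
        Submodule.span k (Set.range fun i => S.red (b i)) := by
  have := S19RR_finite hLat hPD D
  obtain ⟨b, h1, h2, h3, h4, h5⟩ := S19RR_exists_orthonormal hLat (riemannRochSpace D)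
  refine ⟨b, h1, h2, h3, h4, ?_⟩
  rw [← h5]
  exact (S19RR_redSub_eq hLat hPD D hle).symm

end Semicontinuity

section Degree

/-- **(5)** `r_*` preserves the degree. -/
theorem S19RR_degree (D : Divisor L F) :
    Divisor.degree (Finsupp.mapDomain S.r D : Divisor k Fk) = Divisor.degree D := by
  induction D using Finsupp.induction with
  | zero => simp
  | single_add P n D _ _ ih =>
    rw [Finsupp.mapDomain_add, map_add, map_add, ih, Finsupp.mapDomain_single,
      Divisor.degree_single, Divisor.degree_single, S.deg_r]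

end Degree

section Bpf

variable (hPD : HasPrincipalDivisors L F)

include hPD

/-- if `f ∈ O ∩ L(D)` has a zero relative to `D` at `P` (`ord_P f > -D(P)`) and `red f ≠ 0`, then
`red f` has a zero relative to `r_* D` at `r P`. -/
theorem S19RR_zero_red (D : Divisor L F) (f : S.O) (hf : (f : F) ∈ riemannRochSpace D)
    (hf0 : S.red f ≠ 0) (P : Place L F) (hP : -D P < P.ord (f : F)) :
    -(Finsupp.mapDomain S.r D : Divisor k Fk) (S.r P) < (S.r P).ord (S.red f) := by
  have hfF : (f : F) ≠ 0 := S.ne_zero_of_red_ne_zero hf0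
  obtain ⟨Df, hDf, -⟩ := hPD.exists_divisor (f : F) hfF
  have h1 := S.mapDomain_div f hf0 Df hDf (S.r P)
  rw [mem_riemannRochSpace_iff] at hf
  have h2 : ∀ P', 0 ≤ (Df + D) P' := by
    intro P'
    rw [Finsupp.add_apply, hDf P']
    have := (hf P').resolve_left hfF
    linarith
  have h3 : 0 < (Df + D) P := by
    rw [Finsupp.add_apply, hDf P]
    linarith
  have h4 := S19RR_mapDomain_pos S.r (Df + D) h2 P h3
  rw [Finsupp.mapDomain_add, Finsupp.add_apply, h1] at h4
  linarith

/-- **base point freeness lifts**: if the reductions of `s, t ∈ O ∩ L(D)` have no common zero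
relative to `r_* D`, then `s, t` have no common zero relative to `D`. -/
theorem S19RR_bpf_lift (D : Divisor L F) (s t : S.O)
    (hs : (s : F) ∈ riemannRochSpace D) (ht : (t : F) ∈ riemannRochSpace D)
    (hs0 : S.red s ≠ 0) (ht0 : S.red t ≠ 0)
    (hbar : ∀ Q : Place k Fk,
      Q.ord (S.red s) = -(Finsupp.mapDomain S.r D : Divisor k Fk) Q ∨
      Q.ord (S.red t) = -(Finsupp.mapDomain S.r D : Divisor k Fk) Q)
    (P : Place L F) :
    P.ord (s : F) = -D P ∨ P.ord (t : F) = -D P := by
  by_contra hcon
  push Not at hcon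
  obtain ⟨h1, h2⟩ := hcon
  have hsF : (s : F) ≠ 0 := S.ne_zero_of_red_ne_zero hs0
  have htF : (t : F) ≠ 0 := S.ne_zero_of_red_ne_zero ht0
  have hs' := ((mem_riemannRochSpace_iff.mp hs) P).resolve_left hsF
  have ht' := ((mem_riemannRochSpace_iff.mp ht) P).resolve_left htF
  have h3 := S19RR_zero_red S hPD D s hs hs0 P (lt_of_le_of_ne hs' (Ne.symm h1))
  have h4 := S19RR_zero_red S hPD D t ht ht0 P (lt_of_le_of_ne ht' (Ne.symm h2))
  rcases hbar (S.r P) with h | h
  · rw [h] at h3
    exact lt_irrefl _ h3
  · rw [h] at h4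
    exact lt_irrefl _ h4

end Bpf

section Chart

/-- constants of a function field have order `0` everywhere, hence a function in a one
dimensional `L(B)` with `B ≥ 0` has trivial divisor. -/
theorem S19RR_ord_eq_zero_of_finrank_one {K E : Type*} [Field K] [Field E] [Algebra K E]
    (B : Divisor K E) (hB : ∀ v, 0 ≤ B v)
    (h1 : Module.finrank K (riemannRochSpace B) ≤ 1)
    [FiniteDimensional K (riemannRochSpace B)]
    (w : E) (hw : w ∈ riemannRochSpace B) (v : Place K E) : v.ord w = 0 := by
  have hone : (1 : E) ∈ riemannRochSpace B := by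
    rw [mem_riemannRochSpace_iff]
    intro v
    right
    rw [Place.ord_one]
    have := hB v
    linarith
  obtain ⟨x, hx⟩ := finrank_le_one_iff.mp h1
  obtain ⟨c, hc⟩ := hx ⟨1, hone⟩
  obtain ⟨d, hd⟩ := hx ⟨w, hw⟩
  have hc' : c • (x : E) = 1 := congrArg Subtype.val hc
  have hd' : d • (x : E) = w := congrArg Subtype.val hd
  have hc0 : c ≠ 0 := by
    rintro rfl
    rw [zero_smul] at hc'
    exact zero_ne_one hc'
  have hxe : (x : E) = c⁻¹ • (1 : E) := by
    rw [← hc', smul_smul, inv_mul_cancel₀ hc0, one_smul]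
  have hwe : w = algebraMap K E (d * c⁻¹) := by
    rw [← hd', hxe, smul_smul, Algebra.smul_def, mul_one]
  rw [hwe]
  exact S18_Spec.ord_algebraMap v _

variable (hPD : HasPrincipalDivisors L F)

/-- **(6a) chart, reduction**: `B₀ ≥ 0` with `ℓ̄(r_* B₀) = 1`; an effective `E` such that
`r_*(E - B₀)` is principal has `r_* E = r_* B₀`. -/
theorem S19RR_chart_red (B₀ E : Divisor L F) (hB : ∀ P, 0 ≤ B₀ P) (hE : ∀ P, 0 ≤ E P)
    [FiniteDimensional k (riemannRochSpace (Finsupp.mapDomain S.r B₀ : Divisor k Fk))]
    (h1 : Module.finrank k (riemannRochSpace (Finsupp.mapDomain S.r B₀ : Divisor k Fk)) ≤ 1)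
    (w : Fk)
    (hw : ∀ Q, (Finsupp.mapDomain S.r (E - B₀) : Divisor k Fk) Q = Q.ord w) :
    (Finsupp.mapDomain S.r E : Divisor k Fk) = Finsupp.mapDomain S.r B₀ := by
  have hsub : ∀ Q, (Finsupp.mapDomain S.r (E - B₀) : Divisor k Fk) Q =
      (Finsupp.mapDomain S.r E : Divisor k Fk) Q - (Finsupp.mapDomain S.r B₀ : Divisor k Fk) Q := by
    intro Q
    have : E = (E - B₀) + B₀ := by
      ext P
      simp
    conv_rhs => rw [this, Finsupp.mapDomain_add, Finsupp.add_apply]
    ring
  have hwmem : w ∈ riemannRochSpace (Finsupp.mapDomain S.r B₀ : Divisor k Fk) := by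
    rw [mem_riemannRochSpace_iff]
    intro Q
    right
    rw [← hw Q, hsub Q]
    have := S19RR_mapDomain_nonneg S.r E hE Q
    linarith
  ext Q
  have h2 := S19RR_ord_eq_zero_of_finrank_one _ (S19RR_mapDomain_nonneg S.r B₀ hB) h1 w hwmem Q
  rw [← hw Q, hsub Q] at h2
  linarith

/-- **(6b) chart, uniqueness**: if `ℓ(E) ≤ 1`, `E ≥ 0`, `E' ≥ 0` and `E' - E` is principal then
`E' = E`. -/
theorem S19RR_chart_unique {K E₀ : Type*} [Field K] [Field E₀] [Algebra K E₀]
    (E E' : Divisor K E₀) (hE : ∀ P, 0 ≤ E P) (hE' : ∀ P, 0 ≤ E' P)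
    [FiniteDimensional K (riemannRochSpace E)]
    (h1 : Module.finrank K (riemannRochSpace E) ≤ 1)
    (φ : E₀) (hφ : ∀ P, E' P - E P = P.ord φ) : E' = E := by
  have hmem : φ ∈ riemannRochSpace E := by
    rw [mem_riemannRochSpace_iff]
    intro P
    right
    rw [← hφ P]
    have := hE' P
    linarith
  ext P
  have := S19RR_ord_eq_zero_of_finrank_one E hE h1 φ hmem P
  rw [← hφ P] at this
  linarith

variable {S} in
include hPD in
/-- **(6) chart**: under the lattice lemma, `B₀ ≥ 0` with `ℓ̄(r_* B₀) = 1`: an effective divisor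
`E` whose class minus the class of `B₀` has trivial reduction (`r_*(E - B₀)` principal) reduces
to `r_* B₀`, has `ℓ(E) ≤ 1`, and is the only effective divisor in its class. -/
theorem S19RR_chart (hLat : S19RR_Lat S) (B₀ E : Divisor L F) (hB : ∀ P, 0 ≤ B₀ P)
    (hE : ∀ P, 0 ≤ E P)
    [FiniteDimensional k (riemannRochSpace (Finsupp.mapDomain S.r B₀ : Divisor k Fk))]
    (h1 : Module.finrank k (riemannRochSpace (Finsupp.mapDomain S.r B₀ : Divisor k Fk)) ≤ 1)
    (w : Fk)
    (hw : ∀ Q, (Finsupp.mapDomain S.r (E - B₀) : Divisor k Fk) Q = Q.ord w) :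
    (Finsupp.mapDomain S.r E : Divisor k Fk) = Finsupp.mapDomain S.r B₀ ∧
    FiniteDimensional L (riemannRochSpace E) ∧
    Module.finrank L (riemannRochSpace E) ≤ 1 ∧
    ∀ (E' : Divisor L F) (φ : F), (∀ P, 0 ≤ E' P) → (∀ P, E' P - E P = P.ord φ) →
      E' = E := by
  have hred := S19RR_chart_red S B₀ E hB hE h1 w hw
  have hfinE : FiniteDimensional k
      (riemannRochSpace (Finsupp.mapDomain S.r E : Divisor k Fk)) := by
    rw [hred]
    infer_instance
  have hfin := S19RR_finite hLat hPD E
  have hle : Module.finrank L (riemannRochSpace E) ≤ 1 := by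
    refine (S19RR_finrank_le hLat hPD E).trans ?_
    rw [hred]
    exact h1
  exact ⟨hred, hfin, hle, fun E' φ hE' hφ => S19RR_chart_unique E E' hE hE' hle φ hφ⟩

end Chart

end Fermat.Agent.S19
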