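import Mathlib
import Fermat.Agent.S19.Iface
import Fermat.Agent.S19.RedRR
import Fermat.Agent.S19.AddCurve

/-!
# TRACK 9 (S19), package ADD3-AUX (helper9), prefix `S19AX_`: the auxiliary section `s'`

Abstract over `S : S18_Spec L F k Fk`, `hLat : S19RR_Lat S`, `hNum : S19IF_Num S D₀ n g`,
`k` infinite.

* `S19AX_exists_s'` : for a divisor `B*` of degree `g` and a finite set `T` of places of `Fk`
  there are `s' ∈ O` with `red s' ≠ 0` and an effective divisor `R'` with
  `div s' = B* + R' − 3 D₀`, `div (red s') = r_* B* + r_* R' − 3 r_* D₀` and `r_* R' = 0` on `T`.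
* `S19AX_disj`      : effective divisors with disjoint reductions are disjoint.
* `S19AX_rdiv_div`  : `r_* (div f) = div (red f)` for `f ∈ O` with `red f ≠ 0`.
-/

set_option autoImplicit false

open AlgebraicCurve

namespace Fermat.Agent.S19

open Fermat.Agent.S18 Fermat.Agent.Lib Fermat.Agent.S17

variable {L F k Fk : Type*} [Field L] [Field F] [Algebra L F] [Field k] [Field Fk]
  [Algebra k Fk]

/-- `L` is infinite as soon as `k` is. -/
theorem S19AX_infinite (S : S18_Spec L F k Fk) [Infinite k] : Infinite L := by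
  have h1 : Infinite S.A := Infinite.of_surjective S.res S.res_surjective
  exact Infinite.of_injective (fun a : S.A => (a : L)) Subtype.val_injective

/-- `r_* (div f) = div (red f)` for `f ∈ O` with `red f ≠ 0`. -/
theorem S19AX_rdiv_div (S : S18_Spec L F k Fk) (hPD : HasPrincipalDivisors L F)
    (hPDk : HasPrincipalDivisors k Fk) (f : S.O) (hf : S.red f ≠ 0) :
    S19IF_rdiv S (RR_div hPD (f : F)) = RR_div hPDk (S.red f) := by
  ext Q
  rw [RR_div_apply]
  exact S.mapDomain_div f hf (RR_div hPD (f : F)) (fun P => RR_div_apply hPD _ P) Q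

/-- effective divisors with disjoint reductions are disjoint. -/
theorem S19AX_disj (S : S18_Spec L F k Fk) (E R' : Divisor L F) (hE : 0 ≤ E) (hR : 0 ≤ R')
    (h : ∀ Q, (S19IF_rdiv S E) Q = 0 ∨ (S19IF_rdiv S R') Q = 0) : ∀ v, E v = 0 ∨ R' v = 0 := by
  intro v
  have hE' : ∀ P, 0 ≤ E P := fun P => by
    have := hE
    rw [Finsupp.le_def] at this
    simpa using this P
  have hR' : ∀ P, 0 ≤ R' P := fun P => by
    have := hR
    rw [Finsupp.le_def] at this
    simpa using this P
  rcases h (S.r v) with h0 | h0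
  · left
    by_contra hne
    have hpos : 0 < E v := lt_of_le_of_ne (hE' v) (Ne.symm hne)
    have := S19RR_mapDomain_pos S.r E hE' v hpos
    rw [show (Finsupp.mapDomain S.r E) (S.r v) = (S19IF_rdiv S E) (S.r v) from rfl, h0] at this
    exact lt_irrefl _ this
  · right
    by_contra hne
    have hpos : 0 < R' v := lt_of_le_of_ne (hR' v) (Ne.symm hne)
    have := S19RR_mapDomain_pos S.r R' hR' v hpos
    rw [show (Finsupp.mapDomain S.r R') (S.r v) = (S19IF_rdiv S R') (S.r v) from rfl, h0] at this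
    exact lt_irrefl _ this

variable {D₀ : Divisor L F} {n g : ℕ}

/-- **the auxiliary section**. -/
theorem S19AX_exists_s' [Infinite k] (S : S18_Spec L F k Fk) (hLat : S19RR_Lat S)
    (hNum : S19IF_Num S D₀ n g) (Bst : Divisor L F) (hBst : Bst.degree = g)
    (T : Finset (Place k Fk)) :
    ∃ (s' : S.O) (R' : Divisor L F), S.red s' ≠ 0 ∧ 0 ≤ R' ∧
      RR_div hNum.hL.principal (s' : F) = Bst + R' - 3 • D₀ ∧
      RR_div hNum.hk.principal (S.red s') =
        S19IF_rdiv S Bst + S19IF_rdiv S R' - 3 • S19IF_rdiv S D₀ ∧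
      ∀ Q ∈ T, (S19IF_rdiv S R') Q = 0 := by
  classical
  have hL := S19AX_infinite S
  have hPD := hNum.hL.principal
  have hPDk := hNum.hk.principal
  set D : Divisor L F := 3 • D₀ - Bst with hD
  -- degrees
  have hn := hNum.large
  have hdegD₀ := hNum.deg_D₀
  set d : ℕ := 3 * n + 2 * g - 3 with hd
  have hdeg : D.degree = (d : ℤ) := by
    rw [hD, map_sub, map_nsmul, hBst, hd]
    have h3 : ((3 * n + 2 * g - 3 : ℕ) : ℤ) = 3 * (n : ℤ) + 2 * g - 3 := by
      rw [Nat.cast_sub (by omega)]
      push_cast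
      ring
    rw [h3]
    simp only [nsmul_eq_mul, Nat.cast_ofNat]
    linarith
  have hdegk : (S19IF_rdiv S D).degree = (d : ℤ) := by
    rw [← hdeg]
    exact S19RR_degree S D
  have h2g : 2 * g + 1 ≤ d := by omega
  -- dimensions
  have hfr : Module.finrank L (riemannRochSpace D) = d + 1 - g := by
    have := S19AC_finrank hNum.hL D d hdeg (by rw [hNum.genus_L]; omega)
    rw [this, hNum.genus_L]
  have hfrk : Module.finrank k (riemannRochSpace (S19IF_rdiv S D)) = d + 1 - g := by
    have := S19AC_finrank hNum.hk (S19IF_rdiv S D) d hdegk (by rw [hNum.genus_k]; omega)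
    rw [this, hNum.genus_k]
  have hfin : FiniteDimensional k
      (riemannRochSpace (Finsupp.mapDomain S.r D : Divisor k Fk)) := RR_finite hNum.hk _
  -- the section on `Fk`
  obtain ⟨a, ha0, ha, hord⟩ := S17RS_exists_ord_eq hNum.hk (S19IF_rdiv S D) (by
    rw [hdegk, hNum.genus_k]
    exact_mod_cast h2g) T
  -- the lift
  obtain ⟨f, hf, hfa⟩ := S19RR_onto hLat hPD D (by
    show Module.finrank k (riemannRochSpace (S19IF_rdiv S D)) ≤ _
    rw [hfr, hfrk]) a ha
  have hfred : S.red f ≠ 0 := by rw [hfa]; exact ha0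
  have hf0 : (f : F) ≠ 0 := S.ne_zero_of_red_ne_zero hfred
  refine ⟨f, RR_div hPD (f : F) + D, hfred, S19MU_div_add_nonneg hNum.hL hf0 hf, ?_, ?_, ?_⟩
  · rw [hD]
    abel
  · rw [← S19AX_rdiv_div S hPD hPDk f hfred]
    have h1 : RR_div hPD (f : F) = Bst + (RR_div hPD (f : F) + D) - 3 • D₀ := by
      rw [hD]
      abel
    conv_lhs => rw [h1]
    simp only [S19IF_rdiv, Finsupp.mapDomain_add, Finsupp.mapDomain_sub, Finsupp.mapDomain_smul]
  · intro Q hQ
    have h1 : S19IF_rdiv S (RR_div hPD (f : F) + D) =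
        RR_div hPDk (S.red f) + S19IF_rdiv S D := by
      rw [← S19AX_rdiv_div S hPD hPDk f hfred]
      simp only [S19IF_rdiv, Finsupp.mapDomain_add]
    rw [h1, Finsupp.add_apply, RR_div_apply, hfa, hord Q hQ]
    simp

end Fermat.Agent.S19
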