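import Fermat.Agent.S19.AddCoord
import Fermat.Agent.S19.RedRR
import Fermat.Agent.S19.Iface

/-!
# TRACK 9 (S19), package ADD3, piece (C) CONST (helper6), prefix `S19AK_`

`S19AK_const` : for an orthonormal family `c : ι → S.O` whose span contains `L(D)`, and
`ℓ̄(r_* D) ≤ ℓ(D)`, the coordinate subspaces of `L(D)` (w.r.t. `c`) and of `L̄(r_* D)` (w.r.t.
`red ∘ c`) are spanned by ONE family of vectors `u a : ι → S.A` (over `L`, resp. modulo `res`),
independent modulo `res`: the constant family of a divisor is a `B`-family.
-/

set_option autoImplicit false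
set_option linter.unusedSectionVars false
set_option linter.unusedVariables false

open AlgebraicCurve

namespace Fermat.Agent.S19

open Fermat.Agent.S18 Fermat.Agent.Lib

/-- pull back a span along an injective linear map. -/
theorem S19AK_span_eq_comap {R V W : Type*} [Field R] [AddCommGroup V] [Module R V]
    [AddCommGroup W] [Module R W] (f : V →ₗ[R] W) (hf : Function.Injective f) {α : Type*}
    (w : α → V) (M : Submodule R W) (hM : M = Submodule.span R (Set.range fun a => f (w a))) :
    Submodule.span R (Set.range w) = M.comap f := by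
  have h1 : (Set.range fun a => f (w a)) = f '' Set.range w := by
    ext x
    simp only [Set.mem_range, Set.mem_image]
    constructor
    · rintro ⟨a, rfl⟩; exact ⟨_, ⟨a, rfl⟩, rfl⟩
    · rintro ⟨_, ⟨a, rfl⟩, rfl⟩; exact ⟨a, rfl⟩
  rw [hM, h1, ← Submodule.map_span, Submodule.comap_map_eq_of_injective hf]

variable {L F k Fk : Type*} [Field L] [Field F] [Algebra L F] [Field k] [Field Fk]
  [Algebra k Fk]

/-- **(C) CONST**: the constant family of a divisor. -/
theorem S19AK_const (S : S18_Spec L F k Fk) (hLat : S19RR_Lat S)
    (hPD : HasPrincipalDivisors L F)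
    {ι : Type*} [Fintype ι] (c : ι → S.O) (hc : LinearIndependent k (fun i => S.red (c i)))
    (D : Divisor L F)
    (hD : riemannRochSpace D ≤ Submodule.span L (Set.range fun i => (c i : F)))
    [FiniteDimensional k (riemannRochSpace (S19IF_rdiv S D))]
    (hle : Module.finrank k (riemannRochSpace (S19IF_rdiv S D)) ≤
      Module.finrank L (riemannRochSpace D)) :
    ∃ (ρ : ℕ) (u : Fin ρ → ι → S.A),
      LinearIndependent k (fun a => fun i => S.res (u a i)) ∧
      Submodule.span k (Set.range fun a => fun i => S.res (u a i)) =
        S19AD_coord (fun i => S.red (c i)) (riemannRochSpace (S19IF_rdiv S D)) ∧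
      Submodule.span L (Set.range fun a => fun i => ((u a i : S.A) : L)) =
        S19AD_coord (fun i => (c i : F)) (riemannRochSpace D) := by
  classical
  obtain ⟨f, hfmem, hfred, hfind, hfspan, hfspanb⟩ := S19RR_basis hLat hPD D hle
  -- coordinates of `f a` w.r.t. `c`
  have hex : ∀ a, ∃ v : ι → L, ∑ i, v i • (c i : F) = (f a : F) := by
    intro a
    exact (Submodule.mem_span_range_iff_exists_fun L).1 (hD (hfmem a))
  choose v hv using hex
  -- integrality
  have hint : ∀ a i, v a i ∈ S.A := by
    intro a
    apply S18_Val.mem_A_of_sum_mem S.toVal c hc (v a)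
    rw [finsum_eq_sum_of_fintype]
    have : ∑ i, algebraMap L F (v a i) * (c i : F) = (f a : F) := by
      rw [← hv a]
      exact Finset.sum_congr rfl fun i _ => (Algebra.smul_def _ _).symm
    rw [this]
    exact (f a).2
  set u : Fin (Module.finrank L (riemannRochSpace D)) → ι → S.A :=
    fun a i => ⟨v a i, hint a i⟩ with hu
  -- the two linear combinations
  have hlcL : ∀ a, S19AD_lc (fun i => (c i : F)) (fun i => ((u a i : S.A) : L)) = (f a : F) := by
    intro a
    rw [S19AD_lc_apply]
    exact hv a
  let c' : ι → S.toVal.O := c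
  let f' : Fin (Module.finrank L (riemannRochSpace D)) → S.toVal.O := f
  have hfa : ∀ a, f' a = ∑ i, S.toVal.const (u a i) * c' i := by
    intro a
    apply Subtype.ext
    have h2 : ((f' a : S.toVal.O) : F) = (f a : F) := rfl
    rw [h2, ← hv a]
    push_cast
    exact Finset.sum_congr rfl fun i _ => Algebra.smul_def _ _
  have hlck : ∀ a, S19AD_lc (fun i => S.red (c i)) (fun i => S.res (u a i)) = S.red (f a) := by
    intro a
    rw [S19AD_lc_apply]
    have h1 : S.red (f a) = S.toVal.red (f' a) := rfl
    rw [h1, hfa a]
    exact (S18_Val.red_sum S.toVal Finset.univ (u a) c').symm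
  have hcL : LinearIndependent L (fun i => (c i : F)) :=
    S18_Val.linearIndependent_of_red S.toVal c hc
  refine ⟨_, u, ?_, ?_, ?_⟩
  · apply LinearIndependent.of_comp (S19AD_lc (fun i => S.red (c i)))
    have : (S19AD_lc (fun i => S.red (c i)) ∘ fun a => fun i => S.res (u a i)) =
        fun a => S.red (f a) := funext hlck
    rw [this]
    exact hfred
  · unfold S19AD_coord
    refine S19AK_span_eq_comap (S19AD_lc (fun i => S.red (c i))) (S19AD_lc_injective hc)
      (fun a => fun i => S.res (u a i)) _ ?_
    rw [S19IF_rdiv, hfspanb]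
    congr 1
    ext x
    simp only [Set.mem_range, hlck]
  · unfold S19AD_coord
    refine S19AK_span_eq_comap (S19AD_lc (fun i => (c i : F))) (S19AD_lc_injective hcL)
      (fun a => fun i => ((u a i : S.A) : L)) _ ?_
    refine hfspan.trans ?_
    congr 1
    ext x
    simp only [Set.mem_range, hlcL]

end Fermat.Agent.S19
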