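import Mathlib
import Fermat.Agent.Lib.RiemannNonspecial
import Fermat.Agent.S17.RRSharp
import Fermat.Agent.S18.Spec
import Fermat.Agent.S19.Iface
import Fermat.Agent.S19.RedRR

/-!
# TRACK 9 (S19), package CHART-EX (helper19), prefix `S19CX_`

Existence of chart data on the reduction `Fk` (abstract: `k` an infinite field, `h : RR_Hyp k Fk`,
`g = RR_genus k Fk`).

* `S19CX_exists_pivot` (Mathlib only): for a basis `b : Basis (Fin n) k V` and a subspace `W ≤ V`
  there is a PIVOT SET `P ⊂ Fin n`, `|P| = dim W`, such that the coordinate projection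
  `W → (P → k)`, `w ↦ (b.repr w j)_{j ∈ P}` is bijective;
* `S19CX_exists_pivot_fun`: the same for a family `b : Fin n → V` which is a basis of a subspace
  `L` and `W ≤ L`: every `c : P → k` is the `P`-part of the coordinates of exactly one `w ∈ W`;
* `S19CX_exists_B`: a reduced effective divisor `B̄ = ∑ Q i` of degree `g` with `ℓ(B̄) = 1`,
  avoiding a given finite set of places;
* `S19CX_finrank_sub`: `dim L(D₀ − B̄) = dim L(D₀) − g` for `deg D₀ ≥ 3 g`, `deg B̄ = g`;
* `S19CX_chart`: chart data `(B̄, P)` for a basis `b` of `L(D₀)`.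
-/

set_option autoImplicit false
set_option linter.unusedSectionVars false
set_option linter.style.haveILetI false

open AlgebraicCurve Module

namespace Fermat.Agent.S19

open Fermat.Agent.Lib Fermat.Agent.S17 Fermat.Agent.S18

/-! ## Pivot sets (Mathlib only) -/

section pivot

variable {k : Type*} [Field k] {V : Type*} [AddCommGroup V] [Module k V]

/-- the coordinate functionals of a finite basis, restricted to a subspace, span its dual. -/
theorem S19CX_span_coord {n : ℕ} (b : Basis (Fin n) k V) (W : Submodule k V) :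
    Submodule.span k (Set.range fun j : Fin n => (b.coord j).comp W.subtype) = ⊤ := by
  classical
  haveI : Module.Finite k V := Module.Finite.of_basis b
  rw [eq_top_iff]
  intro φ _
  obtain ⟨ψ, hψ⟩ := LinearMap.dualMap_surjective_of_injective
    (f := W.subtype) (Submodule.injective_subtype W) φ
  have h1 : ψ ∈ Submodule.span k (Set.range b.dualBasis) := by
    rw [b.dualBasis.span_eq]
    trivial
  have h2 : φ = W.subtype.dualMap ψ := hψ.symm
  rw [h2]
  refine Submodule.span_induction (p := fun ψ _ => W.subtype.dualMap ψ ∈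
    Submodule.span k (Set.range fun j : Fin n => (b.coord j).comp W.subtype)) ?_ ?_ ?_ ?_ h1
  · rintro _ ⟨j, rfl⟩
    refine Submodule.subset_span ⟨j, ?_⟩
    rw [Basis.coe_dualBasis]
    rfl
  · rw [map_zero]
    exact Submodule.zero_mem _
  · intro x y _ _ hx hy
    rw [map_add]
    exact Submodule.add_mem _ hx hy
  · intro a x _ hx
    rw [map_smul]
    exact Submodule.smul_mem _ a hx

/-- **pivot sets**: the coordinate projection of `W` to a suitable set `P` of `dim W`
coordinates is bijective. -/
theorem S19CX_exists_pivot {n : ℕ} (b : Basis (Fin n) k V) (W : Submodule k V) :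
    ∃ P : Finset (Fin n), P.card = finrank k W ∧
      Function.Bijective (fun (w : W) (j : P) => b.repr (w : V) (j : Fin n)) := by
  classical
  haveI : Module.Finite k V := Module.Finite.of_basis b
  set f : Fin n → Module.Dual k W := fun j => (b.coord j).comp W.subtype with hf
  have hspan := S19CX_span_coord b W
  obtain ⟨g, hgmem, hgspan, hgli⟩ := Submodule.exists_fun_fin_finrank_span_eq k (Set.range f)
  have hd : finrank k (Submodule.span k (Set.range f)) = finrank k W := by
    rw [hspan, finrank_top, Subspace.dual_finrank_eq]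
  choose idx hidx using hgmem
  have hinj : Function.Injective idx := by
    intro i i' hii
    apply hgli.injective
    rw [← hidx i, ← hidx i', hii]
  obtain ⟨P, hP⟩ : ∃ P : Finset (Fin n), P = Finset.univ.image idx := ⟨_, rfl⟩
  have hPcard : P.card = finrank k W := by
    rw [hP, Finset.card_image_of_injective _ hinj, Finset.card_univ, Fintype.card_fin, hd]
  have hPmem : ∀ i, idx i ∈ P := by
    intro i
    rw [hP]
    exact Finset.mem_image_of_mem idx (Finset.mem_univ i)
  refine ⟨P, hPcard, ?_⟩
  set Φ : W →ₗ[k] (P → k) :=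
    { toFun := fun w j => b.repr (w : V) (j : Fin n)
      map_add' := fun w w' => by
        funext j
        simp
      map_smul' := fun a w => by
        funext j
        simp } with hΦ
  have hΦinj : Function.Injective Φ := by
    rw [← LinearMap.ker_eq_bot, Submodule.eq_bot_iff]
    intro w hw
    rw [LinearMap.mem_ker] at hw
    have h1 : ∀ i, g i w = 0 := by
      intro i
      have h2 := congrFun hw ⟨idx i, hPmem i⟩
      rw [← hidx i]
      exact h2
    have h3 : ∀ φ : Module.Dual k W, φ w = 0 := by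
      intro φ
      have hφ : φ ∈ Submodule.span k (Set.range g) := by
        rw [hgspan, hspan]
        trivial
      refine Submodule.span_induction (p := fun φ _ => φ w = 0) ?_ ?_ ?_ ?_ hφ
      · rintro _ ⟨i, rfl⟩
        exact h1 i
      · rfl
      · intro x y _ _ hx hy
        rw [LinearMap.add_apply, hx, hy, add_zero]
      · intro a x _ hx
        rw [LinearMap.smul_apply, hx, smul_zero]
    exact (Module.forall_dual_apply_eq_zero_iff k w).1 h3
  have hdim : finrank k W = finrank k (P → k) := by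
    rw [Module.finrank_fintype_fun_eq_card, Fintype.card_coe, hPcard]
  exact ⟨hΦinj, (LinearMap.injective_iff_surjective_of_finrank_eq_finrank hdim).1 hΦinj⟩

end pivot

/-! ## Pivot sets for families -/

section pivotfun

variable {k : Type*} [Field k] {V : Type*} [AddCommGroup V] [Module k V]

/-- **pivot sets, family form**: `c : Fin n → V` linearly independent, `W ≤ span c`.  There is a
set `P` of `dim W` indices such that every assignment `a : P → k` is the `P`-part of the
coefficient vector of exactly one element of `W`. -/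
theorem S19CX_exists_pivot_fun {n : ℕ} (c : Fin n → V) (hli : LinearIndependent k c)
    (W : Submodule k V) (hW : W ≤ Submodule.span k (Set.range c)) :
    ∃ P : Finset (Fin n), P.card = finrank k W ∧
      ∀ a : P → k, ∃! x : Fin n → k, (∀ j : P, x j = a j) ∧ ∑ i, x i • c i ∈ W := by
  classical
  set b : Basis (Fin n) k (Submodule.span k (Set.range c)) := Basis.span hli with hb
  have hbi : ∀ i, ((b i : Submodule.span k (Set.range c)) : V) = c i := fun i => by
    rw [hb, Basis.span_apply]
  set W' : Submodule k (Submodule.span k (Set.range c)) :=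
    W.comap (Submodule.span k (Set.range c)).subtype with hW'
  obtain ⟨P, hcard, hbij⟩ := S19CX_exists_pivot b W'
  have hfr : finrank k W' = finrank k W := by
    rw [hW']
    exact LinearEquiv.finrank_eq (Submodule.comapSubtypeEquivOfLe hW)
  have hsum : ∀ x : Fin n → k, ∑ i, x i • c i =
      ((∑ i, x i • b i : Submodule.span k (Set.range c)) : V) := by
    intro x
    rw [Submodule.coe_sum]
    refine Finset.sum_congr rfl fun i _ => ?_
    rw [Submodule.coe_smul, hbi]
  have hrepr : ∀ x : Fin n → k, ∀ i, b.repr (∑ i, x i • b i) i = x i := by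
    intro x i
    have : (∑ i, x i • b i) = b.equivFun.symm x := by
      rw [Basis.equivFun_symm_apply]
    rw [this]
    have h2 := congrFun (b.equivFun.apply_symm_apply x) i
    rw [Basis.equivFun_apply] at h2
    exact h2
  refine ⟨P, hcard.trans hfr, fun a => ?_⟩
  obtain ⟨w, hw⟩ := hbij.2 a
  refine ⟨fun i => b.repr (w : Submodule.span k (Set.range c)) i, ⟨fun j => congrFun hw j, ?_⟩, ?_⟩
  · have h1 : ∑ i, (b.repr (w : Submodule.span k (Set.range c)) i) • c i =
        (((w : Submodule.span k (Set.range c))) : V) := by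
      rw [hsum]
      congr 1
      exact b.sum_repr _
    rw [h1]
    exact w.2
  · rintro x ⟨hxa, hxW⟩
    set w' : W' := ⟨∑ i, x i • b i, by
      rw [hW', Submodule.mem_comap, Submodule.subtype_apply, ← hsum]
      exact hxW⟩ with hw'
    have heq : w' = w := by
      apply hbij.1
      funext j
      have h3 : b.repr ((w' : W') : Submodule.span k (Set.range c)) (j : Fin n) = x j :=
        hrepr x j
      have h4 := congrFun hw j
      simp only at h4
      change b.repr ((w' : W') : Submodule.span k (Set.range c)) (j : Fin n) =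
        b.repr ((w : W') : Submodule.span k (Set.range c)) (j : Fin n)
      rw [h3, hxa, h4]
    funext i
    rw [← heq]
    exact (hrepr x i).symm

end pivotfun

/-! ## The non-special divisor `B̄` -/

section curve

variable {k Fk : Type*} [Field k] [Field Fk] [Algebra k Fk]

/-- a sum of places is effective. -/
theorem S19CX_sum_nonneg {ι : Type*} [Fintype ι] (Q : ι → Place k Fk) (P : Place k Fk) :
    0 ≤ (∑ i, Finsupp.single (Q i) (1 : ℤ) : Divisor k Fk) P := by
  classical
  rw [Finsupp.finsetSum_apply]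
  refine Finset.sum_nonneg fun i _ => ?_
  rw [Finsupp.single_apply]
  split_ifs
  · exact zero_le_one
  · exact le_refl _

/-- a sum of DISTINCT places is reduced. -/
theorem S19CX_sum_le_one {ι : Type*} [Fintype ι] (Q : ι → Place k Fk)
    (hQ : Function.Injective Q) (P : Place k Fk) :
    (∑ i, Finsupp.single (Q i) (1 : ℤ) : Divisor k Fk) P ≤ 1 := by
  classical
  rw [Finsupp.finsetSum_apply]
  by_cases hP : ∃ i, Q i = P
  · obtain ⟨i₀, hi₀⟩ := hP
    rw [Finset.sum_eq_single i₀]
    · rw [Finsupp.single_apply, if_pos hi₀]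
    · intro i _ hi
      rw [Finsupp.single_apply, if_neg]
      intro h
      exact hi (hQ (h.trans hi₀.symm))
    · intro h
      exact absurd (Finset.mem_univ i₀) h
  · rw [Finset.sum_eq_zero]
    · exact zero_le_one
    · intro i _
      rw [Finsupp.single_apply, if_neg]
      intro h
      exact hP ⟨i, h⟩

/-- a sum of places vanishes off the places. -/
theorem S19CX_sum_eq_zero {ι : Type*} [Fintype ι] (Q : ι → Place k Fk) (P : Place k Fk)
    (hP : ∀ i, Q i ≠ P) :
    (∑ i, Finsupp.single (Q i) (1 : ℤ) : Divisor k Fk) P = 0 := by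
  classical
  rw [Finsupp.finsetSum_apply]
  refine Finset.sum_eq_zero fun i _ => ?_
  rw [Finsupp.single_apply, if_neg (hP i)]

/-- the degree of a sum of places of degree one. -/
theorem S19CX_sum_degree (hdeg : ∀ v : Place k Fk, v.deg = 1) {ι : Type*} [Fintype ι]
    (Q : ι → Place k Fk) :
    (∑ i, Finsupp.single (Q i) (1 : ℤ) : Divisor k Fk).degree = Fintype.card ι := by
  rw [map_sum]
  simp [Divisor.degree_single, hdeg]

/-- **the non-special divisor, place form** (`RR_nonspecial`): `g` distinct places outside `T`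
with `ℓ(Q_1 + ⋯ + Q_g) = 1`. -/
theorem S19CX_exists_B [Infinite k] (h : RR_Hyp k Fk) (T : Finset (Place k Fk)) :
    ∃ Q : Fin (RR_genus k Fk) → Place k Fk, Function.Injective Q ∧ (∀ i, Q i ∉ T) ∧
      Module.finrank k
        (riemannRochSpace (∑ i, Finsupp.single (Q i) (1 : ℤ) : Divisor k Fk)) = 1 :=
  RR_nonspecial h T

/-- **the non-special divisor, divisor form**: `B̄ ≥ 0` reduced of degree `g`, disjoint from `T`,
with `ℓ(B̄) = 1`. -/
theorem S19CX_exists_B_div [Infinite k] (h : RR_Hyp k Fk) (T : Finset (Place k Fk)) :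
    ∃ B : Divisor k Fk, (∀ P, 0 ≤ B P) ∧ (∀ P, B P ≤ 1) ∧ (∀ P ∈ T, B P = 0) ∧
      B.degree = RR_genus k Fk ∧ Module.finrank k (riemannRochSpace B) = 1 := by
  obtain ⟨Q, hinj, hT, hfr⟩ := RR_nonspecial h T
  refine ⟨∑ i, Finsupp.single (Q i) (1 : ℤ), S19CX_sum_nonneg Q, S19CX_sum_le_one Q hinj,
    fun P hP => S19CX_sum_eq_zero Q P fun i hi => hT i (hi ▸ hP), ?_, hfr⟩
  rw [S19CX_sum_degree h.deg_one, Fintype.card_fin]

/-- `dim L(D₀ − B̄) = dim L(D₀) − g` for `deg D₀ ≥ 3 g`, `deg B̄ = g`. -/
theorem S19CX_finrank_sub [Infinite k] (h : RR_Hyp k Fk) (D₀ B : Divisor k Fk)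
    (hD : 3 * (RR_genus k Fk : ℤ) ≤ D₀.degree) (hB : B.degree = RR_genus k Fk) :
    Module.finrank k (riemannRochSpace (D₀ - B)) + RR_genus k Fk =
      Module.finrank k (riemannRochSpace D₀) := by
  have h1 := S17RS_riemann_eq h (D₀ - B) (by rw [map_sub, hB]; linarith)
  have h2 := S17RS_riemann_eq h D₀ (by
    have : (0 : ℤ) ≤ RR_genus k Fk := Int.natCast_nonneg _
    linarith)
  rw [map_sub, hB] at h1
  have : ((Module.finrank k (riemannRochSpace (D₀ - B)) + RR_genus k Fk : ℕ) : ℤ) =
      (Module.finrank k (riemannRochSpace D₀) : ℕ) := by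
    push_cast
    linarith
  exact_mod_cast this

/-- `L(D₀ − B̄) ≤ L(D₀)` for `B̄ ≥ 0`. -/
theorem S19CX_sub_le (D₀ B : Divisor k Fk) (hB : ∀ P, 0 ≤ B P) :
    riemannRochSpace (D₀ - B) ≤ riemannRochSpace D₀ := by
  apply RR_mono
  rw [Finsupp.le_def]
  intro P
  have := hB P
  simp only [Finsupp.sub_apply]
  linarith

/-- **chart data on `Fk`**: for `deg D₀ ≥ 3 g` and a basis family `c` of `L(D₀)` there are a
non-special reduced `B̄ ≥ 0` of degree `g` outside `T` and a pivot set `P` of `n − g` indices over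
which `L(D₀ − B̄)` is a graph. -/
theorem S19CX_chart [Infinite k] (h : RR_Hyp k Fk) (T : Finset (Place k Fk)) (D₀ : Divisor k Fk)
    (hD : 3 * (RR_genus k Fk : ℤ) ≤ D₀.degree) {n : ℕ} (c : Fin n → Fk)
    (hli : LinearIndependent k c) (hspan : riemannRochSpace D₀ = Submodule.span k (Set.range c)) :
    ∃ (Q : Fin (RR_genus k Fk) → Place k Fk) (P : Finset (Fin n)),
      Function.Injective Q ∧ (∀ i, Q i ∉ T) ∧
      Module.finrank k
        (riemannRochSpace (∑ i, Finsupp.single (Q i) (1 : ℤ) : Divisor k Fk)) = 1 ∧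
      P.card + RR_genus k Fk = n ∧
      ∀ a : P → k, ∃! x : Fin n → k, (∀ j : P, x j = a j) ∧
        ∑ i, x i • c i ∈ riemannRochSpace (D₀ - ∑ i, Finsupp.single (Q i) (1 : ℤ)) := by
  classical
  obtain ⟨Q, hinj, hT, hfr⟩ := RR_nonspecial h T
  set B : Divisor k Fk := ∑ i, Finsupp.single (Q i) (1 : ℤ) with hB
  have hdegB : B.degree = RR_genus k Fk := by
    rw [hB, S19CX_sum_degree h.deg_one, Fintype.card_fin]
  have hle : riemannRochSpace (D₀ - B) ≤ Submodule.span k (Set.range c) := by
    rw [← hspan]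
    exact S19CX_sub_le D₀ B (S19CX_sum_nonneg Q)
  obtain ⟨P, hcard, hP⟩ := S19CX_exists_pivot_fun c hli (riemannRochSpace (D₀ - B)) hle
  refine ⟨Q, P, hinj, hT, hfr, ?_, hP⟩
  have h1 := S19CX_finrank_sub h D₀ B hD hdegB
  have h2 : Module.finrank k (riemannRochSpace D₀) = n := by
    rw [hspan, finrank_span_eq_card hli, Fintype.card_fin]
  rw [hcard, h1, h2]

end curve

/-! ## Lifting `B̄` to `F` -/

section lift

variable {L F k Fk : Type*} [Field L] [Field F] [Algebra L F] [Field k] [Field Fk]
  [Algebra k Fk]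

/-- `r_*` of a sum of places. -/
theorem S19CX_mapDomain_sum (S : S18_Spec L F k Fk) {ι : Type*} [Fintype ι]
    (P : ι → Place L F) :
    (Finsupp.mapDomain S.r (∑ i, Finsupp.single (P i) (1 : ℤ)) : Divisor k Fk) =
      ∑ i, Finsupp.single (S.r (P i)) (1 : ℤ) := by
  rw [Finsupp.mapDomain_finsetSum]
  refine Finset.sum_congr rfl fun i _ => ?_
  rw [Finsupp.mapDomain_single]

/-- **good `B₀`**: if every place of `Fk` has a lift satisfying `good` (for instance: fixed by
inertia), there is a reduced effective divisor `B₀ = P_1 + ⋯ + P_g` on `F` with all `P_i` good,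
`r P_i` distinct and outside `T`, and `ℓ̄(r_* B₀) = 1`. -/
theorem S19CX_exists_B₀ [Infinite k] (S : S18_Spec L F k Fk) (h : RR_Hyp k Fk)
    (good : Place L F → Prop) (hgood : ∀ Q : Place k Fk, ∃ P, S.r P = Q ∧ good P)
    (T : Finset (Place k Fk)) :
    ∃ P : Fin (RR_genus k Fk) → Place L F, (∀ i, good (P i)) ∧
      Function.Injective (fun i => S.r (P i)) ∧ (∀ i, S.r (P i) ∉ T) ∧
      Module.finrank k (riemannRochSpace
        (Finsupp.mapDomain S.r (∑ i, Finsupp.single (P i) (1 : ℤ)) : Divisor k Fk)) = 1 := by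
  obtain ⟨Q, hinj, hT, hfr⟩ := RR_nonspecial h T
  choose P hP hPg using fun i => hgood (Q i)
  have hrP : (fun i => S.r (P i)) = Q := funext hP
  refine ⟨P, hPg, ?_, ?_, ?_⟩
  · rw [hrP]
    exact hinj
  · intro i
    rw [hP i]
    exact hT i
  · rw [S19CX_mapDomain_sum]
    have : (∑ i, Finsupp.single (S.r (P i)) (1 : ℤ) : Divisor k Fk) =
        ∑ i, Finsupp.single (Q i) (1 : ℤ) :=
      Finset.sum_congr rfl fun i _ => by rw [hP i]
    rw [this]
    exact hfr

/-- the same with `good := True`, from the surjectivity of `r`. -/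
theorem S19CX_exists_B₀' [Infinite k] (S : S18_Spec L F k Fk) (h : RR_Hyp k Fk)
    (hPD : HasPrincipalDivisors L F) (T : Finset (Place k Fk)) :
    ∃ P : Fin (RR_genus k Fk) → Place L F,
      Function.Injective (fun i => S.r (P i)) ∧ (∀ i, S.r (P i) ∉ T) ∧
      Module.finrank k (riemannRochSpace
        (Finsupp.mapDomain S.r (∑ i, Finsupp.single (P i) (1 : ℤ)) : Divisor k Fk)) = 1 := by
  obtain ⟨P, -, h1, h2, h3⟩ := S19CX_exists_B₀ S h (fun _ => True)
    (fun Q => by
      obtain ⟨P, hP⟩ := S.r_surjective hPD Q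
      exact ⟨P, hP, trivial⟩) T
  exact ⟨P, h1, h2, h3⟩

/-- the degree of `B₀ = P_1 + ⋯ + P_g` is `g`. -/
theorem S19CX_degree_B₀ (S : S18_Spec L F k Fk) (h : RR_Hyp k Fk) {ι : Type*} [Fintype ι]
    (P : ι → Place L F) :
    (∑ i, Finsupp.single (P i) (1 : ℤ) : Divisor L F).degree = Fintype.card ι := by
  apply S19CX_sum_degree
  intro v
  rw [← S.deg_r v]
  exact h.deg_one _

end lift

/-! ## Chart data in the shape of `S19/Iface.lean` -/

section iface

variable {L F k Fk : Type*} [Field L] [Field F] [Algebra L F] [Field k] [Field Fk]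
  [Algebra k Fk]

/-- the base field of a specialisation datum with infinite residue field is infinite. -/
theorem S19CX_infinite (S : S18_Spec L F k Fk) [Infinite k] : Infinite L := by
  haveI : Infinite S.A := Infinite.of_surjective S.res S.res_surjective
  exact Infinite.of_injective (fun a : S.A => (a : L)) Subtype.val_injective

variable {D₀ : Divisor L F} {n g : ℕ}

/-- `ℓ̄(r_* D₀) = n`. -/
theorem S19CX_finrank_rdiv [Infinite k] (S : S18_Spec L F k Fk) (hNum : S19IF_Num S D₀ n g) :
    Module.finrank k (riemannRochSpace (S19IF_rdiv S D₀)) = n := by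
  have h1 := S17RS_riemann_eq hNum.hk (S19IF_rdiv S D₀) (by
    rw [S19RR_degree, hNum.genus_k]
    have h2 := hNum.deg_D₀
    have h3 : (4 * (g : ℤ) + 3) ≤ n := by exact_mod_cast hNum.large
    linarith)
  rw [S19RR_degree, hNum.genus_k] at h1
  have h2 := hNum.deg_D₀
  have : (Module.finrank k (riemannRochSpace (S19IF_rdiv S D₀)) : ℤ) = n := by linarith
  exact_mod_cast this

/-- `ℓ(D₀) = n`. -/
theorem S19CX_finrank_D₀ [Infinite k] (S : S18_Spec L F k Fk) (hNum : S19IF_Num S D₀ n g) :
    Module.finrank L (riemannRochSpace D₀) = n := by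
  haveI := S19CX_infinite S
  have h1 := S17RS_riemann_eq hNum.hL D₀ (by
    rw [hNum.genus_L]
    have h2 := hNum.deg_D₀
    have h3 : (4 * (g : ℤ) + 3) ≤ n := by exact_mod_cast hNum.large
    linarith)
  rw [hNum.genus_L] at h1
  have h2 := hNum.deg_D₀
  have : (Module.finrank L (riemannRochSpace D₀) : ℤ) = n := by linarith
  exact_mod_cast this

/-- the reductions of an orthonormal basis of `L(D₀)` span `L̄(r_* D₀)`. -/
theorem S19CX_red_span [Infinite k] (S : S18_Spec L F k Fk) (hNum : S19IF_Num S D₀ n g)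
    (b : Fin n → F) (hbO : ∀ i, b i ∈ S.O) (hb : ∀ i, b i ∈ riemannRochSpace D₀)
    (hred : LinearIndependent k (fun i => S.red ⟨b i, hbO i⟩)) :
    riemannRochSpace (S19IF_rdiv S D₀) =
      Submodule.span k (Set.range fun i => S.red ⟨b i, hbO i⟩) := by
  haveI := RR_finite hNum.hk (S19IF_rdiv S D₀)
  symm
  apply Submodule.eq_of_le_of_finrank_eq
  · rw [Submodule.span_le]
    rintro _ ⟨i, rfl⟩
    exact S19RR_red_mem S hNum.hL.principal D₀ ⟨b i, hbO i⟩ (hb i)
  · rw [finrank_span_eq_card hred, Fintype.card_fin, S19CX_finrank_rdiv S hNum]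

/-- **CHART-EX**: for every orthonormal basis `b` of `L(D₀)` and every property `good` of places
such that every place of `Fk` has a good lift (for instance `good P = ` "`P` is fixed by
inertia", LIFT-P), there is a chart `(b, B₀, P)` with `B₀ = P_1 + ⋯ + P_g`, the `P_i` good with
distinct reductions outside a given finite set `T`. -/
theorem S19CX_chart_ex [Infinite k] (S : S18_Spec L F k Fk) (hNum : S19IF_Num S D₀ n g)
    (b : Fin n → F) (hbO : ∀ i, b i ∈ S.O) (hb : ∀ i, b i ∈ riemannRochSpace D₀)
    (hspan : ∀ f ∈ riemannRochSpace D₀, ∃ c : Fin n → L, f = ∑ i, c i • b i)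
    (hred : LinearIndependent k (fun i => S.red ⟨b i, hbO i⟩))
    (good : Place L F → Prop) (hgood : ∀ Q : Place k Fk, ∃ P, S.r P = Q ∧ good P)
    (T : Finset (Place k Fk)) :
    ∃ (C : S19IF_Chart S D₀ n g) (Pl : Fin g → Place L F), C.b = b ∧
      C.B₀ = ∑ i, Finsupp.single (Pl i) (1 : ℤ) ∧ (∀ i, good (Pl i)) ∧
      Function.Injective (fun i => S.r (Pl i)) ∧ ∀ i, S.r (Pl i) ∉ T := by
  classical
  have hgk := hNum.genus_k
  subst hgk
  obtain ⟨Pl, hPg, hPinj, hPT, hPfr⟩ := S19CX_exists_B₀ S hNum.hk good hgood T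
  set B₀ : Divisor L F := ∑ i, Finsupp.single (Pl i) (1 : ℤ) with hB₀
  have hdegB : B₀.degree = (RR_genus k Fk : ℕ) := by
    rw [hB₀, S19CX_degree_B₀ S hNum.hk, Fintype.card_fin]
  have hdegrB : (S19IF_rdiv S B₀).degree = (RR_genus k Fk : ℕ) := by
    rw [S19RR_degree, hdegB]
  have hrB_nonneg : ∀ Q, 0 ≤ (S19IF_rdiv S B₀) Q :=
    S19RR_mapDomain_nonneg S.r B₀ (S19CX_sum_nonneg Pl)
  have hsp := S19CX_red_span S hNum b hbO hb hred
  have hle : riemannRochSpace (S19IF_rdiv S D₀ - S19IF_rdiv S B₀) ≤
      Submodule.span k (Set.range fun i => S.red ⟨b i, hbO i⟩) := by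
    rw [← hsp]
    exact S19CX_sub_le _ _ hrB_nonneg
  obtain ⟨P, hcard, hP⟩ := S19CX_exists_pivot_fun (fun i => S.red ⟨b i, hbO i⟩) hred
    (riemannRochSpace (S19IF_rdiv S D₀ - S19IF_rdiv S B₀)) hle
  have hfs := S19CX_finrank_sub hNum.hk (S19IF_rdiv S D₀) (S19IF_rdiv S B₀) (by
    rw [S19RR_degree]
    have h2 := hNum.deg_D₀
    have h3 : (4 * ((RR_genus k Fk : ℕ) : ℤ) + 3) ≤ n := by exact_mod_cast hNum.large
    linarith) hdegrB
  refine ⟨{ b := b
            b_mem_O := hbO
            b_mem := hb
            b_span := hspan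
            b_red := hred
            B₀ := B₀
            B₀_nonneg := by
              rw [Finsupp.le_def]
              intro Q
              exact S19CX_sum_nonneg Pl Q
            B₀_deg := hdegB
            B₀_good := hPfr
            P := P
            P_card := by
              rw [hcard, hfs, S19CX_finrank_rdiv S hNum]
            P_inj := ?_ }, Pl, rfl, rfl, hPg, hPinj, hPT⟩
  intro c hc hcP
  obtain ⟨x, -, hx⟩ := hP (fun _ => 0)
  have h0 : (0 : Fin n → k) = x := hx 0 ⟨fun _ => rfl, by
    simp only [Pi.zero_apply, zero_smul, Finset.sum_const_zero]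
    exact Submodule.zero_mem _⟩
  have hcx : c = x := hx c ⟨fun j => hcP j j.2, hc⟩
  rw [hcx, ← h0]

/-- **existence of a chart** (no extra conditions), under the lattice lemma. -/
theorem S19CX_chart_nonempty [Infinite k] (S : S18_Spec L F k Fk) (hNum : S19IF_Num S D₀ n g)
    (hLat : S19RR_Lat S) : Nonempty (S19IF_Chart S D₀ n g) := by
  classical
  haveI := RR_finite hNum.hk (S19IF_rdiv S D₀)
  have hn := S19CX_finrank_D₀ S hNum
  have hnk := S19CX_finrank_rdiv S hNum
  obtain ⟨b, h1, h2, -, h4, -⟩ := S19RR_basis hLat hNum.hL.principal D₀ (by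
    change Module.finrank k (riemannRochSpace (S19IF_rdiv S D₀)) ≤ _
    rw [hn, hnk])
  subst hn
  obtain ⟨C, -⟩ := S19CX_chart_ex S hNum (fun i => (b i : F)) (fun i => (b i).2) h1
    (fun f hf => by
      rw [h4] at hf
      obtain ⟨c, hc⟩ := (Submodule.mem_span_range_iff_exists_fun L).1 hf
      exact ⟨c, hc.symm⟩) h2 (fun _ => True)
    (fun Q => by
      obtain ⟨P, hP⟩ := S.r_surjective hNum.hL.principal Q
      exact ⟨P, hP, trivial⟩) ∅
  exact ⟨C⟩

end iface

end Fermat.Agent.S19
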