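import Mathlib
import Fermat.Agent.S19.AddCoord
import Fermat.Agent.S19.RedRR
import Fermat.Agent.S19.Iface
import Fermat.Agent.S19.ChartEx

/-!
# TRACK 9 (S19), package ADD3 / SIDE (helper19), prefix `S19AS_`

The side data of ADD3 (`S19AD_Side`, S19/AddCoord.lean) on BOTH fields at once:
orthonormal bases `c_j` of `L(j D₀)` (`j = 2, …, 5`), with structure constants in `A`, whose
reductions are bases of `L̄(j r_*D₀)` with the reduced structure constants.

* `S19AS_rdiv_nsmul`   : `r_*(j • D) = j • r_* D`;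
* `S19AS_finrank_le`   : `ℓ̄(r_*(j D₀)) ≤ ℓ(j D₀)` for `j ≥ 1`;
* `S19AS_basis`        : an orthonormal basis of `L(j D₀)` reducing to a basis of `L̄(j r_*D₀)`;
* `S19AS_sc`           : integral structure constants `a · c = ∑ sc • c'` and their reduction;
* `S19AS_sides`        : the two `S19AD_Side`'s (shape asked by helper14).
-/

set_option autoImplicit false
set_option linter.unusedSectionVars false
set_option linter.style.haveILetI false

open AlgebraicCurve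

namespace Fermat.Agent.S19

open Fermat.Agent.Lib Fermat.Agent.S17 Fermat.Agent.S18

variable {L F k Fk : Type*} [Field L] [Field F] [Algebra L F] [Field k] [Field Fk]
  [Algebra k Fk]

/-- `r_*(j • D) = j • r_* D`. -/
theorem S19AS_rdiv_nsmul (S : S18_Spec L F k Fk) (j : ℕ) (D : Divisor L F) :
    S19IF_rdiv S (j • D) = j • S19IF_rdiv S D :=
  map_nsmul (Finsupp.mapDomain.addMonoidHom S.r) j D

variable {D₀ : Divisor L F} {n g : ℕ}

/-- the degree of `j D₀` is at least `2 g` for `j ≥ 1`. -/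
theorem S19AS_two_g_le (S : S18_Spec L F k Fk) (hNum : S19IF_Num S D₀ n g) (j : ℕ) (hj : 1 ≤ j) :
    2 * (g : ℤ) ≤ (j • D₀).degree := by
  rw [S19AC_degree_nsmul]
  have h2 := hNum.deg_D₀
  have h3 : (4 * (g : ℤ) + 3) ≤ n := by exact_mod_cast hNum.large
  have h4 : (1 : ℤ) ≤ j := by exact_mod_cast hj
  have h5 : (0 : ℤ) ≤ g := Int.natCast_nonneg _
  have h6 : 2 * (g : ℤ) ≤ D₀.degree := by linarith
  have h7 : (0 : ℤ) ≤ D₀.degree := by linarith
  nlinarith

/-- `ℓ̄(r_*(j D₀)) = ℓ(j D₀)`. -/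
theorem S19AS_finrank_eq [Infinite k] (S : S18_Spec L F k Fk) (hNum : S19IF_Num S D₀ n g)
    (j : ℕ) (hj : 1 ≤ j) :
    Module.finrank k (riemannRochSpace (S19IF_rdiv S (j • D₀))) =
      Module.finrank L (riemannRochSpace (j • D₀)) := by
  haveI := S19CX_infinite S
  have hd := S19AS_two_g_le S hNum j hj
  have h1 := S17RS_riemann_eq hNum.hk (S19IF_rdiv S (j • D₀)) (by
    rw [S19RR_degree, hNum.genus_k]
    exact hd)
  have h2 := S17RS_riemann_eq hNum.hL (j • D₀) (by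
    rw [hNum.genus_L]
    exact hd)
  rw [S19RR_degree, hNum.genus_k] at h1
  rw [hNum.genus_L] at h2
  have : (Module.finrank k (riemannRochSpace (S19IF_rdiv S (j • D₀))) : ℤ) =
      (Module.finrank L (riemannRochSpace (j • D₀)) : ℤ) := by
    rw [h1, h2]
  exact_mod_cast this

/-- **orthonormal basis of `L(j D₀)`** reducing to a basis of `L̄(j r_*D₀)`. -/
theorem S19AS_basis [Infinite k] (S : S18_Spec L F k Fk) (hLat : S19RR_Lat S)
    (hNum : S19IF_Num S D₀ n g) (j : ℕ) (hj : 1 ≤ j) :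
    ∃ (m : ℕ) (c : Fin m → S.O),
      (∀ i, (c i : F) ∈ riemannRochSpace (j • D₀)) ∧
      LinearIndependent k (fun i => S.red (c i)) ∧
      LinearIndependent L (fun i => (c i : F)) ∧
      Submodule.span L (Set.range fun i => (c i : F)) = riemannRochSpace (j • D₀) ∧
      Submodule.span k (Set.range fun i => S.red (c i)) =
        riemannRochSpace (j • S19IF_rdiv S D₀) := by
  haveI := RR_finite hNum.hk (S19IF_rdiv S (j • D₀))
  obtain ⟨c, h1, h2, h3, h4, h5⟩ := S19RR_basis hLat hNum.hL.principal (j • D₀)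
    (le_of_eq (S19AS_finrank_eq S hNum j hj))
  refine ⟨_, c, h1, h2, h3, h4.symm, ?_⟩
  rw [← S19AS_rdiv_nsmul]
  exact h5.symm

/-- **integral structure constants**: `a ∈ L(D₁) ∩ O`, `c ∈ L(D₂) ∩ O`, `c'` an orthonormal
family spanning `L(D₁ + D₂)`: `a · c = ∑ sc_l c'_l` with `sc_l ∈ A`, and the same after
reduction. -/
theorem S19AS_sc (S : S18_Spec L F k Fk) {D₁ D₂ : Divisor L F} {m' : ℕ} (c' : Fin m' → S.O)
    (hc' : LinearIndependent k (fun i => S.red (c' i)))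
    (hsp : riemannRochSpace (D₁ + D₂) ≤ Submodule.span L (Set.range fun i => (c' i : F)))
    (a c : S.O) (ha : (a : F) ∈ riemannRochSpace D₁) (hc : (c : F) ∈ riemannRochSpace D₂) :
    ∃ sc : Fin m' → S.A, (a : F) * (c : F) = ∑ l, ((sc l : S.A) : L) • (c' l : F) ∧
      S.red a * S.red c = ∑ l, S.res (sc l) • S.red (c' l) := by
  classical
  have h1 : (a : F) * (c : F) ∈ Submodule.span L (Set.range fun i => (c' i : F)) :=
    hsp (S19MU_mul_mem ha hc)
  obtain ⟨γ, hγ⟩ := (Submodule.mem_span_range_iff_exists_fun L).1 h1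
  have hsum : ∑ i, algebraMap L F (γ i) * (c' i : F) = (a : F) * (c : F) := by
    rw [← hγ]
    refine Finset.sum_congr rfl fun i _ => ?_
    rw [Algebra.smul_def]
  have hγA : ∀ i, γ i ∈ S.A := by
    apply S.toVal.mem_A_of_sum_mem c' hc' γ
    rw [finsum_eq_sum_of_fintype, hsum]
    exact (a * c : S.O).2
  refine ⟨fun l => ⟨γ l, hγA l⟩, hγ.symm, ?_⟩
  set v : Fin m' → S.toVal.O := c' with hv
  have h2 : (a * c : S.toVal.O) = ∑ l, S.toVal.const ⟨γ l, hγA l⟩ * v l := by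
    apply Subtype.ext
    have h4 : (((∑ l, S.toVal.const ⟨γ l, hγA l⟩ * v l : S.toVal.O)) : F) =
        ∑ l, algebraMap L F (γ l) * (c' l : F) := by
      rw [AddSubmonoidClass.coe_finsetSum]
      rfl
    rw [h4, hsum]
    rfl
  have h3 := S.toVal.red_sum Finset.univ (fun l => (⟨γ l, hγA l⟩ : S.toVal.A)) v
  rw [← h2] at h3
  have h5 : S.toVal.red (a * c : S.toVal.O) = S.red a * S.red c := map_mul S.red a c
  rw [h5] at h3
  exact h3

/-- **SIDE**: the side data of ADD3 on `F` and on `Fk`. -/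
theorem S19AS_sides [Infinite k] (S : S18_Spec L F k Fk) (hLat : S19RR_Lat S)
    (hNum : S19IF_Num S D₀ n g) (C C' C'' : S19IF_Chart S D₀ n g) :
    ∃ (n₂ n₃ n₄ n₅ : ℕ) (c₂ : Fin n₂ → S.O) (c₃ : Fin n₃ → S.O) (c₄ : Fin n₄ → S.O)
      (c₅ : Fin n₅ → S.O)
      (sc₂ : Fin n → Fin n₂ → Fin n₃ → S.A) (sc₃ : Fin n → Fin n₃ → Fin n₄ → S.A)
      (sc₄ : Fin n → Fin n₄ → Fin n₅ → S.A),
      S19AD_Side D₀ C.b C'.b C''.b (fun i => (c₂ i : F)) (fun i => (c₃ i : F))
        (fun i => (c₄ i : F)) (fun i => (c₅ i : F)) (fun i j l => (sc₂ i j l : L))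
        (fun i j l => (sc₃ i j l : L)) (fun i j l => (sc₄ i j l : L)) ∧
      S19AD_Side (S19IF_rdiv S D₀) (fun i => S.red ⟨C.b i, C.b_mem_O i⟩)
        (fun i => S.red ⟨C'.b i, C'.b_mem_O i⟩) (fun i => S.red ⟨C''.b i, C''.b_mem_O i⟩)
        (fun i => S.red (c₂ i)) (fun i => S.red (c₃ i)) (fun i => S.red (c₄ i))
        (fun i => S.red (c₅ i))
        (fun i j l => S.res (sc₂ i j l)) (fun i j l => S.res (sc₃ i j l))
        (fun i j l => S.res (sc₄ i j l)) := by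
  classical
  obtain ⟨n₂, c₂, hm₂, hk₂, hL₂, hs₂, hr₂⟩ := S19AS_basis S hLat hNum 2 (by norm_num)
  obtain ⟨n₃, c₃, hm₃, hk₃, hL₃, hs₃, hr₃⟩ := S19AS_basis S hLat hNum 3 (by norm_num)
  obtain ⟨n₄, c₄, hm₄, hk₄, hL₄, hs₄, hr₄⟩ := S19AS_basis S hLat hNum 4 (by norm_num)
  obtain ⟨n₅, c₅, hm₅, hk₅, hL₅, hs₅, hr₅⟩ := S19AS_basis S hLat hNum 5 (by norm_num)
  -- the charts
  have hli : ∀ X : S19IF_Chart S D₀ n g, LinearIndependent L X.b := fun X =>
    S.toVal.linearIndependent_of_red (fun i => (⟨X.b i, X.b_mem_O i⟩ : S.O)) X.b_red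
  have hsp : ∀ X : S19IF_Chart S D₀ n g,
      Submodule.span L (Set.range X.b) = riemannRochSpace D₀ := by
    intro X
    apply le_antisymm
    · rw [Submodule.span_le]
      rintro _ ⟨i, rfl⟩
      exact X.b_mem i
    · intro f hf
      obtain ⟨γ, hγ⟩ := X.b_span f hf
      rw [hγ]
      exact Submodule.sum_mem _ fun i _ =>
        Submodule.smul_mem _ _ (Submodule.subset_span ⟨i, rfl⟩)
  have hspk : ∀ X : S19IF_Chart S D₀ n g,
      Submodule.span k (Set.range fun i => S.red ⟨X.b i, X.b_mem_O i⟩) =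
        riemannRochSpace (S19IF_rdiv S D₀) := fun X =>
    (S19CX_red_span S hNum X.b X.b_mem_O X.b_mem X.b_red).symm
  -- the structure constants
  have e₃ : D₀ + 2 • D₀ = 3 • D₀ := by rw [succ_nsmul' D₀ 2]
  have e₄ : D₀ + 3 • D₀ = 4 • D₀ := by rw [succ_nsmul' D₀ 3]
  have e₅ : D₀ + 4 • D₀ = 5 • D₀ := by rw [succ_nsmul' D₀ 4]
  have hsc₂ := fun (i : Fin n) (j : Fin n₂) => S19AS_sc S (D₁ := D₀) (D₂ := 2 • D₀) c₃ hk₃
    (by rw [e₃, hs₃]) ⟨C.b i, C.b_mem_O i⟩ (c₂ j) (C.b_mem i) (hm₂ j)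
  have hsc₃ := fun (i : Fin n) (j : Fin n₃) => S19AS_sc S (D₁ := D₀) (D₂ := 3 • D₀) c₄ hk₄
    (by rw [e₄, hs₄]) ⟨C'.b i, C'.b_mem_O i⟩ (c₃ j) (C'.b_mem i) (hm₃ j)
  have hsc₄ := fun (i : Fin n) (j : Fin n₄) => S19AS_sc S (D₁ := D₀) (D₂ := 4 • D₀) c₅ hk₅
    (by rw [e₅, hs₅]) ⟨C''.b i, C''.b_mem_O i⟩ (c₄ j) (C''.b_mem i) (hm₄ j)
  choose sc₂ hF₂ hk₂' using hsc₂
  choose sc₃ hF₃ hk₃' using hsc₃
  choose sc₄ hF₄ hk₄' using hsc₄
  refine ⟨n₂, n₃, n₄, n₅, c₂, c₃, c₄, c₅, sc₂, sc₃, sc₄, ?_, ?_⟩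
  · exact
      { li₁ := hli C
        li₂ := hli C'
        li₃ := hli C''
        lic₃ := hL₃
        lic₄ := hL₄
        lic₅ := hL₅
        sp₁ := hsp C
        sp₂ := hsp C'
        sp₃ := hsp C''
        spc₂ := hs₂
        spc₃ := hs₃
        spc₄ := hs₄
        mul₂ := hF₂
        mul₃ := hF₃
        mul₄ := hF₄ }
  · exact
      { li₁ := C.b_red
        li₂ := C'.b_red
        li₃ := C''.b_red
        lic₃ := hk₃
        lic₄ := hk₄
        lic₅ := hk₅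
        sp₁ := hspk C
        sp₂ := hspk C'
        sp₃ := hspk C''
        spc₂ := hr₂
        spc₃ := hr₃
        spc₄ := hr₄
        mul₂ := hk₂'
        mul₃ := hk₃'
        mul₄ := hk₄' }

end Fermat.Agent.S19
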