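import Mathlib
import Fermat.Agent.S19.Iface
import Fermat.Agent.S19.RedRR
import Fermat.Agent.S19.AddCurve

/-!
# TRACK 9 (S19), package COORD (helper9), prefix `S19CO_`: charts on `J¹`

Abstract over `S : S18_Spec L F k Fk` (TRACK 3), `hF : RR_Hyp L F`, `hk : RR_Hyp k Fk`,
`hLat : S19RR_Lat S` (the lattice lemma), `L` infinite.  `g = RR_genus L F`, `r_* = mapDomain S.r`.

* `S19CO_IsClass y D`  : the divisor `D` (of degree `0`) represents the class `y : Pic0 L F`.
* `S19CO_Chart S D₀ n` : CHART DATA `𝒞 = (b, B₀, P)`: an orthonormal basis `b` of `L(D₀)`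
  (`b i ∈ O`, reductions `k`-independent), `B₀ ≥ 0` of degree `g` with `ℓ̄(r_* B₀) ≤ 1`, a pivot
  set `P ⊂ Fin n`, `|P| + g = n`, such that an element of `L̄(r_*(D₀ − B₀))` whose
  `P`-coordinates w.r.t. `red ∘ b` vanish is `0`.
* `S19CO_IsCoord 𝒞 y M` : THE CHARACTERISATION of the coordinates: `M : Fin n → Fin n → L` is the
  echelon matrix of `W_y = L(D₀ − E_y)` w.r.t. `(b, P)`, where `E_y ≥ 0`, `[E_y − B₀] = y`:
  for `j ∈ P` the column `∑ i, M i j • b i` lies in `L(D₀ − E_y)` and has `P`-coordinates `e_j`;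
  the columns `j ∉ P` vanish.
* `S19CO_kappa 𝒞 y i j` : the coordinates (defined by the characterisation).

Main results (for `y ∈ J¹`, `deg D₀ ≥ 3 g + 1`):
* `S19CO_exists`    : `∃ M, IsCoord 𝒞 y M`;           `S19CO_unique` : it is unique;
* `S19CO_isCoord_kappa`, `S19CO_kappa_eq` : `κ` satisfies the characterisation and is determined
  by it (transport of structure for EQV);
* `S19CO_integral`  : **(g1)** `M i j ∈ A`;
* `S19CO_res_eq`    : the reductions `res (M i j)` do not depend on `y ∈ J¹`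
  (all points of `J¹` have the same reduced coordinates);
* `S19CO_sep`       : **(g3) SEP** `IsCoord 𝒞 y M`, `IsCoord 𝒞 y' M` ⇒ `y = y'`;
* `S19CO_span`      : `L(D₀ − E_y)` is spanned by the columns `j ∈ P`.
-/

set_option autoImplicit false

open AlgebraicCurve

namespace Fermat.Agent.S19

open Fermat.Agent.S18 Fermat.Agent.Lib Fermat.Agent.S17

variable {L F k Fk : Type*} [Field L] [Field F] [Algebra L F] [Field k] [Field Fk]
  [Algebra k Fk]

/-! ### classes -/

/-- `D` is a divisor of degree `0` in the class `y`. -/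
def S19CO_IsClass (y : Pic0 L F) (D : Divisor L F) : Prop :=
  ∃ h : D ∈ Divisor.degZero (K := L) (F := F), Pic0.mk ⟨D, h⟩ = y

theorem S19CO_IsClass.degree {y : Pic0 L F} {D : Divisor L F} (h : S19CO_IsClass y D) :
    D.degree = 0 := by
  obtain ⟨h, -⟩ := h
  exact h

/-- two divisors in the same class differ by a principal divisor. -/
theorem S19CO_IsClass.sub_principal {y : Pic0 L F} {D D' : Divisor L F}
    (h : S19CO_IsClass y D) (h' : S19CO_IsClass y D') : (D' - D).IsPrincipal := by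
  obtain ⟨hD, hy⟩ := h
  obtain ⟨hD', hy'⟩ := h'
  have h1 : Pic0.mk ⟨D, hD⟩ = Pic0.mk ⟨D', hD'⟩ := by rw [hy, hy']
  have h2 := (QuotientAddGroup.eq).1 h1
  rw [AddSubgroup.mem_addSubgroupOf] at h2
  have h3 : ((-(⟨D, hD⟩ : Divisor.degZero (K := L) (F := F)) + ⟨D', hD'⟩ :
      Divisor.degZero (K := L) (F := F)) : Divisor L F) = D' - D := by
    push_cast
    abel
  rw [h3] at h2
  exact h2

/-- a divisor that differs from a representative by a principal divisor is a representative. -/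
theorem S19CO_IsClass.of_sub_principal {y : Pic0 L F} {D D' : Divisor L F}
    (h : S19CO_IsClass y D) (h' : (D' - D).IsPrincipal) (hdeg : D'.degree = 0) :
    S19CO_IsClass y D' := by
  obtain ⟨hD, hy⟩ := h
  refine ⟨hdeg, ?_⟩
  rw [← hy]
  symm
  apply (QuotientAddGroup.eq).2
  rw [AddSubgroup.mem_addSubgroupOf]
  have h3 : ((-(⟨D, hD⟩ : Divisor.degZero (K := L) (F := F)) + ⟨D', hdeg⟩ :
      Divisor.degZero (K := L) (F := F)) : Divisor L F) = D' - D := by
    push_cast
    abel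
  rw [h3]
  exact h'

/-- two classes with a common representative are equal. -/
theorem S19CO_IsClass.eq {y y' : Pic0 L F} {D : Divisor L F}
    (h : S19CO_IsClass y D) (h' : S19CO_IsClass y' D) : y = y' := by
  obtain ⟨hD, hy⟩ := h
  obtain ⟨hD', hy'⟩ := h'
  rw [← hy, ← hy']

/-- every class has a representative. -/
theorem S19CO_exists_isClass (y : Pic0 L F) : ∃ D : Divisor L F, S19CO_IsClass y D := by
  obtain ⟨D, hD⟩ := Pic0.mk_surjective y
  exact ⟨D.1, D.2, hD⟩

/-- the reduction of a principal divisor is principal. -/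
theorem S19CO_mapDomain_principal (S : S18_Spec L F k Fk) {D : Divisor L F}
    (hD : D.IsPrincipal) : Divisor.IsPrincipal (Finsupp.mapDomain S.r D : Divisor k Fk) := by
  obtain ⟨f, hf0, hf⟩ := hD
  obtain ⟨c, u, hc, hu, hfu⟩ := S.exists_const_mul_unit f hf0
  have hu0 : (u : F) ≠ 0 := S.ne_zero_of_red_ne_zero hu
  have hcF : algebraMap L F c ≠ 0 := by rwa [Ne, map_eq_zero]
  refine ⟨S.red u, hu, fun Q => ?_⟩
  refine S.mapDomain_div u hu D (fun P => ?_) Q
  rw [hf P, hfu, P.ord_mul hcF hu0, S18_Spec.ord_algebraMap, zero_add]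

/-- the sum of two principal divisors is principal. -/
theorem S19CO_principal_add {K E : Type*} [Field K] [Field E] [Algebra K E]
    {D D' : Divisor K E} (h : D.IsPrincipal) (h' : D'.IsPrincipal) : (D + D').IsPrincipal :=
  (Divisor.principal (K := K) (F := E)).add_mem h h'

/-- `S19IF_J1` in terms of representatives. -/
theorem S19CO_j1_iff (S : S18_Spec L F k Fk) (y : Pic0 L F) :
    S19IF_J1 S y ↔ ∃ D : Divisor L F, S19CO_IsClass y D ∧
      Divisor.IsPrincipal (Finsupp.mapDomain S.r D : Divisor k Fk) := by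
  constructor
  · rintro ⟨D, hD, hp⟩
    exact ⟨D.1, ⟨D.2, hD⟩, hp⟩
  · rintro ⟨D, ⟨h, hD⟩, hp⟩
    exact ⟨⟨D, h⟩, hD, hp⟩

/-- for `y ∈ J¹` every representative has principal reduction. -/
theorem S19CO_j1_principal {S : S18_Spec L F k Fk} {y : Pic0 L F} (hy : S19IF_J1 S y)
    {D : Divisor L F} (hD : S19CO_IsClass y D) :
    Divisor.IsPrincipal (Finsupp.mapDomain S.r D : Divisor k Fk) := by
  obtain ⟨D₁, hD₁, hp⟩ := (S19CO_j1_iff S y).1 hy
  have h1 := S19CO_mapDomain_principal S (hD₁.sub_principal hD)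
  have h2 : D = D₁ + (D - D₁) := by abel
  rw [h2, Finsupp.mapDomain_add]
  exact S19CO_principal_add hp h1

/-! ### the key lemma: the maximum of the coordinates is attained on the pivot set -/

section Key

variable {S : S18_Spec L F k Fk} {D₀ : Divisor L F} {n g : ℕ}

/-- the basis vectors as elements of `O`. -/
def S19CO_bO (C : S19IF_Chart S D₀ n g) (i : Fin n) : S.O := ⟨C.b i, C.b_mem_O i⟩

theorem S19CO_coe_bO (C : S19IF_Chart S D₀ n g) (i : Fin n) :
    ((S19CO_bO C i : S.O) : F) = C.b i := rfl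

/-- the basis of a chart is linearly independent. -/
theorem S19CO_linearIndependent (C : S19IF_Chart S D₀ n g) : LinearIndependent L C.b :=
  S.toVal.linearIndependent_of_red (S19CO_bO C) C.b_red

/-- `r_*(D₀ − E) = r_* D₀ − r_* B₀` when `r_* E = r_* B₀`. -/
theorem S19CO_rdiv_sub (S : S18_Spec L F k Fk) (D₀ E B₀ : Divisor L F)
    (hE : S19IF_rdiv S E = S19IF_rdiv S B₀) :
    (Finsupp.mapDomain S.r (D₀ - E) : Divisor k Fk) = S19IF_rdiv S D₀ - S19IF_rdiv S B₀ := by
  rw [Finsupp.mapDomain_sub]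
  show S19IF_rdiv S D₀ - S19IF_rdiv S E = _
  rw [hE]

/-- **the key lemma**: a nonzero coordinate vector `c` of an element of `L(D₀ − E)`,
`r_* E = r_* B₀`, has a pivot `i₀` (all `c i / c i₀` integral) and a unit `c j / c i₀` with
`j ∈ P`. -/
theorem S19CO_key (hPD : HasPrincipalDivisors L F) (C : S19IF_Chart S D₀ n g)
    (E : Divisor L F) (hE : S19IF_rdiv S E = S19IF_rdiv S C.B₀)
    (c : Fin n → L) (hc : c ≠ 0)
    (hmem : ∑ i, c i • C.b i ∈ riemannRochSpace (D₀ - E)) :
    ∃ i₀, c i₀ ≠ 0 ∧ (∀ i, c i / c i₀ ∈ S.A) ∧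
      ∃ j ∈ C.P, ∃ h : c j / c i₀ ∈ S.A, S.res ⟨c j / c i₀, h⟩ ≠ 0 := by
  classical
  obtain ⟨i₀, hi₀, hpiv⟩ := S18_L_exists_pivot S.A c hc
  refine ⟨i₀, hi₀, hpiv, ?_⟩
  set c' : Fin n → S.toVal.A := fun i => ⟨c i / c i₀, hpiv i⟩ with hc'
  set bV : Fin n → S.toVal.O := fun i => ⟨C.b i, C.b_mem_O i⟩ with hbV
  set x : S.toVal.O := ∑ i, S.toVal.const (c' i) * bV i with hx
  have hxF : (x : F) = (c i₀)⁻¹ • ∑ i, c i • C.b i := by
    rw [hx, Finset.smul_sum]
    push_cast
    refine Finset.sum_congr rfl fun i _ => ?_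
    show algebraMap L F (c i / c i₀) * C.b i = _
    rw [smul_smul, Algebra.smul_def, div_eq_inv_mul]
  have hxmem : (x : F) ∈ riemannRochSpace (D₀ - E) := by
    rw [hxF]
    exact Submodule.smul_mem _ _ hmem
  have hred : S.toVal.red x = ∑ i, S.toVal.res (c' i) • S.toVal.red (bV i) :=
    S.toVal.red_sum Finset.univ c' bV
  have hredmem := S19RR_red_mem S hPD (D₀ - E) x hxmem
  rw [S19CO_rdiv_sub S D₀ E C.B₀ hE] at hredmem
  have hredmem' : (∑ i, S.res (c' i) • S.red ⟨C.b i, C.b_mem_O i⟩) ∈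
      riemannRochSpace (S19IF_rdiv S D₀ - S19IF_rdiv S C.B₀) := by
    have : S.red x = ∑ i, S.res (c' i) • S.red ⟨C.b i, C.b_mem_O i⟩ := hred
    rw [← this]
    exact hredmem
  by_contra hcon
  push Not at hcon
  have h0 : (fun i => S.res (c' i)) = 0 :=
    C.P_inj (fun i => S.res (c' i)) hredmem' (fun j hj => hcon j hj (hpiv j))
  have h1 : S.res ⟨c i₀ / c i₀, hpiv i₀⟩ = 0 := congrFun h0 i₀
  have h2 : (⟨c i₀ / c i₀, hpiv i₀⟩ : S.A) = 1 := by
    apply Subtype.ext
    simp [div_self hi₀]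
  rw [h2, map_one] at h1
  exact one_ne_zero h1

/-- **(K1)** a coordinate vector of an element of `L(D₀ − E)` which vanishes on the pivot set
vanishes. -/
theorem S19CO_eq_zero (hPD : HasPrincipalDivisors L F) (C : S19IF_Chart S D₀ n g)
    (E : Divisor L F) (hE : S19IF_rdiv S E = S19IF_rdiv S C.B₀)
    (c : Fin n → L) (hmem : ∑ i, c i • C.b i ∈ riemannRochSpace (D₀ - E))
    (hP : ∀ j ∈ C.P, c j = 0) : c = 0 := by
  by_contra hc
  obtain ⟨i₀, -, -, j, hj, h, hres⟩ := S19CO_key hPD C E hE c hc hmem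
  apply hres
  have : (⟨c j / c i₀, h⟩ : S.A) = 0 := by
    apply Subtype.ext
    simp [hP j hj]
  rw [this, map_zero]

/-- **(K2)** a coordinate vector of an element of `L(D₀ − E)` which is integral on the pivot
set is integral. -/
theorem S19CO_mem_A (hPD : HasPrincipalDivisors L F) (C : S19IF_Chart S D₀ n g)
    (E : Divisor L F) (hE : S19IF_rdiv S E = S19IF_rdiv S C.B₀)
    (c : Fin n → L) (hmem : ∑ i, c i • C.b i ∈ riemannRochSpace (D₀ - E))
    (hP : ∀ j ∈ C.P, c j ∈ S.A) (i : Fin n) : c i ∈ S.A := by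
  by_cases hc : c = 0
  · rw [hc]
    exact S.A.zero_mem
  obtain ⟨i₀, hi₀, hpiv, j, hj, h, hres⟩ := S19CO_key hPD C E hE c hc hmem
  have hu : IsUnit (⟨c j / c i₀, h⟩ : S.A) := by
    by_contra hnu
    exact hres ((S.res_eq_zero_iff _).2 hnu)
  obtain ⟨u, hu⟩ := hu
  have hcj : c j ≠ 0 := by
    intro h0
    apply hres
    have : (⟨c j / c i₀, h⟩ : S.A) = 0 := by
      apply Subtype.ext
      simp [h0]
    rw [this, map_zero]
  have h1 : ((u : S.A) : L) = c j / c i₀ := congrArg Subtype.val hu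
  have h2 : ((u : S.A) : L) * (((u⁻¹ : S.Aˣ) : S.A) : L) = 1 := by
    exact_mod_cast congrArg (fun z : S.A => (z : L)) u.mul_inv
  have h3 : c i₀ = c j * (((u⁻¹ : S.Aˣ) : S.A) : L) := by
    rw [h1] at h2
    field_simp at h2
    linear_combination -h2
  have h4 : c i₀ ∈ S.A := by
    rw [h3]
    exact S.A.mul_mem _ _ (hP j hj) ((u⁻¹ : S.Aˣ) : S.A).2
  have h5 : c i = c i / c i₀ * c i₀ := by
    rw [div_mul_cancel₀ _ hi₀]
  rw [h5]
  exact S.A.mul_mem _ _ (hpiv i) h4

end Key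

/-! ### the divisor `E_y` -/

section Chart

variable {S : S18_Spec L F k Fk} {D₀ : Divisor L F} {n g : ℕ}

/-- `L` is infinite as soon as `k` is. -/
theorem S19CO_infinite (S : S18_Spec L F k Fk) [Infinite k] : Infinite L := by
  have h1 : Infinite S.A := Infinite.of_surjective S.res S.res_surjective
  exact Infinite.of_injective (fun a : S.A => (a : L)) Subtype.val_injective

/-- every class is of the form `[E − B₀]` with `E ≥ 0`. -/
theorem S19CO_exists_E (hN : S19IF_Num S D₀ n g) (C : S19IF_Chart S D₀ n g) (y : Pic0 L F) :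
    ∃ E : Divisor L F, 0 ≤ E ∧ S19CO_IsClass y (E - C.B₀) := by
  obtain ⟨D₁, hD₁⟩ := S19CO_exists_isClass y
  have hdeg : (D₁ + C.B₀).degree = g := by
    rw [map_add, hD₁.degree, C.B₀_deg, zero_add]
  obtain ⟨f, hf0, hf⟩ := S19AC_exists_ne_zero hN.hL (D₁ + C.B₀) (by
    rw [hdeg, hN.genus_L])
  refine ⟨RR_div hN.hL.principal f + (D₁ + C.B₀), S19MU_div_add_nonneg hN.hL hf0 hf, ?_⟩
  have h1 : RR_div hN.hL.principal f + (D₁ + C.B₀) - C.B₀ - D₁ = RR_div hN.hL.principal f := by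
    abel
  refine hD₁.of_sub_principal ?_ ?_
  · rw [h1]
    exact ⟨f, hf0, fun v => RR_div_apply _ f v⟩
  · have h2 : RR_div hN.hL.principal f + (D₁ + C.B₀) - C.B₀ =
        RR_div hN.hL.principal f + D₁ := by abel
    rw [h2, map_add, RR_div_degree, hD₁.degree, add_zero]

/-- **the chart facts**: for `y ∈ J¹` and `E ≥ 0` with `[E − B₀] = y`: `r_* E = r_* B₀`,
`deg E = g`, `dim L(D₀ − E) = |P|`, and `E` is unique. -/
theorem S19CO_chart_facts [Infinite k] (hN : S19IF_Num S D₀ n g) (hLat : S19RR_Lat S)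
    (C : S19IF_Chart S D₀ n g) {y : Pic0 L F} (hy : S19IF_J1 S y) (E : Divisor L F)
    (hE : 0 ≤ E) (hcl : S19CO_IsClass y (E - C.B₀)) :
    S19IF_rdiv S E = S19IF_rdiv S C.B₀ ∧ E.degree = g ∧
    Module.finrank L (riemannRochSpace (D₀ - E)) = C.P.card ∧
    ∀ E' : Divisor L F, 0 ≤ E' → S19CO_IsClass y (E' - C.B₀) → E' = E := by
  have hL := S19CO_infinite S
  have hPD := hN.hL.principal
  obtain ⟨w, -, hw⟩ := S19CO_j1_principal hy hcl
  have hfin : FiniteDimensional k
      (riemannRochSpace (Finsupp.mapDomain S.r C.B₀ : Divisor k Fk)) := RR_finite hN.hk _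
  have hB : ∀ P, 0 ≤ C.B₀ P := fun P => by
    have := C.B₀_nonneg
    rw [Finsupp.le_def] at this
    simpa using this P
  have hE' : ∀ P, 0 ≤ E P := fun P => by
    have := hE
    rw [Finsupp.le_def] at this
    simpa using this P
  obtain ⟨h1, -, -, h4⟩ := S19RR_chart hPD hLat C.B₀ E hB hE' (le_of_eq C.B₀_good) w hw
  have hdegE : E.degree = g := by
    have := hcl.degree
    rw [map_sub, C.B₀_deg] at this
    linarith
  refine ⟨h1, hdegE, ?_, ?_⟩
  · have hn := hN.large
    have hd : (D₀ - E).degree = ((n - 1 : ℕ) : ℤ) := by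
      have := hN.deg_D₀
      rw [map_sub, hdegE]
      have h5 : ((n - 1 : ℕ) : ℤ) = (n : ℤ) - 1 := by
        rw [Nat.cast_sub (by omega)]
        simp
      rw [h5]
      linarith
    have := S19AC_finrank hN.hL (D₀ - E) (n - 1) hd (by rw [hN.genus_L]; omega)
    rw [this, hN.genus_L]
    have := C.P_card
    omega
  · intro E₁ hE₁ hcl₁
    obtain ⟨φ, -, hφ⟩ := hcl.sub_principal hcl₁
    have hE₁' : ∀ P, 0 ≤ E₁ P := fun P => by
      have := hE₁
      rw [Finsupp.le_def] at this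
      simpa using this P
    refine h4 E₁ φ hE₁' (fun P => ?_)
    rw [← hφ P]
    simp

end Chart

/-! ### the coordinates -/

section Coord

variable {S : S18_Spec L F k Fk} {D₀ : Divisor L F} {n g : ℕ}

/-- the coefficient vector of the `j`-th column `b_j + ∑ i, κ (i, j) b_i`. -/
def S19CO_coef (κ : Fin n × Fin n → L) (j : Fin n) (i : Fin n) : L :=
  (if i = j then 1 else 0) + κ (i, j)

/-- the `j`-th column in terms of its coefficient vector. -/
theorem S19CO_sum_coef (C : S19IF_Chart S D₀ n g) (κ : Fin n × Fin n → L) (j : Fin n) :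
    ∑ i, S19CO_coef κ j i • C.b i = C.b j + ∑ i, κ (i, j) • C.b i := by
  classical
  simp only [S19CO_coef, add_smul, Finset.sum_add_distrib, ite_smul, one_smul, zero_smul]
  rw [Finset.sum_ite_eq' Finset.univ j C.b]
  simp

/-- on the pivot set the coefficient vector of the `j`-th column is `e_j`. -/
theorem S19CO_coef_pivot (C : S19IF_Chart S D₀ n g) {κ : Fin n × Fin n → L}
    (hκ : ∀ i j, (i ∈ C.P ∨ j ∉ C.P) → κ (i, j) = 0) (j i : Fin n) (hi : i ∈ C.P) :
    S19CO_coef κ j i = if i = j then 1 else 0 := by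
  rw [S19CO_coef, hκ i j (Or.inl hi), add_zero]

/-- the linear map `c ↦ ∑ i, c i • b i`. -/
noncomputable def S19CO_Phi (C : S19IF_Chart S D₀ n g) : (Fin n → L) →ₗ[L] F :=
  Fintype.linearCombination L C.b

theorem S19CO_Phi_apply (C : S19IF_Chart S D₀ n g) (c : Fin n → L) :
    S19CO_Phi C c = ∑ i, c i • C.b i := by
  rw [S19CO_Phi, Fintype.linearCombination_apply]

theorem S19CO_Phi_injective (C : S19IF_Chart S D₀ n g) : Function.Injective (S19CO_Phi C) := by
  rw [← LinearMap.ker_eq_bot, LinearMap.ker_eq_bot']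
  intro c hc
  rw [S19CO_Phi_apply] at hc
  have := Fintype.linearIndependent_iff.1 (S19CO_linearIndependent C) c hc
  exact funext this

/-- **COORD, existence and integrality (g1)**. -/
theorem S19CO_coordEx [Infinite k] (hN : S19IF_Num S D₀ n g) (hLat : S19RR_Lat S)
    (C : S19IF_Chart S D₀ n g) : S19IF_CoordEx C := by
  classical
  intro y hy
  have hPD := hN.hL.principal
  obtain ⟨E, hE, hcl⟩ := S19CO_exists_E hN C y
  obtain ⟨hrE, hdegE, hfr, -⟩ := S19CO_chart_facts hN hLat C hy E hE hcl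
  -- the space of coefficient vectors
  set W' : Submodule L (Fin n → L) := Submodule.comap (S19CO_Phi C) (riemannRochSpace (D₀ - E))
    with hW'
  have hle : riemannRochSpace (D₀ - E) ≤ riemannRochSpace D₀ := by
    intro f hf
    rcases eq_or_ne f 0 with rfl | hf0
    · exact Submodule.zero_mem _
    rw [S17RS_mem_iff_ord hf0] at hf ⊢
    intro v
    have h1 := hf v
    have h2 : 0 ≤ E v := by
      have := hE
      rw [Finsupp.le_def] at this
      simpa using this v
    rw [Finsupp.sub_apply] at h1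
    linarith
  have hmemW : ∀ c : W', ∑ i, (c : Fin n → L) i • C.b i ∈ riemannRochSpace (D₀ - E) := by
    intro c
    have h : S19CO_Phi C (c : Fin n → L) ∈ riemannRochSpace (D₀ - E) := c.2
    rw [S19CO_Phi_apply] at h
    exact h
  -- `Φ : W' ≃ L(D₀ − E)`
  have hfin : FiniteDimensional L (riemannRochSpace (D₀ - E)) := RR_finite hN.hL _
  set Ψ : W' →ₗ[L] riemannRochSpace (D₀ - E) :=
    (S19CO_Phi C).restrict (p := W') (q := riemannRochSpace (D₀ - E)) (fun c hc => hc) with hΨ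
  have hΨinj : Function.Injective Ψ := by
    intro c c' h
    apply Subtype.ext
    apply S19CO_Phi_injective C
    exact congrArg Subtype.val h
  have hΨsurj : Function.Surjective Ψ := by
    rintro ⟨f, hf⟩
    obtain ⟨c, hc⟩ := C.b_span f (hle hf)
    have hcW : c ∈ W' := by
      show S19CO_Phi C c ∈ riemannRochSpace (D₀ - E)
      rw [S19CO_Phi_apply, ← hc]
      exact hf
    refine ⟨⟨c, hcW⟩, ?_⟩
    apply Subtype.ext
    show S19CO_Phi C c = f
    rw [S19CO_Phi_apply, ← hc]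
  have hfrW : Module.finrank L W' = C.P.card := by
    rw [← hfr]
    exact (LinearEquiv.ofBijective Ψ ⟨hΨinj, hΨsurj⟩).finrank_eq
  -- the restriction to the pivot set
  set ρ : W' →ₗ[L] (C.P → L) :=
    (LinearMap.funLeft L L (Subtype.val : C.P → Fin n)) ∘ₗ W'.subtype with hρ
  have hρapp : ∀ (c : W') (j : C.P), ρ c j = (c : Fin n → L) j := fun c j => rfl
  have hρinj : Function.Injective ρ := by
    rw [← LinearMap.ker_eq_bot, LinearMap.ker_eq_bot']
    intro c hc
    apply Subtype.ext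
    have hmem : ∑ i, (c : Fin n → L) i • C.b i ∈ riemannRochSpace (D₀ - E) := hmemW c
    refine S19CO_eq_zero hPD C E hrE _ hmem (fun j hj => ?_)
    have := congrFun hc ⟨j, hj⟩
    rw [hρapp] at this
    exact this
  have hρsurj : Function.Surjective ρ := by
    refine (LinearMap.injective_iff_surjective_of_finrank_eq_finrank ?_).1 hρinj
    rw [hfrW, Module.finrank_fintype_fun_eq_card, Fintype.card_coe]
  choose cc hcc using fun j : C.P => hρsurj (Pi.single j 1)
  have hccP : ∀ (j : C.P) (i : Fin n) (hi : i ∈ C.P),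
      (cc j : Fin n → L) i = if i = (j : Fin n) then 1 else 0 := by
    intro j i hi
    have := congrFun (hcc j) ⟨i, hi⟩
    rw [hρapp] at this
    rw [this, Pi.single_apply]
    by_cases h : i = (j : Fin n)
    · rw [if_pos h, if_pos (Subtype.ext h)]
    · rw [if_neg h, if_neg (fun h' => h (congrArg Subtype.val h'))]
  have hccmem : ∀ j : C.P, ∑ i, (cc j : Fin n → L) i • C.b i ∈ riemannRochSpace (D₀ - E) :=
    fun j => hmemW (cc j)
  have hccA : ∀ (j : C.P) (i : Fin n), (cc j : Fin n → L) i ∈ S.A := by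
    intro j i
    refine S19CO_mem_A hPD C E hrE _ (hccmem j) (fun i' hi' => ?_) i
    rw [hccP j i' hi']
    split_ifs
    · exact S.A.one_mem
    · exact S.A.zero_mem
  -- the coordinates
  set κ : Fin n × Fin n → L := fun p =>
    if h : p.2 ∈ C.P then (if p.1 ∈ C.P then 0 else (cc ⟨p.2, h⟩ : Fin n → L) p.1) else 0
    with hκ
  have hκ0 : ∀ i j, (i ∈ C.P ∨ j ∉ C.P) → κ (i, j) = 0 := by
    intro i j h
    simp only [hκ]
    rcases h with h | h
    · split_ifs <;> rfl
    · rw [dif_neg h]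
  refine ⟨κ, ⟨hκ0, E, hE, hcl, fun j hj => ?_⟩, fun p => ?_⟩
  · rw [← S19CO_sum_coef]
    have : ∀ i, S19CO_coef κ j i = (cc ⟨j, hj⟩ : Fin n → L) i := by
      intro i
      by_cases hi : i ∈ C.P
      · rw [S19CO_coef_pivot C hκ0 j i hi, hccP ⟨j, hj⟩ i hi]
      · have hij : i ≠ j := fun h => hi (h ▸ hj)
        simp only [S19CO_coef, hκ, if_neg hij, zero_add, dif_pos hj, if_neg hi]
    simp only [this]
    exact hccmem ⟨j, hj⟩
  · simp only [hκ]
    split_ifs
    · exact S.A.zero_mem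
    · exact hccA _ _
    · exact S.A.zero_mem

/-- **COORD, uniqueness**. -/
theorem S19CO_coordUniq [Infinite k] (hN : S19IF_Num S D₀ n g) (hLat : S19RR_Lat S)
    (C : S19IF_Chart S D₀ n g) : S19IF_CoordUniq C := by
  classical
  rintro y κ κ' hy ⟨hκ0, E, hE, hcl, hκ⟩ ⟨hκ0', E', hE', hcl', hκ'⟩
  have hPD := hN.hL.principal
  obtain ⟨hrE, -, -, huniq⟩ := S19CO_chart_facts hN hLat C hy E hE hcl
  have hEE : E' = E := huniq E' hE' hcl'
  subst hEE
  funext ⟨i, j⟩
  by_cases hj : j ∈ C.P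
  · have hmem : ∑ i, (S19CO_coef κ j i - S19CO_coef κ' j i) • C.b i ∈
        riemannRochSpace (D₀ - E') := by
      simp only [sub_smul, Finset.sum_sub_distrib]
      rw [S19CO_sum_coef, S19CO_sum_coef]
      exact Submodule.sub_mem _ (hκ j hj) (hκ' j hj)
    have h0 := S19CO_eq_zero hPD C E' hrE _ hmem (fun i' hi' => by
      rw [S19CO_coef_pivot C hκ0 j i' hi', S19CO_coef_pivot C hκ0' j i' hi', sub_self])
    have := congrFun h0 i
    simp only [S19CO_coef, Pi.zero_apply] at this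
    linear_combination this
  · rw [hκ0 i j (Or.inr hj), hκ0' i j (Or.inr hj)]

/-- **(g1)** the coordinates of a point of `J¹` are integral. -/
theorem S19CO_integral [Infinite k] (hN : S19IF_Num S D₀ n g) (hLat : S19RR_Lat S)
    (C : S19IF_Chart S D₀ n g) {y : Pic0 L F} (hy : S19IF_J1 S y) {κ : Fin n × Fin n → L}
    (hκ : S19IF_IsCoord C y κ) (p : Fin n × Fin n) : κ p ∈ S.A := by
  obtain ⟨κ₀, hκ₀, hint⟩ := S19CO_coordEx hN hLat C y hy
  rw [S19CO_coordUniq hN hLat C y κ κ₀ hy hκ hκ₀]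
  exact hint p

/-- **the span**: `L(D₀ − E_y)` is spanned by the columns `j ∈ P`: an element with coefficient
vector `c` is `∑_{j ∈ P} c j • (b_j + ∑ i, κ (i, j) b_i)`. -/
theorem S19CO_span [Infinite k] (hN : S19IF_Num S D₀ n g) (hLat : S19RR_Lat S)
    (C : S19IF_Chart S D₀ n g) {y : Pic0 L F} (hy : S19IF_J1 S y) (E : Divisor L F)
    (hE : 0 ≤ E) (hcl : S19CO_IsClass y (E - C.B₀)) {κ : Fin n × Fin n → L}
    (hκ0 : ∀ i j, (i ∈ C.P ∨ j ∉ C.P) → κ (i, j) = 0)
    (hκ : ∀ j ∈ C.P, C.b j + ∑ i, κ (i, j) • C.b i ∈ riemannRochSpace (D₀ - E))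
    (c : Fin n → L) (hc : ∑ i, c i • C.b i ∈ riemannRochSpace (D₀ - E)) :
    ∑ i, c i • C.b i = ∑ j ∈ C.P, c j • (C.b j + ∑ i, κ (i, j) • C.b i) := by
  classical
  have hPD := hN.hL.principal
  obtain ⟨hrE, -, -, -⟩ := S19CO_chart_facts hN hLat C hy E hE hcl
  have hsum : ∑ j ∈ C.P, c j • (C.b j + ∑ i, κ (i, j) • C.b i) =
      ∑ i, (∑ j ∈ C.P, c j * S19CO_coef κ j i) • C.b i := by
    simp only [Finset.sum_smul, ← S19CO_sum_coef, Finset.smul_sum, smul_smul]
    exact Finset.sum_comm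
  have hmem : ∑ i, (c i - ∑ j ∈ C.P, c j * S19CO_coef κ j i) • C.b i ∈
      riemannRochSpace (D₀ - E) := by
    simp only [sub_smul, Finset.sum_sub_distrib]
    rw [← hsum]
    refine Submodule.sub_mem _ hc (Submodule.sum_mem _ fun j hj => ?_)
    exact Submodule.smul_mem _ _ (hκ j hj)
  have h0 := S19CO_eq_zero hPD C E hrE _ hmem (fun i hi => by
    have : ∑ j ∈ C.P, c j * S19CO_coef κ j i = c i := by
      have h1 : ∀ j ∈ C.P, c j * S19CO_coef κ j i = if i = j then c j else 0 := by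
        intro j _
        rw [S19CO_coef_pivot C hκ0 j i hi]
        split_ifs <;> simp
      rw [Finset.sum_congr rfl h1, Finset.sum_ite_eq C.P i c, if_pos hi]
    rw [this, sub_self])
  rw [hsum]
  refine Finset.sum_congr rfl fun i _ => ?_
  have := congrFun h0 i
  simp only [Pi.zero_apply] at this
  rw [sub_eq_zero.1 this]

/-- **SEP (g3)**: the coordinates separate the points of `J¹`. -/
theorem S19CO_sep [Infinite k] (hN : S19IF_Num S D₀ n g) (hLat : S19RR_Lat S)
    (C : S19IF_Chart S D₀ n g) : S19IF_Sep C := by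
  classical
  rintro y y' κ hy hy' ⟨hκ0, E, hE, hcl, hκ⟩ ⟨-, E', hE', hcl', hκ'⟩
  have hL := S19CO_infinite S
  have hPD := hN.hL.principal
  obtain ⟨-, hdegE, -, -⟩ := S19CO_chart_facts hN hLat C hy E hE hcl
  obtain ⟨-, hdegE', -, -⟩ := S19CO_chart_facts hN hLat C hy' E' hE' hcl'
  have hposE : ∀ {E₁ : Divisor L F}, 0 ≤ E₁ →
      riemannRochSpace (D₀ - E₁) ≤ riemannRochSpace D₀ := by
    intro E₁ hE₁ f hf
    rcases eq_or_ne f 0 with rfl | hf0
    · exact Submodule.zero_mem _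
    rw [S17RS_mem_iff_ord hf0] at hf ⊢
    intro v
    have h1 := hf v
    have h2 : 0 ≤ E₁ v := by
      have := hE₁
      rw [Finsupp.le_def] at this
      simpa using this v
    rw [Finsupp.sub_apply] at h1
    linarith
  have key : ∀ {y₁ y₂ : Pic0 L F} {E₁ E₂ : Divisor L F}, S19IF_J1 S y₁ → 0 ≤ E₁ →
      S19CO_IsClass y₁ (E₁ - C.B₀) →
      (∀ j ∈ C.P, C.b j + ∑ i, κ (i, j) • C.b i ∈ riemannRochSpace (D₀ - E₁)) →
      (∀ j ∈ C.P, C.b j + ∑ i, κ (i, j) • C.b i ∈ riemannRochSpace (D₀ - E₂)) →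
      riemannRochSpace (D₀ - E₁) ≤ riemannRochSpace (D₀ - E₂) := by
    intro y₁ y₂ E₁ E₂ hy₁ hE₁ hcl₁ h₁ h₂ f hf
    obtain ⟨c, hc⟩ := C.b_span f (hposE hE₁ hf)
    rw [hc] at hf ⊢
    rw [S19CO_span hN hLat C hy₁ E₁ hE₁ hcl₁ hκ0 h₁ c hf]
    exact Submodule.sum_mem _ fun j hj => Submodule.smul_mem _ _ (h₂ j hj)
  have heq : riemannRochSpace (D₀ - E) = riemannRochSpace (D₀ - E') :=
    le_antisymm (key (y₂ := y') hy hE hcl hκ hκ') (key (y₂ := y) hy' hE' hcl' hκ' hκ)
  have hdeg : ∀ {E₁ : Divisor L F}, E₁.degree = g →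
      2 * (RR_genus L F : ℤ) + 1 ≤ (D₀ - E₁).degree := by
    intro E₁ h
    have h1 := hN.deg_D₀
    have h2 := hN.large
    rw [map_sub, h, hN.genus_L]
    have h3 : (4 * (g : ℤ) + 3 ≤ n) := by exact_mod_cast h2
    linarith
  have hDE := S19AC_base_locus hN.hL (D₀ - E) (D₀ - E') (hdeg hdegE) (hdeg hdegE') heq
  have hEE : E = E' := by
    have := congrArg (fun D => D₀ - D) hDE
    simpa using this
  subst hEE
  exact S19CO_IsClass.eq (D := E - C.B₀) hcl hcl'

/-- the reduction of an integral combination of the basis which lies in `L(D₀ − E)`,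
`r_* E = r_* B₀`, lies in `L̄(r_* D₀ − r_* B₀)`. -/
theorem S19CO_red_col (hPD : HasPrincipalDivisors L F) (C : S19IF_Chart S D₀ n g)
    (E : Divisor L F) (hE : S19IF_rdiv S E = S19IF_rdiv S C.B₀)
    (c : Fin n → L) (hcA : ∀ i, c i ∈ S.A)
    (hmem : ∑ i, c i • C.b i ∈ riemannRochSpace (D₀ - E)) :
    (∑ i, S.res ⟨c i, hcA i⟩ • S.red ⟨C.b i, C.b_mem_O i⟩) ∈
      riemannRochSpace (S19IF_rdiv S D₀ - S19IF_rdiv S C.B₀) := by
  set c' : Fin n → S.toVal.A := fun i => ⟨c i, hcA i⟩ with hc'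
  set bV : Fin n → S.toVal.O := fun i => ⟨C.b i, C.b_mem_O i⟩ with hbV
  set x : S.toVal.O := ∑ i, S.toVal.const (c' i) * bV i with hx
  have hxF : (x : F) = ∑ i, c i • C.b i := by
    rw [hx]
    push_cast
    refine Finset.sum_congr rfl fun i _ => ?_
    show algebraMap L F (c i) * C.b i = _
    rw [Algebra.smul_def]
  have hxmem : (x : F) ∈ riemannRochSpace (D₀ - E) := by
    rw [hxF]
    exact hmem
  have hred : S.toVal.red x = ∑ i, S.toVal.res (c' i) • S.toVal.red (bV i) :=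
    S.toVal.red_sum Finset.univ c' bV
  have hredmem := S19RR_red_mem S hPD (D₀ - E) x hxmem
  rw [S19CO_rdiv_sub S D₀ E C.B₀ hE] at hredmem
  have : S.red x = ∑ i, S.res ⟨c i, hcA i⟩ • S.red ⟨C.b i, C.b_mem_O i⟩ := hred
  rw [← this]
  exact hredmem

/-- **the reduced coordinates do not depend on the point of `J¹`**: all points of `J¹` have
the same coordinates modulo the maximal ideal of `A`. -/
theorem S19CO_res_eq [Infinite k] (hN : S19IF_Num S D₀ n g) (hLat : S19RR_Lat S)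
    (C : S19IF_Chart S D₀ n g) {y y' : Pic0 L F} (hy : S19IF_J1 S y) (hy' : S19IF_J1 S y')
    {κ κ' : Fin n × Fin n → L} (hκ : S19IF_IsCoord C y κ) (hκ' : S19IF_IsCoord C y' κ')
    (p : Fin n × Fin n) (h : κ p ∈ S.A) (h' : κ' p ∈ S.A) :
    S.res ⟨κ p, h⟩ = S.res ⟨κ' p, h'⟩ := by
  classical
  have hPD := hN.hL.principal
  have hint := S19CO_integral hN hLat C hy hκ
  have hint' := S19CO_integral hN hLat C hy' hκ'
  obtain ⟨hκ0, E, hE, hcl, hκm⟩ := hκ
  obtain ⟨hκ0', E', hE', hcl', hκm'⟩ := hκ'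
  obtain ⟨hrE, -, -, -⟩ := S19CO_chart_facts hN hLat C hy E hE hcl
  obtain ⟨hrE', -, -, -⟩ := S19CO_chart_facts hN hLat C hy' E' hE' hcl'
  obtain ⟨i, j⟩ := p
  by_cases hj : j ∈ C.P
  · have hcA : ∀ (κ₁ : Fin n × Fin n → L), (∀ p, κ₁ p ∈ S.A) → ∀ i, S19CO_coef κ₁ j i ∈ S.A := by
      intro κ₁ h₁ i
      rw [S19CO_coef]
      refine S.A.add_mem _ _ ?_ (h₁ _)
      split_ifs
      · exact S.A.one_mem
      · exact S.A.zero_mem
    have h1 := S19CO_red_col hPD C E hrE (S19CO_coef κ j) (hcA κ hint) (by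
      rw [S19CO_sum_coef]
      exact hκm j hj)
    have h2 := S19CO_red_col hPD C E' hrE' (S19CO_coef κ' j) (hcA κ' hint') (by
      rw [S19CO_sum_coef]
      exact hκm' j hj)
    have h3 := Submodule.sub_mem _ h1 h2
    rw [← Finset.sum_sub_distrib] at h3
    simp only [← sub_smul] at h3
    have h4 := C.P_inj _ h3 (fun i' hi' => by
      have e1 : (⟨S19CO_coef κ j i', hcA κ hint i'⟩ : S.A) =
          ⟨S19CO_coef κ' j i', hcA κ' hint' i'⟩ := by
        apply Subtype.ext
        show S19CO_coef κ j i' = S19CO_coef κ' j i'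
        rw [S19CO_coef_pivot C hκ0 j i' hi', S19CO_coef_pivot C hκ0' j i' hi']
      rw [e1, sub_self])
    have h5 := congrFun h4 i
    simp only [Pi.zero_apply] at h5
    have e2 : (⟨S19CO_coef κ j i, hcA κ hint i⟩ : S.A) =
        (if i = j then 1 else 0) + ⟨κ (i, j), h⟩ := by
      apply Subtype.ext
      show S19CO_coef _ j i = _
      simp only [S19CO_coef]
      push_cast
      split_ifs <;> simp
    have e3 : (⟨S19CO_coef κ' j i, hcA κ' hint' i⟩ : S.A) =
        (if i = j then 1 else 0) + ⟨κ' (i, j), h'⟩ := by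
      apply Subtype.ext
      show S19CO_coef _ j i = _
      simp only [S19CO_coef]
      push_cast
      split_ifs <;> simp
    rw [e2, e3, map_add, map_add] at h5
    linear_combination h5
  · have e1 : (⟨κ (i, j), h⟩ : S.A) = ⟨κ' (i, j), h'⟩ := by
      apply Subtype.ext
      show κ (i, j) = κ' (i, j)
      rw [hκ0 i j (Or.inr hj), hκ0' i j (Or.inr hj)]
    rw [e1]

/-- **COORD**: the three statements of the package. -/
theorem S19CO_main [Infinite k] (hN : S19IF_Num S D₀ n g) (hLat : S19RR_Lat S)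
    (C : S19IF_Chart S D₀ n g) : S19IF_CoordEx C ∧ S19IF_CoordUniq C ∧ S19IF_Sep C :=
  ⟨S19CO_coordEx hN hLat C, S19CO_coordUniq hN hLat C, S19CO_sep hN hLat C⟩

end Coord

end Fermat.Agent.S19
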