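import Mathlib
import Fermat.Agent.S19.Add3Fam
import Fermat.Agent.S19.AddSide
import Fermat.Agent.S19.AddAux
import Fermat.Agent.S19.AddConst
import Fermat.Agent.S19.Coord

/-!
# TRACK 9 (S19), package ADD3, the core of the assembly (helper14), prefix `S19A3_`

`S19A3_core`: over an abstract local ring `B` of functions (`S19LB_Loc ev π`, constants
`cst : S.A → B`), if the coordinate spaces of `x q` (chart `C`) and of `y q` (chart `C'`) are
`B`-families reducing to the coordinate spaces of the base divisors, then so are the coordinate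
spaces of `x q + y q` (chart `C''`).

Inputs: `S19AF_main` (the family theorem), `S19AS_sides` (helper19), `S19AX_exists_s'`,
`S19AX_disj` (helper9), `S19AK_const` (helper6), `S19RR_chart_unique` (helper5).
-/

set_option autoImplicit false
set_option linter.unusedSectionVars false
set_option linter.unusedVariables false

open AlgebraicCurve

namespace Fermat.Agent.S19

open Fermat.Agent.S18 Fermat.Agent.Lib Fermat.Agent.S17

variable {L F k Fk : Type*} [Field L] [Field F] [Algebra L F] [Field k] [Field Fk]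
  [Algebra k Fk] {S : S18_Spec L F k Fk} {D₀ : Divisor L F} {n g : ℕ}

/-- representatives add. -/
theorem S19A3_isClass_add {x y : Pic0 L F} {D D' : Divisor L F} (h : S19CO_IsClass x D)
    (h' : S19CO_IsClass y D') : S19CO_IsClass (x + y) (D + D') := by
  obtain ⟨hD, hx⟩ := h
  obtain ⟨hD', hy⟩ := h'
  refine ⟨(Divisor.degZero (K := L) (F := F)).add_mem hD hD', ?_⟩
  rw [← hx, ← hy, ← Pic0.mk_add]
  rfl

/-- `r_*` of an effective divisor is effective. -/
theorem S19A3_rdiv_nonneg (S : S18_Spec L F k Fk) {D : Divisor L F} (hD : 0 ≤ D) :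
    0 ≤ S19IF_rdiv S D := by
  rw [Finsupp.le_def]
  intro Q
  have hD' : ∀ P, 0 ≤ D P := fun P => by
    have := hD
    rw [Finsupp.le_def] at this
    simpa using this P
  simpa using S19RR_mapDomain_nonneg S.r D hD' Q

/-- **ADD3, core**. -/
theorem S19A3_core [Infinite k] (hLat : S19RR_Lat S) (hNum : S19IF_Num S D₀ n g)
    (C C' C'' : S19IF_Chart S D₀ n g)
    {Q B : Type*} [CommRing B] {ev : Q → B →+* L} {π : B →+* k} (hLoc : S19LB_Loc ev π)
    (cst : S.A → B) (hcst : ∀ q a, ev q (cst a) = (a : L)) (hcstπ : ∀ a, π (cst a) = S.res a)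
    (x y : Q → Pic0 L F) (E₁ E₂ : Q → Divisor L F)
    (hE₁ : ∀ q, 0 ≤ E₁ q ∧ (E₁ q).degree = g ∧ S19CO_IsClass (x q) (E₁ q - C.B₀) ∧
      S19IF_rdiv S (E₁ q) = S19IF_rdiv S C.B₀)
    (hE₂ : ∀ q, 0 ≤ E₂ q ∧ (E₂ q).degree = g ∧ S19CO_IsClass (y q) (E₂ q - C'.B₀) ∧
      S19IF_rdiv S (E₂ q) = S19IF_rdiv S C'.B₀)
    (hW₁ : S19LB_IsFam ev π (fun q => S19AD_coord C.b (riemannRochSpace (D₀ - E₁ q)))
      (S19AD_coord (fun i => S.red ⟨C.b i, C.b_mem_O i⟩)
        (riemannRochSpace (S19IF_rdiv S D₀ - S19IF_rdiv S C.B₀))))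
    (hW₂ : S19LB_IsFam ev π (fun q => S19AD_coord C'.b (riemannRochSpace (D₀ - E₂ q)))
      (S19AD_coord (fun i => S.red ⟨C'.b i, C'.b_mem_O i⟩)
        (riemannRochSpace (S19IF_rdiv S D₀ - S19IF_rdiv S C'.B₀)))) :
    ∃ E₃ : Q → Divisor L F,
      (∀ q, 0 ≤ E₃ q ∧ S19CO_IsClass (x q + y q) (E₃ q - C''.B₀)) ∧
      S19LB_IsFam ev π (fun q => S19AD_coord C''.b (riemannRochSpace (D₀ - E₃ q)))
        (S19AD_coord (fun i => S.red ⟨C''.b i, C''.b_mem_O i⟩)
          (riemannRochSpace (S19IF_rdiv S D₀ - S19IF_rdiv S C''.B₀))) := by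
  classical
  have : Infinite L := S19CO_infinite S
  have hL := hNum.hL
  have hk := hNum.hk
  have hgL := hNum.genus_L
  have hgk := hNum.genus_k
  have hlarge := hNum.large
  have hdeg₀ := hNum.deg_D₀
  obtain ⟨n₂, n₃, n₄, n₅, c₂, c₃, c₄, c₅, sc₂, sc₃, sc₄, hS, hSb⟩ :=
    S19AS_sides S hLat hNum C C' C''
  -- the auxiliary section
  set Bst : Divisor L F := C.B₀ + C'.B₀ - C''.B₀ with hBstdef
  have hBst : Bst.degree = g := by
    rw [hBstdef, map_sub, map_add, C.B₀_deg, C'.B₀_deg, C''.B₀_deg]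
    ring
  obtain ⟨s', R', hs'red, hR, hs', hs'b, hT⟩ := S19AX_exists_s' S hLat hNum Bst hBst
    ((S19IF_rdiv S C.B₀).support ∪ (S19IF_rdiv S C'.B₀).support)
  have hrBst : S19IF_rdiv S Bst =
      S19IF_rdiv S C.B₀ + S19IF_rdiv S C'.B₀ - S19IF_rdiv S C''.B₀ := by
    rw [hBstdef]
    show Finsupp.mapDomain S.r (C.B₀ + C'.B₀ - C''.B₀) = _
    rw [Finsupp.mapDomain_sub, Finsupp.mapDomain_add]
  -- the degree
  set m : ℕ := n + g - 1 with hmdef
  have hm : D₀.degree = (m : ℤ) := by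
    rw [hmdef]
    omega
  have hmg : 3 * g + 1 ≤ m := by
    rw [hmdef]
    omega
  -- the point data on the reduction
  have hdisjb : ∀ v, (S19IF_rdiv S C.B₀ + S19IF_rdiv S C'.B₀) v = 0 ∨
      (S19IF_rdiv S R') v = 0 := by
    intro v
    by_cases hv : v ∈ (S19IF_rdiv S C.B₀).support ∪ (S19IF_rdiv S C'.B₀).support
    · exact Or.inr (hT v hv)
    · left
      rw [Finset.mem_union, not_or, Finsupp.notMem_support_iff, Finsupp.notMem_support_iff] at hv
      rw [Finsupp.add_apply, hv.1, hv.2, add_zero]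
  have hpb : S19AF_Pt hk (S19IF_rdiv S D₀) m (S19IF_rdiv S C.B₀) (S19IF_rdiv S C'.B₀)
      (S19IF_rdiv S Bst) (S19IF_rdiv S R') (S.red s') :=
    { hm := by rw [S19RR_degree, hm]
      hmg := by rw [hgk]; exact hmg
      hE₁ := S19A3_rdiv_nonneg S C.B₀_nonneg
      hE₂ := S19A3_rdiv_nonneg S C'.B₀_nonneg
      hdE₁ := by rw [S19RR_degree, C.B₀_deg, hgk]
      hdE₂ := by rw [S19RR_degree, C'.B₀_deg, hgk]
      hBst := by rw [S19RR_degree, hBst, hgk]
      hR := S19A3_rdiv_nonneg S hR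
      hs'0 := hs'red
      hs' := hs'b
      hdisj := hdisjb }
  have hp : ∀ q, S19AF_Pt hL D₀ m (E₁ q) (E₂ q) Bst R' (s' : F) := fun q =>
    { hm := hm
      hmg := by rw [hgL]; exact hmg
      hE₁ := (hE₁ q).1
      hE₂ := (hE₂ q).1
      hdE₁ := by rw [(hE₁ q).2.1, hgL]
      hdE₂ := by rw [(hE₂ q).2.1, hgL]
      hBst := by rw [hBst, hgL]
      hR := hR
      hs'0 := S.ne_zero_of_red_ne_zero hs'red
      hs' := hs'
      hdisj := S19AX_disj S (E₁ q + E₂ q) R' (add_nonneg (hE₁ q).1 (hE₂ q).1) hR (fun v => by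
        have h1 : S19IF_rdiv S (E₁ q + E₂ q) = S19IF_rdiv S C.B₀ + S19IF_rdiv S C'.B₀ := by
          show Finsupp.mapDomain S.r (E₁ q + E₂ q) = _
          rw [Finsupp.mapDomain_add]
          show S19IF_rdiv S (E₁ q) + S19IF_rdiv S (E₂ q) = _
          rw [(hE₁ q).2.2.2, (hE₂ q).2.2.2]
        rw [h1]
        exact hdisjb v) }
  -- the good reduction of the third chart
  have hgood : Module.finrank k (riemannRochSpace
      (S19IF_rdiv S C.B₀ + S19IF_rdiv S C'.B₀ - S19IF_rdiv S Bst)) ≤ 1 := by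
    have h1 : S19IF_rdiv S C.B₀ + S19IF_rdiv S C'.B₀ - S19IF_rdiv S Bst =
        S19IF_rdiv S C''.B₀ := by
      rw [hrBst]
      abel
    rw [h1]
    exact C''.B₀_good.le
  -- the constant family
  have hdegR := (hp (Classical.choice (S19LB_nonempty hLoc))).deg_R
  have hfinb : ∀ D : Divisor k Fk, FiniteDimensional k (riemannRochSpace D) :=
    fun D => RR_finite hk D
  have hdC : (4 • D₀ - R').degree = ((m + g : ℕ) : ℤ) := by
    rw [map_sub, S19AC_degree_nsmul, hm, hdegR, hgL]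
    push_cast
    ring
  have hle : Module.finrank k (riemannRochSpace (S19IF_rdiv S (4 • D₀ - R'))) ≤
      Module.finrank L (riemannRochSpace (4 • D₀ - R')) := by
    rw [S19AC_finrank hk (S19IF_rdiv S (4 • D₀ - R')) (m + g) (by rw [S19RR_degree, hdC])
      (by rw [hgk]; omega),
      S19AC_finrank hL (4 • D₀ - R') (m + g) hdC (by rw [hgL]; omega), hgk, hgL]
  obtain ⟨ρ, u, huli, hub, hus⟩ := S19AK_const S hLat hL.principal c₄ hSb.lic₄ (4 • D₀ - R')
    (by rw [hS.spc₄]; exact S19AD_sub_le _ _ hR) hle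
  have hrC : S19IF_rdiv S (4 • D₀ - R') = 4 • S19IF_rdiv S D₀ - S19IF_rdiv S R' := by
    show Finsupp.mapDomain S.r (4 • D₀ - R') = _
    rw [Finsupp.mapDomain_sub]
    show S19IF_rdiv S (4 • D₀) - S19IF_rdiv S R' = _
    rw [S19AS_rdiv_nsmul]
  have hC : S19LB_IsFam ev π
      (fun _ => S19AD_coord (fun i => (c₄ i : F)) (riemannRochSpace (4 • D₀ - R')))
      (S19AD_coord (fun i => S.red (c₄ i))
        (riemannRochSpace (4 • S19IF_rdiv S D₀ - S19IF_rdiv S R'))) := by
    have e1 : ∀ a, ((π : B → k) ∘ fun i => cst (u a i)) = fun i => S.res (u a i) := fun a => by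
      funext i
      exact hcstπ _
    have e2 : ∀ q a, ((ev q : B → L) ∘ fun i => cst (u a i)) = fun i => ((u a i : S.A) : L) :=
      fun q a => by
        funext i
        exact hcst q _
    refine ⟨ρ, fun a i => cst (u a i), ?_, ?_, fun q => ?_⟩
    · simp only [e1]
      exact huli
    · simp only [e1]
      rw [hub, hrC]
    · simp only [e2]
      exact hus
  -- the family theorem
  obtain ⟨E₃, E₃b, hE₃, ⟨hE₃b0, hE₃bd, φb, hφb0, hφb⟩, hW₃⟩ :=
    S19AF_main hLoc (hK := hL) (hk := hk) (hgk.trans hgL.symm) hS hSb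
      (fun i j l => cst (sc₂ i j l)) (fun i j l => cst (sc₃ i j l))
      (fun i j l => cst (sc₄ i j l))
      (fun q i j l => hcst q _) (fun i j l => hcstπ _)
      (fun q i j l => hcst q _) (fun i j l => hcstπ _)
      (fun q i j l => hcst q _) (fun i j l => hcstπ _)
      hp hpb hgood hW₁ hW₂ hC
  -- the reduction of the divisor of the sum
  have hE₃b : E₃b = S19IF_rdiv S C''.B₀ := by
    have h0 : ∀ P, 0 ≤ (S19IF_rdiv S C''.B₀) P := fun P => by
      have := S19A3_rdiv_nonneg S C''.B₀_nonneg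
      rw [Finsupp.le_def] at this
      simpa using this P
    have h0' : ∀ P, 0 ≤ E₃b P := fun P => by
      have := hE₃b0
      rw [Finsupp.le_def] at this
      simpa using this P
    refine S19RR_chart_unique (S19IF_rdiv S C''.B₀) E₃b h0 h0' C''.B₀_good.le φb (fun P => ?_)
    rw [← RR_div_apply hk.principal φb P, ← hφb, hrBst]
    simp only [Finsupp.sub_apply, Finsupp.add_apply]
    ring
  refine ⟨E₃, fun q => ⟨(hE₃ q).1, ?_⟩, ?_⟩
  · obtain ⟨-, hd, φ, hφ0, hφ⟩ := hE₃ q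
    have hcl := S19A3_isClass_add (hE₁ q).2.2.1 (hE₂ q).2.2.1
    refine hcl.of_sub_principal ⟨φ, hφ0, fun v => ?_⟩ ?_
    · rw [← RR_div_apply hL.principal φ v, ← hφ, hBstdef]
      simp only [Finsupp.sub_apply, Finsupp.add_apply]
      ring
    · rw [map_sub, hd, C''.B₀_deg, hgL]
      ring
  · rw [hE₃b] at hW₃
    exact hW₃

end Fermat.Agent.S19
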