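import Fermat.Agent.S19.LinB2

/-!
# TRACK 9 "FLAT" (S19), package LINB, part 4 (helper10): graph coordinates over a pivot `Finset`

* `S19LB_graphP` : a `B`-family `W` on `ι` whose reduction `Wb` projects isomorphically onto the
  coordinates in a pivot set `P : Finset ι` has graph coordinates in `B`: there is
  `Φ : ι → ι → B` with `v i = ∑ j ∈ P, ev s (Φ i j) * v j` for every `s`, `v ∈ W s`, `i`
  (and the same on the reduction, `S19LB_graphP'`).
-/

set_option autoImplicit false
set_option linter.unusedSectionVars false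
set_option linter.unusedVariables false
set_option linter.unusedDecidableInType false
set_option linter.style.haveILetI false

namespace Fermat.Agent.S19

open Matrix

section graphP

variable {B K k S : Type*} [CommRing B] [Field K] [Field k]
variable {ev : S → B →+* K} {π : B →+* k}
variable {ι : Type*} [Fintype ι] [DecidableEq ι]

/-- the matrix of the pivot coordinates of a family of vectors. -/
def S19LB_pN (P : Finset ι) {d : ℕ} (e : Fin d ≃ ↥P) (vec : Fin d → ι → B) :
    Matrix (Fin d) (Fin d) B :=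
  Matrix.of fun a b => vec a (e b : ι)

/-- the echelon basis with respect to the pivot set. -/
noncomputable def S19LB_pVec (P : Finset ι) {d : ℕ} (e : Fin d ≃ ↥P) (vec : Fin d → ι → B) :
    Fin d → ι → B :=
  fun b x => ∑ a, (S19LB_pN P e vec)⁻¹ b a * vec a x

/-- the graph coordinates with respect to the pivot set. -/
noncomputable def S19LB_pPhi (P : Finset ι) {d : ℕ} (e : Fin d ≃ ↥P) (vec : Fin d → ι → B) :
    ι → ι → B :=
  fun i j => if hj : j ∈ P then S19LB_pVec P e vec (e.symm ⟨j, hj⟩) i else 0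

theorem S19LB_pVec_pivot (P : Finset ι) {d : ℕ} (e : Fin d ≃ ↥P) (vec : Fin d → ι → B)
    (hNdet : IsUnit (S19LB_pN P e vec).det) (b b' : Fin d) :
    S19LB_pVec P e vec b (e b' : ι) = if b = b' then 1 else 0 := by
  have : S19LB_pVec P e vec b (e b' : ι) = ((S19LB_pN P e vec)⁻¹ * S19LB_pN P e vec) b b' := by
    rw [Matrix.mul_apply]
    rfl
  rw [this, Matrix.nonsing_inv_mul _ hNdet, Matrix.one_apply]

theorem S19LB_vec_eq_pVec (P : Finset ι) {d : ℕ} (e : Fin d ≃ ↥P) (vec : Fin d → ι → B)
    (hNdet : IsUnit (S19LB_pN P e vec).det) (a : Fin d) (x : ι) :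
    vec a x = ∑ b, S19LB_pN P e vec a b * S19LB_pVec P e vec b x := by
  have h1 : ∑ b, S19LB_pN P e vec a b * S19LB_pVec P e vec b x =
      ∑ a', (S19LB_pN P e vec * (S19LB_pN P e vec)⁻¹) a a' * vec a' x := by
    simp only [S19LB_pVec, Finset.mul_sum, Matrix.mul_apply, Finset.sum_mul]
    rw [Finset.sum_comm]
    exact Finset.sum_congr rfl fun a' _ => Finset.sum_congr rfl fun b _ => by ring
  rw [h1, Matrix.mul_nonsing_inv _ hNdet]
  simp [Matrix.one_apply]

/-- the echelon vectors satisfy the graph equations over `B`. -/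
theorem S19LB_pVec_graph (P : Finset ι) {d : ℕ} (e : Fin d ≃ ↥P) (vec : Fin d → ι → B)
    (hNdet : IsUnit (S19LB_pN P e vec).det) (b : Fin d) (i : ι) :
    S19LB_pVec P e vec b i =
      ∑ j ∈ P, S19LB_pPhi P e vec i j * S19LB_pVec P e vec b j := by
  classical
  rw [Finset.sum_eq_single (e b : ι)]
  · rw [S19LB_pVec_pivot P e vec hNdet, if_pos rfl, mul_one, S19LB_pPhi,
      dif_pos (e b).2]
    congr 1
    rw [Subtype.coe_eta, e.symm_apply_apply]
  · intro j hj hne
    have hj' : (⟨j, hj⟩ : ↥P) = e (e.symm ⟨j, hj⟩) := (e.apply_symm_apply _).symm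
    have hval : j = (e (e.symm ⟨j, hj⟩) : ι) := congrArg Subtype.val hj'
    have hb : b ≠ e.symm ⟨j, hj⟩ := by
      intro hb
      apply hne
      rw [hval, ← hb]
    have : S19LB_pVec P e vec b j = 0 := by
      rw [hval, S19LB_pVec_pivot P e vec hNdet, if_neg hb]
    rw [this, mul_zero]
  · intro h
    exact absurd (e b).2 h

/-- after a ring homomorphism to a field, every vector of the span satisfies the graph
equations. -/
theorem S19LB_pSpan {L : Type*} [Field L] (φ : B →+* L) (P : Finset ι) {d : ℕ}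
    (e : Fin d ≃ ↥P) (vec : Fin d → ι → B) (hNdet : IsUnit (S19LB_pN P e vec).det)
    (v : ι → L) (hv : v ∈ Submodule.span L (Set.range fun a => (φ : B → L) ∘ vec a)) (i : ι) :
    v i = ∑ j ∈ P, φ (S19LB_pPhi P e vec i j) * v j := by
  classical
  rw [S19LB_span_eq_of_comb φ vec (S19LB_pVec P e vec) (S19LB_pN P e vec)
    (S19LB_pN P e vec)⁻¹ (S19LB_vec_eq_pVec P e vec hNdet) (fun b x => rfl)] at hv
  induction hv using Submodule.span_induction with
  | mem x hx =>
      obtain ⟨b, rfl⟩ := hx
      simp only [Function.comp_apply]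
      rw [S19LB_pVec_graph P e vec hNdet b i, map_sum]
      exact Finset.sum_congr rfl fun j _ => by rw [map_mul]
  | zero => simp
  | add x y _ _ hx hy =>
      simp only [Pi.add_apply, hx, hy, mul_add, Finset.sum_add_distrib]
  | smul c x _ hx =>
      simp only [Pi.smul_apply, smul_eq_mul]
      rw [hx, Finset.mul_sum]
      exact Finset.sum_congr rfl fun j _ => by ring

/-- the pivot minor of a family whose reduction is injective on the pivot coordinates is a
unit. -/
theorem S19LB_pN_unit (h : S19LB_Loc ev π) (P : Finset ι) {d : ℕ} (e : Fin d ≃ ↥P)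
    (vec : Fin d → ι → B) (hli : LinearIndependent k (fun a => (π : B → k) ∘ vec a))
    (hinj : ∀ v ∈ Submodule.span k (Set.range fun a => (π : B → k) ∘ vec a),
      (∀ j ∈ P, v j = 0) → v = 0) :
    IsUnit (S19LB_pN P e vec).det := by
  classical
  apply h.unit
  rw [RingHom.map_det]
  have hrows : LinearIndependent k (π.mapMatrix (S19LB_pN P e vec)).row := by
    rw [Fintype.linearIndependent_iff]
    intro c hc
    have hv : (∑ a, c a • ((π : B → k) ∘ vec a)) ∈
        Submodule.span k (Set.range fun a => (π : B → k) ∘ vec a) :=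
      Submodule.sum_mem _ fun a _ =>
        Submodule.smul_mem _ _ (Submodule.subset_span ⟨a, rfl⟩)
    have hv0 : (∑ a, c a • ((π : B → k) ∘ vec a)) = 0 := by
      apply hinj _ hv
      intro j hj
      have := congrFun hc (e.symm ⟨j, hj⟩)
      simp only [Finset.sum_apply, Pi.smul_apply, smul_eq_mul, Pi.zero_apply] at this
      simp only [Finset.sum_apply, Pi.smul_apply, smul_eq_mul, Function.comp_apply]
      rw [← this]
      refine Finset.sum_congr rfl fun a _ => ?_
      simp [Matrix.row, S19LB_pN]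
    exact (Fintype.linearIndependent_iff.mp hli) c hv0
  exact ((Matrix.isUnit_iff_isUnit_det _).mp
    (Matrix.linearIndependent_rows_iff_isUnit.mp hrows)).ne_zero

/-- **(GRAPH, pivot `Finset`)**, with the reduction. -/
theorem S19LB_graphP' (h : S19LB_Loc ev π) (P : Finset ι)
    {W : S → Submodule K (ι → K)} {Wb : Submodule k (ι → k)} (hW : S19LB_IsFam ev π W Wb)
    (hinj : ∀ v ∈ Wb, (∀ j ∈ P, v j = 0) → v = 0) (hrank : Module.finrank k Wb = P.card) :
    ∃ Φ : ι → ι → B, (∀ s, ∀ v ∈ W s, ∀ i, v i = ∑ j ∈ P, ev s (Φ i j) * v j) ∧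
      (∀ v ∈ Wb, ∀ i, v i = ∑ j ∈ P, π (Φ i j) * v j) := by
  classical
  obtain ⟨ρ, vec, hli, hb, hs⟩ := hW
  have hρ : ρ = P.card := by
    rw [← hrank, ← hb, finrank_span_eq_card hli, Fintype.card_fin]
  subst hρ
  set e : Fin P.card ≃ ↥P := P.equivFin.symm with he
  have hNdet : IsUnit (S19LB_pN P e vec).det :=
    S19LB_pN_unit h P e vec hli (by rw [hb]; exact hinj)
  refine ⟨S19LB_pPhi P e vec, fun s v hv i => ?_, fun v hv i => ?_⟩
  · rw [← hs s] at hv
    exact S19LB_pSpan (ev s) P e vec hNdet v hv i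
  · rw [← hb] at hv
    exact S19LB_pSpan π P e vec hNdet v hv i

/-- **(GRAPH, pivot `Finset`)**: the graph coordinates of a `B`-family lie in `B`. -/
theorem S19LB_graphP (h : S19LB_Loc ev π) (P : Finset ι)
    {W : S → Submodule K (ι → K)} {Wb : Submodule k (ι → k)} (hW : S19LB_IsFam ev π W Wb)
    (hinj : ∀ v ∈ Wb, (∀ j ∈ P, v j = 0) → v = 0) (hrank : Module.finrank k Wb = P.card) :
    ∃ Φ : ι → ι → B, ∀ s, ∀ v ∈ W s, ∀ i, v i = ∑ j ∈ P, ev s (Φ i j) * v j := by
  obtain ⟨Φ, hΦ, -⟩ := S19LB_graphP' h P hW hinj hrank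
  exact ⟨Φ, hΦ⟩

end graphP

end Fermat.Agent.S19
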