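import Fermat.Agent.S19.Coord
import Fermat.Agent.S19.AddCoord
import Fermat.Agent.S19.LinBP

/-!
# TRACK 9 (S19), package ADD3, piece IO (helper6), prefix `S19IO_`

The BOOKENDS of ADD3.  `Q` a finite index set (`Q = ↥S₁ × ↥S₂` in ADD3), `gens : Set (Q → L)` the
generators (the coordinate functions), `B = Algebra.adjoin ↥S.A gens`, `ev = S19LB_evAdj`,
`π = S19IO_pi` (evaluation at a base point `q₀`, then `S.res`).

* `S19IO_loc`      : `S19LB_Loc ev π`;  `S19IO_ev_const`, `S19IO_pi_const` : constants;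
* `S19IO_in`  (IN) : the chart family `q ↦ coord C.b (L(D₀ − E q))` of coordinate functions lying
                     in `B` is a `B`-family with reduction `coord (red C.b) (L̄(r_*D₀ − r_*B₀))`;
* `S19IO_out` (OUT): if `q ↦ coord C''.b (L(D₀ − E₃ q))` is a `B`-family (with the reduction
                     above), the coordinate functions `κ'' p` lie in `B`;
* `S19IO_j1_add`   : `J¹` is closed under addition.
-/

set_option autoImplicit false
set_option linter.unusedSectionVars false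
set_option linter.unusedVariables false
set_option linter.unusedDecidableInType false

open AlgebraicCurve

namespace Fermat.Agent.S19

open Fermat.Agent.S18 Fermat.Agent.Lib

/-! ### pivots -/

section pivot

variable {R : Type*} [Field R] {n : ℕ}

/-- vectors which are the standard basis vectors on the pivot set are independent. -/
theorem S19IO_pivot_indep (P : Finset (Fin n)) (e : Fin P.card ≃ ↥P)
    (u : Fin P.card → Fin n → R)
    (hu : ∀ a, ∀ i ∈ P, u a i = if i = (e a).1 then 1 else 0) : LinearIndependent R u := by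
  classical
  rw [Fintype.linearIndependent_iff]
  intro c hc a₀
  have := congrFun hc (e a₀).1
  simp only [Finset.sum_apply, Pi.smul_apply, smul_eq_mul, Pi.zero_apply] at this
  rw [← this]
  symm
  rw [Finset.sum_eq_single a₀]
  · rw [hu a₀ _ (e a₀).2, if_pos rfl, mul_one]
  · intro a _ ha
    rw [hu a _ (e a₀).2, if_neg, mul_zero]
    intro h
    exact ha (e.injective (Subtype.ext h)).symm
  · intro h
    exact absurd (Finset.mem_univ _) h

/-- subtracting the pivot combination kills the pivot coordinates. -/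
theorem S19IO_pivot_sub (P : Finset (Fin n)) (e : Fin P.card ≃ ↥P)
    (u : Fin P.card → Fin n → R)
    (hu : ∀ a, ∀ i ∈ P, u a i = if i = (e a).1 then 1 else 0) (v : Fin n → R)
    (i : Fin n) (hi : i ∈ P) : (v - ∑ a, v (e a).1 • u a) i = 0 := by
  classical
  simp only [Pi.sub_apply, Finset.sum_apply, Pi.smul_apply, smul_eq_mul]
  rw [Finset.sum_eq_single (e.symm ⟨i, hi⟩)]
  · rw [hu _ _ hi]
    simp
  · intro a _ ha
    rw [hu a _ hi, if_neg, mul_zero]
    intro h
    apply ha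
    apply e.injective
    rw [Equiv.apply_symm_apply]
    exact Subtype.ext h.symm
  · intro h
    exact absurd (Finset.mem_univ _) h

/-- a subspace in which the pivot coordinates determine the vector, containing vectors which are
the standard basis vectors on the pivot set, is spanned by them. -/
theorem S19IO_pivot_span (P : Finset (Fin n)) (e : Fin P.card ≃ ↥P)
    (u : Fin P.card → Fin n → R)
    (hu : ∀ a, ∀ i ∈ P, u a i = if i = (e a).1 then 1 else 0) (M : Submodule R (Fin n → R))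
    (huM : ∀ a, u a ∈ M) (hM : ∀ w ∈ M, (∀ j ∈ P, w j = 0) → w = 0) :
    Submodule.span R (Set.range u) = M := by
  apply le_antisymm
  · rw [Submodule.span_le]
    rintro _ ⟨a, rfl⟩
    exact huM a
  · intro v hv
    have hsum : ∑ a, v (e a).1 • u a ∈ Submodule.span R (Set.range u) :=
      Submodule.sum_mem _ fun a _ => Submodule.smul_mem _ _ (Submodule.subset_span ⟨a, rfl⟩)
    have hsumM : ∑ a, v (e a).1 • u a ∈ M :=
      Submodule.sum_mem _ fun a _ => Submodule.smul_mem _ _ (huM a)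
    have h0 := hM _ (Submodule.sub_mem _ hv hsumM) (S19IO_pivot_sub P e u hu v)
    rw [sub_eq_zero] at h0
    rw [h0]
    exact hsum

end pivot

variable {L F k Fk : Type*} [Field L] [Field F] [Algebra L F] [Field k] [Field Fk]
  [Algebra k Fk]

/-! ### `J¹` is a subgroup -/

/-- `J¹` is closed under addition. -/
theorem S19IO_j1_add (S : S18_Spec L F k Fk) {x y : Pic0 L F} (hx : S19IF_J1 S x)
    (hy : S19IF_J1 S y) : S19IF_J1 S (x + y) := by
  obtain ⟨Dx, hDx, hpx⟩ := hx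
  obtain ⟨Dy, hDy, hpy⟩ := hy
  refine ⟨Dx + Dy, ?_, ?_⟩
  · rw [← hDx, ← hDy]
    rfl
  · have : ((Dx + Dy : Divisor.degZero (K := L) (F := F)) : Divisor L F) =
        (Dx : Divisor L F) + (Dy : Divisor L F) := rfl
    rw [S19IF_rdiv, this, Finsupp.mapDomain_add]
    exact S19CO_principal_add hpx hpy

/-! ### the local ring -/

section loc

variable (S : S18_Spec L F k Fk) {Q : Type*} (gens : Set (Q → L))

/-- the reduction `π : A[gens] → k`: evaluation at the base point, then `S.res`. -/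
noncomputable def S19IO_pi (q₀ : Q) (hint : ∀ f ∈ gens, ∀ q, f q ∈ S.A) :
    ↥(Algebra.adjoin ↥S.A gens) →+* k :=
  S.res.comp (S19CR_evA S.A gens hint q₀)

theorem S19IO_pi_apply (q₀ : Q) (hint : ∀ f ∈ gens, ∀ q, f q ∈ S.A)
    (b : ↥(Algebra.adjoin ↥S.A gens)) :
    S19IO_pi S gens q₀ hint b =
      S.res ⟨(b : Q → L) q₀, S19CR_adjoin_int S.A gens hint b b.2 q₀⟩ := rfl

/-- `S.res` kills the differences in `A.nonunits`. -/
theorem S19IO_res_eq_of_sub {a b : S.A} (h : ((a : L) - (b : L)) ∈ S.A.nonunits) :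
    S.res a = S.res b := by
  rw [← sub_eq_zero, ← map_sub, S.res_eq_zero_iff]
  intro hu
  have h1 : ((a - b : S.A) : L) ∈ S.A.nonunits := h
  rw [ValuationSubring.coe_mem_nonunits_iff] at h1
  exact h1 hu

/-- the reduction can be computed at EVERY point. -/
theorem S19IO_pi_eq (q₀ : Q) (hint : ∀ f ∈ gens, ∀ q, f q ∈ S.A)
    (hconst : ∀ f ∈ gens, ∀ q, f q - f q₀ ∈ S.A.nonunits)
    (b : ↥(Algebra.adjoin ↥S.A gens)) (q : Q) :
    S19IO_pi S gens q₀ hint b =
      S.res ⟨(b : Q → L) q, S19CR_adjoin_int S.A gens hint b b.2 q⟩ := by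
  rw [S19IO_pi_apply]
  symm
  apply S19IO_res_eq_of_sub
  exact S19CR_adjoin_const S.A q₀ gens hint hconst b b.2 q

/-- **(LOC)**. -/
theorem S19IO_loc [Finite Q] (q₀ : Q) (hint : ∀ f ∈ gens, ∀ q, f q ∈ S.A)
    (hconst : ∀ f ∈ gens, ∀ q, f q - f q₀ ∈ S.A.nonunits) :
    S19LB_Loc (S19LB_evAdj S.A gens) (S19IO_pi S gens q₀ hint) where
  inj b hb := S19CR_ev_inj S.A gens b hb
  unit b hb := by
    apply S19CR_pi_unit S.A q₀ gens hint hconst b
    intro h0
    apply hb
    unfold S19CR_pi at h0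
    rw [RingHom.comp_apply, IsLocalRing.residue_eq_zero_iff] at h0
    unfold S19IO_pi
    rw [RingHom.comp_apply, S.res_eq_zero_iff]
    exact h0

theorem S19IO_ev_const (a : S.A) (q : Q) :
    S19LB_evAdj S.A gens q (algebraMap ↥S.A ↥(Algebra.adjoin ↥S.A gens) a) = (a : L) := rfl

theorem S19IO_pi_const (q₀ : Q) (hint : ∀ f ∈ gens, ∀ q, f q ∈ S.A) (a : S.A) :
    S19IO_pi S gens q₀ hint (algebraMap ↥S.A ↥(Algebra.adjoin ↥S.A gens) a) = S.res a := by
  rw [S19IO_pi_apply]
  congr 1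

end loc

/-! ### (IN) and (OUT) -/

section io

variable {S : S18_Spec L F k Fk} {D₀ : Divisor L F} {n g : ℕ}

/-- the coordinate functions as elements of `B`. -/
def S19IO_kB {Q : Type*} (gens : Set (Q → L)) (κ : Fin n × Fin n → Q → L)
    (hmem : ∀ p, κ p ∈ Algebra.adjoin ↥S.A gens) (p : Fin n × Fin n) :
    ↥(Algebra.adjoin ↥S.A gens) := ⟨κ p, hmem p⟩

/-- the echelon vectors over `B`. -/
noncomputable def S19IO_vec {Q : Type*} (gens : Set (Q → L)) (κ : Fin n × Fin n → Q → L)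
    (hmem : ∀ p, κ p ∈ Algebra.adjoin ↥S.A gens) (j : Fin n) (i : Fin n) :
    ↥(Algebra.adjoin ↥S.A gens) :=
  (if i = j then 1 else 0) + S19IO_kB gens κ hmem (i, j)

theorem S19IO_ev_vec {Q : Type*} (gens : Set (Q → L)) (κ : Fin n × Fin n → Q → L)
    (hmem : ∀ p, κ p ∈ Algebra.adjoin ↥S.A gens) (j : Fin n) (q : Q) :
    (S19LB_evAdj S.A gens q : _ → L) ∘ S19IO_vec gens κ hmem j =
      S19CO_coef (fun p => κ p q) j := by
  funext i
  simp only [Function.comp_apply, S19IO_vec, S19CO_coef, map_add]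
  congr 1
  split_ifs <;> simp

theorem S19IO_pi_vec {Q : Type*} (gens : Set (Q → L)) (κ : Fin n × Fin n → Q → L)
    (hmem : ∀ p, κ p ∈ Algebra.adjoin ↥S.A gens) (q₀ : Q)
    (hint : ∀ f ∈ gens, ∀ q, f q ∈ S.A) (j : Fin n) (i : Fin n) :
    S19IO_pi S gens q₀ hint (S19IO_vec gens κ hmem j i) =
      (if i = j then 1 else 0) +
        S.res ⟨κ (i, j) q₀, S19CR_adjoin_int S.A gens hint _ (hmem (i, j)) q₀⟩ := by
  rw [S19IO_vec, map_add]
  congr 1
  split_ifs <;> simp

/-- the coordinate functions of points of `J¹` are integral (for `hint`). -/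
theorem S19IO_int [Infinite k] (hN : S19IF_Num S D₀ n g) (hLat : S19RR_Lat S)
    (C : S19IF_Chart S D₀ n g) {Q : Type*} (y : Q → Pic0 L F) (hy : ∀ q, S19IF_J1 S (y q))
    (κ : Fin n × Fin n → Q → L) (hκ : ∀ q, S19IF_IsCoord C (y q) (fun p => κ p q))
    (p : Fin n × Fin n) (q : Q) : κ p q ∈ S.A :=
  S19CO_integral hN hLat C (hy q) (hκ q) p

/-- the coordinate functions of points of `J¹` are constant modulo `𝔪_A` (for `hconst`). -/
theorem S19IO_const [Infinite k] (hN : S19IF_Num S D₀ n g) (hLat : S19RR_Lat S)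
    (C : S19IF_Chart S D₀ n g) {Q : Type*} (y : Q → Pic0 L F) (hy : ∀ q, S19IF_J1 S (y q))
    (κ : Fin n × Fin n → Q → L) (hκ : ∀ q, S19IF_IsCoord C (y q) (fun p => κ p q))
    (p : Fin n × Fin n) (q q' : Q) : κ p q - κ p q' ∈ S.A.nonunits := by
  have h1 := S19IO_int hN hLat C y hy κ hκ p q
  have h2 := S19IO_int hN hLat C y hy κ hκ p q'
  have h3 := S19CO_res_eq hN hLat C (hy q) (hy q') (hκ q) (hκ q') p h1 h2
  rw [← sub_eq_zero, ← map_sub, S.res_eq_zero_iff] at h3
  have h4 : ((⟨κ p q, h1⟩ - ⟨κ p q', h2⟩ : S.A) : L) ∈ S.A.nonunits := by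
    rw [ValuationSubring.coe_mem_nonunits_iff]
    exact h3
  exact h4

/-- the generators of ADD3 (`Q = Q₁ × Q₂`): integrality. -/
theorem S19IO_gens_int [Infinite k] (hN : S19IF_Num S D₀ n g) (hLat : S19RR_Lat S)
    (C C' : S19IF_Chart S D₀ n g) {Q₁ Q₂ : Type*}
    (y₁ : Q₁ → Pic0 L F) (hy₁ : ∀ q, S19IF_J1 S (y₁ q))
    (y₂ : Q₂ → Pic0 L F) (hy₂ : ∀ q, S19IF_J1 S (y₂ q))
    (κ κ' : Fin n × Fin n → Pic0 L F → L)
    (hκ : ∀ q, S19IF_IsCoord C (y₁ q) (fun p => κ p (y₁ q)))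
    (hκ' : ∀ q, S19IF_IsCoord C' (y₂ q) (fun p => κ' p (y₂ q))) :
    ∀ f ∈ (Set.range (fun (i : Fin n × Fin n) (q : Q₁ × Q₂) => κ i (y₁ q.1)) ∪
        Set.range (fun (i : Fin n × Fin n) (q : Q₁ × Q₂) => κ' i (y₂ q.2))),
      ∀ q, f q ∈ S.A := by
  rintro f (⟨p, rfl⟩ | ⟨p, rfl⟩) q
  · exact S19CO_integral hN hLat C (hy₁ q.1) (hκ q.1) p
  · exact S19CO_integral hN hLat C' (hy₂ q.2) (hκ' q.2) p

/-- the generators of ADD3 (`Q = Q₁ × Q₂`): constant modulo `𝔪_A`. -/
theorem S19IO_gens_const [Infinite k] (hN : S19IF_Num S D₀ n g) (hLat : S19RR_Lat S)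
    (C C' : S19IF_Chart S D₀ n g) {Q₁ Q₂ : Type*}
    (y₁ : Q₁ → Pic0 L F) (hy₁ : ∀ q, S19IF_J1 S (y₁ q))
    (y₂ : Q₂ → Pic0 L F) (hy₂ : ∀ q, S19IF_J1 S (y₂ q))
    (κ κ' : Fin n × Fin n → Pic0 L F → L)
    (hκ : ∀ q, S19IF_IsCoord C (y₁ q) (fun p => κ p (y₁ q)))
    (hκ' : ∀ q, S19IF_IsCoord C' (y₂ q) (fun p => κ' p (y₂ q))) (q₀ : Q₁ × Q₂) :
    ∀ f ∈ (Set.range (fun (i : Fin n × Fin n) (q : Q₁ × Q₂) => κ i (y₁ q.1)) ∪
        Set.range (fun (i : Fin n × Fin n) (q : Q₁ × Q₂) => κ' i (y₂ q.2))),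
      ∀ q, f q - f q₀ ∈ S.A.nonunits := by
  rintro f (⟨p, rfl⟩ | ⟨p, rfl⟩) q
  · exact S19IO_const hN hLat C y₁ hy₁ (fun p q => κ p (y₁ q)) hκ p q.1 q₀.1
  · exact S19IO_const hN hLat C' y₂ hy₂ (fun p q => κ' p (y₂ q)) hκ' p q.2 q₀.2

/-- **(IN)**: the chart family of coordinate functions lying in `B` is a `B`-family. -/
theorem S19IO_in [Infinite k] (hN : S19IF_Num S D₀ n g) (hLat : S19RR_Lat S)
    (C : S19IF_Chart S D₀ n g) {Q : Type*} [Finite Q] (gens : Set (Q → L)) (q₀ : Q)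
    (hint : ∀ f ∈ gens, ∀ q, f q ∈ S.A)
    (hconst : ∀ f ∈ gens, ∀ q, f q - f q₀ ∈ S.A.nonunits)
    (y : Q → Pic0 L F) (hy : ∀ q, S19IF_J1 S (y q))
    (κ : Fin n × Fin n → Q → L) (hκ : ∀ q, S19IF_IsCoord C (y q) (fun p => κ p q))
    (hmem : ∀ p, κ p ∈ Algebra.adjoin ↥S.A gens) :
    ∃ E : Q → Divisor L F,
      (∀ q, 0 ≤ E q ∧ (E q).degree = g ∧ S19CO_IsClass (y q) (E q - C.B₀) ∧
        S19IF_rdiv S (E q) = S19IF_rdiv S C.B₀) ∧
      S19LB_IsFam (S19LB_evAdj S.A gens) (S19IO_pi S gens q₀ hint)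
        (fun q => S19AD_coord C.b (riemannRochSpace (D₀ - E q)))
        (S19AD_coord (fun i => S.red ⟨C.b i, C.b_mem_O i⟩)
          (riemannRochSpace (S19IF_rdiv S D₀ - S19IF_rdiv S C.B₀))) := by
  classical
  have hPD := hN.hL.principal
  -- the divisors
  have hex : ∀ q, ∃ E : Divisor L F, 0 ≤ E ∧ S19CO_IsClass (y q) (E - C.B₀) ∧
      ∀ j ∈ C.P, C.b j + ∑ i, κ (i, j) q • C.b i ∈ riemannRochSpace (D₀ - E) := by
    intro q
    obtain ⟨-, E, hE, hcl, hm⟩ := hκ q
    exact ⟨E, hE, hcl, hm⟩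
  choose E hE hcl hm using hex
  have hκ0 : ∀ q i j, (i ∈ C.P ∨ j ∉ C.P) → κ (i, j) q = 0 := fun q => (hκ q).1
  have hfacts := fun q => S19CO_chart_facts hN hLat C (hy q) (E q) (hE q) (hcl q)
  refine ⟨E, fun q => ⟨hE q, (hfacts q).2.1, hcl q, (hfacts q).1⟩, ?_⟩
  -- the family
  set e : Fin C.P.card ≃ ↥C.P := C.P.equivFin.symm with he
  refine ⟨C.P.card, fun a => S19IO_vec gens κ hmem (e a).1, ?_, ?_, fun q => ?_⟩
  · -- independence of the reductions
    apply S19IO_pivot_indep C.P e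
    intro a i hi
    rw [Function.comp_apply, S19IO_pi_vec]
    have h0 : (⟨κ (i, (e a).1) q₀, S19CR_adjoin_int S.A gens hint _ (hmem (i, (e a).1)) q₀⟩ :
        S.A) = 0 := Subtype.ext (hκ0 q₀ i _ (Or.inl hi))
    rw [h0, map_zero, add_zero]
  · -- the reductions span
    apply S19IO_pivot_span C.P e
    · intro a i hi
      rw [Function.comp_apply, S19IO_pi_vec]
      have h0 : (⟨κ (i, (e a).1) q₀, S19CR_adjoin_int S.A gens hint _ (hmem (i, (e a).1)) q₀⟩ :
          S.A) = 0 := Subtype.ext (hκ0 q₀ i _ (Or.inl hi))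
      rw [h0, map_zero, add_zero]
    · intro a
      rw [S19AD_mem_coord, S19AD_lc_apply]
      have hcA : ∀ i, S19CO_coef (fun p => κ p q₀) (e a).1 i ∈ S.A := by
        intro i
        rw [S19CO_coef]
        refine S.A.add_mem _ _ ?_ (S19CR_adjoin_int S.A gens hint _ (hmem _) q₀)
        split_ifs
        · exact S.A.one_mem
        · exact S.A.zero_mem
      have h1 := S19CO_red_col hPD C (E q₀) (hfacts q₀).1
        (S19CO_coef (fun p => κ p q₀) (e a).1) hcA (by
          rw [S19CO_sum_coef]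
          exact hm q₀ _ (e a).2)
      convert h1 using 1
      refine Finset.sum_congr rfl fun i _ => ?_
      congr 1
      rw [Function.comp_apply, S19IO_pi_vec]
      have e2 : (⟨S19CO_coef (fun p => κ p q₀) (e a).1 i, hcA i⟩ : S.A) =
          (if i = (e a).1 then 1 else 0) +
            ⟨κ (i, (e a).1) q₀, S19CR_adjoin_int S.A gens hint _ (hmem _) q₀⟩ := by
        apply Subtype.ext
        show S19CO_coef (fun p => κ p q₀) (e a).1 i = _
        simp only [S19CO_coef]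
        push_cast
        split_ifs <;> simp
      rw [e2, map_add]
      congr 1
      split_ifs <;> simp
    · intro w hw hP
      have hw' := S19AD_mem_coord.1 hw
      rw [S19AD_lc_apply] at hw'
      exact C.P_inj w hw' hP
  · -- the points
    show Submodule.span L (Set.range fun a =>
      (S19LB_evAdj S.A gens q : _ → L) ∘ S19IO_vec gens κ hmem (e a).1) = _
    simp only [S19IO_ev_vec]
    apply S19IO_pivot_span C.P e
    · intro a i hi
      exact S19CO_coef_pivot C (hκ0 q) (e a).1 i hi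
    · intro a
      rw [S19AD_mem_coord, S19AD_lc_apply, S19CO_sum_coef]
      exact hm q _ (e a).2
    · intro w hw hP
      have hw' := S19AD_mem_coord.1 hw
      rw [S19AD_lc_apply] at hw'
      exact S19CO_eq_zero hPD C (E q) (hfacts q).1 w hw' hP

/-- **(OUT)**: if the chart family of the sums is a `B`-family, the coordinate functions of the
sums lie in `B`. -/
theorem S19IO_out [Infinite k] (hN : S19IF_Num S D₀ n g) (hLat : S19RR_Lat S)
    (C : S19IF_Chart S D₀ n g) {Q : Type*} [Finite Q] (gens : Set (Q → L)) (q₀ : Q)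
    (hint : ∀ f ∈ gens, ∀ q, f q ∈ S.A)
    (hconst : ∀ f ∈ gens, ∀ q, f q - f q₀ ∈ S.A.nonunits)
    (z : Q → Pic0 L F) (hz : ∀ q, S19IF_J1 S (z q))
    (κ : Fin n × Fin n → Q → L) (hκ : ∀ q, S19IF_IsCoord C (z q) (fun p => κ p q))
    (E₃ : Q → Divisor L F) (hE₃ : ∀ q, 0 ≤ E₃ q)
    (hcl₃ : ∀ q, S19CO_IsClass (z q) (E₃ q - C.B₀))
    (hfam : S19LB_IsFam (S19LB_evAdj S.A gens) (S19IO_pi S gens q₀ hint)
        (fun q => S19AD_coord C.b (riemannRochSpace (D₀ - E₃ q)))
        (S19AD_coord (fun i => S.red ⟨C.b i, C.b_mem_O i⟩)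
          (riemannRochSpace (S19IF_rdiv S D₀ - S19IF_rdiv S C.B₀)))) :
    ∀ p, κ p ∈ Algebra.adjoin ↥S.A gens := by
  classical
  have hPD := hN.hL.principal
  have hloc := S19IO_loc S gens q₀ hint hconst
  have hfacts := fun q => S19CO_chart_facts hN hLat C (hz q) (E₃ q) (hE₃ q) (hcl₃ q)
  -- the rank of the reduction
  have hle : riemannRochSpace (D₀ - E₃ q₀) ≤ Submodule.span L (Set.range C.b) := by
    intro f hf
    have h1 : f ∈ riemannRochSpace D₀ := by
      refine RR_mono ?_ hf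
      intro v
      have := hE₃ q₀
      rw [Finsupp.le_def] at this
      have := this v
      simp only [Finsupp.coe_zero, Pi.zero_apply] at this
      simp only [Finsupp.coe_sub, Pi.sub_apply]
      linarith
    obtain ⟨c, hc⟩ := C.b_span f h1
    rw [hc]
    exact Submodule.sum_mem _ fun i _ =>
      Submodule.smul_mem _ _ (Submodule.subset_span ⟨i, rfl⟩)
  have hrank : Module.finrank k ↥(S19AD_coord (fun i => S.red ⟨C.b i, C.b_mem_O i⟩)
      (riemannRochSpace (S19IF_rdiv S D₀ - S19IF_rdiv S C.B₀))) = C.P.card := by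
    rw [← S19LB_IsFam.finrank_eq hloc hfam q₀,
      S19AD_finrank_coord (S19CO_linearIndependent C) hle]
    exact (hfacts q₀).2.2.1
  obtain ⟨Φ, hΦ⟩ := S19LB_graphP hloc C.P hfam
    (fun w hw hP => C.P_inj w (by
      have hw' := S19AD_mem_coord.1 hw
      rw [S19AD_lc_apply] at hw'
      exact hw') hP)
    hrank
  rintro ⟨i, j⟩
  by_cases hij : i ∈ C.P ∨ j ∉ C.P
  · have : κ (i, j) = 0 := funext fun q => (hκ q).1 i j hij
    rw [this]
    exact Subalgebra.zero_mem _
  · obtain ⟨hi, hj'⟩ := not_or.1 hij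
    have hj : j ∈ C.P := not_not.1 hj'
    have hfun : κ (i, j) = ((Φ i j : ↥(Algebra.adjoin ↥S.A gens)) : Q → L) := by
      funext q
      obtain ⟨hκ0, E, hE, hcl, hm⟩ := hκ q
      have hEE : E = E₃ q := (hfacts q).2.2.2 E hE hcl
      have hv : S19CO_coef (fun p => κ p q) j ∈
          S19AD_coord C.b (riemannRochSpace (D₀ - E₃ q)) := by
        rw [S19AD_mem_coord, S19AD_lc_apply, S19CO_sum_coef, ← hEE]
        exact hm j hj
      have h1 := hΦ q _ hv i
      have hne : i ≠ j := fun h => hi (h ▸ hj)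
      rw [Finset.sum_eq_single j] at h1
      · rw [S19CO_coef_pivot C hκ0 j j hj, if_pos rfl, mul_one] at h1
        simp only [S19CO_coef, if_neg hne, zero_add] at h1
        rw [h1]
        rfl
      · intro j' hj' hne'
        rw [S19CO_coef_pivot C hκ0 j j' hj', if_neg hne', mul_zero]
      · intro h
        exact absurd hj h
    rw [hfun]
    exact (Φ i j).2

end io

end Fermat.Agent.S19
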