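import Mathlib
import Fermat.Agent.S19.Add3Core
import Fermat.Agent.S19.Add3IO

/-!
# TRACK 9 (S19), package ADD3 (helper14 with helper6, helper9, helper10, helper19)

`S19A3_main : ∀ C C' C'', S19IF_Add3 C C' C''` — the line `hAdd` of `S19GI_main` /
`S19FIN_hasOrder`: on finite subsets of `J¹` the chart coordinates of `x + y` lie in the
`A`-algebra generated by the chart coordinates of `x` and of `y`.

Wiring: `S19IO_in` (helper6) twice, `S19A3_core` (`S19AF_main` + SIDE + AUX + CONST), `S19IO_out`.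
-/

set_option autoImplicit false
set_option linter.unusedSectionVars false
set_option linter.unusedVariables false

open AlgebraicCurve

namespace Fermat.Agent.S19

open Fermat.Agent.S18 Fermat.Agent.Lib Fermat.Agent.S17

variable {L F k Fk : Type*} [Field L] [Field F] [Algebra L F] [Field k] [Field Fk]
  [Algebra k Fk] {S : S18_Spec L F k Fk} {D₀ : Divisor L F} {n g : ℕ}

/-- **ADD3**. -/
theorem S19A3_main [Infinite k] (hLat : S19RR_Lat S) (hNum : S19IF_Num S D₀ n g)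
    (C C' C'' : S19IF_Chart S D₀ n g) : S19IF_Add3 C C' C'' := by
  classical
  intro S₁ S₂ κ κ' κ'' hJ₁ hJ₂ hκ hκ' hκ'' p
  by_cases hQ : Nonempty (↥S₁ × ↥S₂)
  swap
  · rw [not_nonempty_iff] at hQ
    have h0 : (fun q : ↥S₁ × ↥S₂ => κ'' p ((q.1 : Pic0 L F) + (q.2 : Pic0 L F))) = 0 :=
      funext fun q => (hQ.false q).elim
    rw [h0]
    exact Subalgebra.zero_mem _
  obtain ⟨q₀⟩ := hQ
  have hint := S19IO_gens_int hNum hLat C C' (fun q : ↥S₁ => (q : Pic0 L F))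
    (fun q => hJ₁ q q.2) (fun q : ↥S₂ => (q : Pic0 L F)) (fun q => hJ₂ q q.2) κ κ'
    (fun q => hκ q q.2) (fun q => hκ' q q.2)
  have hconst := S19IO_gens_const hNum hLat C C' (fun q : ↥S₁ => (q : Pic0 L F))
    (fun q => hJ₁ q q.2) (fun q : ↥S₂ => (q : Pic0 L F)) (fun q => hJ₂ q q.2) κ κ'
    (fun q => hκ q q.2) (fun q => hκ' q q.2) q₀
  have hLoc := S19IO_loc S _ q₀ hint hconst
  obtain ⟨E₁, hE₁, hW₁⟩ := S19IO_in hNum hLat C _ q₀ hint hconst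
    (fun q : ↥S₁ × ↥S₂ => (q.1 : Pic0 L F)) (fun q => hJ₁ _ q.1.2)
    (fun p (q : ↥S₁ × ↥S₂) => κ p (q.1 : Pic0 L F)) (fun q => hκ _ q.1.2)
    (fun p => Algebra.subset_adjoin (Or.inl ⟨p, rfl⟩))
  obtain ⟨E₂, hE₂, hW₂⟩ := S19IO_in hNum hLat C' _ q₀ hint hconst
    (fun q : ↥S₁ × ↥S₂ => (q.2 : Pic0 L F)) (fun q => hJ₂ _ q.2.2)
    (fun p (q : ↥S₁ × ↥S₂) => κ' p (q.2 : Pic0 L F)) (fun q => hκ' _ q.2.2)
    (fun p => Algebra.subset_adjoin (Or.inr ⟨p, rfl⟩))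
  obtain ⟨E₃, hE₃, hW₃⟩ := S19A3_core hLat hNum C C' C'' hLoc
    (fun a => algebraMap ↥S.A _ a) (fun q a => S19IO_ev_const S _ a q)
    (fun a => S19IO_pi_const S _ q₀ hint a) _ _ E₁ E₂ hE₁ hE₂ hW₁ hW₂
  exact S19IO_out hNum hLat C'' _ q₀ hint hconst
    (fun q : ↥S₁ × ↥S₂ => (q.1 : Pic0 L F) + (q.2 : Pic0 L F))
    (fun q => S19IO_j1_add S (hJ₁ _ q.1.2) (hJ₂ _ q.2.2))
    (fun p (q : ↥S₁ × ↥S₂) => κ'' p ((q.1 : Pic0 L F) + (q.2 : Pic0 L F)))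
    (fun q => hκ'' _ q.1.2 _ q.2.2) E₃ (fun q => (hE₃ q).1) (fun q => (hE₃ q).2) hW₃ p

end Fermat.Agent.S19
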