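import Fermat.Agent.S19.DescAsm

/-!
# TRACK 9 "FLAT" (S19 + S32), package DESC: the order `A[h]` (sub-lemmas of (K), helper1)

`M := A[h] = Algebra.adjoin A (range h) ⊂ Map(S, Ω)` for a family `h : ι → S → Ω`:

* `S19DJ_int`   : (a) `h i x ∈ A` ⇒ all elements of `A[h]` have values in `A`;
* `S19DJ_dstab` : (c') the order is stable under `f ↦ (x ↦ σ (f (σ⁻¹ x)))` for `σ` in the
  decomposition group, if the generators are mapped into it;
* `S19DJ_ispan` : (b') `A[h]` is spanned over `A` by its inertia-equivariant elements, if the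
  generators are inertia-equivariant.
(`S19DA_fg` of `S19/DescAsm.lean`: `A[h]` is a finitely generated `A`-module.)
-/

set_option autoImplicit false
set_option linter.unusedSectionVars false
set_option linter.unusedVariables false
set_option linter.style.haveILetI false

open scoped Pointwise

namespace Fermat.Agent.S19

section adj

variable {S : Type} (act : S19PW_Gal → S → S) (A : ValuationSubring S19PW_Om)
  {ι : Type} (h : ι → S → S19PW_Om)

/-- (a) ⇒ the elements of `A[h]` have values in `A`. -/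
theorem S19DJ_int (ha : ∀ i x, h i x ∈ A) :
    ∀ f ∈ Algebra.adjoin ↥A (Set.range h), ∀ x, f x ∈ A := by
  intro f hf
  induction hf using Algebra.adjoin_induction with
  | mem f hf =>
    obtain ⟨i, rfl⟩ := hf
    exact ha i
  | algebraMap a => exact fun x => a.2
  | add f g _ _ hf hg => exact fun x => A.add_mem _ _ (hf x) (hg x)
  | mul f g _ _ hf hg => exact fun x => A.mul_mem _ _ (hf x) (hg x)

/-- the decomposition group preserves `A`. -/
theorem S19DJ_dec_mem {σ : S19PW_Gal} (hσ : σ ∈ A.decompositionSubgroup ℚ) {x : S19PW_Om}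
    (hx : x ∈ A) : σ x ∈ A := by
  have h1 : σ • A = A := hσ
  rw [← h1]
  exact ⟨x, hx, rfl⟩

/-- (c') ⇒ the order `A[h]` is stable under the decomposition group. -/
theorem S19DJ_dstab
    (hact1 : ∀ x, act 1 x = x) (hactmul : ∀ σ τ x, act (σ * τ) x = act σ (act τ x))
    (hc : ∀ σ ∈ A.decompositionSubgroup ℚ, ∀ i,
      (fun x => σ (h i (act σ⁻¹ x))) ∈ Algebra.adjoin ↥A (Set.range h)) :
    ∀ σ ∈ A.decompositionSubgroup ℚ, ∀ f ∈ Algebra.adjoin ↥A (Set.range h),
      (fun x => σ (f (act σ⁻¹ x))) ∈ Algebra.adjoin ↥A (Set.range h) := by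
  intro σ hσ f hf
  induction hf using Algebra.adjoin_induction with
  | mem f hf =>
    obtain ⟨i, rfl⟩ := hf
    exact hc σ hσ i
  | algebraMap a =>
    have h1 : (fun x => σ ((algebraMap ↥A (S → S19PW_Om) a) (act σ⁻¹ x))) =
        algebraMap ↥A (S → S19PW_Om) ⟨σ (a : S19PW_Om), S19DJ_dec_mem A hσ a.2⟩ := rfl
    rw [h1]
    exact Subalgebra.algebraMap_mem _ _
  | add f g _ _ hf hg =>
    have h1 : (fun x => σ ((f + g) (act σ⁻¹ x))) =
        (fun x => σ (f (act σ⁻¹ x))) + (fun x => σ (g (act σ⁻¹ x))) := by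
      funext x
      simp only [Pi.add_apply, map_add]
    rw [h1]
    exact Subalgebra.add_mem _ hf hg
  | mul f g _ _ hf hg =>
    have h1 : (fun x => σ ((f * g) (act σ⁻¹ x))) =
        (fun x => σ (f (act σ⁻¹ x))) * (fun x => σ (g (act σ⁻¹ x))) := by
      funext x
      simp only [Pi.mul_apply, map_mul]
    rw [h1]
    exact Subalgebra.mul_mem _ hf hg

/-- (b') ⇒ `A[h]` is spanned by its inertia-equivariant elements. -/
theorem S19DJ_ispan
    (hb : ∀ τ ∈ A.inertiaSubgroupIn ℚ, ∀ i x, h i (act τ x) = τ (h i x)) :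
    Subalgebra.toSubmodule (Algebra.adjoin ↥A (Set.range h)) ≤
      Submodule.span ↥A {f | f ∈ Algebra.adjoin ↥A (Set.range h) ∧
        ∀ τ ∈ A.inertiaSubgroupIn ℚ, ∀ x, f (act τ x) = τ (f x)} := by
  rw [Algebra.adjoin_eq_span]
  refine Submodule.span_mono ?_
  intro f hf
  refine ⟨?_, ?_⟩
  · have h1 : Submonoid.closure (Set.range h) ≤
        (Algebra.adjoin ↥A (Set.range h)).toSubsemiring.toSubmonoid := by
      rw [Submonoid.closure_le]
      exact Algebra.subset_adjoin
    exact h1 hf
  · induction hf using Submonoid.closure_induction with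
    | mem f hf =>
      obtain ⟨i, rfl⟩ := hf
      exact fun τ hτ x => hb τ hτ i x
    | one =>
      intro τ hτ x
      simp
    | mul f g _ _ hf hg =>
      intro τ hτ x
      rw [Pi.mul_apply, Pi.mul_apply, hf τ hτ, hg τ hτ, map_mul]

end adj

end Fermat.Agent.S19
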