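import Fermat.Agent.S19.Pointwise

/-!
# TRACK 9 "FLAT" (S19 + S32), package DESC, the ASSEMBLY on top of the core (K)  (helper1)

`Ω = AlgebraicClosure ℚ`, `R = GaloisRep.ratLocalizedAt ℓ`, `A` a valuation subring of `Ω` over `ℓ`,
`G` a finite abelian group with an action of `Gal(Ω/ℚ)`, `h : ι → G → Ω` a finite family with values
in `A`, `M := A[h] ⊂ Map(G, Ω)`, `H₀ := {f ∈ M | f Galois-equivariant}`.

INPUT: (a) values in `A`, (d) `h` separates the points, (e) `h i (x + y)` lies in `A[h ⊗ 1, 1 ⊗ h]`,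
and the conclusion `hK` of the core (K) (`S19D_K`, helper26): `M ≤ A·H₀`.

OUTPUT (`S19DA_main`): `H₀` is an `R`-subalgebra which is equivariant, finitely generated as an
`R`-module, separates the points and is closed under the comultiplication: the hypotheses of
`S19F_main'` (helper24).
-/

set_option autoImplicit false
set_option linter.unusedSectionVars false
set_option linter.unusedVariables false
set_option linter.style.haveILetI false

open Finset

namespace Fermat.Agent.S19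

section repr

variable {S : Type} (A : ValuationSubring S19PW_Om)

/-- scalar multiplication by `a : A` on functions is pointwise multiplication by `(a : Ω)`. -/
theorem S19DA_smul_eq (a : ↥A) (f : S → S19PW_Om) : a • f = (a : S19PW_Om) • f := by
  funext s
  rw [Pi.smul_apply, Pi.smul_apply]
  rfl

/-- elements of an `A`-span are finite `A`-linear combinations. -/
theorem S19DA_span_repr (T : Set (S → S19PW_Om)) (f : S → S19PW_Om)
    (hf : f ∈ Submodule.span ↥A T) :
    ∃ (n : ℕ) (c : Fin n → S19PW_Om) (m : Fin n → S → S19PW_Om),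
      (∀ i, c i ∈ A) ∧ (∀ i, m i ∈ T) ∧ f = ∑ i, c i • m i := by
  induction hf using Submodule.span_induction with
  | mem x hx =>
    exact ⟨1, fun _ => 1, fun _ => x, fun _ => A.one_mem, fun _ => hx, by simp⟩
  | zero => exact ⟨0, Fin.elim0, Fin.elim0, fun i => i.elim0, fun i => i.elim0, by simp⟩
  | add x y _ _ hx hy =>
    obtain ⟨n, c, m, hc, hm, rfl⟩ := hx
    obtain ⟨n', c', m', hc', hm', rfl⟩ := hy
    refine ⟨n + n', Fin.append c c', Fin.append m m', ?_, ?_, ?_⟩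
    · intro i
      refine Fin.addCases (fun j => ?_) (fun j => ?_) i
      · rw [Fin.append_left]; exact hc j
      · rw [Fin.append_right]; exact hc' j
    · intro i
      refine Fin.addCases (fun j => ?_) (fun j => ?_) i
      · rw [Fin.append_left]; exact hm j
      · rw [Fin.append_right]; exact hm' j
    · rw [Fin.sum_univ_add]
      simp only [Fin.append_left, Fin.append_right]
  | smul a x _ hx =>
    obtain ⟨n, c, m, hc, hm, rfl⟩ := hx
    refine ⟨n, fun i => (a : S19PW_Om) * c i, m, fun i => A.mul_mem _ _ a.2 (hc i), hm, ?_⟩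
    rw [S19DA_smul_eq, Finset.smul_sum]
    refine Finset.sum_congr rfl fun i _ => ?_
    rw [smul_smul]

end repr

section pull

variable {S T : Type} (A : ValuationSubring S19PW_Om)

/-- pull-back of functions along `u : T → S`, an `A`-algebra homomorphism. -/
noncomputable def S19DA_pull (u : T → S) : (S → S19PW_Om) →ₐ[↥A] (T → S19PW_Om) where
  toFun f := fun t => f (u t)
  map_one' := rfl
  map_mul' _ _ := rfl
  map_zero' := rfl
  map_add' _ _ := rfl
  commutes' _ := rfl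

theorem S19DA_pull_apply (u : T → S) (f : S → S19PW_Om) (t : T) :
    S19DA_pull A u f t = f (u t) := rfl

/-- the exterior product `(a, b) ↦ ((x, y) ↦ a x * b y)`, `A`-bilinear. -/
noncomputable def S19DA_ext (G : Type) :
    (G → S19PW_Om) →ₗ[↥A] (G → S19PW_Om) →ₗ[↥A] (G × G → S19PW_Om) :=
  LinearMap.mk₂ ↥A (fun a b => fun p => a p.1 * b p.2)
    (fun a a' b => by funext p; simp [add_mul])
    (fun r a b => by
      funext p
      simp only [Pi.smul_apply, Algebra.smul_def, mul_assoc])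
    (fun a b b' => by funext p; simp [mul_add])
    (fun r a b => by
      funext p
      simp only [Pi.smul_apply, Algebra.smul_def, mul_left_comm])

theorem S19DA_ext_apply (G : Type) (a b : G → S19PW_Om) (p : G × G) :
    S19DA_ext A G a b p = a p.1 * b p.2 := rfl

end pull

section fg

variable {G : Type} [Finite G] (A : ValuationSubring S19PW_Om)

/-- `A[h]` is a finitely generated `A`-module when `h` has values in `A`. -/
theorem S19DA_fg {ι : Type} [Finite ι] (h : ι → G → S19PW_Om) (ha : ∀ i x, h i x ∈ A) :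
    (Subalgebra.toSubmodule (Algebra.adjoin ↥A (Set.range h))).FG := by
  refine fg_adjoin_of_finite (Set.finite_range h) ?_
  rintro _ ⟨i, rfl⟩
  let φ : (G → ↥A) →ₐ[↥A] (G → S19PW_Om) := (Algebra.ofId ↥A S19PW_Om).compLeft G
  have h1 : IsIntegral ↥A (fun x => (⟨h i x, ha i x⟩ : ↥A)) := Algebra.IsIntegral.isIntegral _
  have h2 := h1.map φ
  exact h2

end fg

section comul

variable {ℓ : ℕ} [Fact ℓ.Prime] {G : Type} [AddCommGroup G]

/-- the comultiplication descends from `A` to `R` (first half of `S19PW_main0`, without the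
antipode). -/
theorem S19DA_comul [Finite G] (act : S19PW_Gal → G → G)
    (hadd : ∀ σ x y, act σ (x + y) = act σ x + act σ y)
    (hsurj : ∀ σ, Function.Surjective (act σ))
    (A : ValuationSubring S19PW_Om) (hA : A.LiesOverPrime ℓ)
    (H₀ : Subalgebra ↥(GaloisRep.ratLocalizedAt ℓ) (G → S19PW_Om))
    (heq : ∀ f ∈ H₀, ∀ σ x, f (act σ x) = σ (f x))
    (hfin : (Subalgebra.toSubmodule H₀).FG)
    (hcomulA : ∀ f ∈ H₀, ∃ (n : ℕ) (c : Fin n → S19PW_Om) (a b : Fin n → G → S19PW_Om),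
      (∀ i, c i ∈ A) ∧ (∀ i, a i ∈ H₀) ∧ (∀ i, b i ∈ H₀) ∧
        ∀ x y, f (x + y) = ∑ i, c i * (a i x * b i y)) :
    ∀ f ∈ H₀, ∃ (n : ℕ) (a b : Fin n → G → S19PW_Om), (∀ i, a i ∈ H₀) ∧ (∀ i, b i ∈ H₀) ∧
        ∀ x y, f (x + y) = ∑ i, a i x * b i y := by
  classical
  intro f hf
  set M₂ : Submodule ↥(GaloisRep.ratLocalizedAt ℓ) (G × G → S19PW_Om) :=
    Submodule.map₂ (S19PW_ext ℓ G) (Subalgebra.toSubmodule H₀) (Subalgebra.toSubmodule H₀)
    with hM₂
  have hfg₂ : M₂.FG := Submodule.FG.map₂ _ hfin hfin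
  -- the elements of `M₂` are equivariant
  let Eq₂ : Submodule ↥(GaloisRep.ratLocalizedAt ℓ) (G × G → S19PW_Om) :=
    { carrier := {F | ∀ σ p, F (S19PW_act2 act σ p) = σ (F p)}
      add_mem' := by
        intro F F' hF hF' σ p
        rw [Pi.add_apply, Pi.add_apply, hF σ p, hF' σ p, map_add]
      zero_mem' := by
        intro σ p
        simp
      smul_mem' := by
        intro r F hF σ p
        rw [S19PW_smul_apply, S19PW_smul_apply, hF σ p, map_mul, AlgEquiv.commutes] }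
  have hEq₂ : M₂ ≤ Eq₂ := by
    rw [hM₂, Submodule.map₂_le]
    intro a ha b hb σ p
    rw [S19PW_ext_apply, S19PW_ext_apply, map_mul]
    show a (act σ p.1) * b (act σ p.2) = _
    rw [heq a ha σ p.1, heq b hb σ p.2]
  -- the elements of `M₂` are sums of pure tensors
  let Fm₂ : Submodule ↥(GaloisRep.ratLocalizedAt ℓ) (G × G → S19PW_Om) :=
    { carrier := {F | ∃ (n : ℕ) (a b : Fin n → G → S19PW_Om), (∀ i, a i ∈ H₀) ∧ (∀ i, b i ∈ H₀) ∧
        ∀ x y, F (x, y) = ∑ i, a i x * b i y}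
      add_mem' := by
        rintro F F' ⟨n, a, b, ha, hb, hF⟩ ⟨n', a', b', ha', hb', hF'⟩
        refine ⟨n + n', Fin.append a a', Fin.append b b', ?_, ?_, ?_⟩
        · intro i
          refine Fin.addCases (fun j => ?_) (fun j => ?_) i
          · rw [Fin.append_left]; exact ha j
          · rw [Fin.append_right]; exact ha' j
        · intro i
          refine Fin.addCases (fun j => ?_) (fun j => ?_) i
          · rw [Fin.append_left]; exact hb j
          · rw [Fin.append_right]; exact hb' j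
        · intro x y
          rw [Pi.add_apply, hF, hF', Fin.sum_univ_add]
          simp only [Fin.append_left, Fin.append_right]
      zero_mem' := ⟨0, Fin.elim0, Fin.elim0, fun i => i.elim0, fun i => i.elim0, fun x y => by simp⟩
      smul_mem' := by
        rintro r F ⟨n, a, b, ha, hb, hF⟩
        refine ⟨n, fun i => r • a i, b, fun i => H₀.smul_mem (ha i) r, hb, ?_⟩
        intro x y
        rw [S19PW_smul_apply, hF, Finset.mul_sum]
        refine Finset.sum_congr rfl fun i _ => ?_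
        show _ = (r • a i) x * b i y
        rw [S19PW_smul_apply, mul_assoc] }
  have hFm₂ : M₂ ≤ Fm₂ := by
    rw [hM₂, Submodule.map₂_le]
    intro a ha b hb
    exact ⟨1, fun _ => a, fun _ => b, fun _ => ha, fun _ => hb, fun x y => by simp [S19PW_ext_apply]⟩
  obtain ⟨n, c, a, b, hc, ha, hb, hsum⟩ := hcomulA f hf
  have hmem : (fun p : G × G => f (p.1 + p.2)) ∈ M₂ := by
    refine S19PW_descent (S19PW_act2 act) (S19PW_act2_surj act hsurj) A hA M₂ hfg₂
      (fun m hm => hEq₂ hm) _ ?_ ⟨n, c, fun i => S19PW_ext ℓ G (a i) (b i), hc, ?_, ?_⟩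
    · intro σ p
      show f (act σ p.1 + act σ p.2) = σ (f (p.1 + p.2))
      rw [← hadd, heq f hf]
    · intro i
      exact Submodule.apply_mem_map₂ _ (ha i) (hb i)
    · funext p
      rw [hsum p.1 p.2, Finset.sum_apply]
      refine Finset.sum_congr rfl fun i _ => ?_
      rw [Pi.smul_apply, smul_eq_mul]
      rfl
  obtain ⟨n', a', b', ha', hb', hF'⟩ := hFm₂ hmem
  exact ⟨n', a', b', ha', hb', fun x y => hF' x y⟩

end comul

section main

variable {ℓ : ℕ} [Fact ℓ.Prime] {G : Type} [AddCommGroup G]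

/-- `H₀ := {f ∈ A[h] | f equivariant}` as an `R`-subalgebra. -/
def S19DA_H₀ (ℓ : ℕ) [Fact ℓ.Prime] (act : S19PW_Gal → G → G)
    (A : ValuationSubring S19PW_Om) (hA : A.LiesOverPrime ℓ)
    {ι : Type} (h : ι → G → S19PW_Om) :
    Subalgebra ↥(GaloisRep.ratLocalizedAt ℓ) (G → S19PW_Om) where
  carrier := {f | f ∈ Algebra.adjoin ↥A (Set.range h) ∧ ∀ σ x, f (act σ x) = σ (f x)}
  mul_mem' := by
    rintro f g ⟨hf, hf'⟩ ⟨hg, hg'⟩
    refine ⟨Subalgebra.mul_mem _ hf hg, fun σ x => ?_⟩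
    rw [Pi.mul_apply, Pi.mul_apply, hf', hg', map_mul]
  add_mem' := by
    rintro f g ⟨hf, hf'⟩ ⟨hg, hg'⟩
    refine ⟨Subalgebra.add_mem _ hf hg, fun σ x => ?_⟩
    rw [Pi.add_apply, Pi.add_apply, hf', hg', map_add]
  algebraMap_mem' := by
    intro r
    refine ⟨?_, fun σ x => ?_⟩
    · have h1 : algebraMap ↥(GaloisRep.ratLocalizedAt ℓ) (G → S19PW_Om) r =
          algebraMap ↥A (G → S19PW_Om) ⟨algebraMap ℚ S19PW_Om (r : ℚ), S19PW_R_le_A A hA r⟩ := rfl
      rw [h1]
      exact Subalgebra.algebraMap_mem _ _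
    · show algebraMap ℚ S19PW_Om (r : ℚ) = σ (algebraMap ℚ S19PW_Om (r : ℚ))
      rw [AlgEquiv.commutes]

theorem S19DA_mem_H₀ (act : S19PW_Gal → G → G)
    (A : ValuationSubring S19PW_Om) (hA : A.LiesOverPrime ℓ)
    {ι : Type} (h : ι → G → S19PW_Om) (f : G → S19PW_Om) :
    f ∈ S19DA_H₀ ℓ act A hA h ↔
      f ∈ Algebra.adjoin ↥A (Set.range h) ∧ ∀ σ x, f (act σ x) = σ (f x) := Iff.rfl

/-- a group action is by surjective maps. -/
theorem S19DA_surj (act : S19PW_Gal → G → G)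
    (hact1 : ∀ x, act 1 x = x) (hactmul : ∀ σ τ x, act (σ * τ) x = act σ (act τ x))
    (σ : S19PW_Gal) : Function.Surjective (act σ) := by
  intro x
  refine ⟨act σ⁻¹ x, ?_⟩
  rw [← hactmul, mul_inv_cancel, hact1]

/-- **hfin**: `H₀` is a finitely generated `R`-module. -/
theorem S19DA_hfin [Finite G] (act : S19PW_Gal → G → G)
    (hsurj : ∀ σ, Function.Surjective (act σ))
    (A : ValuationSubring S19PW_Om) (hA : A.LiesOverPrime ℓ)
    {ι : Type} [Finite ι] (h : ι → G → S19PW_Om)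
    (ha : ∀ i x, h i x ∈ A)
    (hK : Subalgebra.toSubmodule (Algebra.adjoin ↥A (Set.range h)) ≤
      Submodule.span ↥A
        {f | f ∈ Algebra.adjoin ↥A (Set.range h) ∧ ∀ σ x, f (act σ x) = σ (f x)}) :
    (Subalgebra.toSubmodule (S19DA_H₀ ℓ act A hA h)).FG := by
  classical
  obtain ⟨Sg, hSg⟩ := S19DA_fg A h ha
  have h1 : ∀ g ∈ Sg, ∃ T : Finset (G → S19PW_Om),
      (↑T ⊆ {f | f ∈ Algebra.adjoin ↥A (Set.range h) ∧ ∀ σ x, f (act σ x) = σ (f x)}) ∧
        g ∈ Submodule.span ↥A (T : Set (G → S19PW_Om)) := by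
    intro g hg
    have hgM : g ∈ Subalgebra.toSubmodule (Algebra.adjoin ↥A (Set.range h)) := by
      rw [← hSg]
      exact Submodule.subset_span hg
    exact Submodule.mem_span_finite_of_mem_span (hK hgM)
  choose! T hT1 hT2 using h1
  set F : Finset (G → S19PW_Om) := Sg.biUnion T with hF
  have hF1 : ∀ f ∈ F, f ∈ S19DA_H₀ ℓ act A hA h := by
    intro f hf
    rw [hF, Finset.mem_biUnion] at hf
    obtain ⟨g, hg, hfg⟩ := hf
    exact hT1 g hg hfg
  have hF2 : Subalgebra.toSubmodule (Algebra.adjoin ↥A (Set.range h)) ≤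
      Submodule.span ↥A (F : Set (G → S19PW_Om)) := by
    rw [← hSg, Submodule.span_le]
    intro g hg
    refine Submodule.span_mono ?_ (hT2 g hg)
    intro f hf
    rw [hF]
    exact Finset.mem_coe.mpr (Finset.mem_biUnion.mpr ⟨g, hg, hf⟩)
  set M₀ : Submodule ↥(GaloisRep.ratLocalizedAt ℓ) (G → S19PW_Om) :=
    Submodule.span ↥(GaloisRep.ratLocalizedAt ℓ) (F : Set (G → S19PW_Om)) with hM₀
  have hM₀fg : M₀.FG := Submodule.fg_span (Finset.finite_toSet F)
  have hM₀le : M₀ ≤ Subalgebra.toSubmodule (S19DA_H₀ ℓ act A hA h) := by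
    rw [hM₀, Submodule.span_le]
    intro f hf
    exact hF1 f hf
  have hle : Subalgebra.toSubmodule (S19DA_H₀ ℓ act A hA h) ≤ M₀ := by
    intro f hf
    obtain ⟨n, c, m, hc, hm, hsum⟩ := S19DA_span_repr A _ f (hF2 hf.1)
    exact S19PW_descent act hsurj A hA M₀ hM₀fg (fun m hm => (hM₀le hm).2) f hf.2
      ⟨n, c, m, hc, fun i => Submodule.subset_span (hm i), hsum⟩
  rw [le_antisymm hle hM₀le]
  exact hM₀fg

/-- **hsep**: `H₀` separates the points. -/
theorem S19DA_hsep (act : S19PW_Gal → G → G)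
    (A : ValuationSubring S19PW_Om) (hA : A.LiesOverPrime ℓ)
    {ι : Type} (h : ι → G → S19PW_Om)
    (hd : ∀ x y, (∀ i, h i x = h i y) → x = y)
    (hK : Subalgebra.toSubmodule (Algebra.adjoin ↥A (Set.range h)) ≤
      Submodule.span ↥A
        {f | f ∈ Algebra.adjoin ↥A (Set.range h) ∧ ∀ σ x, f (act σ x) = σ (f x)})
    (x y : G) (hxy : x ≠ y) : ∃ f ∈ S19DA_H₀ ℓ act A hA h, f x ≠ f y := by
  by_contra hcon
  push Not at hcon
  apply hxy
  apply hd
  intro i
  have hi : h i ∈ Subalgebra.toSubmodule (Algebra.adjoin ↥A (Set.range h)) :=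
    Algebra.subset_adjoin ⟨i, rfl⟩
  have h2 := hK hi
  have key : ∀ f ∈ Submodule.span ↥A
      {f | f ∈ Algebra.adjoin ↥A (Set.range h) ∧ ∀ σ x, f (act σ x) = σ (f x)}, f x = f y := by
    intro f hf
    induction hf using Submodule.span_induction with
    | mem f hf => exact hcon f hf
    | zero => rfl
    | add f g _ _ hf hg => rw [Pi.add_apply, Pi.add_apply, hf, hg]
    | smul a f _ hf => rw [Pi.smul_apply, Pi.smul_apply, hf]
  exact key _ h2

/-- **hcomulA**: for `f ∈ A[h]` the function `f (x + y)` is an `A`-linear combination of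
`a x * b y` with `a, b ∈ H₀`. -/
theorem S19DA_hcomulA (act : S19PW_Gal → G → G)
    (A : ValuationSubring S19PW_Om) (hA : A.LiesOverPrime ℓ)
    {ι : Type} (h : ι → G → S19PW_Om)
    (he : ∀ i, (fun p : G × G => h i (p.1 + p.2)) ∈ Algebra.adjoin ↥A
      (Set.range (fun j (p : G × G) => h j p.1) ∪ Set.range (fun j (p : G × G) => h j p.2)))
    (hK : Subalgebra.toSubmodule (Algebra.adjoin ↥A (Set.range h)) ≤
      Submodule.span ↥A
        {f | f ∈ Algebra.adjoin ↥A (Set.range h) ∧ ∀ σ x, f (act σ x) = σ (f x)})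
    (f : G → S19PW_Om) (hf : f ∈ Algebra.adjoin ↥A (Set.range h)) :
    ∃ (n : ℕ) (c : Fin n → S19PW_Om) (a b : Fin n → G → S19PW_Om),
      (∀ i, c i ∈ A) ∧ (∀ i, a i ∈ S19DA_H₀ ℓ act A hA h) ∧ (∀ i, b i ∈ S19DA_H₀ ℓ act A hA h) ∧
        ∀ x y, f (x + y) = ∑ i, c i * (a i x * b i y) := by
  classical
  set M : Subalgebra ↥A (G → S19PW_Om) := Algebra.adjoin ↥A (Set.range h) with hM
  set Hs : Set (G → S19PW_Om) :=
    {f | f ∈ Algebra.adjoin ↥A (Set.range h) ∧ ∀ σ x, f (act σ x) = σ (f x)} with hHs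
  set P₁ : (G → S19PW_Om) →ₐ[↥A] (G × G → S19PW_Om) := S19DA_pull A Prod.fst with hP₁
  set P₂ : (G → S19PW_Om) →ₐ[↥A] (G × G → S19PW_Om) := S19DA_pull A Prod.snd with hP₂
  set Pa : (G → S19PW_Om) →ₐ[↥A] (G × G → S19PW_Om) :=
    S19DA_pull A (fun p : G × G => p.1 + p.2) with hPa
  set 𝒜₂ : Subalgebra ↥A (G × G → S19PW_Om) := Algebra.adjoin ↥A
    (Set.range (fun j (p : G × G) => h j p.1) ∪ Set.range (fun j (p : G × G) => h j p.2))
    with h𝒜₂
  set N₂ : Submodule ↥A (G × G → S19PW_Om) :=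
    Submodule.map₂ (S19DA_ext A G) (Submodule.span ↥A Hs) (Submodule.span ↥A Hs) with hN₂
  -- step 1: `f ∘ add ∈ 𝒜₂`
  have h1 : Pa f ∈ 𝒜₂ := by
    have h2 : M.map Pa ≤ 𝒜₂ := by
      rw [hM, AlgHom.map_adjoin]
      refine Algebra.adjoin_le ?_
      rintro _ ⟨_, ⟨i, rfl⟩, rfl⟩
      exact he i
    exact h2 ⟨f, hf, rfl⟩
  -- step 2: `𝒜₂ ≤ N₂`
  have hr1 : Set.range (fun j (p : G × G) => h j p.1) = P₁ '' Set.range h := by
    ext F
    constructor
    · rintro ⟨j, rfl⟩
      exact ⟨h j, ⟨j, rfl⟩, rfl⟩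
    · rintro ⟨_, ⟨j, rfl⟩, rfl⟩
      exact ⟨j, rfl⟩
  have hr2 : Set.range (fun j (p : G × G) => h j p.2) = P₂ '' Set.range h := by
    ext F
    constructor
    · rintro ⟨j, rfl⟩
      exact ⟨h j, ⟨j, rfl⟩, rfl⟩
    · rintro ⟨_, ⟨j, rfl⟩, rfl⟩
      exact ⟨j, rfl⟩
  have h3 : Subalgebra.toSubmodule 𝒜₂ ≤ N₂ := by
    rw [h𝒜₂, Algebra.adjoin_union, ← Subalgebra.mul_toSubmodule, hr1, hr2,
      ← AlgHom.map_adjoin, ← AlgHom.map_adjoin, Submodule.mul_le]
    rintro _ ⟨a, ha, rfl⟩ _ ⟨b, hb, rfl⟩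
    exact Submodule.apply_mem_map₂ (S19DA_ext A G) (hK ha) (hK hb)
  have h4 : Pa f ∈ Submodule.span ↥A (Set.image2 (fun a b => S19DA_ext A G a b) Hs Hs) := by
    have := h3 h1
    rwa [hN₂, Submodule.map₂_span_span] at this
  obtain ⟨n, c, m, hc, hm, hsum⟩ := S19DA_span_repr A _ _ h4
  choose a ha b hb hab using fun i => Set.mem_image2.mp (hm i)
  refine ⟨n, c, a, b, hc, ha, hb, fun x y => ?_⟩
  have h5 := congrFun hsum (x, y)
  rw [Finset.sum_apply] at h5
  rw [show f (x + y) = Pa f (x, y) from rfl, h5]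
  refine Finset.sum_congr rfl fun i _ => ?_
  rw [Pi.smul_apply, smul_eq_mul, ← hab i]
  rfl

/-- **DESC, assembly** (on top of the core (K), `hK`): `H₀ := {f ∈ A[h] | f equivariant}` is an
`R`-order satisfying the hypotheses of `S19F_main'`. -/
theorem S19DA_main [Finite G] (act : S19PW_Gal → G → G)
    (hact1 : ∀ x, act 1 x = x) (hactmul : ∀ σ τ x, act (σ * τ) x = act σ (act τ x))
    (hadd : ∀ σ x y, act σ (x + y) = act σ x + act σ y)
    (A : ValuationSubring S19PW_Om) (hA : A.LiesOverPrime ℓ)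
    {ι : Type} [Finite ι] (h : ι → G → S19PW_Om)
    (ha : ∀ i x, h i x ∈ A)
    (hd : ∀ x y, (∀ i, h i x = h i y) → x = y)
    (he : ∀ i, (fun p : G × G => h i (p.1 + p.2)) ∈ Algebra.adjoin ↥A
      (Set.range (fun j (p : G × G) => h j p.1) ∪ Set.range (fun j (p : G × G) => h j p.2)))
    (hK : Subalgebra.toSubmodule (Algebra.adjoin ↥A (Set.range h)) ≤
      Submodule.span ↥A
        {f | f ∈ Algebra.adjoin ↥A (Set.range h) ∧ ∀ σ x, f (act σ x) = σ (f x)}) :
    ∃ H₀ : Subalgebra ↥(GaloisRep.ratLocalizedAt ℓ) (G → S19PW_Om),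
      (∀ f, f ∈ H₀ ↔ f ∈ Algebra.adjoin ↥A (Set.range h) ∧ ∀ σ x, f (act σ x) = σ (f x)) ∧
      (∀ f ∈ H₀, ∀ σ x, f (act σ x) = σ (f x)) ∧
      (Subalgebra.toSubmodule H₀).FG ∧
      (∀ x y, x ≠ y → ∃ f ∈ H₀, f x ≠ f y) ∧
      (∀ f ∈ H₀, ∃ (n : ℕ) (a b : Fin n → G → S19PW_Om),
        (∀ i, a i ∈ H₀) ∧ (∀ i, b i ∈ H₀) ∧ ∀ x y, f (x + y) = ∑ i, a i x * b i y) := by
  have hsurj := S19DA_surj act hact1 hactmul
  have hfin := S19DA_hfin act hsurj A hA h ha hK
  refine ⟨S19DA_H₀ ℓ act A hA h, fun f => Iff.rfl, fun f hf => hf.2, hfin,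
    S19DA_hsep act A hA h hd hK, ?_⟩
  exact S19DA_comul act hadd hsurj A hA _ (fun f hf => hf.2) hfin
    (fun f hf => S19DA_hcomulA act A hA h he hK f hf.1)

end main

end Fermat.Agent.S19
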