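import Fermat.Agent.S19.DescK
import Fermat.Agent.S19.DescAsm
import Fermat.Agent.S19.DescAdj

/-!
# TRACK 9 "FLAT" (S19 + S32), package DESC (helper26): the main theorems

* `S19D_K`    : for a finite family `h` on a finite continuous `Γ`-set `S` with (a) values in `A`,
  (b') inertia-equivariance, (c') `D`-stability of `A[h]`, (d) separation:
  `A[h]` is generated over `A` by its `Γ`-equivariant elements;
* `S19D_main` : DESC-LOCAL = `S19D_K` + helper1's assembly `S19DA_main`: the `ℤ_(ℓ)`-order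
  `H₀ = {f ∈ A[h] | f equivariant}` satisfies `heq`, `hfin`, `hsep`, `hcomul`.
-/

set_option autoImplicit false
set_option linter.unusedSectionVars false
set_option linter.unusedVariables false

namespace Fermat.Agent.S19

/-- **(K)** `A[h] = A·(A[h] ∩ E)`. -/
theorem S19D_K (ℓ : ℕ) [Fact ℓ.Prime] {S : Type} [Finite S]
    (act : S19PW_Gal → S → S)
    (hact1 : ∀ x, act 1 x = x) (hactmul : ∀ σ τ x, act (σ * τ) x = act σ (act τ x))
    (hcont : ∃ T : Finset S19PW_Om, ∀ σ : S19PW_Gal, (∀ t ∈ T, σ t = t) → ∀ x, act σ x = x)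
    (A : ValuationSubring S19PW_Om) (hA : A.LiesOverPrime ℓ)
    {ι : Type} [Finite ι] (h : ι → S → S19PW_Om)
    (ha : ∀ i x, h i x ∈ A)
    (hb : ∀ τ ∈ A.inertiaSubgroupIn ℚ, ∀ i x, h i (act τ x) = τ (h i x))
    (hc : ∀ σ ∈ A.decompositionSubgroup ℚ, ∀ i,
      (fun x => σ (h i (act σ⁻¹ x))) ∈ Algebra.adjoin ↥A (Set.range h))
    (hd : ∀ x y, (∀ i, h i x = h i y) → x = y) :
    Subalgebra.toSubmodule (Algebra.adjoin ↥A (Set.range h)) ≤
      Submodule.span ↥A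
        {f | f ∈ Algebra.adjoin ↥A (Set.range h) ∧ ∀ σ x, f (act σ x) = σ (f x)} := by
  refine S19D_K_core act hact1 hactmul hcont A hA (Algebra.adjoin ↥A (Set.range h))
    (S19DA_fg A h ha) (S19DJ_int A h ha) ?_ (S19DJ_dstab act A h hact1 hactmul hc)
    (S19DJ_ispan act A h hb)
  intro x y hxy
  by_contra hcon
  simp only [not_exists, not_and, not_not] at hcon
  exact hxy (hd x y fun i => hcon (h i) (Algebra.subset_adjoin ⟨i, rfl⟩))

/-- **DESC-LOCAL**: from the local data (a), (b'), (c'), (d), (e) to the `ℤ_(ℓ)`-order. -/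
theorem S19D_main (ℓ : ℕ) [Fact ℓ.Prime] {G : Type} [AddCommGroup G] [Finite G]
    (act : S19PW_Gal → G → G)
    (hact1 : ∀ x, act 1 x = x) (hactmul : ∀ σ τ x, act (σ * τ) x = act σ (act τ x))
    (hadd : ∀ σ x y, act σ (x + y) = act σ x + act σ y)
    (hcont : ∃ T : Finset S19PW_Om, ∀ σ : S19PW_Gal, (∀ t ∈ T, σ t = t) → ∀ x, act σ x = x)
    (A : ValuationSubring S19PW_Om) (hA : A.LiesOverPrime ℓ)
    {ι : Type} [Finite ι] (h : ι → G → S19PW_Om)
    (ha : ∀ i x, h i x ∈ A)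
    (hb : ∀ τ ∈ A.inertiaSubgroupIn ℚ, ∀ i x, h i (act τ x) = τ (h i x))
    (hc : ∀ σ ∈ A.decompositionSubgroup ℚ, ∀ i,
      (fun x => σ (h i (act σ⁻¹ x))) ∈ Algebra.adjoin ↥A (Set.range h))
    (hd : ∀ x y, (∀ i, h i x = h i y) → x = y)
    (he : ∀ i, (fun p : G × G => h i (p.1 + p.2)) ∈ Algebra.adjoin ↥A
      (Set.range (fun j (p : G × G) => h j p.1) ∪ Set.range (fun j (p : G × G) => h j p.2))) :
    ∃ H₀ : Subalgebra ↥(GaloisRep.ratLocalizedAt ℓ) (G → S19PW_Om),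
      (∀ f, f ∈ H₀ ↔ f ∈ Algebra.adjoin ↥A (Set.range h) ∧ ∀ σ x, f (act σ x) = σ (f x)) ∧
      (∀ f ∈ H₀, ∀ σ x, f (act σ x) = σ (f x)) ∧
      (Subalgebra.toSubmodule H₀).FG ∧
      (∀ x y, x ≠ y → ∃ f ∈ H₀, f x ≠ f y) ∧
      (∀ f ∈ H₀, ∃ (n : ℕ) (a b : Fin n → G → S19PW_Om),
        (∀ i, a i ∈ H₀) ∧ (∀ i, b i ∈ H₀) ∧ ∀ x y, f (x + y) = ∑ i, a i x * b i y) :=
  S19DA_main act hact1 hactmul hadd A hA h ha hd he
    (S19D_K ℓ act hact1 hactmul hcont A hA h ha hb hc hd)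

end Fermat.Agent.S19
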