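import Mathlib
import Fermat.Agent.S19.Iface
import Fermat.Prelude.Def_AlgebraicCurve_BaseChangeGalois

/-!
# TRACK 9 (S19), package EQV (helper28): transport of charts under semilinear automorphisms

Abstract over `S : S18_Spec L F k Fk`.  Prefix `S19EQ_`.

`g : SemilinearAut L F` and `gb : SemilinearAut k Fk` are *compatible with `S`*
(`S19EQ_Compat S g gb`) if `g` preserves the Gauss valuation ring `S.O` and the valuation ring
`S.A`, and reduction intertwines `g` and `gb` on functions and on places.  (For `X₀(N)` and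
`σ` in the decomposition group of `A` this is GALRED / DCOMPAT.)

For a chart `C : S19IF_Chart S D₀ n gen` and `g • D₀ = D₀`:

* `S19EQ_chart hc hD₀ C` : the transported chart `(g • b, g • B₀, P)`;
* `S19EQ_isCoord` (E1)   : `IsCoord C y κ → IsCoord (g C) (g • y) (g_L ∘ κ)`;
* `S19EQ_J1` (E2)        : `J¹` is stable under `g`;
* `S19EQ_chart_eq` (E3)  : `g • b = b`, `g • B₀ = B₀` ⇒ `g C = C`;
* `S19EQ_coord_equivariant` : for an invariant chart with unique coordinates,
  `κ (g • y) = g_L (κ y)`.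
-/

set_option autoImplicit false
set_option linter.unusedSectionVars false

open AlgebraicCurve

namespace Fermat.Agent.S19

open Fermat.Agent.S18 Fermat.Agent.Lib

section general

variable {K E : Type*} [Field K] [Field E] [Algebra K E]

/-- semilinearity of the action on functions. -/
theorem S19EQ_smul_smul (g : SemilinearAut K E) (c : K) (x : E) :
    g • (c • x) = (SemilinearAut.baseAut g c) • (g • x) := by
  rw [Algebra.smul_def, Algebra.smul_def, smul_mul', SemilinearAut.smul_algebraMap]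

theorem S19EQ_smul_sum (g : SemilinearAut K E) {ι : Type*} (s : Finset ι) (c : ι → K)
    (x : ι → E) :
    g • (∑ i ∈ s, c i • x i) = ∑ i ∈ s, (SemilinearAut.baseAut g (c i)) • (g • x i) := by
  rw [Finset.smul_sum]
  exact Finset.sum_congr rfl fun i _ => S19EQ_smul_smul g (c i) (x i)

/-- `g` maps `L(D)` into `L(g • D)`. -/
theorem S19EQ_smul_mem_rr (g : SemilinearAut K E) {D : Divisor K E} {f : E}
    (hf : f ∈ riemannRochSpace D) : g • f ∈ riemannRochSpace (g • D) := by
  rw [mem_riemannRochSpace_iff] at hf ⊢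
  intro v
  rcases hf (g⁻¹ • v) with h0 | h1
  · left
    rw [h0, smul_zero]
  · right
    rw [SemilinearAut.divisor_smul_apply]
    have h2 := SemilinearAut.ord_smul g (g⁻¹ • v) f
    rw [smul_inv_smul] at h2
    rw [h2]
    exact h1

theorem S19EQ_smul_mem_rr_iff (g : SemilinearAut K E) {D : Divisor K E} {f : E} :
    g • f ∈ riemannRochSpace (g • D) ↔ f ∈ riemannRochSpace D := by
  refine ⟨fun h => ?_, S19EQ_smul_mem_rr g⟩
  have := S19EQ_smul_mem_rr g⁻¹ h
  rwa [inv_smul_smul, inv_smul_smul] at this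

/-- `g` preserves effectivity. -/
theorem S19EQ_smul_nonneg (g : SemilinearAut K E) {D : Divisor K E} (hD : 0 ≤ D) :
    0 ≤ g • D := by
  intro v
  rw [SemilinearAut.divisor_smul_apply]
  exact hD _

/-- a semilinear automorphism preserves linear independence. -/
theorem S19EQ_linearIndependent (g : SemilinearAut K E) {ι : Type*} {v : ι → E}
    (hv : LinearIndependent K v) : LinearIndependent K (fun i => g • v i) := by
  rw [linearIndependent_iff'] at hv ⊢
  intro s c hc i hi
  have h1 : g⁻¹ • (∑ j ∈ s, c j • (g • v j)) = 0 := by rw [hc, smul_zero]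
  rw [S19EQ_smul_sum] at h1
  simp only [inv_smul_smul] at h1
  have h2 := hv s (fun j => SemilinearAut.baseAut g⁻¹ (c j)) h1 i hi
  exact (map_eq_zero_iff _ (SemilinearAut.baseAut g⁻¹).injective).mp h2

/-- `finrank L(D) = 1` is invariant. -/
theorem S19EQ_finrank_eq_one (g : SemilinearAut K E) {D : Divisor K E}
    (h : Module.finrank K (riemannRochSpace D) = 1) :
    Module.finrank K (riemannRochSpace (g • D)) = 1 := by
  rw [finrank_eq_one_iff'] at h ⊢
  obtain ⟨v, hv0, hv⟩ := h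
  refine ⟨⟨g • (v : E), S19EQ_smul_mem_rr g v.2⟩, ?_, fun w => ?_⟩
  · intro h0
    apply hv0
    have h1 : g • (v : E) = 0 := congrArg Subtype.val h0
    have h2 : (v : E) = 0 := by
      have := congrArg (fun z => g⁻¹ • z) h1
      simpa using this
    exact Subtype.ext h2
  · have hw : g⁻¹ • (w : E) ∈ riemannRochSpace D := by
      have := S19EQ_smul_mem_rr g⁻¹ w.2
      rwa [inv_smul_smul] at this
    obtain ⟨c, hc⟩ := hv ⟨g⁻¹ • (w : E), hw⟩
    refine ⟨SemilinearAut.baseAut g c, Subtype.ext ?_⟩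
    have h1 : c • (v : E) = g⁻¹ • (w : E) := congrArg Subtype.val hc
    have h2 := congrArg (fun z => g • z) h1
    simp only [smul_inv_smul] at h2
    rw [S19EQ_smul_smul] at h2
    exact h2

end general

variable {L F k Fk : Type*} [Field L] [Field F] [Algebra L F] [Field k] [Field Fk]
  [Algebra k Fk]

/-- `(g, gb)` is compatible with the specialisation datum `S`. -/
structure S19EQ_Compat (S : S18_Spec L F k Fk) (g : SemilinearAut L F)
    (gb : SemilinearAut k Fk) : Prop where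
  mem_O : ∀ f : F, f ∈ S.O → g • f ∈ S.O
  red : ∀ (f : F) (hf : f ∈ S.O) (hgf : g • f ∈ S.O),
    S.red ⟨g • f, hgf⟩ = gb • S.red ⟨f, hf⟩
  r : ∀ P : Place L F, S.r (g • P) = gb • S.r P
  mem_A : ∀ a : L, a ∈ S.A → SemilinearAut.baseAut g a ∈ S.A

variable {S : S18_Spec L F k Fk} {g : SemilinearAut L F} {gb : SemilinearAut k Fk}

/-- the reduction of divisors is equivariant. -/
theorem S19EQ_rdiv_smul (hc : S19EQ_Compat S g gb) (D : Divisor L F) :
    S19IF_rdiv S (g • D) = gb • S19IF_rdiv S D := by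
  show Finsupp.mapDomain S.r (g • D) = gb • Finsupp.mapDomain S.r D
  rw [SemilinearAut.divisor_smul_def, SemilinearAut.divisor_smul_def, ← Finsupp.mapDomain_comp,
    ← Finsupp.mapDomain_comp]
  congr 1
  funext P
  exact hc.r P

/-- (E2): `J¹` is stable. -/
theorem S19EQ_J1 (hc : S19EQ_Compat S g gb) {y : Pic0 L F} (hy : S19IF_J1 S y) :
    S19IF_J1 S (g • y) := by
  obtain ⟨D, rfl, hD⟩ := hy
  refine ⟨SemilinearAut.degZeroSMulHom g D, (SemilinearAut.pic0_smul_mk g D).symm, ?_⟩
  rw [SemilinearAut.coe_degZeroSMulHom, S19EQ_rdiv_smul hc]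
  exact SemilinearAut.smul_mem_principal gb hD

variable {D₀ : Divisor L F} {n gen : ℕ}

/-- the transported chart `(g • b, g • B₀, P)`. -/
noncomputable def S19EQ_chart (hc : S19EQ_Compat S g gb) (hD₀ : g • D₀ = D₀)
    (C : S19IF_Chart S D₀ n gen) : S19IF_Chart S D₀ n gen where
  b := fun i => g • C.b i
  b_mem_O := fun i => hc.mem_O _ (C.b_mem_O i)
  b_mem := fun i => by
    have := S19EQ_smul_mem_rr g (C.b_mem i)
    rwa [hD₀] at this
  b_span := fun f hf => by
    have h1 : g⁻¹ • f ∈ riemannRochSpace D₀ := by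
      have h2 : g⁻¹ • D₀ = D₀ := by
        conv_lhs => rw [← hD₀]
        rw [inv_smul_smul]
      have := S19EQ_smul_mem_rr g⁻¹ hf
      rwa [h2] at this
    obtain ⟨c, hc'⟩ := C.b_span _ h1
    refine ⟨fun i => SemilinearAut.baseAut g (c i), ?_⟩
    have h3 := congrArg (fun z => g • z) hc'
    simp only [smul_inv_smul] at h3
    rw [h3, S19EQ_smul_sum]
  b_red := by
    have h1 : (fun i => S.red ⟨g • C.b i, hc.mem_O _ (C.b_mem_O i)⟩) =
        fun i => gb • S.red ⟨C.b i, C.b_mem_O i⟩ := by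
      funext i
      exact hc.red _ _ _
    rw [h1]
    exact S19EQ_linearIndependent gb C.b_red
  B₀ := g • C.B₀
  B₀_nonneg := S19EQ_smul_nonneg g C.B₀_nonneg
  B₀_deg := by rw [SemilinearAut.degree_smul]; exact C.B₀_deg
  B₀_good := by
    rw [S19EQ_rdiv_smul hc]
    exact S19EQ_finrank_eq_one gb C.B₀_good
  P := C.P
  P_card := C.P_card
  P_inj := fun c hmem hP => by
    have hD₀' : gb • S19IF_rdiv S D₀ = S19IF_rdiv S D₀ := by
      rw [← S19EQ_rdiv_smul hc, hD₀]
    have h1 : (∑ i, c i • S.red ⟨g • C.b i, hc.mem_O _ (C.b_mem_O i)⟩) =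
        gb • (∑ i, (SemilinearAut.baseAut gb⁻¹ (c i)) • S.red ⟨C.b i, C.b_mem_O i⟩) := by
      rw [S19EQ_smul_sum]
      refine Finset.sum_congr rfl fun i _ => ?_
      rw [hc.red _ (C.b_mem_O i)]
      congr 1
      show c i = (SemilinearAut.baseAut gb) ((SemilinearAut.baseAut gb⁻¹) (c i))
      rw [SemilinearAut.baseAut_inv, RingEquiv.apply_symm_apply]
    have h2 : S19IF_rdiv S D₀ - S19IF_rdiv S (g • C.B₀) =
        gb • (S19IF_rdiv S D₀ - S19IF_rdiv S C.B₀) := by
      rw [smul_sub, hD₀', S19EQ_rdiv_smul hc]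
    rw [h1, h2, S19EQ_smul_mem_rr_iff] at hmem
    have h3 := C.P_inj _ hmem (fun j hj => by rw [hP j hj, map_zero])
    funext i
    have h4 := congrFun h3 i
    exact (map_eq_zero_iff _ (SemilinearAut.baseAut gb⁻¹).injective).mp h4

@[simp] theorem S19EQ_chart_b (hc : S19EQ_Compat S g gb) (hD₀ : g • D₀ = D₀)
    (C : S19IF_Chart S D₀ n gen) (i : Fin n) : (S19EQ_chart hc hD₀ C).b i = g • C.b i := rfl

@[simp] theorem S19EQ_chart_B₀ (hc : S19EQ_Compat S g gb) (hD₀ : g • D₀ = D₀)
    (C : S19IF_Chart S D₀ n gen) : (S19EQ_chart hc hD₀ C).B₀ = g • C.B₀ := rfl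

@[simp] theorem S19EQ_chart_P (hc : S19EQ_Compat S g gb) (hD₀ : g • D₀ = D₀)
    (C : S19IF_Chart S D₀ n gen) : (S19EQ_chart hc hD₀ C).P = C.P := rfl

/-- (E1): transport of the coordinates. -/
theorem S19EQ_isCoord (hc : S19EQ_Compat S g gb) (hD₀ : g • D₀ = D₀)
    (C : S19IF_Chart S D₀ n gen) {y : Pic0 L F} {κ : Fin n × Fin n → L}
    (h : S19IF_IsCoord C y κ) :
    S19IF_IsCoord (S19EQ_chart hc hD₀ C) (g • y) (fun p => SemilinearAut.baseAut g (κ p)) := by
  obtain ⟨h0, E, hE, ⟨hdeg, hy⟩, hmem⟩ := h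
  refine ⟨fun i j hij => ?_, g • E, S19EQ_smul_nonneg g hE, ⟨?_, ?_⟩, fun j hj => ?_⟩
  · show SemilinearAut.baseAut g (κ (i, j)) = 0
    rw [h0 i j hij, map_zero]
  · have := SemilinearAut.smul_mem_degZero g hdeg
    rwa [smul_sub] at this
  · rw [← hy, SemilinearAut.pic0_smul_mk]
    refine congrArg Pic0.mk (Subtype.ext ?_)
    rw [SemilinearAut.coe_degZeroSMulHom]
    exact (smul_sub g E C.B₀).symm
  · have h1 := S19EQ_smul_mem_rr g (hmem j hj)
    rw [smul_sub, hD₀, smul_add, S19EQ_smul_sum] at h1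
    exact h1

/-- (E3): an invariant chart is fixed. -/
theorem S19EQ_chart_eq (hc : S19EQ_Compat S g gb) (hD₀ : g • D₀ = D₀)
    (C : S19IF_Chart S D₀ n gen) (hb : ∀ i, g • C.b i = C.b i) (hB : g • C.B₀ = C.B₀) :
    S19EQ_chart hc hD₀ C = C := by
  rcases C with ⟨b, b1, b2, b3, b4, B₀, B1, B2, B3, P, P1, P2⟩
  have h1 : (fun i => g • b i) = b := funext hb
  simp only [S19EQ_chart]
  congr

/-- equivariance of the coordinates of an invariant chart. -/
theorem S19EQ_coord_equivariant (hc : S19EQ_Compat S g gb) (hD₀ : g • D₀ = D₀)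
    (C : S19IF_Chart S D₀ n gen) (hb : ∀ i, g • C.b i = C.b i) (hB : g • C.B₀ = C.B₀)
    (hU : S19IF_CoordUniq C) {y : Pic0 L F} (hy : S19IF_J1 S y)
    {κ κ' : Fin n × Fin n → L} (h : S19IF_IsCoord C y κ) (h' : S19IF_IsCoord C (g • y) κ') :
    κ' = fun p => SemilinearAut.baseAut g (κ p) := by
  have h1 := S19EQ_isCoord hc hD₀ C h
  rw [S19EQ_chart_eq hc hD₀ C hb hB] at h1
  exact hU (g • y) κ' _ (S19EQ_J1 hc hy) h' h1

end Fermat.Agent.S19
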