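import Mathlib
import Fermat.Agent.GalRep.ES
import Fermat.Agent.S17.DivMain
import Fermat.Agent.S18.Sep
import Fermat.Agent.Lib.RiemannNonspecial
import Fermat.Agent.Lib.DiffLocal

/-!
# TRACK 9 (S19), package GALRED (helper25): the reduction of places is Galois equivariant

`F = modularFunctionFieldBar N`, `A ⊂ ℚ̄` a valuation subring over `ℓ ∤ N`,
`h : ReductionInputsModL A N`, `r = placeReductionModL h : Pl(F) → Pl(F_k)`.

* `S19GR_inertia` : `r (τ • P) = r P` for `τ` in the inertia group of `A`.
-/

set_option autoImplicit false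
set_option synthInstance.maxHeartbeats 400000
set_option maxHeartbeats 1000000
set_option linter.unusedSectionVars false
set_option linter.style.haveILetI false

open HahnSeries IntermediateField AlgebraicCurve ModularCurve

namespace Fermat.Agent.S19

open Fermat.Agent.S18 Fermat.Agent.Lib Fermat.Agent.GalRep Fermat.Agent.S17

section

variable (N : ℕ) [NeZero N] (A : ValuationSubring (AlgebraicClosure ℚ))
  (h : ReductionInputsModL A N)

/-- the divisor of `g • f`. -/
theorem S19GR_div_smul
    (g : SemilinearAut (AlgebraicClosure ℚ) ↥(modularFunctionFieldBar N))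
    (f : ↥(modularFunctionFieldBar N)) :
    ES_div N (g • f) = g • ES_div N f := by
  ext P
  rw [ES_div_apply, SemilinearAut.divisor_smul_apply, ES_div_apply]
  have h1 := SemilinearAut.ord_smul g (g⁻¹ • P) f
  rw [smul_inv_smul] at h1
  exact h1

/-- `mapDomain` along `r ∘ (g • ·)`. -/
theorem S19GR_mapDomain_comp
    (g : SemilinearAut (AlgebraicClosure ℚ) ↥(modularFunctionFieldBar N))
    (D : Divisor (AlgebraicClosure ℚ) ↥(modularFunctionFieldBar N)) :
    Finsupp.mapDomain (fun P => placeReductionModL h (g • P)) D =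
      Finsupp.mapDomain (placeReductionModL h) (g • D) := by
  rw [SemilinearAut.divisor_smul_def, ← Finsupp.mapDomain_comp]
  rfl

/-- a divisor with the orders of `f` is `ES_div N f`. -/
theorem S19GR_eq_div {D : Divisor (AlgebraicClosure ℚ) ↥(modularFunctionFieldBar N)}
    {f : ↥(modularFunctionFieldBar N)} (hD : ∀ P, D P = P.ord f) : D = ES_div N f := by
  ext P
  rw [hD P, ES_div_apply]

variable {ℓ : ℕ}

include h in
/-- the reduced function field has at least two places (no constant reduction map). -/
theorem S19GR_not_const (hℓ : ℓ.Prime) (hA : A.LiesOverPrime ℓ) (hℓN : ¬ ℓ ∣ N)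
    (g : SemilinearAut (AlgebraicClosure ℚ) ↥(modularFunctionFieldBar N)) :
    ¬ ∀ P Q : Place (AlgebraicClosure ℚ) ↥(modularFunctionFieldBar N),
      placeReductionModL h (g • P) = placeReductionModL h (g • Q) := by
  intro hc
  haveI : IsAlgClosed (IsLocalRing.ResidueField A) := S18_residue_isAlgClosed A
  haveI : Infinite (IsLocalRing.ResidueField A) := IsAlgClosed.instInfinite
  haveI : Infinite (Place (IsLocalRing.ResidueField A)
      ↥(modularFunctionFieldFullC (IsLocalRing.ResidueField A) N)) :=
    RR_infinite_places (S18_hk N A hℓ hA hℓN)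
  obtain ⟨Q₁, Q₂, hQ⟩ := exists_pair_ne (Place (IsLocalRing.ResidueField A)
      ↥(modularFunctionFieldFullC (IsLocalRing.ResidueField A) N))
  have hsurj : Function.Surjective (placeReductionModL h) :=
    (S18_specModL N A h).r_surjective (S18_hPD N)
  obtain ⟨P₁, hP₁⟩ := hsurj Q₁
  obtain ⟨P₂, hP₂⟩ := hsurj Q₂
  have := hc (g⁻¹ • P₁) (g⁻¹ • P₂)
  rw [smul_inv_smul, smul_inv_smul, hP₁, hP₂] at this
  exact hQ this

/-- **inertia acts trivially on the reductions of places.** -/
theorem S19GR_inertia (hℓ : ℓ.Prime) (hA : A.LiesOverPrime ℓ) (hℓN : ¬ ℓ ∣ N)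
    (τ : AlgebraicClosure ℚ ≃ₐ[ℚ] AlgebraicClosure ℚ) (hτ : τ ∈ A.inertiaSubgroupIn ℚ)
    (P : Place (AlgebraicClosure ℚ) ↥(modularFunctionFieldBar N)) :
    placeReductionModL h (arithmeticGalois (modularFunctionFieldFull N) τ • P) =
      placeReductionModL h P := by
  set g := arithmeticGalois (modularFunctionFieldFull N) τ with hg
  have hagree : ∀ D ∈ integralPrincipalDivisors A (IsLocalRing.residue A) N,
      Finsupp.mapDomain (fun P => placeReductionModL h (g • P)) D =
        Finsupp.mapDomain (placeReductionModL h) D := by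
    rintro D ⟨y, hy, hyk, hne, hD⟩
    set f : ↥(modularFunctionFieldBar N) := ⟨coeffMap A.subtype y, hy⟩ with hf
    have hf0 : f ≠ 0 := by
      intro h0
      apply hne
      have h1 : coeffMap A.subtype y = 0 := congrArg Subtype.val h0
      have h2 : y = 0 := by
        apply S18_ι_injective A
        rw [map_zero]
        exact h1
      rw [h2, map_zero]
    have hDf : D = ES_div N f := S19GR_eq_div N hD
    rw [S19GR_mapDomain_comp, hDf, ← S19GR_div_smul]
    exact ES_inertia_rdiv N A h τ hτ f hf0
  have hdeg : ∀ P : Place (AlgebraicClosure ℚ) ↥(modularFunctionFieldBar N), P.deg = 1 := by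
    intro P
    haveI := Fermat.Agent.S24.finiteDimensional_jB N
    exact FD_deg_one (Fermat.Agent.S24.jB N) P
  rcases IsPlaceReductionAlong.eq_or_const_of_agree (A := A) (π := IsLocalRing.residue A)
      (N := N) h.choose_spec.2 hagree hdeg
      (fun n hn x => S17D_main (S17DIV_hRR N) n hn x) with h1 | h1
  · exact congrFun h1 P
  · exact absurd h1 (S19GR_not_const N A h hℓ hA hℓN g)

end

end Fermat.Agent.S19
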