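import Mathlib
import Fermat.Agent.S19.GalRed

/-!
# TRACK 9 (S19), package GALRED part 2 (helper25): the decomposition group and the reduction

`F = modularFunctionFieldBar N`, `k` = residue field of `A ⊂ ℚ̄` over `ℓ ∤ N`,
`F_k = modularFunctionFieldFullC k N`, `h : ReductionInputsModL A N`, `r = placeReductionModL h`.

* `S19GR_bar k N φ : SemilinearAut k F_k` : the coefficientwise action of `φ : k ≃+* k` on `F_k`;
* `S19GR_resAut A g : k ≃+* k` : the action of `g ∈ D_A` on the residue field;
* `S19GR_smul_mem_O`, `S19GR_red_smul` : `σ ∈ D_A` preserves the Gauss ring `O` and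
  `red (σ • f) = σ̄ • red f`;
* `S19GR_dec` : `r (σ • P) = σ̄ • r P` for `σ ∈ D_A`.
-/

set_option autoImplicit false
set_option synthInstance.maxHeartbeats 400000
set_option maxHeartbeats 1000000
set_option linter.unusedSectionVars false
set_option linter.style.haveILetI false

open HahnSeries IntermediateField AlgebraicCurve ModularCurve

namespace Fermat.Agent.S19

open Fermat.Agent.S18 Fermat.Agent.Lib Fermat.Agent.GalRep Fermat.Agent.S17

section bar

variable (k : Type*) [Field k] (N : ℕ) [NeZero N]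

/-- the coefficientwise action of a ring automorphism of `k` on `F_k`, as a ring automorphism. -/
noncomputable def S19GR_barRingAut (φ : k ≃+* k) :
    ↥(modularFunctionFieldFullC k N) ≃+* ↥(modularFunctionFieldFullC k N) where
  toFun x := ⟨coeffMap (φ : k →+* k) (x : LaurentSeries k), ES_coeffMap_mem N _ x.2⟩
  invFun x := ⟨coeffMap (φ.symm : k →+* k) (x : LaurentSeries k), ES_coeffMap_mem N _ x.2⟩
  left_inv x := Subtype.ext <| by
    show coeffMap (φ.symm : k →+* k) (coeffMap (φ : k →+* k) (x : LaurentSeries k))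
      = (x : LaurentSeries k)
    rw [coeffMap_coeffMap,
      coeffMap_congr (g := RingHom.id k) (RingHom.ext fun a => φ.symm_apply_apply a)
        (x : LaurentSeries k),
      coeffMap_id]
  right_inv x := Subtype.ext <| by
    show coeffMap (φ : k →+* k) (coeffMap (φ.symm : k →+* k) (x : LaurentSeries k))
      = (x : LaurentSeries k)
    rw [coeffMap_coeffMap,
      coeffMap_congr (g := RingHom.id k) (RingHom.ext fun a => φ.apply_symm_apply a)
        (x : LaurentSeries k),
      coeffMap_id]
  map_mul' x y :=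
    Subtype.ext (map_mul (coeffMap (φ : k →+* k)) (x : LaurentSeries k) (y : LaurentSeries k))
  map_add' x y :=
    Subtype.ext (map_add (coeffMap (φ : k →+* k)) (x : LaurentSeries k) (y : LaurentSeries k))

@[simp]
theorem S19GR_coe_barRingAut (φ : k ≃+* k) (x : ↥(modularFunctionFieldFullC k N)) :
    ((S19GR_barRingAut k N φ x : ↥(modularFunctionFieldFullC k N)) : LaurentSeries k) =
      coeffMap (φ : k →+* k) (x : LaurentSeries k) := rfl

theorem S19GR_barRingAut_algebraMap (φ : k ≃+* k) (a : k) :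
    S19GR_barRingAut k N φ (algebraMap k ↥(modularFunctionFieldFullC k N) a) =
      algebraMap k ↥(modularFunctionFieldFullC k N) (φ a) := by
  apply Subtype.ext
  show coeffMap (φ : k →+* k) (algebraMap k (LaurentSeries k) a) =
    algebraMap k (LaurentSeries k) (φ a)
  rw [algebraMap_laurentSeries_eq_single, coeffMap_single,
    ← algebraMap_laurentSeries_eq_single]
  rfl

/-- the coefficientwise action of a ring automorphism of `k` on `F_k`. -/
noncomputable def S19GR_bar (φ : k ≃+* k) : SemilinearAut k ↥(modularFunctionFieldFullC k N) :=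
  ⟨(S19GR_barRingAut k N φ, φ), fun a => S19GR_barRingAut_algebraMap k N φ a⟩

theorem S19GR_coe_bar_smul (φ : k ≃+* k) (x : ↥(modularFunctionFieldFullC k N)) :
    ((S19GR_bar k N φ • x : ↥(modularFunctionFieldFullC k N)) : LaurentSeries k) =
      coeffMap (φ : k →+* k) (x : LaurentSeries k) := rfl

end bar

section dec

variable (N : ℕ) [NeZero N] (A : ValuationSubring (AlgebraicClosure ℚ))
  (h : ReductionInputsModL A N)

/-- the action of the decomposition group on the residue field. -/
noncomputable def S19GR_resAut (g : A.decompositionSubgroup ℚ) :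
    IsLocalRing.ResidueField A ≃+* IsLocalRing.ResidueField A :=
  MulSemiringAction.toRingEquiv (A.decompositionSubgroup ℚ) (IsLocalRing.ResidueField A) g

theorem S19GR_resAut_coe (g : A.decompositionSubgroup ℚ) :
    ((S19GR_resAut A g : IsLocalRing.ResidueField A ≃+* IsLocalRing.ResidueField A) :
      IsLocalRing.ResidueField A →+* IsLocalRing.ResidueField A) =
    MulSemiringAction.toRingHom (A.decompositionSubgroup ℚ) (IsLocalRing.ResidueField A) g :=
  rfl

/-- `red (σ y) = σ̄ (red y)` on the integral series. -/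
theorem S19GR_Bρ_act (g : A.decompositionSubgroup ℚ) (s : S18_B A N) :
    S18_Bρ A N ⟨ES_act A g s.1, ES_act_mem_B A N g s.2⟩ =
      S19GR_bar (IsLocalRing.ResidueField A) N (S19GR_resAut A g) • S18_Bρ A N s := by
  apply Subtype.ext
  rw [S19GR_coe_bar_smul, S18_Bρ_coe, S18_Bρ_coe, S19GR_resAut_coe]
  exact ES_ρ_act A g s.1

/-- (iv) the decomposition group preserves `A`. -/
theorem S19GR_mem_A (g : A.decompositionSubgroup ℚ) {a : AlgebraicClosure ℚ} (ha : a ∈ A) :
    (g : AlgebraicClosure ℚ ≃ₐ[ℚ] AlgebraicClosure ℚ) a ∈ A :=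
  (g • (⟨a, ha⟩ : A)).2

/-- (i) the decomposition group preserves the Gauss ring `O`. -/
theorem S19GR_smul_mem_O (g : A.decompositionSubgroup ℚ) {f : ↥(modularFunctionFieldBar N)}
    (hf : f ∈ (S18_specModL N A h).O) :
    arithmeticGalois (modularFunctionFieldFull N)
      (g : AlgebraicClosure ℚ ≃ₐ[ℚ] AlgebraicClosure ℚ) • f ∈ (S18_specModL N A h).O := by
  obtain ⟨s₁, h1, s₂, h2, hne, hf'⟩ := hf
  refine ⟨ES_act A g s₁, ES_act_mem_B A N g h1, ES_act A g s₂, ES_act_mem_B A N g h2,
    ES_ρ_act_ne_zero A g hne, ?_⟩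
  rw [coe_arithmeticGalois_smul, ES_ι_act, ES_ι_act, ← map_mul, hf']

/-- (ii) `red (σ • f) = σ̄ • red f` for `σ ∈ D_A`. -/
theorem S19GR_red_smul (g : A.decompositionSubgroup ℚ) (f : ↥(modularFunctionFieldBar N))
    (hf : f ∈ (S18_specModL N A h).O) :
    (S18_specModL N A h).red ⟨arithmeticGalois (modularFunctionFieldFull N)
        (g : AlgebraicClosure ℚ ≃ₐ[ℚ] AlgebraicClosure ℚ) • f, S19GR_smul_mem_O N A h g hf⟩ =
      S19GR_bar (IsLocalRing.ResidueField A) N (S19GR_resAut A g) •
        (S18_specModL N A h).red ⟨f, hf⟩ := by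
  obtain ⟨s₁, h1, s₂, h2, hne, hf'⟩ := hf
  have hσ : ((arithmeticGalois (modularFunctionFieldFull N)
      (g : AlgebraicClosure ℚ ≃ₐ[ℚ] AlgebraicClosure ℚ) • f : ↥(modularFunctionFieldBar N)) :
        LaurentSeries (AlgebraicClosure ℚ)) * S18_ι A (ES_act A g s₂) = S18_ι A (ES_act A g s₁) := by
    rw [coe_arithmeticGalois_smul, ES_ι_act, ES_ι_act, ← map_mul, hf']
  apply Subtype.ext
  rw [S19GR_coe_bar_smul]
  have e1 := S18_redFun_eq A N (ES_act_mem_B A N g h1) (ES_act_mem_B A N g h2)
    (ES_ρ_act_ne_zero A g hne) hσ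
  have e2 := S18_redFun_eq A N h1 h2 hne hf'
  show S18_redFun A N _ = coeffMap _ (S18_redFun A N f)
  rw [e1, e2, ES_ρ_act, ES_ρ_act, map_div₀, S19GR_resAut_coe]

variable {ℓ : ℕ}

/-- (iii) **the reduction of places is equivariant for the decomposition group**:
`r (σ • P) = σ̄ • r P`. -/
theorem S19GR_dec (hℓ : ℓ.Prime) (hA : A.LiesOverPrime ℓ) (hℓN : ¬ ℓ ∣ N)
    (g : A.decompositionSubgroup ℚ)
    (P : Place (AlgebraicClosure ℚ) ↥(modularFunctionFieldBar N)) :
    placeReductionModL h (arithmeticGalois (modularFunctionFieldFull N)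
        (g : AlgebraicClosure ℚ ≃ₐ[ℚ] AlgebraicClosure ℚ) • P) =
      S19GR_bar (IsLocalRing.ResidueField A) N (S19GR_resAut A g) • placeReductionModL h P := by
  set σ := arithmeticGalois (modularFunctionFieldFull N)
    (g : AlgebraicClosure ℚ ≃ₐ[ℚ] AlgebraicClosure ℚ) with hσ
  set γ := S19GR_bar (IsLocalRing.ResidueField A) N (S19GR_resAut A g) with hγ
  have hagree : ∀ D ∈ integralPrincipalDivisors A (IsLocalRing.residue A) N,
      Finsupp.mapDomain (fun P => γ⁻¹ • placeReductionModL h (σ • P)) D =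
        Finsupp.mapDomain (placeReductionModL h) D := by
    rintro D ⟨y, hy, hyk, hne, hD⟩
    set s : S18_B A N := ⟨y, ⟨hy, hyk⟩⟩ with hs
    have hsne : S18_Bρ A N s ≠ 0 := fun h0 => hne (congrArg Subtype.val h0)
    set s' : S18_B A N := ⟨ES_act A g s.1, ES_act_mem_B A N g s.2⟩ with hs'
    have hs'ne : S18_Bρ A N s' ≠ 0 := by
      rw [hs', S19GR_Bρ_act]
      intro h0
      apply hsne
      have := congrArg (fun z => γ⁻¹ • z) h0
      simpa using this
    have hDf : D = ES_div N (S18_Bι A N s) := S19GR_eq_div N hD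
    have h1 : Finsupp.mapDomain (fun P => γ⁻¹ • placeReductionModL h (σ • P)) D =
        γ⁻¹ • Finsupp.mapDomain (placeReductionModL h) (σ • D) := by
      rw [SemilinearAut.divisor_smul_def, SemilinearAut.divisor_smul_def,
        ← Finsupp.mapDomain_comp, ← Finsupp.mapDomain_comp]
      rfl
    rw [h1]
    ext Q
    rw [SemilinearAut.divisor_smul_apply, inv_inv, hDf, ← S19GR_div_smul, hσ,
      ← ES_gal_int N A g s]
    have e1 := ES_rdiv_int N A h s' hs'ne (γ • Q)
    have e2 := ES_rdiv_int N A h s hsne Q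
    rw [ES_rdiv] at e1 e2
    rw [e1, e2, hs', S19GR_Bρ_act]
    exact SemilinearAut.ord_smul γ Q _
  have hdeg : ∀ P : Place (AlgebraicClosure ℚ) ↥(modularFunctionFieldBar N), P.deg = 1 := by
    intro P
    haveI := Fermat.Agent.S24.finiteDimensional_jB N
    exact FD_deg_one (Fermat.Agent.S24.jB N) P
  rcases IsPlaceReductionAlong.eq_or_const_of_agree (A := A) (π := IsLocalRing.residue A)
      (N := N) h.choose_spec.2 hagree hdeg
      (fun n hn x => S17D_main (S17DIV_hRR N) n hn x) with h1 | h1
  · have : γ⁻¹ • placeReductionModL h (σ • P) = placeReductionModL h P := congrFun h1 P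
    rw [← this, smul_inv_smul]
  · exfalso
    apply S19GR_not_const N A h hℓ hA hℓN σ
    intro P Q
    have : γ⁻¹ • placeReductionModL h (σ • P) = γ⁻¹ • placeReductionModL h (σ • Q) := h1 P Q
    exact (MulAction.injective γ⁻¹) this

end dec

end Fermat.Agent.S19
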