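import Mathlib
import Fermat.Prelude.Def_GaloisRep_Flat

/-!
# TRACK 9 (S19 / S32), package F1: shared definitions (helper11)

`R` a commutative ring, `Ω` a commutative `R`-algebra, `A`, `B` commutative `R`-algebras with
`R`-algebra maps `f : A → (X → Ω)`, `g : B → (Y → Ω)` ("algebras of functions").

* `S19HD_j2 f g : A ⊗[R] B →ₐ[R] (X × Y → Ω)`, `(a ⊗ b) ↦ (p ↦ f a p.1 * g b p.2)`;
* `S19HD_j2_tmul` : the formula on pure tensors.

For a subalgebra `H₀ ⊂ (G → Ω)` the maps of the interface (LD) / (STR) / (PTS) are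
`j₂ := S19HD_j2 H₀.val H₀.val` and `j₃ := S19HD_j2 H₀.val (S19HD_j2 H₀.val H₀.val)`
(on `G × (G × G)`).
-/

set_option autoImplicit false

open scoped TensorProduct

namespace Fermat.Agent.S19

section

variable {R Ω X Y : Type*} [CommRing R] [CommRing Ω] [Algebra R Ω]

/-- composition with the first projection. -/
def S19HD_fst : (X → Ω) →ₐ[R] (X × Y → Ω) :=
  AlgHom.pi (fun p : X × Y => Pi.evalAlgHom R (fun _ : X => Ω) p.1)

/-- composition with the second projection. -/
def S19HD_snd : (Y → Ω) →ₐ[R] (X × Y → Ω) :=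
  AlgHom.pi (fun p : X × Y => Pi.evalAlgHom R (fun _ : Y => Ω) p.2)

@[simp] theorem S19HD_fst_apply (a : X → Ω) (p : X × Y) :
    (S19HD_fst (R := R) (Y := Y) a) p = a p.1 := rfl

@[simp] theorem S19HD_snd_apply (b : Y → Ω) (p : X × Y) :
    (S19HD_snd (R := R) (X := X) b) p = b p.2 := rfl

variable {A B : Type*} [CommRing A] [CommRing B] [Algebra R A] [Algebra R B]

/-- the "external product" of two algebras of functions. -/
noncomputable def S19HD_j2 (f : A →ₐ[R] (X → Ω)) (g : B →ₐ[R] (Y → Ω)) :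
    A ⊗[R] B →ₐ[R] (X × Y → Ω) :=
  Algebra.TensorProduct.productMap ((S19HD_fst (Y := Y)).comp f) ((S19HD_snd (X := X)).comp g)

@[simp] theorem S19HD_j2_tmul (f : A →ₐ[R] (X → Ω)) (g : B →ₐ[R] (Y → Ω)) (a : A) (b : B)
    (p : X × Y) : S19HD_j2 f g (a ⊗ₜ[R] b) p = f a p.1 * g b p.2 := by
  simp [S19HD_j2]

end

end Fermat.Agent.S19
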