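import Mathlib
import Fermat.Prelude.Def_GaloisRep_Flat
import Fermat.Agent.S28.PkgB.Zl
import Fermat.Agent.S19.HopfDefs

/-!
# TRACK 9 (S19), package F1, block (LD): Galois descent of linear independence

`Ω = AlgebraicClosure ℚ`, `R = GaloisRep.ratLocalizedAt ℓ = ℤ_(ℓ)`.

* `S19F_ld1`: Galois-equivariant functions `X → Ω` that are `ℚ`-linearly independent are
  `Ω`-linearly independent.
* `S19F_li_prod`: the "tensor" family `(x, y) ↦ v i x * u k y` of two independent families is
  independent.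
* `S19F_Good φ`: the `R`-algebra map `φ : A →ₐ[R] (X → Ω)` maps some finite `R`-basis of `A` to an
  `Ω`-linearly independent family.  Good maps are injective, their source is finite free (so flat),
  of rank at most `#X`, and `S19HD_j2 φ ψ : A ⊗[R] B →ₐ[R] (X × Y → Ω)` (helper11's
  `S19/HopfDefs.lean`) is good when `φ`, `ψ` are.
* `S19F_good_of_equivariant`: the inclusion of a module-finite `R`-subalgebra of equivariant
  functions is good.
-/

set_option autoImplicit false

noncomputable section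

namespace Fermat.Agent.S19

open scoped TensorProduct

theorem S19F_isAlgClosure : IsAlgClosure ℚ (AlgebraicClosure ℚ) :=
  ⟨inferInstance, AlgebraicClosure.isAlgebraic ℚ⟩

theorem S19F_isGalois : IsGalois ℚ (AlgebraicClosure ℚ) :=
  have := S19F_isAlgClosure
  IsAlgClosure.isGalois ℚ (AlgebraicClosure ℚ)

/-- (LD1) Galois-equivariant functions that are `ℚ`-linearly independent are linearly independent
over `ℚ̄`. -/
theorem S19F_ld1 {X : Type*}
    (act : (AlgebraicClosure ℚ ≃ₐ[ℚ] AlgebraicClosure ℚ) → X → X)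
    (hsurj : ∀ σ, Function.Surjective (act σ))
    {ι : Type*} [Fintype ι] (v : ι → X → AlgebraicClosure ℚ)
    (heq : ∀ i σ x, v i (act σ x) = σ (v i x))
    (hli : LinearIndependent ℚ v) : LinearIndependent (AlgebraicClosure ℚ) v := by
  classical
  rw [Fintype.linearIndependent_iff]
  suffices H : ∀ n : ℕ, ∀ c : ι → AlgebraicClosure ℚ,
      (Finset.univ.filter (fun i => c i ≠ 0)).card = n → ∑ i, c i • v i = 0 → ∀ i, c i = 0 from
    fun c hc => H _ c rfl hc
  intro n
  induction n using Nat.strong_induction_on with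
  | _ n ih =>
    intro c hn hc
    by_contra hne
    push Not at hne
    obtain ⟨i₀, hi₀⟩ := hne
    obtain ⟨c', hc'⟩ : ∃ c' : ι → AlgebraicClosure ℚ, c' = fun i => (c i₀)⁻¹ * c i := ⟨_, rfl⟩
    have hc'0 : c' i₀ = 1 := by rw [hc']; exact inv_mul_cancel₀ hi₀
    have hrel' : ∑ i, c' i • v i = 0 := by
      have : ∑ i, c' i • v i = (c i₀)⁻¹ • ∑ i, c i • v i := by
        rw [Finset.smul_sum]
        exact Finset.sum_congr rfl fun i _ => by simp only [hc', mul_smul]
      rw [this, hc, smul_zero]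
    have hfix : ∀ σ : (AlgebraicClosure ℚ ≃ₐ[ℚ] AlgebraicClosure ℚ), ∀ i, σ (c' i) = c' i := by
      intro σ
      have hσrel : ∑ i, σ (c' i) • v i = 0 := by
        funext y
        obtain ⟨x, rfl⟩ := hsurj σ y
        have h1 := congrFun hrel' x
        simp only [Finset.sum_apply, Pi.smul_apply, smul_eq_mul, Pi.zero_apply] at h1 ⊢
        have h2 := congrArg σ h1
        rw [map_sum, map_zero] at h2
        rw [← h2]
        exact Finset.sum_congr rfl fun i _ => by rw [map_mul, heq]
      have hd : ∑ i, (σ (c' i) - c' i) • v i = 0 := by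
        simp only [sub_smul, Finset.sum_sub_distrib, hσrel, hrel', sub_zero]
      have hcard : (Finset.univ.filter (fun i => σ (c' i) - c' i ≠ 0)).card < n := by
        rw [← hn]
        apply Finset.card_lt_card
        rw [Finset.ssubset_iff_of_subset]
        · refine ⟨i₀, by simp [hi₀], ?_⟩
          simp [hc'0]
        · intro i hi
          simp only [Finset.mem_filter, Finset.mem_univ, true_and] at hi ⊢
          intro h0
          apply hi
          have : c' i = 0 := by simp [hc', h0]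
          simp [this]
      have h3 := ih _ hcard (fun i => σ (c' i) - c' i) rfl hd
      intro i
      exact sub_eq_zero.mp (h3 i)
    have hrat : ∀ i, ∃ q : ℚ, algebraMap ℚ (AlgebraicClosure ℚ) q = c' i := by
      intro i
      have := S19F_isGalois
      exact (InfiniteGalois.mem_range_algebraMap_iff_fixed (k := ℚ) (K := AlgebraicClosure ℚ)
        (c' i)).mpr (fun σ => hfix σ i)
    choose q hq using hrat
    have hqrel : ∑ i, q i • v i = 0 := by
      rw [← hrel']
      refine Finset.sum_congr rfl fun i _ => ?_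
      rw [← hq i, algebraMap_smul]
    have h4 := Fintype.linearIndependent_iff.mp hli q hqrel i₀
    have h5 := hq i₀
    rw [h4, map_zero, hc'0] at h5
    exact zero_ne_one h5

/-- The product family of two linearly independent families of functions is linearly
independent. -/
theorem S19F_li_prod {K : Type*} [Field K] {X Y : Type*} {ι κ : Type*} [Fintype ι] [Fintype κ]
    (v : ι → X → K) (u : κ → Y → K) (hv : LinearIndependent K v) (hu : LinearIndependent K u) :
    LinearIndependent K (fun p : ι × κ => fun z : X × Y => v p.1 z.1 * u p.2 z.2) := by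
  classical
  rw [Fintype.linearIndependent_iff] at hv hu ⊢
  intro c hc
  have h1 : ∀ y : Y, ∀ i, ∑ k, c (i, k) * u k y = 0 := by
    intro y
    apply hv
    funext x
    have h := congrFun hc (x, y)
    simp only [Finset.sum_apply, Pi.smul_apply, smul_eq_mul, Pi.zero_apply] at h ⊢
    rw [← h, Fintype.sum_prod_type]
    refine Finset.sum_congr rfl fun i _ => ?_
    rw [Finset.sum_mul]
    exact Finset.sum_congr rfl fun k _ => by ring
  rintro ⟨i, k⟩
  refine hu (fun k => c (i, k)) ?_ k
  funext y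
  simpa using h1 y i

/-! ### `ℤ_(ℓ)` -/

section Zl

variable (ℓ : ℕ) [Fact ℓ.Prime]

theorem S19F_valuationRing : ValuationRing ↥(GaloisRep.ratLocalizedAt ℓ) := by
  refine { cond' := fun a b => ?_ }
  by_cases hb : b = 0
  · exact ⟨0, Or.inl (by rw [hb, mul_zero])⟩
  by_cases ha : a = 0
  · exact ⟨0, Or.inr (by rw [ha, mul_zero])⟩
  have hb' : (b : ℚ) ≠ 0 := fun h => hb (Subtype.ext h)
  have ha' : (a : ℚ) ≠ 0 := fun h => ha (Subtype.ext h)
  rcases Fermat.Agent.S28.pkgB_Zl_valuation ℓ ((a : ℚ) / b) with h | h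
  · refine ⟨⟨_, h⟩, Or.inr (Subtype.ext ?_)⟩
    show (b : ℚ) * ((a : ℚ) / b) = a
    field_simp
  · refine ⟨⟨_, h⟩, Or.inl (Subtype.ext ?_)⟩
    show (a : ℚ) * ((a : ℚ) / b)⁻¹ = b
    field_simp

theorem S19F_isBezout : IsBezout ↥(GaloisRep.ratLocalizedAt ℓ) := by
  have := S19F_valuationRing ℓ
  infer_instance

theorem S19F_isLocalRing : IsLocalRing ↥(GaloisRep.ratLocalizedAt ℓ) := by
  have := S19F_valuationRing ℓ
  infer_instance

omit [Fact ℓ.Prime] in
theorem S19F_algebraMap_injective :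
    Function.Injective
      (algebraMap ↥(GaloisRep.ratLocalizedAt ℓ) (AlgebraicClosure ℚ)) := by
  intro a b h
  exact Subtype.ext ((algebraMap ℚ (AlgebraicClosure ℚ)).injective h)

omit [Fact ℓ.Prime] in
theorem S19F_smul_eq_zero {X : Type*} (r : ↥(GaloisRep.ratLocalizedAt ℓ))
    (f : X → AlgebraicClosure ℚ) (h : r • f = 0) : r = 0 ∨ f = 0 := by
  by_cases hr : r = 0
  · exact Or.inl hr
  right
  funext x
  have h1 := congrFun h x
  simp only [Pi.smul_apply, Pi.zero_apply, Algebra.smul_def, mul_eq_zero] at h1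
  rcases h1 with h1 | h1
  · exact absurd (S19F_algebraMap_injective ℓ (h1.trans (map_zero _).symm)) hr
  · exact h1

end Zl

/-! ### Good realisations -/

section Good

variable {ℓ : ℕ}

/-- `φ` maps some finite `R`-basis of `A` to an `Ω`-linearly independent family of functions. -/
def S19F_Good {A : Type*} [CommRing A] [Algebra ↥(GaloisRep.ratLocalizedAt ℓ) A] {X : Type*}
    (φ : A →ₐ[↥(GaloisRep.ratLocalizedAt ℓ)] (X → AlgebraicClosure ℚ)) : Prop :=
  ∃ (ι : Type) (_ : Fintype ι) (b : Module.Basis ι ↥(GaloisRep.ratLocalizedAt ℓ) A),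
    LinearIndependent (AlgebraicClosure ℚ) (fun i => φ (b i))

variable {A : Type*} [CommRing A] [Algebra ↥(GaloisRep.ratLocalizedAt ℓ) A] {X : Type*}
  {φ : A →ₐ[↥(GaloisRep.ratLocalizedAt ℓ)] (X → AlgebraicClosure ℚ)}

theorem S19F_Good.injective (h : S19F_Good φ) : Function.Injective φ := by
  classical
  obtain ⟨ι, _, b, hb⟩ := h
  rw [injective_iff_map_eq_zero]
  intro a ha
  rw [← b.sum_repr a, map_sum] at ha
  have h1 : ∑ i, algebraMap ↥(GaloisRep.ratLocalizedAt ℓ) (AlgebraicClosure ℚ) (b.repr a i) •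
      φ (b i) = 0 := by
    rw [← ha]
    refine Finset.sum_congr rfl fun i _ => ?_
    rw [map_smul, algebraMap_smul]
  have h2 := Fintype.linearIndependent_iff.mp hb _ h1
  rw [← b.sum_repr a]
  refine Finset.sum_eq_zero fun i _ => ?_
  have h3 : b.repr a i = 0 := S19F_algebraMap_injective ℓ ((h2 i).trans (map_zero _).symm)
  rw [h3, zero_smul]

theorem S19F_Good.finite (h : S19F_Good φ) : Module.Finite ↥(GaloisRep.ratLocalizedAt ℓ) A := by
  obtain ⟨ι, _, b, -⟩ := h
  exact Module.Finite.of_basis b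

theorem S19F_Good.free (h : S19F_Good φ) : Module.Free ↥(GaloisRep.ratLocalizedAt ℓ) A := by
  obtain ⟨ι, _, b, -⟩ := h
  exact Module.Free.of_basis b

theorem S19F_Good.flat (h : S19F_Good φ) : Module.Flat ↥(GaloisRep.ratLocalizedAt ℓ) A := by
  have := h.free
  infer_instance

theorem S19F_Good.finrank_le [Fintype X] (h : S19F_Good φ) :
    Module.finrank ↥(GaloisRep.ratLocalizedAt ℓ) A ≤ Fintype.card X := by
  obtain ⟨ι, _, b, hb⟩ := h
  rw [Module.finrank_eq_card_basis b]
  have := hb.fintype_card_le_finrank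
  rwa [Module.finrank_fintype_fun_eq_card] at this

theorem S19F_Good.tensor {B : Type*} [CommRing B] [Algebra ↥(GaloisRep.ratLocalizedAt ℓ) B]
    {Y : Type*} {ψ : B →ₐ[↥(GaloisRep.ratLocalizedAt ℓ)] (Y → AlgebraicClosure ℚ)}
    (h : S19F_Good φ) (h' : S19F_Good ψ) : S19F_Good (S19HD_j2 φ ψ) := by
  obtain ⟨ι, _, b, hb⟩ := h
  obtain ⟨κ, _, c, hc⟩ := h'
  refine ⟨ι × κ, inferInstance, b.tensorProduct c, ?_⟩
  have h1 := S19F_li_prod _ _ hb hc
  convert h1 using 1
  funext p z
  rw [Module.Basis.tensorProduct_apply, S19HD_j2_tmul]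

/-- The inclusion of a module-finite `R`-subalgebra of Galois-equivariant functions is good. -/
theorem S19F_good_of_equivariant [Fact ℓ.Prime]
    (act : (AlgebraicClosure ℚ ≃ₐ[ℚ] AlgebraicClosure ℚ) → X → X)
    (hsurj : ∀ σ, Function.Surjective (act σ))
    (H₀ : Subalgebra ↥(GaloisRep.ratLocalizedAt ℓ) (X → AlgebraicClosure ℚ))
    (heq : ∀ f ∈ H₀, ∀ σ x, f (act σ x) = σ (f x))
    (hfin : (Subalgebra.toSubmodule H₀).FG) : S19F_Good H₀.val := by
  classical
  have hF : Module.Finite ↥(GaloisRep.ratLocalizedAt ℓ) ↥H₀ := Module.Finite.iff_fg.mpr hfin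
  have hB := S19F_isBezout ℓ
  have hL := S19F_isLocalRing ℓ
  have htors : Submodule.torsion ↥(GaloisRep.ratLocalizedAt ℓ) ↥H₀ = ⊥ := by
    rw [eq_bot_iff]
    rintro m ⟨⟨r, hr⟩, h⟩
    have h1 : r • (m : X → AlgebraicClosure ℚ) = 0 := by
      have := congrArg (Subtype.val) h
      simpa using this
    rcases S19F_smul_eq_zero ℓ r _ h1 with h2 | h2
    · exact absurd h2 (nonZeroDivisors.ne_zero hr)
    · exact Subtype.ext h2
  have hflat : Module.Flat ↥(GaloisRep.ratLocalizedAt ℓ) ↥H₀ :=
    Module.Flat.flat_iff_torsion_eq_bot_of_isBezout.mpr htors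
  have hfree : Module.Free ↥(GaloisRep.ratLocalizedAt ℓ) ↥H₀ :=
    Module.free_of_flat_of_isLocalRing
  let b := Module.finBasis ↥(GaloisRep.ratLocalizedAt ℓ) ↥H₀
  refine ⟨_, inferInstance, b, ?_⟩
  have hR : LinearIndependent ↥(GaloisRep.ratLocalizedAt ℓ)
      (fun i => (H₀.val (b i) : X → AlgebraicClosure ℚ)) := by
    have := b.linearIndependent.map' H₀.val.toLinearMap
      (LinearMap.ker_eq_bot.mpr Subtype.val_injective)
    exact this
  have hZ : LinearIndependent ℤ (fun i => (H₀.val (b i) : X → AlgebraicClosure ℚ)) := by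
    refine hR.restrict_scalars ?_
    intro m n hmn
    have h1 : ((m • (1 : ↥(GaloisRep.ratLocalizedAt ℓ)) : ↥(GaloisRep.ratLocalizedAt ℓ)) : ℚ)
        = n • (1 : ↥(GaloisRep.ratLocalizedAt ℓ)) := congrArg Subtype.val hmn
    simpa using h1
  have hQ : LinearIndependent ℚ (fun i => (H₀.val (b i) : X → AlgebraicClosure ℚ)) :=
    hZ.localization ℚ (nonZeroDivisors ℤ)
  exact S19F_ld1 act hsurj _ (fun i σ x => heq _ (b i).2 σ x) hQ

/-- (LD2), the two facts consumed by (STR): `j₂` and `j₃` are injective. -/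
theorem S19F_j2_injective [Fact ℓ.Prime]
    (act : (AlgebraicClosure ℚ ≃ₐ[ℚ] AlgebraicClosure ℚ) → X → X)
    (hsurj : ∀ σ, Function.Surjective (act σ))
    (H₀ : Subalgebra ↥(GaloisRep.ratLocalizedAt ℓ) (X → AlgebraicClosure ℚ))
    (heq : ∀ f ∈ H₀, ∀ σ x, f (act σ x) = σ (f x))
    (hfin : (Subalgebra.toSubmodule H₀).FG) :
    Function.Injective (S19HD_j2 H₀.val H₀.val) :=
  ((S19F_good_of_equivariant act hsurj H₀ heq hfin).tensor
    (S19F_good_of_equivariant act hsurj H₀ heq hfin)).injective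

theorem S19F_j3_injective [Fact ℓ.Prime]
    (act : (AlgebraicClosure ℚ ≃ₐ[ℚ] AlgebraicClosure ℚ) → X → X)
    (hsurj : ∀ σ, Function.Surjective (act σ))
    (H₀ : Subalgebra ↥(GaloisRep.ratLocalizedAt ℓ) (X → AlgebraicClosure ℚ))
    (heq : ∀ f ∈ H₀, ∀ σ x, f (act σ x) = σ (f x))
    (hfin : (Subalgebra.toSubmodule H₀).FG) :
    Function.Injective (S19HD_j2 H₀.val (S19HD_j2 H₀.val H₀.val)) :=
  ((S19F_good_of_equivariant act hsurj H₀ heq hfin).tensor
    ((S19F_good_of_equivariant act hsurj H₀ heq hfin).tensor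
      (S19F_good_of_equivariant act hsurj H₀ heq hfin))).injective

end Good

end Fermat.Agent.S19
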