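import Fermat.Agent.S19.HopfDefs

/-!
# TRACK 9 (S19 / S32), package F1 (STR): the Hopf structure of an order of functions (helper11)

`R` a commutative ring, `Ω` a commutative `R`-algebra with `R → Ω` injective, `G` a commutative
group, `H₀ ⊂ (G → Ω)` an `R`-subalgebra such that

* `hj2`, `hj3` : `H₀ ⊗ H₀ → (G × G → Ω)` and `H₀ ⊗ (H₀ ⊗ H₀) → (G × (G × G) → Ω)` are injective
  (package (LD), helper24),
* `hΔ` : `(x, y) ↦ a (x + y)` lies in the image of `H₀ ⊗ H₀` for every `a ∈ H₀`,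
* `hε` : `a 0 ∈ R` for every `a ∈ H₀`,
* `hn` : `G` is killed by some `n ≥ 1`.

Then `↥H₀` is a cocommutative Hopf algebra over `R` (`S19HO_hopf`), with
`j₂ (comul a) (x, y) = a (x + y)`, `counit a = a 0`, `antipode a = a ∘ neg`.
-/

set_option autoImplicit false

open scoped TensorProduct

namespace Fermat.Agent.S19

section general

variable {R Ω G : Type*} [CommRing R] [CommRing Ω] [Algebra R Ω] [AddCommGroup G]

/-- the map `a ↦ ((x, y) ↦ a (x + y))`. -/
def S19HO_add : (G → Ω) →ₐ[R] (G × G → Ω) :=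
  AlgHom.pi (fun p : G × G => Pi.evalAlgHom R (fun _ : G => Ω) (p.1 + p.2))

@[simp] theorem S19HO_add_apply (a : G → Ω) (p : G × G) :
    (S19HO_add (R := R) a) p = a (p.1 + p.2) := rfl

variable (H₀ : Subalgebra R (G → Ω))

/-- the hypotheses of (STR). -/
structure S19HO_Hyp : Prop where
  hinj : Function.Injective (algebraMap R Ω)
  hj2 : Function.Injective (S19HD_j2 H₀.val H₀.val)
  hj3 : Function.Injective (S19HD_j2 H₀.val (S19HD_j2 H₀.val H₀.val))
  hΔ : ∀ a ∈ H₀, (fun p : G × G => a (p.1 + p.2)) ∈ Set.range (S19HD_j2 H₀.val H₀.val)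
  hε : ∀ a ∈ H₀, a 0 ∈ Set.range (algebraMap R Ω)
  htors : ∃ n : ℕ, 0 < n ∧ ∀ x : G, n • x = 0

variable {H₀}

/-- the comultiplication. -/
noncomputable def S19HO_comul (h : S19HO_Hyp H₀) : ↥H₀ →ₐ[R] ↥H₀ ⊗[R] ↥H₀ :=
  ((AlgEquiv.ofInjective (S19HD_j2 H₀.val H₀.val) h.hj2).symm : _ →ₐ[R] _).comp
    (((S19HO_add (R := R)).comp H₀.val).codRestrict (S19HD_j2 H₀.val H₀.val).range
      (fun a => h.hΔ a a.2))

theorem S19HO_comul_spec' (h : S19HO_Hyp H₀) (a : ↥H₀) :
    S19HD_j2 H₀.val H₀.val (S19HO_comul h a) = fun p : G × G => (a : G → Ω) (p.1 + p.2) := by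
  set e := AlgEquiv.ofInjective (S19HD_j2 H₀.val H₀.val) h.hj2 with he
  set y : (S19HD_j2 H₀.val H₀.val).range :=
    (((S19HO_add (R := R)).comp H₀.val).codRestrict (S19HD_j2 H₀.val H₀.val).range
      (fun a => h.hΔ a a.2)) a with hy
  have h1 : S19HO_comul h a = e.symm y := rfl
  have h2 : (e (e.symm y) : G × G → Ω) = S19HD_j2 H₀.val H₀.val (e.symm y) := rfl
  rw [h1, ← h2, e.apply_symm_apply]
  rfl

theorem S19HO_comul_spec (h : S19HO_Hyp H₀) (a : ↥H₀) (x y : G) :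
    S19HD_j2 H₀.val H₀.val (S19HO_comul h a) (x, y) = (a : G → Ω) (x + y) := by
  rw [S19HO_comul_spec']

/-- the counit. -/
noncomputable def S19HO_counit (h : S19HO_Hyp H₀) : ↥H₀ →ₐ[R] R :=
  ((AlgEquiv.ofInjective (Algebra.ofId R Ω) h.hinj).symm : _ →ₐ[R] _).comp
    (((Pi.evalAlgHom R (fun _ : G => Ω) 0).comp H₀.val).codRestrict (Algebra.ofId R Ω).range
      (fun a => h.hε a a.2))

theorem S19HO_counit_spec (h : S19HO_Hyp H₀) (a : ↥H₀) :
    algebraMap R Ω (S19HO_counit h a) = (a : G → Ω) 0 := by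
  set e := AlgEquiv.ofInjective (Algebra.ofId R Ω) h.hinj with he
  set y : (Algebra.ofId R Ω).range :=
    (((Pi.evalAlgHom R (fun _ : G => Ω) 0).comp H₀.val).codRestrict (Algebra.ofId R Ω).range
      (fun a => h.hε a a.2)) a with hy
  have h1 : S19HO_counit h a = e.symm y := rfl
  have h2 : (e (e.symm y) : Ω) = algebraMap R Ω (e.symm y) := rfl
  rw [h1, ← h2, e.apply_symm_apply]
  rfl


/-! ### computations on tensors -/

omit [AddCommGroup G] in
/-- `j₃ (a ⊗ t) (x, q) = a x * j₂ t q`. -/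
theorem S19HO_j3_tmul (a : ↥H₀) (t : ↥H₀ ⊗[R] ↥H₀) (x : G) (q : G × G) :
    S19HD_j2 H₀.val (S19HD_j2 H₀.val H₀.val) (a ⊗ₜ[R] t) (x, q) =
      (a : G → Ω) x * S19HD_j2 H₀.val H₀.val t q := by
  rw [S19HD_j2_tmul]
  rfl

/-- `j₃ (id ⊗ Δ) t (x, (y, z)) = j₂ t (x, y + z)`. -/
theorem S19HO_j3_map_id_comul (h : S19HO_Hyp H₀) (t : ↥H₀ ⊗[R] ↥H₀) (x y z : G) :
    S19HD_j2 H₀.val (S19HD_j2 H₀.val H₀.val)
        (Algebra.TensorProduct.map (AlgHom.id R ↥H₀) (S19HO_comul h) t) (x, (y, z)) =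
      S19HD_j2 H₀.val H₀.val t (x, y + z) := by
  have key : ((Pi.evalAlgHom R (fun _ : G × (G × G) => Ω) (x, (y, z))).comp
      ((S19HD_j2 H₀.val (S19HD_j2 H₀.val H₀.val)).comp
        (Algebra.TensorProduct.map (AlgHom.id R ↥H₀) (S19HO_comul h)))) =
      (Pi.evalAlgHom R (fun _ : G × G => Ω) (x, y + z)).comp (S19HD_j2 H₀.val H₀.val) := by
    apply Algebra.TensorProduct.ext'
    intro a b
    simp only [AlgHom.comp_apply, Algebra.TensorProduct.map_tmul, AlgHom.id_apply,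
      Pi.evalAlgHom_apply, S19HO_comul_spec, S19HD_j2_tmul]
    rfl
  exact DFunLike.congr_fun key t

omit [AddCommGroup G] in
/-- `j₃ (assoc (s ⊗ b)) (x, (y, z)) = j₂ s (x, y) * b z`. -/
theorem S19HO_j3_assoc_tmul (s : ↥H₀ ⊗[R] ↥H₀) (b : ↥H₀) (x y z : G) :
    S19HD_j2 H₀.val (S19HD_j2 H₀.val H₀.val)
        (Algebra.TensorProduct.assoc R R R ↥H₀ ↥H₀ ↥H₀ (s ⊗ₜ[R] b)) (x, (y, z)) =
      S19HD_j2 H₀.val H₀.val s (x, y) * (b : G → Ω) z := by
  induction s using TensorProduct.induction_on with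
  | zero => simp
  | tmul a₁ a₂ =>
    rw [Algebra.TensorProduct.assoc_tmul, S19HO_j3_tmul, S19HD_j2_tmul, S19HD_j2_tmul]
    simp only [Subalgebra.coe_val]
    ring
  | add s₁ s₂ h₁ h₂ =>
    rw [TensorProduct.add_tmul, map_add, map_add, map_add, Pi.add_apply, Pi.add_apply, h₁, h₂,
      add_mul]

/-- `j₃ (assoc ((Δ ⊗ id) t)) (x, (y, z)) = j₂ t (x + y, z)`. -/
theorem S19HO_j3_assoc_map_comul_id (h : S19HO_Hyp H₀) (t : ↥H₀ ⊗[R] ↥H₀) (x y z : G) :
    S19HD_j2 H₀.val (S19HD_j2 H₀.val H₀.val)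
        (Algebra.TensorProduct.assoc R R R ↥H₀ ↥H₀ ↥H₀
          (Algebra.TensorProduct.map (S19HO_comul h) (AlgHom.id R ↥H₀) t)) (x, (y, z)) =
      S19HD_j2 H₀.val H₀.val t (x + y, z) := by
  have key : ((Pi.evalAlgHom R (fun _ : G × (G × G) => Ω) (x, (y, z))).comp
      ((S19HD_j2 H₀.val (S19HD_j2 H₀.val H₀.val)).comp
        ((Algebra.TensorProduct.assoc R R R ↥H₀ ↥H₀ ↥H₀ : _ →ₐ[R] _).comp
          (Algebra.TensorProduct.map (S19HO_comul h) (AlgHom.id R ↥H₀))))) =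
      (Pi.evalAlgHom R (fun _ : G × G => Ω) (x + y, z)).comp (S19HD_j2 H₀.val H₀.val) := by
    apply Algebra.TensorProduct.ext'
    intro a b
    simp only [AlgHom.comp_apply, Algebra.TensorProduct.map_tmul, AlgHom.id_apply,
      Pi.evalAlgHom_apply, AlgEquiv.coe_toAlgHom, S19HO_j3_assoc_tmul, S19HO_comul_spec,
      S19HD_j2_tmul]
    rfl
  exact DFunLike.congr_fun key t

/-- `lid ((ε ⊗ id) t) y = j₂ t (0, y)`. -/
theorem S19HO_lid_map_counit (h : S19HO_Hyp H₀) (t : ↥H₀ ⊗[R] ↥H₀) (y : G) :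
    ((Algebra.TensorProduct.lid R ↥H₀
        (Algebra.TensorProduct.map (S19HO_counit h) (AlgHom.id R ↥H₀) t) : ↥H₀) : G → Ω) y =
      S19HD_j2 H₀.val H₀.val t (0, y) := by
  have key : ((Pi.evalAlgHom R (fun _ : G => Ω) y).comp
      (H₀.val.comp ((Algebra.TensorProduct.lid R ↥H₀ : _ →ₐ[R] _).comp
        (Algebra.TensorProduct.map (S19HO_counit h) (AlgHom.id R ↥H₀))))) =
      (Pi.evalAlgHom R (fun _ : G × G => Ω) (0, y)).comp (S19HD_j2 H₀.val H₀.val) := by
    apply Algebra.TensorProduct.ext'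
    intro a b
    simp only [AlgHom.comp_apply, Algebra.TensorProduct.map_tmul, AlgHom.id_apply,
      Pi.evalAlgHom_apply, AlgEquiv.coe_toAlgHom, Algebra.TensorProduct.lid_tmul,
      S19HD_j2_tmul, Subalgebra.coe_val, Subalgebra.coe_smul, Pi.smul_apply]
    rw [Algebra.smul_def, S19HO_counit_spec]
  exact DFunLike.congr_fun key t

/-- `rid ((id ⊗ ε) t) x = j₂ t (x, 0)`. -/
theorem S19HO_rid_map_counit (h : S19HO_Hyp H₀) (t : ↥H₀ ⊗[R] ↥H₀) (x : G) :
    ((Algebra.TensorProduct.rid R R ↥H₀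
        (Algebra.TensorProduct.map (AlgHom.id R ↥H₀) (S19HO_counit h) t) : ↥H₀) : G → Ω) x =
      S19HD_j2 H₀.val H₀.val t (x, 0) := by
  have key : ((Pi.evalAlgHom R (fun _ : G => Ω) x).comp
      (H₀.val.comp ((Algebra.TensorProduct.rid R R ↥H₀ : _ →ₐ[R] _).comp
        (Algebra.TensorProduct.map (AlgHom.id R ↥H₀) (S19HO_counit h))))) =
      (Pi.evalAlgHom R (fun _ : G × G => Ω) (x, 0)).comp (S19HD_j2 H₀.val H₀.val) := by
    apply Algebra.TensorProduct.ext'
    intro a b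
    simp only [AlgHom.comp_apply, Algebra.TensorProduct.map_tmul, AlgHom.id_apply,
      Pi.evalAlgHom_apply, AlgEquiv.coe_toAlgHom, Algebra.TensorProduct.rid_tmul,
      S19HD_j2_tmul, Subalgebra.coe_val, Subalgebra.coe_smul, Pi.smul_apply]
    rw [Algebra.smul_def, S19HO_counit_spec, mul_comm]
  exact DFunLike.congr_fun key t

/-! ### the bialgebra -/

/-- the bialgebra structure on an order of functions. -/
@[instance_reducible]
noncomputable def S19HO_bialgebra (h : S19HO_Hyp H₀) : Bialgebra R ↥H₀ :=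
  Bialgebra.ofAlgHom (S19HO_comul h) (S19HO_counit h)
    (by
      apply AlgHom.ext
      intro a
      apply h.hj3
      funext p
      obtain ⟨x, y, z⟩ := p
      simp only [AlgHom.comp_apply, AlgEquiv.coe_toAlgHom]
      rw [S19HO_j3_assoc_map_comul_id, S19HO_j3_map_id_comul, S19HO_comul_spec,
        S19HO_comul_spec, add_assoc])
    (by
      apply AlgHom.ext
      intro a
      apply (Algebra.TensorProduct.lid R ↥H₀).injective
      simp only [AlgHom.comp_apply, AlgEquiv.coe_toAlgHom, AlgEquiv.apply_symm_apply]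
      apply Subtype.ext
      funext y
      rw [S19HO_lid_map_counit, S19HO_comul_spec, zero_add])
    (by
      apply AlgHom.ext
      intro a
      apply (Algebra.TensorProduct.rid R R ↥H₀).injective
      simp only [AlgHom.comp_apply, AlgEquiv.coe_toAlgHom, AlgEquiv.apply_symm_apply]
      apply Subtype.ext
      funext x
      rw [S19HO_rid_map_counit, S19HO_comul_spec, add_zero])


theorem S19HO_bialgebra_comul (h : S19HO_Hyp H₀) (a : ↥H₀) :
    (S19HO_bialgebra h).comul a = S19HO_comul h a := rfl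

theorem S19HO_bialgebra_counit (h : S19HO_Hyp H₀) (a : ↥H₀) :
    (S19HO_bialgebra h).counit a = S19HO_counit h a := rfl

/-! ### the antipode -/

omit [AddCommGroup G] in
/-- functions `x ↦ j₂ t (u x, v x)` lie in `H₀` if `H₀` is stable under `u` and `v`. -/
theorem S19HO_diag_mem (u v : G → G) (hu : ∀ a ∈ H₀, (fun x => a (u x)) ∈ H₀)
    (hv : ∀ a ∈ H₀, (fun x => a (v x)) ∈ H₀) (t : ↥H₀ ⊗[R] ↥H₀) :
    (fun x => S19HD_j2 H₀.val H₀.val t (u x, v x)) ∈ H₀ := by
  induction t using TensorProduct.induction_on with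
  | zero =>
    have : (fun x => S19HD_j2 H₀.val H₀.val (0 : ↥H₀ ⊗[R] ↥H₀) (u x, v x)) = (0 : G → Ω) := by
      funext x; simp
    rw [this]
    exact H₀.zero_mem
  | tmul a b =>
    have : (fun x => S19HD_j2 H₀.val H₀.val (a ⊗ₜ[R] b) (u x, v x)) =
        (fun x => (a : G → Ω) (u x)) * (fun x => (b : G → Ω) (v x)) := by
      funext x
      rw [S19HD_j2_tmul]
      rfl
    rw [this]
    exact H₀.mul_mem (hu _ a.2) (hv _ b.2)
  | add s₁ s₂ h₁ h₂ =>
    have : (fun x => S19HD_j2 H₀.val H₀.val (s₁ + s₂) (u x, v x)) =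
        (fun x => S19HD_j2 H₀.val H₀.val s₁ (u x, v x)) +
          (fun x => S19HD_j2 H₀.val H₀.val s₂ (u x, v x)) := by
      funext x
      rw [map_add]
      rfl
    rw [this]
    exact H₀.add_mem h₁ h₂

/-- `H₀` is stable under multiplication by `m` on `G`. -/
theorem S19HO_nsmul_mem (h : S19HO_Hyp H₀) (m : ℕ) :
    ∀ a ∈ H₀, (fun x : G => a (m • x)) ∈ H₀ := by
  induction m with
  | zero =>
    intro a ha
    obtain ⟨r, hr⟩ := h.hε a ha
    have : (fun x : G => a (0 • x)) = algebraMap R (G → Ω) r := by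
      funext x
      rw [zero_smul, ← hr]
      rfl
    rw [this]
    exact H₀.algebraMap_mem r
  | succ m ih =>
    intro a ha
    have h1 := S19HO_diag_mem (H₀ := H₀) (fun x => m • x) id ih (fun b hb => hb)
      (S19HO_comul h ⟨a, ha⟩)
    have h2 : (fun x : G => a ((m + 1) • x)) =
        fun x => S19HD_j2 H₀.val H₀.val (S19HO_comul h ⟨a, ha⟩) (m • x, id x) := by
      funext x
      rw [S19HO_comul_spec, succ_nsmul]
      rfl
    rw [h2]
    exact h1

/-- `H₀` is stable under `x ↦ -x`. -/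
theorem S19HO_neg_mem (h : S19HO_Hyp H₀) : ∀ a ∈ H₀, (fun x : G => a (-x)) ∈ H₀ := by
  intro a ha
  obtain ⟨n, hn, hnG⟩ := h.htors
  have h1 := S19HO_nsmul_mem h (n - 1) a ha
  have h2 : (fun x : G => a (-x)) = fun x => a ((n - 1) • x) := by
    funext x
    congr 1
    have : (n - 1) • x + x = 0 := by
      rw [← succ_nsmul, Nat.sub_add_cancel hn, hnG]
    exact (eq_neg_of_add_eq_zero_left this).symm
  rw [h2]
  exact h1

/-- the antipode. -/
noncomputable def S19HO_antipode (h : S19HO_Hyp H₀) : ↥H₀ →ₗ[R] ↥H₀ where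
  toFun a := ⟨fun x => (a : G → Ω) (-x), S19HO_neg_mem h a a.2⟩
  map_add' a b := by
    apply Subtype.ext
    funext x
    rfl
  map_smul' r a := by
    apply Subtype.ext
    funext x
    rfl

theorem S19HO_antipode_apply (h : S19HO_Hyp H₀) (a : ↥H₀) (x : G) :
    ((S19HO_antipode h a : ↥H₀) : G → Ω) x = (a : G → Ω) (-x) := rfl

/-- `(μ ∘ (S ⊗ id)) t (x) = j₂ t (-x, x)`. -/
theorem S19HO_mul_rTensor (h : S19HO_Hyp H₀) (t : ↥H₀ ⊗[R] ↥H₀) (x : G) :
    ((LinearMap.mul' R ↥H₀ (LinearMap.rTensor ↥H₀ (S19HO_antipode h) t) : ↥H₀) : G → Ω) x =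
      S19HD_j2 H₀.val H₀.val t (-x, x) := by
  induction t using TensorProduct.induction_on with
  | zero => simp
  | tmul a b =>
    rw [LinearMap.rTensor_tmul, LinearMap.mul'_apply, S19HD_j2_tmul]
    rfl
  | add s₁ s₂ h₁ h₂ =>
    rw [map_add, map_add, map_add, Subalgebra.coe_add, Pi.add_apply, Pi.add_apply, h₁, h₂]

/-- `(μ ∘ (id ⊗ S)) t (x) = j₂ t (x, -x)`. -/
theorem S19HO_mul_lTensor (h : S19HO_Hyp H₀) (t : ↥H₀ ⊗[R] ↥H₀) (x : G) :
    ((LinearMap.mul' R ↥H₀ (LinearMap.lTensor ↥H₀ (S19HO_antipode h) t) : ↥H₀) : G → Ω) x =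
      S19HD_j2 H₀.val H₀.val t (x, -x) := by
  induction t using TensorProduct.induction_on with
  | zero => simp
  | tmul a b =>
    rw [LinearMap.lTensor_tmul, LinearMap.mul'_apply, S19HD_j2_tmul]
    rfl
  | add s₁ s₂ h₁ h₂ =>
    rw [map_add, map_add, map_add, Subalgebra.coe_add, Pi.add_apply, Pi.add_apply, h₁, h₂]

/-- **(STR)**: the Hopf algebra structure on an order of functions. -/
@[instance_reducible]
noncomputable def S19HO_hopf (h : S19HO_Hyp H₀) : HopfAlgebra R ↥H₀ :=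
  { S19HO_bialgebra h with
    antipode := S19HO_antipode h
    mul_antipode_rTensor_comul := by
      apply LinearMap.ext
      intro a
      apply Subtype.ext
      funext x
      simp only [LinearMap.comp_apply]
      rw [S19HO_bialgebra_comul, S19HO_mul_rTensor, S19HO_comul_spec, neg_add_cancel,
        S19HO_bialgebra_counit, ← S19HO_counit_spec h a]
      rfl
    mul_antipode_lTensor_comul := by
      apply LinearMap.ext
      intro a
      apply Subtype.ext
      funext x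
      simp only [LinearMap.comp_apply]
      rw [S19HO_bialgebra_comul, S19HO_mul_lTensor, S19HO_comul_spec, add_neg_cancel,
        S19HO_bialgebra_counit, ← S19HO_counit_spec h a]
      rfl }

theorem S19HO_hopf_comul (h : S19HO_Hyp H₀) (a : ↥H₀) :
    (S19HO_hopf h).comul a = S19HO_comul h a := rfl

theorem S19HO_hopf_counit (h : S19HO_Hyp H₀) (a : ↥H₀) :
    (S19HO_hopf h).counit a = S19HO_counit h a := rfl

omit [AddCommGroup G] in
/-- `j₂ (comm t) (x, y) = j₂ t (y, x)`. -/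
theorem S19HO_j2_comm (t : ↥H₀ ⊗[R] ↥H₀) (x y : G) :
    S19HD_j2 H₀.val H₀.val (TensorProduct.comm R ↥H₀ ↥H₀ t) (x, y) =
      S19HD_j2 H₀.val H₀.val t (y, x) := by
  induction t using TensorProduct.induction_on with
  | zero => simp
  | tmul a b =>
    rw [TensorProduct.comm_tmul, S19HD_j2_tmul, S19HD_j2_tmul, mul_comm]
  | add s₁ s₂ h₁ h₂ =>
    rw [map_add, map_add, map_add, Pi.add_apply, Pi.add_apply, h₁, h₂]

/-- the Hopf algebra of an order of functions is cocommutative. -/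
theorem S19HO_isCocomm (h : S19HO_Hyp H₀) :
    @Coalgebra.IsCocomm R ↥H₀ _ _ _ (S19HO_hopf h).toCoalgebra := by
  let _ := S19HO_hopf h
  refine ⟨?_⟩
  apply LinearMap.ext
  intro a
  apply h.hj2
  funext p
  obtain ⟨x, y⟩ := p
  have h1 : (Coalgebra.comul (R := R) a : ↥H₀ ⊗[R] ↥H₀) = S19HO_comul h a := rfl
  simp only [LinearMap.comp_apply, LinearEquiv.coe_coe]
  rw [h1, S19HO_j2_comm, S19HO_comul_spec, S19HO_comul_spec, add_comm]

end general

end Fermat.Agent.S19
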