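import Mathlib
import Fermat.Prelude.Def_GaloisRep_Flat
import Fermat.Agent.S19.HopfDefs
import Fermat.Agent.S19.HopfLD

/-!
# TRACK 9 (S19), package F1, block (PTS): the points of a Hopf order of functions

`Ω = AlgebraicClosure ℚ`, `R = GaloisRep.ratLocalizedAt ℓ`.  `H` a bialgebra over `R`, finite as a
module, realised by an injective `ι : H →ₐ[R] (G → Ω)` in Galois-equivariant functions on a finite
abelian group `G`, separating the points of `G`, with
`S19HD_j2 ι ι (comul h) (x, y) = ι h (x + y)`.  Then `x ↦ ev_x ∘ ι` is a bijection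
`G ≃ (H →ₐ[R] Ω)`, additive for the convolution product and Galois-equivariant
(`S19F_points`: the last clause of S19 verbatim).
-/

set_option autoImplicit false

noncomputable section

namespace Fermat.Agent.S19

open scoped TensorProduct

section

variable {ℓ : ℕ}

/-- An injective realisation of a module-finite algebra in equivariant functions is good. -/
theorem S19F_good_of_injective [Fact ℓ.Prime] {H : Type*} [CommRing H]
    [Algebra ↥(GaloisRep.ratLocalizedAt ℓ) H] [Module.Finite ↥(GaloisRep.ratLocalizedAt ℓ) H]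
    {X : Type*} (act : (AlgebraicClosure ℚ ≃ₐ[ℚ] AlgebraicClosure ℚ) → X → X)
    (hsurj : ∀ σ, Function.Surjective (act σ))
    (ι : H →ₐ[↥(GaloisRep.ratLocalizedAt ℓ)] (X → AlgebraicClosure ℚ))
    (hι : Function.Injective ι)
    (heq : ∀ h σ x, ι h (act σ x) = σ (ι h x)) : S19F_Good ι := by
  have hF : Module.Finite ↥(GaloisRep.ratLocalizedAt ℓ) ↥ι.range :=
    Module.Finite.of_surjective ι.rangeRestrict.toLinearMap ι.rangeRestrict_surjective
  have hfin : (Subalgebra.toSubmodule ι.range).FG := Module.Finite.iff_fg.mp hF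
  have heq' : ∀ f ∈ ι.range, ∀ σ x, f (act σ x) = σ (f x) := by
    rintro _ ⟨h, rfl⟩ σ x
    exact heq h σ x
  obtain ⟨κ, hκ, b, hb⟩ := S19F_good_of_equivariant act hsurj ι.range heq' hfin
  let e := AlgEquiv.ofInjective ι hι
  refine ⟨κ, hκ, b.map e.symm.toLinearEquiv, ?_⟩
  convert hb using 1
  funext i
  have h1 : e (e.symm (b i)) = b i := e.apply_symm_apply (b i)
  have h2 : (e (e.symm (b i)) : X → AlgebraicClosure ℚ) = ι (e.symm (b i)) := rfl
  simp only [Module.Basis.map_apply, AlgEquiv.toLinearEquiv_apply, Subalgebra.coe_val]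
  rw [← h2, h1]

/-- evaluation at a point, as an algebra map on `H`. -/
def S19F_ev {H : Type*} [CommRing H] [Algebra ↥(GaloisRep.ratLocalizedAt ℓ) H] {X : Type*}
    (ι : H →ₐ[↥(GaloisRep.ratLocalizedAt ℓ)] (X → AlgebraicClosure ℚ)) (x : X) :
    H →ₐ[↥(GaloisRep.ratLocalizedAt ℓ)] AlgebraicClosure ℚ :=
  (Pi.evalAlgHom ↥(GaloisRep.ratLocalizedAt ℓ) (fun _ : X => AlgebraicClosure ℚ) x).comp ι

@[simp] theorem S19F_ev_apply {H : Type*} [CommRing H] [Algebra ↥(GaloisRep.ratLocalizedAt ℓ) H]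
    {X : Type*} (ι : H →ₐ[↥(GaloisRep.ratLocalizedAt ℓ)] (X → AlgebraicClosure ℚ)) (x : X)
    (h : H) : S19F_ev ι x h = ι h x := rfl

/-- the bridge between `Algebra.TensorProduct.lift` of two evaluations and `S19HD_j2`. -/
theorem S19F_lift_ev {A B : Type*} [CommRing A] [CommRing B]
    [Algebra ↥(GaloisRep.ratLocalizedAt ℓ) A] [Algebra ↥(GaloisRep.ratLocalizedAt ℓ) B]
    {X Y : Type*}
    (φ : A →ₐ[↥(GaloisRep.ratLocalizedAt ℓ)] (X → AlgebraicClosure ℚ))
    (ψ : B →ₐ[↥(GaloisRep.ratLocalizedAt ℓ)] (Y → AlgebraicClosure ℚ)) (x : X) (y : Y)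
    (t : A ⊗[↥(GaloisRep.ratLocalizedAt ℓ)] B) :
    Algebra.TensorProduct.lift (S19F_ev φ x) (S19F_ev ψ y) (fun _ _ => Commute.all _ _) t =
      S19HD_j2 φ ψ t (x, y) := by
  have h : Algebra.TensorProduct.lift (S19F_ev φ x) (S19F_ev ψ y) (fun _ _ => Commute.all _ _) =
      (Pi.evalAlgHom ↥(GaloisRep.ratLocalizedAt ℓ) (fun _ : X × Y => AlgebraicClosure ℚ)
        (x, y)).comp (S19HD_j2 φ ψ) := by
    apply Algebra.TensorProduct.ext'
    intro a b
    simp
  rw [h]
  rfl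

/-- the number of points of a good algebra is at most its rank. -/
theorem S19F_card_algHom_le {H : Type*} [CommRing H] [Algebra ↥(GaloisRep.ratLocalizedAt ℓ) H]
    [Module.Finite ↥(GaloisRep.ratLocalizedAt ℓ) H] [Module.Free ↥(GaloisRep.ratLocalizedAt ℓ) H] :
    Finite (H →ₐ[↥(GaloisRep.ratLocalizedAt ℓ)] AlgebraicClosure ℚ) ∧
      Nat.card (H →ₐ[↥(GaloisRep.ratLocalizedAt ℓ)] AlgebraicClosure ℚ) ≤
        Module.finrank ↥(GaloisRep.ratLocalizedAt ℓ) H := by
  have hli := linearIndependent_toLinearMap ↥(GaloisRep.ratLocalizedAt ℓ) H (AlgebraicClosure ℚ)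
  have h1 := hli.cardinalMk_le_finrank
  rw [Module.finrank_linearMap_self] at h1
  have hfin : Finite (H →ₐ[↥(GaloisRep.ratLocalizedAt ℓ)] AlgebraicClosure ℚ) := by
    rw [← Cardinal.lt_aleph0_iff_finite]
    exact lt_of_le_of_lt h1 Cardinal.natCast_lt_aleph0
  refine ⟨hfin, ?_⟩
  have h2 := Cardinal.toNat_le_toNat h1 Cardinal.natCast_lt_aleph0
  rw [Cardinal.toNat_natCast] at h2
  exact h2

end

/-- (PTS) the points of a Hopf order of functions on `G`. -/
theorem S19F_points (ℓ : ℕ) [Fact ℓ.Prime] {G : Type} [AddCommGroup G] [Finite G]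
    (act : (AlgebraicClosure ℚ ≃ₐ[ℚ] AlgebraicClosure ℚ) → G → G)
    (hsurj : ∀ σ, Function.Surjective (act σ))
    {H : Type} [CommRing H] [Bialgebra ↥(GaloisRep.ratLocalizedAt ℓ) H]
    [Module.Finite ↥(GaloisRep.ratLocalizedAt ℓ) H]
    (ι : H →ₐ[↥(GaloisRep.ratLocalizedAt ℓ)] (G → AlgebraicClosure ℚ))
    (hι : Function.Injective ι)
    (heq : ∀ h σ x, ι h (act σ x) = σ (ι h x))
    (hsep : ∀ x y, x ≠ y → ∃ h, ι h x ≠ ι h y)
    (hΔ : ∀ h x y, S19HD_j2 ι ι (Coalgebra.comul h) (x, y) = ι h (x + y)) :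
    ∃ e : WithConv (H →ₐ[↥(GaloisRep.ratLocalizedAt ℓ)] AlgebraicClosure ℚ) ≃ G,
      (∀ f g, e (f * g) = e f + e g) ∧
      ∀ (σ : AlgebraicClosure ℚ ≃ₐ[ℚ] AlgebraicClosure ℚ)
        (f g : WithConv (H →ₐ[↥(GaloisRep.ratLocalizedAt ℓ)] AlgebraicClosure ℚ)),
        (∀ h : H, g h = σ (f h)) → e g = act σ (e f) := by
  classical
  let _ : Fintype G := Fintype.ofFinite G
  have hgood : S19F_Good ι := S19F_good_of_injective act hsurj ι hι heq
  have hfree := hgood.free
  obtain ⟨hfinHom, hcard⟩ := S19F_card_algHom_le (ℓ := ℓ) (H := H)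
  have hrank := hgood.finrank_le
  -- evaluation is injective
  have hinj : Function.Injective (S19F_ev ι) := by
    intro x y hxy
    by_contra hne
    obtain ⟨h, hh⟩ := hsep x y hne
    exact hh (DFunLike.congr_fun hxy h)
  have hbij : Function.Bijective (S19F_ev ι) := by
    refine hinj.bijective_of_nat_card_le ?_
    rw [Nat.card_eq_fintype_card (α := G)]
    exact hcard.trans hrank
  let E : G ≃ (H →ₐ[↥(GaloisRep.ratLocalizedAt ℓ)] AlgebraicClosure ℚ) :=
    Equiv.ofBijective _ hbij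
  have hE : ∀ x, E x = S19F_ev ι x := fun _ => rfl
  have hEs : ∀ f : H →ₐ[↥(GaloisRep.ratLocalizedAt ℓ)] AlgebraicClosure ℚ,
      S19F_ev ι (E.symm f) = f := fun f => E.apply_symm_apply f
  refine ⟨(WithConv.equiv _).trans E.symm, ?_, ?_⟩
  · intro f g
    show E.symm (f * g).ofConv = E.symm f.ofConv + E.symm g.ofConv
    rw [Equiv.symm_apply_eq, hE]
    apply AlgHom.ext
    intro h
    have h1 : (f * g).ofConv h = (f * g) h := rfl
    rw [h1, AlgHom.convMul_apply]
    conv_lhs => rw [← hEs f.ofConv, ← hEs g.ofConv]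
    rw [S19F_lift_ev, hΔ]
    rfl
  · intro σ f g hfg
    show E.symm g.ofConv = act σ (E.symm f.ofConv)
    rw [Equiv.symm_apply_eq, hE]
    apply AlgHom.ext
    intro h
    have h1 : g.ofConv h = g h := rfl
    have h2 : f h = f.ofConv h := rfl
    rw [h1, hfg h, h2, S19F_ev_apply, heq]
    conv_lhs => rw [← hEs f.ofConv]
    rfl

end Fermat.Agent.S19
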