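import Mathlib
import Fermat.Prelude.Def_GaloisRep_Flat
import Fermat.Agent.S28.PkgB.Zl
import Fermat.Agent.S19.HopfDefs
import Fermat.Agent.S19.HopfLD
import Fermat.Agent.S19.HopfOrder
import Fermat.Agent.S19.HopfPoints

/-!
# TRACK 9 (S19), package F1: the Hopf-order theorem `S19F_main`

`Ω = AlgebraicClosure ℚ`, `R = GaloisRep.ratLocalizedAt ℓ`, `G` a finite abelian group with an
action of `G_ℚ` (only `act σ 0 = 0` and surjectivity of `act σ` are used), `H₀ ⊂ (G → Ω)` an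
`R`-subalgebra of Galois-equivariant functions, finitely generated as a module, separating the
points of `G`, with `Δ(H₀) ⊂ im(H₀ ⊗ H₀)`.  Then `↥H₀` carries a Hopf algebra structure which is
finite, flat, cocommutative, with `Hom_{R-alg}(H₀, Ω) ≃ G` additively and Galois-equivariantly:
the conclusion of S19 verbatim (for an abstract `G`).

Assembly of (LD), (PTS) (helper24) and (STR) (helper11, `S19/HopfOrder.lean`).
-/

set_option autoImplicit false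

noncomputable section

namespace Fermat.Agent.S19

open scoped TensorProduct

section

variable (ℓ : ℕ) [Fact ℓ.Prime]

theorem S19F_isFractionRing : IsFractionRing ↥(GaloisRep.ratLocalizedAt ℓ) ℚ := by
  have hinj : Function.Injective (algebraMap ↥(GaloisRep.ratLocalizedAt ℓ) ℚ) :=
    Subtype.val_injective
  have : FaithfulSMul ↥(GaloisRep.ratLocalizedAt ℓ) ℚ :=
    (faithfulSMul_iff_algebraMap_injective _ _).mpr hinj
  refine IsFractionRing.of_field _ _ ?_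
  intro z
  have hn : ((z.num : ℤ) : ℚ) ∈ GaloisRep.ratLocalizedAt ℓ := by
    rw [Fermat.Agent.S28.pkgB_mem_Zl_iff]
    simp [(Fact.out : ℓ.Prime).one_lt.ne']
  have hd : ((z.den : ℕ) : ℚ) ∈ GaloisRep.ratLocalizedAt ℓ := by
    rw [Fermat.Agent.S28.pkgB_mem_Zl_iff]
    simp [(Fact.out : ℓ.Prime).one_lt.ne']
  refine ⟨⟨_, hn⟩, ⟨_, hd⟩, ?_⟩
  show z = (z.num : ℚ) / (z.den : ℚ)
  exact (Rat.num_div_den z).symm

/-- `ℤ_(ℓ)` is integrally closed in `ℚ`. -/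
theorem S19F_mem_of_isIntegral (q : ℚ) (h : IsIntegral ↥(GaloisRep.ratLocalizedAt ℓ) q) :
    q ∈ GaloisRep.ratLocalizedAt ℓ := by
  have := S19F_isFractionRing ℓ
  obtain ⟨y, hy⟩ := (IsIntegrallyClosed.isIntegral_iff
    (R := ↥(GaloisRep.ratLocalizedAt ℓ)) (K := ℚ)).mp h
  rw [← hy]
  exact y.2

variable {ℓ}

/-- the value at `0` of a function of the order lies in `R`. -/
theorem S19F_counit_mem {G : Type*} [Zero G]
    (act : (AlgebraicClosure ℚ ≃ₐ[ℚ] AlgebraicClosure ℚ) → G → G) (hact0 : ∀ σ, act σ 0 = 0)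
    (H₀ : Subalgebra ↥(GaloisRep.ratLocalizedAt ℓ) (G → AlgebraicClosure ℚ))
    (heq : ∀ f ∈ H₀, ∀ σ x, f (act σ x) = σ (f x))
    (hfin : (Subalgebra.toSubmodule H₀).FG) :
    ∀ a ∈ H₀, a 0 ∈
      Set.range (algebraMap ↥(GaloisRep.ratLocalizedAt ℓ) (AlgebraicClosure ℚ)) := by
  intro a ha
  have hfix : ∀ σ : (AlgebraicClosure ℚ ≃ₐ[ℚ] AlgebraicClosure ℚ), σ (a 0) = a 0 := by
    intro σ
    rw [← heq a ha σ 0, hact0]
  have := S19F_isGalois
  obtain ⟨q, hq⟩ := (InfiniteGalois.mem_range_algebraMap_iff_fixed (k := ℚ)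
    (K := AlgebraicClosure ℚ) (a 0)).mpr hfix
  have hint : IsIntegral ↥(GaloisRep.ratLocalizedAt ℓ) a := IsIntegral.of_mem_of_fg H₀ hfin a ha
  have hint0 : IsIntegral ↥(GaloisRep.ratLocalizedAt ℓ) (a 0) :=
    hint.map (Pi.evalAlgHom ↥(GaloisRep.ratLocalizedAt ℓ) (fun _ : G => AlgebraicClosure ℚ) 0)
  have hintq : IsIntegral ↥(GaloisRep.ratLocalizedAt ℓ) q := by
    rw [← hq] at hint0
    exact (isIntegral_algHom_iff
      (IsScalarTower.toAlgHom ↥(GaloisRep.ratLocalizedAt ℓ) ℚ (AlgebraicClosure ℚ))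
      (algebraMap ℚ (AlgebraicClosure ℚ)).injective).mp hint0
  exact ⟨⟨q, S19F_mem_of_isIntegral ℓ q hintq⟩, hq⟩

/-- the hypotheses of helper11's (STR). -/
theorem S19F_hyp {G : Type} [AddCommGroup G] [Finite G]
    (act : (AlgebraicClosure ℚ ≃ₐ[ℚ] AlgebraicClosure ℚ) → G → G) (hact0 : ∀ σ, act σ 0 = 0)
    (hsurj : ∀ σ, Function.Surjective (act σ))
    (H₀ : Subalgebra ↥(GaloisRep.ratLocalizedAt ℓ) (G → AlgebraicClosure ℚ))
    (heq : ∀ f ∈ H₀, ∀ σ x, f (act σ x) = σ (f x))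
    (hfin : (Subalgebra.toSubmodule H₀).FG)
    (hcomul : ∀ f ∈ H₀, ∃ (n : ℕ) (a b : Fin n → G → AlgebraicClosure ℚ),
      (∀ i, a i ∈ H₀) ∧ (∀ i, b i ∈ H₀) ∧ ∀ x y, f (x + y) = ∑ i, a i x * b i y) :
    S19HO_Hyp H₀ where
  hinj := S19F_algebraMap_injective ℓ
  hj2 := S19F_j2_injective act hsurj H₀ heq hfin
  hj3 := S19F_j3_injective act hsurj H₀ heq hfin
  hΔ := by
    intro f hf
    obtain ⟨n, a, b, ha, hb, hab⟩ := hcomul f hf
    refine ⟨∑ i, (⟨a i, ha i⟩ : ↥H₀) ⊗ₜ[↥(GaloisRep.ratLocalizedAt ℓ)] (⟨b i, hb i⟩ : ↥H₀), ?_⟩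
    funext p
    rw [map_sum, Finset.sum_apply, hab]
    refine Finset.sum_congr rfl fun i _ => ?_
    rw [S19HD_j2_tmul]
    rfl
  hε := S19F_counit_mem act hact0 H₀ heq hfin
  htors := by
    refine ⟨Nat.card G, Nat.card_pos, fun x => ?_⟩
    exact card_nsmul_eq_zero'

/-- **F1** (Hopf orders of functions), without hypothesis on the antipode. -/
theorem S19F_main' {G : Type} [AddCommGroup G] [Finite G]
    (act : (AlgebraicClosure ℚ ≃ₐ[ℚ] AlgebraicClosure ℚ) → G → G) (hact0 : ∀ σ, act σ 0 = 0)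
    (hsurj : ∀ σ, Function.Surjective (act σ))
    (H₀ : Subalgebra ↥(GaloisRep.ratLocalizedAt ℓ) (G → AlgebraicClosure ℚ))
    (heq : ∀ f ∈ H₀, ∀ σ x, f (act σ x) = σ (f x))
    (hfin : (Subalgebra.toSubmodule H₀).FG)
    (hsep : ∀ x y, x ≠ y → ∃ f ∈ H₀, f x ≠ f y)
    (hcomul : ∀ f ∈ H₀, ∃ (n : ℕ) (a b : Fin n → G → AlgebraicClosure ℚ),
      (∀ i, a i ∈ H₀) ∧ (∀ i, b i ∈ H₀) ∧ ∀ x y, f (x + y) = ∑ i, a i x * b i y) :
    ∃ (H : Type) (_ : CommRing H) (_ : HopfAlgebra (GaloisRep.ratLocalizedAt ℓ) H),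
      Module.Finite (GaloisRep.ratLocalizedAt ℓ) H ∧ Module.Flat (GaloisRep.ratLocalizedAt ℓ) H ∧
      Coalgebra.IsCocomm (GaloisRep.ratLocalizedAt ℓ) H ∧
      ∃ e : WithConv (H →ₐ[GaloisRep.ratLocalizedAt ℓ] AlgebraicClosure ℚ) ≃ G,
        (∀ f g, e (f * g) = e f + e g) ∧
        ∀ (σ : AlgebraicClosure ℚ ≃ₐ[ℚ] AlgebraicClosure ℚ)
          (f g : WithConv (H →ₐ[GaloisRep.ratLocalizedAt ℓ] AlgebraicClosure ℚ)),
          (∀ h : H, g h = σ (f h)) → e g = act σ (e f) := by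
  have hyp := S19F_hyp act hact0 hsurj H₀ heq hfin hcomul
  have hgood := S19F_good_of_equivariant act hsurj H₀ heq hfin
  have hF : Module.Finite ↥(GaloisRep.ratLocalizedAt ℓ) ↥H₀ := Module.Finite.iff_fg.mpr hfin
  refine ⟨↥H₀, inferInstance, S19HO_hopf hyp, hF, hgood.flat, S19HO_isCocomm hyp, ?_⟩
  let _ := S19HO_hopf hyp
  exact S19F_points ℓ act hsurj H₀.val Subtype.val_injective
    (fun h σ x => heq _ h.2 σ x)
    (fun x y hxy => by
      obtain ⟨f, hf, hfxy⟩ := hsep x y hxy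
      exact ⟨⟨f, hf⟩, hfxy⟩)
    (fun h x y => S19HO_comul_spec hyp h x y)

/-- **F1** (Hopf orders of functions), in the shape announced on the board (the hypothesis `hneg`
is not needed). -/
theorem S19F_main {G : Type} [AddCommGroup G] [Finite G]
    (act : (AlgebraicClosure ℚ ≃ₐ[ℚ] AlgebraicClosure ℚ) → G → G) (hact0 : ∀ σ, act σ 0 = 0)
    (hsurj : ∀ σ, Function.Surjective (act σ))
    (H₀ : Subalgebra ↥(GaloisRep.ratLocalizedAt ℓ) (G → AlgebraicClosure ℚ))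
    (heq : ∀ f ∈ H₀, ∀ σ x, f (act σ x) = σ (f x))
    (hfin : (Subalgebra.toSubmodule H₀).FG)
    (hsep : ∀ x y, x ≠ y → ∃ f ∈ H₀, f x ≠ f y)
    (hcomul : ∀ f ∈ H₀, ∃ (n : ℕ) (a b : Fin n → G → AlgebraicClosure ℚ),
      (∀ i, a i ∈ H₀) ∧ (∀ i, b i ∈ H₀) ∧ ∀ x y, f (x + y) = ∑ i, a i x * b i y)
    (_hneg : ∀ f ∈ H₀, (fun x => f (-x)) ∈ H₀) :
    ∃ (H : Type) (_ : CommRing H) (_ : HopfAlgebra (GaloisRep.ratLocalizedAt ℓ) H),
      Module.Finite (GaloisRep.ratLocalizedAt ℓ) H ∧ Module.Flat (GaloisRep.ratLocalizedAt ℓ) H ∧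
      Coalgebra.IsCocomm (GaloisRep.ratLocalizedAt ℓ) H ∧
      ∃ e : WithConv (H →ₐ[GaloisRep.ratLocalizedAt ℓ] AlgebraicClosure ℚ) ≃ G,
        (∀ f g, e (f * g) = e f + e g) ∧
        ∀ (σ : AlgebraicClosure ℚ ≃ₐ[ℚ] AlgebraicClosure ℚ)
          (f g : WithConv (H →ₐ[GaloisRep.ratLocalizedAt ℓ] AlgebraicClosure ℚ)),
          (∀ h : H, g h = σ (f h)) → e g = act σ (e f) :=
  S19F_main' act hact0 hsurj H₀ heq hfin hsep hcomul

end

end Fermat.Agent.S19
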