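import Mathlib
import Fermat.Prelude.Def_ModularCurve_ArithmeticGalois
import Fermat.Prelude.Def_GaloisRep_Flat
import Fermat.Agent.S17.Stab
import Fermat.Agent.S19.HopfMain

/-!
# TRACK 9 (S19), package F1: the Galois module `J₀(N)[ℓ^k]`

* `S19F_act N ℓ k σ` : the action of `σ ∈ G_ℚ` on `Submodule.torsionBy ℤ (JZero N) (ℓ^k)`;
* `S19F_act_zero`, `S19F_act_add`, `S19F_act_surj`, `S19F_act_coe`;
* `S19F_jzero_finite` : this group is finite (from `S17ST_tors_finite`);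
* `S19F_of_order` : **S19 from a Hopf order**: the conclusion of S19 verbatim, given an
  `R`-subalgebra `H₀` of Galois-equivariant functions on `J₀(N)[ℓ^k]`, module-finite, separating
  points, with `Δ(H₀) ⊂ im(H₀ ⊗ H₀)`.
-/

set_option autoImplicit false

noncomputable section

namespace Fermat.Agent.S19

open ModularCurve

/-- The Galois action on `J₀(N)[ℓ^k]`. -/
def S19F_act (N ℓ k : ℕ) (σ : AlgebraicClosure ℚ ≃ₐ[ℚ] AlgebraicClosure ℚ)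
    (x : ↥(Submodule.torsionBy ℤ (JZero N) ((ℓ : ℤ) ^ k))) :
    ↥(Submodule.torsionBy ℤ (JZero N) ((ℓ : ℤ) ^ k)) :=
  ⟨σ • (x : JZero N), by
    have h := x.2
    rw [Submodule.mem_torsionBy_iff] at h ⊢
    rw [smul_comm, h, smul_zero]⟩

@[simp] theorem S19F_act_coe (N ℓ k : ℕ) (σ : AlgebraicClosure ℚ ≃ₐ[ℚ] AlgebraicClosure ℚ)
    (x : ↥(Submodule.torsionBy ℤ (JZero N) ((ℓ : ℤ) ^ k))) :
    ((S19F_act N ℓ k σ x : ↥(Submodule.torsionBy ℤ (JZero N) ((ℓ : ℤ) ^ k))) : JZero N) =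
      σ • (x : JZero N) := rfl

theorem S19F_act_zero (N ℓ k : ℕ) (σ : AlgebraicClosure ℚ ≃ₐ[ℚ] AlgebraicClosure ℚ) :
    S19F_act N ℓ k σ 0 = 0 :=
  Subtype.ext (smul_zero σ)

theorem S19F_act_add (N ℓ k : ℕ) (σ : AlgebraicClosure ℚ ≃ₐ[ℚ] AlgebraicClosure ℚ)
    (x y : ↥(Submodule.torsionBy ℤ (JZero N) ((ℓ : ℤ) ^ k))) :
    S19F_act N ℓ k σ (x + y) = S19F_act N ℓ k σ x + S19F_act N ℓ k σ y :=
  Subtype.ext (smul_add σ (x : JZero N) (y : JZero N))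

theorem S19F_act_neg (N ℓ k : ℕ) (σ : AlgebraicClosure ℚ ≃ₐ[ℚ] AlgebraicClosure ℚ)
    (x : ↥(Submodule.torsionBy ℤ (JZero N) ((ℓ : ℤ) ^ k))) :
    S19F_act N ℓ k σ (-x) = -S19F_act N ℓ k σ x :=
  Subtype.ext (smul_neg σ (x : JZero N))

theorem S19F_act_one (N ℓ k : ℕ) (x : ↥(Submodule.torsionBy ℤ (JZero N) ((ℓ : ℤ) ^ k))) :
    S19F_act N ℓ k 1 x = x :=
  Subtype.ext (one_smul _ (x : JZero N))

theorem S19F_act_mul (N ℓ k : ℕ) (σ τ : AlgebraicClosure ℚ ≃ₐ[ℚ] AlgebraicClosure ℚ)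
    (x : ↥(Submodule.torsionBy ℤ (JZero N) ((ℓ : ℤ) ^ k))) :
    S19F_act N ℓ k (σ * τ) x = S19F_act N ℓ k σ (S19F_act N ℓ k τ x) :=
  Subtype.ext (mul_smul σ τ (x : JZero N))

theorem S19F_act_surj (N ℓ k : ℕ) (σ : AlgebraicClosure ℚ ≃ₐ[ℚ] AlgebraicClosure ℚ) :
    Function.Surjective (S19F_act N ℓ k σ) := fun x =>
  ⟨S19F_act N ℓ k σ⁻¹ x, by rw [← S19F_act_mul, mul_inv_cancel, S19F_act_one]⟩

/-- `J₀(N)[ℓ^k]` is finite. -/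
theorem S19F_jzero_finite (N : ℕ) [NeZero N] (ℓ : ℕ) [Fact ℓ.Prime] (k : ℕ) :
    Finite ↥(Submodule.torsionBy ℤ (JZero N) ((ℓ : ℤ) ^ k)) := by
  have hℓ : 0 < ℓ ^ k := pos_of_ne_zero (pow_ne_zero _ (Fact.out : ℓ.Prime).ne_zero)
  have h := Fermat.Agent.S17.S17ST_tors_finite N (ℓ ^ k) hℓ
  have hset : ((Submodule.torsionBy ℤ (JZero N) ((ℓ : ℤ) ^ k) : Submodule ℤ (JZero N)) :
      Set (JZero N)) = {z : JZero N | (ℓ ^ k) • z = 0} := by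
    ext z
    simp only [SetLike.mem_coe, Submodule.mem_torsionBy_iff, Set.mem_ofPred_eq]
    rw [← natCast_zsmul, Nat.cast_pow]
  have h2 : (↑(Submodule.torsionBy ℤ (JZero N) ((ℓ : ℤ) ^ k)) : Set (JZero N)).Finite := by
    rw [hset]; exact h
  exact h2.to_subtype

/-- **S19 from a Hopf order of functions on `J₀(N)[ℓ^k]`** (conclusion of S19 verbatim). -/
theorem S19F_of_order (p : ℕ) [NeZero p] (ℓ : ℕ) [Fact ℓ.Prime] (k : ℕ)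
    (H₀ : Subalgebra ↥(GaloisRep.ratLocalizedAt ℓ)
      (↥(Submodule.torsionBy ℤ (JZero p) ((ℓ : ℤ) ^ k)) → AlgebraicClosure ℚ))
    (heq : ∀ f ∈ H₀, ∀ σ x, f (S19F_act p ℓ k σ x) = σ (f x))
    (hfin : (Subalgebra.toSubmodule H₀).FG)
    (hsep : ∀ x y, x ≠ y → ∃ f ∈ H₀, f x ≠ f y)
    (hcomul : ∀ f ∈ H₀, ∃ (n : ℕ)
      (a b : Fin n → ↥(Submodule.torsionBy ℤ (JZero p) ((ℓ : ℤ) ^ k)) → AlgebraicClosure ℚ),
      (∀ i, a i ∈ H₀) ∧ (∀ i, b i ∈ H₀) ∧ ∀ x y, f (x + y) = ∑ i, a i x * b i y) :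
    ∃ (H : Type) (_ : CommRing H) (_ : HopfAlgebra (GaloisRep.ratLocalizedAt ℓ) H),
      Module.Finite (GaloisRep.ratLocalizedAt ℓ) H ∧ Module.Flat (GaloisRep.ratLocalizedAt ℓ) H ∧
      Coalgebra.IsCocomm (GaloisRep.ratLocalizedAt ℓ) H ∧
      ∃ e : WithConv (H →ₐ[GaloisRep.ratLocalizedAt ℓ] AlgebraicClosure ℚ) ≃
          ↥(Submodule.torsionBy ℤ (JZero p) ((ℓ : ℤ) ^ k)),
        (∀ f g, e (f * g) = e f + e g) ∧
        ∀ (σ : AlgebraicClosure ℚ ≃ₐ[ℚ] AlgebraicClosure ℚ)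
          (f g : WithConv (H →ₐ[GaloisRep.ratLocalizedAt ℓ] AlgebraicClosure ℚ)),
          (∀ h : H, g h = σ (f h)) → ((e g : JZero p)) = σ • (e f : JZero p) := by
  have hfinite := S19F_jzero_finite p ℓ k
  obtain ⟨H, i1, i2, h1, h2, h3, e, he1, he2⟩ :=
    S19F_main' (S19F_act p ℓ k) (S19F_act_zero p ℓ k) (S19F_act_surj p ℓ k) H₀ heq hfin hsep
      hcomul
  exact ⟨H, i1, i2, h1, h2, h3, e, he1, fun σ f g hfg => congrArg Subtype.val (he2 σ f g hfg)⟩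

end Fermat.Agent.S19
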