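import Fermat.Agent.S34.OntoM
import Fermat.Agent.S17.Unram
import Fermat.Agent.S17.Stab
import Fermat.Agent.S19.Iface
import Fermat.Agent.S19.HopfJZero
import Fermat.Agent.Lib.FrobExists

/-!
# TRACK 9 (S19), package FIN/INST (helper23), prefix `S19IN_`

The concrete instances for `X₀(N)` at a place `A ⊂ ℚ̄` over a prime `ℓ ∤ N`, in one file, so that
the geometric packages (abstract over `S : S18_Spec L F k Fk`, `RR_Hyp L F`, `RR_Hyp k Fk`) can
be instantiated without touching TRACK 3.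

`Ω = ℚ̄`, `F = modularFunctionFieldBar N`, `κ = ResidueField A`,
`Fk = modularFunctionFieldFullC κ N`, `J = JZero N`, `red = reductionModL A N`.

* `S19IN_exists_A`  : a place `A ⊂ ℚ̄` over `ℓ` exists;
* `S19IN_RI`        : `ReductionInputsModL A N` (= `RI_main`);
* `S19IN_S`         : the specialisation datum `S18_Spec Ω F κ Fk` (`= S18_specModL N A S19IN_RI`),
                      `S19IN_S_A`, `S19IN_S_r`;
* `S19IN_hF`, `S19IN_hk`        : `RR_Hyp` for `F` and for `Fk`;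
* `S19IN_hPD`, `S19IN_hPDk`     : `HasPrincipalDivisors` for `F` and for `Fk`;
* `S19IN_deg_one`, `S19IN_deg_one_k` : all places have degree `1`;
* `S19IN_genus_eq`  : `g(F) = g(Fk)`;
* `S19IN_algClosed`, `S19IN_infinite`, `S19IN_charP` : the residue field;
* `S19IN_red_mk`    : `red [D] = [r_* D]`;  `S19IN_red_eq_zero_iff` : `red [D] = 0 ↔ r_* D` principal;
* `S19IN_J1_iff`    : `S19IF_J1 S y ↔ red y = 0` (the bridge to the interface `S19/Iface.lean`);
* `S19IN_red_inertia` : `red (τ • y) = red y` for `τ` in the inertia group  (r1);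
* `S19IN_num`       : the numerical hypotheses `S19IF_Num S D₀ n g`;
* `S19IN_cont_gen`, `S19IN_cont` : **continuity** (`hcont` of DESC): a finite set `T ⊂ ℚ̄` such that
  every `σ` fixing `T` pointwise acts trivially on `J[n]` (on `G = J[ℓ^k]` with `S19F_act`).
(`G` finite and Galois stable: `S19F_jzero_finite`, `S19F_act` of `S19/HopfJZero.lean`.)
-/

set_option autoImplicit false
set_option synthInstance.maxHeartbeats 400000
set_option maxHeartbeats 1000000
set_option linter.unusedSectionVars false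
set_option linter.unusedVariables false
set_option linter.style.haveILetI false

open AlgebraicCurve ModularCurve

namespace Fermat.Agent.S19

open Fermat.Agent.Lib Fermat.Agent.S18 Fermat.Agent.S34 Fermat.Agent.S17

variable (N : ℕ) [NeZero N] (A : ValuationSubring (AlgebraicClosure ℚ)) {ℓ : ℕ}

/-! ### the residue field -/

theorem S19IN_algClosed : IsAlgClosed (IsLocalRing.ResidueField A) :=
  S18_residue_isAlgClosed A

theorem S19IN_infinite : Infinite (IsLocalRing.ResidueField A) :=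
  haveI := S19IN_algClosed A
  IsAlgClosed.instInfinite

theorem S19IN_charP (hℓ : ℓ.Prime) (hA : A.LiesOverPrime ℓ) :
    CharP (IsLocalRing.ResidueField A) ℓ :=
  S18_residue_charP A ℓ hℓ hA

/-- a place of `ℚ̄` over `ℓ` exists. -/
theorem S19IN_exists_A (ℓ : ℕ) (hℓ : ℓ.Prime) :
    ∃ A : ValuationSubring (AlgebraicClosure ℚ), A.LiesOverPrime ℓ :=
  frobExists_exists_valuationSubring ℓ hℓ

/-! ### the specialisation datum -/

/-- **RI**: reduction data exist at every place over `ℓ ∤ N`. -/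
theorem S19IN_RI (hℓ : ℓ.Prime) (hA : A.LiesOverPrime ℓ) (hℓN : ¬ ℓ ∣ N) :
    ReductionInputsModL A N :=
  RI_main N A hℓ hA hℓN

/-- the specialisation datum of `X₀(N)` at `A`. -/
noncomputable def S19IN_S (hℓ : ℓ.Prime) (hA : A.LiesOverPrime ℓ) (hℓN : ¬ ℓ ∣ N) :
    S18_Spec (AlgebraicClosure ℚ) ↥(modularFunctionFieldBar N) (IsLocalRing.ResidueField A)
      ↥(modularFunctionFieldFullC (IsLocalRing.ResidueField A) N) :=
  S18_specModL N A (S19IN_RI N A hℓ hA hℓN)

theorem S19IN_S_eq (hℓ : ℓ.Prime) (hA : A.LiesOverPrime ℓ) (hℓN : ¬ ℓ ∣ N) :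
    S19IN_S N A hℓ hA hℓN = S18_specModL N A (S19IN_RI N A hℓ hA hℓN) := rfl

theorem S19IN_S_A (hℓ : ℓ.Prime) (hA : A.LiesOverPrime ℓ) (hℓN : ¬ ℓ ∣ N) :
    (S19IN_S N A hℓ hA hℓN).A = A :=
  S18_specModL_A N A (S19IN_RI N A hℓ hA hℓN)

theorem S19IN_S_r (hℓ : ℓ.Prime) (hA : A.LiesOverPrime ℓ) (hℓN : ¬ ℓ ∣ N) :
    (S19IN_S N A hℓ hA hℓN).r = placeReductionModL (S19IN_RI N A hℓ hA hℓN) :=
  S18_specModL_r N A (S19IN_RI N A hℓ hA hℓN)

/-! ### Riemann–Roch on both sides -/

theorem S19IN_hF : RR_Hyp (AlgebraicClosure ℚ) ↥(modularFunctionFieldBar N) :=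
  S18_hRR N

theorem S19IN_hk (hℓ : ℓ.Prime) (hA : A.LiesOverPrime ℓ) (hℓN : ¬ ℓ ∣ N) :
    RR_Hyp (IsLocalRing.ResidueField A)
      ↥(modularFunctionFieldFullC (IsLocalRing.ResidueField A) N) :=
  S18_hk N A hℓ hA hℓN

theorem S19IN_hPD : HasPrincipalDivisors (AlgebraicClosure ℚ) ↥(modularFunctionFieldBar N) :=
  (S19IN_hF N).principal

theorem S19IN_hPDk (hℓ : ℓ.Prime) (hA : A.LiesOverPrime ℓ) (hℓN : ¬ ℓ ∣ N) :
    HasPrincipalDivisors (IsLocalRing.ResidueField A)
      ↥(modularFunctionFieldFullC (IsLocalRing.ResidueField A) N) :=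
  (S19IN_hk N A hℓ hA hℓN).principal

theorem S19IN_deg_one (P : Place (AlgebraicClosure ℚ) ↥(modularFunctionFieldBar N)) :
    P.deg = 1 :=
  (S19IN_hF N).deg_one P

theorem S19IN_deg_one_k (hℓ : ℓ.Prime) (hA : A.LiesOverPrime ℓ) (hℓN : ¬ ℓ ∣ N)
    (Q : Place (IsLocalRing.ResidueField A)
      ↥(modularFunctionFieldFullC (IsLocalRing.ResidueField A) N)) : Q.deg = 1 :=
  (S19IN_hk N A hℓ hA hℓN).deg_one Q

/-- **good reduction**: the genus does not change. -/
theorem S19IN_genus_eq (hℓ : ℓ.Prime) (hA : A.LiesOverPrime ℓ) (hℓN : ¬ ℓ ∣ N) :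
    RR_genus (AlgebraicClosure ℚ) ↥(modularFunctionFieldBar N) =
      RR_genus (IsLocalRing.ResidueField A)
        ↥(modularFunctionFieldFullC (IsLocalRing.ResidueField A) N) :=
  S34OM_genus_eq N A hℓ hℓN hA

/-! ### the reduction map and `J¹` -/

/-- a class is trivial iff the divisor is principal. -/
theorem S19IN_mk_eq_zero_iff {K F : Type*} [Field K] [Field F] [Algebra K F]
    (D : Divisor.degZero (K := K) (F := F)) :
    Pic0.mk D = 0 ↔ Divisor.IsPrincipal (D : Divisor K F) := by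
  unfold Pic0.mk
  rw [QuotientAddGroup.eq_zero_iff, AddSubgroup.mem_addSubgroupOf]
  exact Iff.rfl

/-- `red [D] = [r_* D]`. -/
theorem S19IN_red_mk (h : ReductionInputsModL A N)
    (D : Divisor.degZero (K := AlgebraicClosure ℚ) (F := ↥(modularFunctionFieldBar N))) :
    reductionModL A N (Pic0.mk D) =
      Pic0.mk (reductionDegZeroAlong (placeReductionModL h)
        (isPlaceReductionModL_placeReductionModL h).1 D) :=
  reductionModL_mk h D

/-- `red [D] = 0` iff `r_* D` is principal. -/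
theorem S19IN_red_eq_zero_iff (h : ReductionInputsModL A N)
    (D : Divisor.degZero (K := AlgebraicClosure ℚ) (F := ↥(modularFunctionFieldBar N))) :
    reductionModL A N (Pic0.mk D) = 0 ↔
      Divisor.IsPrincipal (Finsupp.mapDomain (placeReductionModL h)
        (D : Divisor (AlgebraicClosure ℚ) ↥(modularFunctionFieldBar N))) := by
  rw [S19IN_red_mk N A h D, S19IN_mk_eq_zero_iff, coe_reductionDegZeroAlong]

/-- the same with the place map of the specialisation datum. -/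
theorem S19IN_red_eq_zero_iff' (h : ReductionInputsModL A N)
    (D : Divisor.degZero (K := AlgebraicClosure ℚ) (F := ↥(modularFunctionFieldBar N))) :
    reductionModL A N (Pic0.mk D) = 0 ↔
      Divisor.IsPrincipal (S19IF_rdiv (S18_specModL N A h)
        (D : Divisor (AlgebraicClosure ℚ) ↥(modularFunctionFieldBar N))) := by
  rw [S19IN_red_eq_zero_iff N A h D]
  unfold S19IF_rdiv
  rw [S18_specModL_r N A h]

/-- **the bridge**: the classes of `J¹` (interface) are the kernel of the reduction map. -/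
theorem S19IN_J1_iff (h : ReductionInputsModL A N) (y : JZero N) :
    S19IF_J1 (S18_specModL N A h) y ↔ reductionModL A N y = 0 := by
  constructor
  · rintro ⟨D, rfl, hD⟩
    exact (S19IN_red_eq_zero_iff' N A h D).2 hD
  · intro hy
    obtain ⟨D, rfl⟩ := Pic0.mk_surjective y
    exact ⟨D, rfl, (S19IN_red_eq_zero_iff' N A h D).1 hy⟩

/-- (r1): the reduction map is invariant under the inertia group. -/
theorem S19IN_red_inertia (hℓ : ℓ.Prime) (hA : A.LiesOverPrime ℓ) (hℓN : ¬ ℓ ∣ N)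
    (τ : AlgebraicClosure ℚ ≃ₐ[ℚ] AlgebraicClosure ℚ) (hτ : τ ∈ A.inertiaSubgroupIn ℚ)
    (z : JZero N) : reductionModL A N (τ • z) = reductionModL A N z :=
  S17U_inertia N hℓ hℓN A hA τ hτ z

/-- `J¹` is stable under the inertia group. -/
theorem S19IN_J1_inertia (hℓ : ℓ.Prime) (hA : A.LiesOverPrime ℓ) (hℓN : ¬ ℓ ∣ N)
    (h : ReductionInputsModL A N)
    (τ : AlgebraicClosure ℚ ≃ₐ[ℚ] AlgebraicClosure ℚ) (hτ : τ ∈ A.inertiaSubgroupIn ℚ)
    (y : JZero N) (hy : S19IF_J1 (S18_specModL N A h) y) :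
    S19IF_J1 (S18_specModL N A h) (τ • y) := by
  rw [S19IN_J1_iff] at hy ⊢
  rw [S19IN_red_inertia N A hℓ hA hℓN τ hτ y, hy]

/-! ### the numerical hypotheses -/

/-- the numerical hypotheses of the geometry packages, for `g = g(F)`. -/
theorem S19IN_num (hℓ : ℓ.Prime) (hA : A.LiesOverPrime ℓ) (hℓN : ¬ ℓ ∣ N)
    (h : ReductionInputsModL A N)
    (D₀ : Divisor (AlgebraicClosure ℚ) ↥(modularFunctionFieldBar N)) (n : ℕ)
    (hdeg : D₀.degree + 1 = n + RR_genus (AlgebraicClosure ℚ) ↥(modularFunctionFieldBar N))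
    (hlarge : 4 * RR_genus (AlgebraicClosure ℚ) ↥(modularFunctionFieldBar N) + 3 ≤ n) :
    S19IF_Num (S18_specModL N A h) D₀ n
      (RR_genus (AlgebraicClosure ℚ) ↥(modularFunctionFieldBar N)) where
  hL := S19IN_hF N
  hk := S19IN_hk N A hℓ hA hℓN
  genus_L := rfl
  genus_k := (S19IN_genus_eq N A hℓ hA hℓN).symm
  deg_D₀ := hdeg
  large := hlarge

/-! ### continuity of the Galois action on torsion points -/

/-- a finite-dimensional intermediate field is fixed pointwise as soon as a finite set is. -/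
theorem S19IN_finset_of_finiteDimensional
    (K' : IntermediateField ℚ (AlgebraicClosure ℚ)) [FiniteDimensional ℚ K'] :
    ∃ T : Finset (AlgebraicClosure ℚ), ∀ σ : AlgebraicClosure ℚ ≃ₐ[ℚ] AlgebraicClosure ℚ,
      (∀ t ∈ T, σ t = t) → ∀ a ∈ K', σ a = a := by
  classical
  obtain ⟨s, hs⟩ := (Module.Finite.fg_top : (⊤ : Submodule ℚ K').FG)
  refine ⟨s.image (fun x : K' => (x : AlgebraicClosure ℚ)), fun σ hσ a ha => ?_⟩
  have hle : (⊤ : Submodule ℚ K') ≤
      LinearMap.eqLocus (σ.toLinearMap ∘ₗ K'.val.toLinearMap) K'.val.toLinearMap := by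
    rw [← hs, Submodule.span_le]
    intro x hx
    exact hσ _ (Finset.mem_image_of_mem _ hx)
  exact hle (Submodule.mem_top : (⟨a, ha⟩ : K') ∈ (⊤ : Submodule ℚ K'))

/-- **continuity**: the Galois action on `J₀(N)[n]` factors through a finite quotient: there is a
finite set `T ⊂ ℚ̄` such that every `σ` fixing `T` pointwise fixes `J₀(N)[n]` pointwise. -/
theorem S19IN_cont_gen (n : ℕ) (hn : 0 < n) :
    ∃ T : Finset (AlgebraicClosure ℚ), ∀ σ : AlgebraicClosure ℚ ≃ₐ[ℚ] AlgebraicClosure ℚ,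
      (∀ t ∈ T, σ t = t) → ∀ z : JZero N, n • z = 0 → σ • z = z := by
  obtain ⟨K', hfd, -, hK'⟩ := S17ST_tors_stab N n hn
  haveI := hfd
  obtain ⟨T, hT⟩ := S19IN_finset_of_finiteDimensional K'
  exact ⟨T, fun σ hσ z hz => hK' σ (hT σ hσ) z hz⟩

/-- **continuity** (`hcont` of DESC, exactly in the shape of `S19D_K`) for `G = J₀(N)[ℓ^k]` with
the action `S19F_act`. -/
theorem S19IN_cont (ℓ : ℕ) [Fact ℓ.Prime] (k : ℕ) :
    ∃ T : Finset (AlgebraicClosure ℚ), ∀ σ : AlgebraicClosure ℚ ≃ₐ[ℚ] AlgebraicClosure ℚ,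
      (∀ t ∈ T, σ t = t) → ∀ x : ↥(Submodule.torsionBy ℤ (JZero N) ((ℓ : ℤ) ^ k)),
        S19F_act N ℓ k σ x = x := by
  have hℓ : 0 < ℓ ^ k := pos_of_ne_zero (pow_ne_zero _ (Fact.out : ℓ.Prime).ne_zero)
  obtain ⟨T, hT⟩ := S19IN_cont_gen N (ℓ ^ k) hℓ
  refine ⟨T, fun σ hσ x => Subtype.ext ?_⟩
  rw [S19F_act_coe]
  refine hT σ hσ _ ?_
  have hx := x.2
  rw [Submodule.mem_torsionBy_iff] at hx
  rw [← natCast_zsmul, Nat.cast_pow]
  exact hx

end Fermat.Agent.S19
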