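import Mathlib
import Fermat.Agent.S19.Eqv
import Fermat.Agent.S19.GalRedD
import Fermat.Agent.S17.Emb
import Fermat.Agent.S19.Inst

/-!
# TRACK 9 (S19), package EQV, concrete part (helper28): the decomposition group acts on charts

`F = modularFunctionFieldBar N`, `A ⊂ ℚ̄` over `ℓ ∤ N`, `S = S18_specModL N A h`.
For `σ` in the decomposition group of `A` the pair
`(arithmeticGalois σ, S19GR_bar (S19GR_resAut A σ))` is compatible with `S` (GALRED of helper25),
so all of `S19/Eqv.lean` applies: charts are transported to charts, coordinates to coordinates,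
`J¹` is stable.  Prefix `S19EQ_`.
-/

set_option autoImplicit false
set_option synthInstance.maxHeartbeats 400000
set_option maxHeartbeats 1000000
set_option linter.unusedSectionVars false

open HahnSeries IntermediateField AlgebraicCurve ModularCurve

namespace Fermat.Agent.S19

open Fermat.Agent.S18 Fermat.Agent.Lib Fermat.Agent.GalRep Fermat.Agent.S17

variable (N : ℕ) [NeZero N] (A : ValuationSubring (AlgebraicClosure ℚ))
  (h : ReductionInputsModL A N) {ℓ : ℕ}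

/-- the semilinear automorphism of `F` attached to `σ ∈ D_A`. -/
noncomputable abbrev S19EQ_g (g : A.decompositionSubgroup ℚ) :
    SemilinearAut (AlgebraicClosure ℚ) ↥(modularFunctionFieldBar N) :=
  arithmeticGalois (modularFunctionFieldFull N)
    (g : AlgebraicClosure ℚ ≃ₐ[ℚ] AlgebraicClosure ℚ)

/-- the semilinear automorphism of `F_k` attached to `σ ∈ D_A`. -/
noncomputable abbrev S19EQ_gb (g : A.decompositionSubgroup ℚ) :
    SemilinearAut (IsLocalRing.ResidueField A)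
      ↥(modularFunctionFieldFullC (IsLocalRing.ResidueField A) N) :=
  S19GR_bar (IsLocalRing.ResidueField A) N (S19GR_resAut A g)

/-- **the decomposition group is compatible with the specialisation datum.** -/
theorem S19EQ_compat_dec (hℓ : ℓ.Prime) (hA : A.LiesOverPrime ℓ) (hℓN : ¬ ℓ ∣ N)
    (g : A.decompositionSubgroup ℚ) :
    S19EQ_Compat (S18_specModL N A h) (S19EQ_g N A g) (S19EQ_gb N A g) where
  mem_O := fun _ hf => S19GR_smul_mem_O N A h g hf
  red := fun f hf _ => S19GR_red_smul N A h g f hf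
  r := fun P => S19GR_dec N A h hℓ hA hℓN g P
  mem_A := fun _ ha => S19GR_mem_A A g ha

/-- (E2) concrete: `J¹` is stable under the decomposition group. -/
theorem S19EQ_J1_dec (hℓ : ℓ.Prime) (hA : A.LiesOverPrime ℓ) (hℓN : ¬ ℓ ∣ N)
    (g : A.decompositionSubgroup ℚ)
    {y : Pic0 (AlgebraicClosure ℚ) ↥(modularFunctionFieldBar N)}
    (hy : S19IF_J1 (S18_specModL N A h) y) :
    S19IF_J1 (S18_specModL N A h) (S19EQ_g N A g • y) :=
  S19EQ_J1 (S19EQ_compat_dec N A h hℓ hA hℓN g) hy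

/-- (g4), abstract: if `κ` are the coordinates of the chart `C` on `J¹`, then
`(g·κ) y := g_L (κ (g⁻¹ • y))` are the coordinates of the transported chart on `J¹`. -/
theorem S19EQ_good_abs {L F k Fk : Type*} [Field L] [Field F] [Algebra L F] [Field k] [Field Fk]
    [Algebra k Fk] {S : S18_Spec L F k Fk} {g : SemilinearAut L F} {gb gb' : SemilinearAut k Fk}
    (hc : S19EQ_Compat S g gb) (hc' : S19EQ_Compat S g⁻¹ gb')
    {D₀ : Divisor L F} {n gen : ℕ} (hD₀ : g • D₀ = D₀) (C : S19IF_Chart S D₀ n gen)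
    (κ : Fin n × Fin n → Pic0 L F → L)
    (hκ : ∀ y, S19IF_J1 S y → S19IF_IsCoord C y (fun p => κ p y)) :
    ∀ y, S19IF_J1 S y →
      S19IF_IsCoord (S19EQ_chart hc hD₀ C) y
        (fun p => SemilinearAut.baseAut g (κ p (g⁻¹ • y))) := by
  intro y hy
  have h1 := S19EQ_isCoord hc hD₀ C (hκ (g⁻¹ • y) (S19EQ_J1 hc' hy))
  rwa [smul_inv_smul] at h1

/-- (g4), concrete: the coordinate systems of charts are permuted by the decomposition group. -/
theorem S19EQ_good_dec (hℓ : ℓ.Prime) (hA : A.LiesOverPrime ℓ) (hℓN : ¬ ℓ ∣ N)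
    (g : A.decompositionSubgroup ℚ)
    {D₀ : Divisor (AlgebraicClosure ℚ) ↥(modularFunctionFieldBar N)} {n gen : ℕ}
    (hD₀ : S19EQ_g N A g • D₀ = D₀) (C : S19IF_Chart (S18_specModL N A h) D₀ n gen)
    (κ : Fin n × Fin n → Pic0 (AlgebraicClosure ℚ) ↥(modularFunctionFieldBar N) →
      AlgebraicClosure ℚ)
    (hκ : ∀ y, S19IF_J1 (S18_specModL N A h) y → S19IF_IsCoord C y (fun p => κ p y)) :
    ∀ y, S19IF_J1 (S18_specModL N A h) y →
      S19IF_IsCoord (S19EQ_chart (S19EQ_compat_dec N A h hℓ hA hℓN g) hD₀ C) y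
        (fun p => (g : AlgebraicClosure ℚ ≃ₐ[ℚ] AlgebraicClosure ℚ)
          (κ p ((S19EQ_g N A g)⁻¹ • y))) := by
  have hinv : S19EQ_g N A g⁻¹ = (S19EQ_g N A g)⁻¹ := by
    show arithmeticGalois (modularFunctionFieldFull N)
        ((g⁻¹ : A.decompositionSubgroup ℚ) : AlgebraicClosure ℚ ≃ₐ[ℚ] AlgebraicClosure ℚ) = _
    rw [Subgroup.coe_inv, map_inv]
  have hc' : S19EQ_Compat (S18_specModL N A h) (S19EQ_g N A g)⁻¹ (S19EQ_gb N A g⁻¹) := by
    rw [← hinv]
    exact S19EQ_compat_dec N A h hℓ hA hℓN g⁻¹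
  exact S19EQ_good_abs (S19EQ_compat_dec N A h hℓ hA hℓN g) hc' hD₀ C κ hκ

/-- (v): the divisor `m·∞` is Galois invariant. -/
theorem S19EQ_smul_single_O (σ : AlgebraicClosure ℚ ≃ₐ[ℚ] AlgebraicClosure ℚ) (m : ℤ) :
    arithmeticGalois (modularFunctionFieldFull N) σ • Finsupp.single (S17EM_O N) m =
      (Finsupp.single (S17EM_O N) m :
        Divisor (AlgebraicClosure ℚ) ↥(modularFunctionFieldBar N)) := by
  rw [SemilinearAut.smul_single, S17EM_smul_O]

/-- (g4) in the shape of `S19GA_Hyp.g4` (for `Good κ := ∃ C, ∀ y ∈ J¹, IsCoord C y (κ · y)`):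
the coordinate systems of charts are permuted by the decomposition group, with the Galois actions
on `ℚ̄` and on `J₀(N)`. -/
theorem S19EQ_g4 (hℓ : ℓ.Prime) (hA : A.LiesOverPrime ℓ) (hℓN : ¬ ℓ ∣ N)
    {D₀ : Divisor (AlgebraicClosure ℚ) ↥(modularFunctionFieldBar N)} {n gen : ℕ}
    (hD₀ : ∀ σ : AlgebraicClosure ℚ ≃ₐ[ℚ] AlgebraicClosure ℚ,
      arithmeticGalois (modularFunctionFieldFull N) σ • D₀ = D₀)
    (κ : Fin n × Fin n → JZero N → AlgebraicClosure ℚ)
    (hκ : ∃ C : S19IF_Chart (S18_specModL N A h) D₀ n gen,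
      ∀ y, S19IF_J1 (S18_specModL N A h) y → S19IF_IsCoord C y (fun p => κ p y))
    (σ : AlgebraicClosure ℚ ≃ₐ[ℚ] AlgebraicClosure ℚ) (hσ : σ ∈ A.decompositionSubgroup ℚ) :
    ∃ C : S19IF_Chart (S18_specModL N A h) D₀ n gen,
      ∀ y, S19IF_J1 (S18_specModL N A h) y →
        S19IF_IsCoord C y (fun p => σ • κ p (σ⁻¹ • y)) := by
  obtain ⟨C, hC⟩ := hκ
  refine ⟨S19EQ_chart (S19EQ_compat_dec N A h hℓ hA hℓN ⟨σ, hσ⟩) (hD₀ σ) C, fun y hy => ?_⟩
  have h1 := S19EQ_good_dec N A h hℓ hA hℓN ⟨σ, hσ⟩ (hD₀ σ) C κ hC y hy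
  have h2 : (S19EQ_g N A ⟨σ, hσ⟩)⁻¹ • y = σ⁻¹ • y := by
    show (arithmeticGalois (modularFunctionFieldFull N) σ)⁻¹ • y = σ⁻¹ • y
    rw [← map_inv]
    rfl
  rw [h2] at h1
  exact h1

/-- **(hEqv)** of `S19GI_main`, exact shape: for `σ ∈ D_A` every chart `C` has a transported
chart `C'` with `IsCoord C y κ → IsCoord C' (σ • y) (σ ∘ κ)`. -/
theorem S19EQ_hEqv (hℓ : ℓ.Prime) (hA : A.LiesOverPrime ℓ) (hℓN : ¬ ℓ ∣ N)
    {D₀ : Divisor (AlgebraicClosure ℚ) ↥(modularFunctionFieldBar N)} {n gen : ℕ}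
    (hD₀ : ∀ σ : AlgebraicClosure ℚ ≃ₐ[ℚ] AlgebraicClosure ℚ,
      arithmeticGalois (modularFunctionFieldFull N) σ • D₀ = D₀) :
    ∀ σ ∈ A.decompositionSubgroup ℚ, ∀ C : S19IF_Chart (S18_specModL N A h) D₀ n gen,
      ∃ C' : S19IF_Chart (S18_specModL N A h) D₀ n gen,
        ∀ (y : JZero N) (κ : Fin n × Fin n → AlgebraicClosure ℚ),
          S19IF_J1 (S18_specModL N A h) y → S19IF_IsCoord C y κ →
            S19IF_IsCoord C' (σ • y) (fun p => σ • κ p) := by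
  intro σ hσ C
  exact ⟨S19EQ_chart (S19EQ_compat_dec N A h hℓ hA hℓN ⟨σ, hσ⟩) (hD₀ σ) C, fun y κ _ hκ =>
    S19EQ_isCoord (S19EQ_compat_dec N A h hℓ hA hℓN ⟨σ, hσ⟩) (hD₀ σ) C hκ⟩

include h in
/-- **(r2)** of `S19GI_main`, exact shape: the kernel of reduction is stable under `D_A`. -/
theorem S19EQ_r2 (hℓ : ℓ.Prime) (hA : A.LiesOverPrime ℓ) (hℓN : ¬ ℓ ∣ N) :
    ∀ σ ∈ A.decompositionSubgroup ℚ, ∀ y : JZero N,
      reductionModL A N y = 0 → reductionModL A N (σ • y) = 0 := by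
  intro σ hσ y hy
  rw [← S19IN_J1_iff N A h] at hy ⊢
  exact S19EQ_J1_dec N A h hℓ hA hℓN ⟨σ, hσ⟩ hy

end Fermat.Agent.S19
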