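import Mathlib

/-!
# TRACK 9 (S19), package GEOASM (helper16), prefix `S19GA_`: from charts on `J¹` to the input of DESC

Abstract and Mathlib-only.  `Ω` a field, `A ⊂ Ω` a valuation ring, `Γ` a group acting on `Ω` and on
an abelian group `J`, `I ≤ D ≤ Γ`, `red : J →+ Jb`, `G` a finite group with an equivariant additive
injection `incl : G → J`.

Hypotheses (route note `NOTES/items/18_route_helper16.md`, §2):
* `(r1)` `red (τ • y) = red y` for `τ ∈ I`; `(r2)` `red y = 0 → red (σ • y) = 0` for `σ ∈ D`;
* `(L)` every `x ∈ G` has an `I`-invariant `x̃ ∈ J` with `red x̃ = red x`;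
* a predicate `Good` on coordinate systems `κ : ν → J → Ω` with
  `(g1)` integrality on `J¹ = ker red`, `(g2)` ADD3 (three charts), `(g3)` separation on `J¹`,
  `(g4)` stability under `D`, `(g5)` existence of an `I`-equivariant good coordinate system.

Conclusion `S19GA_main`: a finite family `h : ι → G → Ω` with the properties `S19GA_Out`
(`A`-integral, `I`-equivariant, the order `A[h]` is `D`-stable, separating, `Δ`-closed).
-/

set_option autoImplicit false
set_option linter.style.haveILetI false
set_option linter.unusedSectionVars false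

namespace Fermat.Agent.S19

section defs

variable {Ω : Type*} [Field Ω] (A : ValuationSubring Ω)
  {Γ : Type*} [Group Γ] [MulSemiringAction Γ Ω] (D I : Subgroup Γ)
  {G : Type*} [AddCommGroup G] (act : Γ → G → G)

/-- the output of the geometry = the input of DESC (LOCAL shape). -/
structure S19GA_Out {ι : Type*} (h : ι → G → Ω) : Prop where
  int : ∀ i x, h i x ∈ A
  inert : ∀ τ ∈ I, ∀ i x, h i (act τ x) = τ • h i x
  dstab : ∀ σ ∈ D, ∀ i, (fun x => σ • h i (act σ⁻¹ x)) ∈ Algebra.adjoin ↥A (Set.range h)
  sep : ∀ x y, (∀ i, h i x = h i y) → x = y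
  comul : ∀ i, (fun p : G × G => h i (p.1 + p.2)) ∈
    Algebra.adjoin ↥A (Set.range (fun j (p : G × G) => h j p.1) ∪
      Set.range (fun j (p : G × G) => h j p.2))

end defs

section tools

variable {R Ω : Type*} [CommRing R] [CommRing Ω] [Algebra R Ω]

/-- precomposition as an algebra homomorphism. -/
def S19GA_pre {X Y : Type*} (φ : X → Y) : (Y → Ω) →ₐ[R] (X → Ω) :=
  AlgHom.pi (fun x : X => Pi.evalAlgHom R (fun _ : Y => Ω) (φ x))

@[simp] theorem S19GA_pre_apply {X Y : Type*} (φ : X → Y) (f : Y → Ω) (x : X) :
    S19GA_pre (R := R) φ f x = f (φ x) := rfl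

/-- pull-back of a membership in an adjoined algebra. -/
theorem S19GA_adjoin_comp {X Y : Type*} (φ : X → Y) {U : Set (Y → Ω)} {f : Y → Ω}
    (hf : f ∈ Algebra.adjoin R U) :
    (fun x => f (φ x)) ∈ Algebra.adjoin R ((fun u : Y → Ω => fun x => u (φ x)) '' U) := by
  have h1 : S19GA_pre (R := R) φ f ∈ (Algebra.adjoin R U).map (S19GA_pre (R := R) φ) :=
    ⟨f, hf, rfl⟩
  rw [AlgHom.map_adjoin] at h1
  exact h1

/-- a constant function with value in the image of `R`. -/
theorem S19GA_const_mem {X : Type*} (B : Subalgebra R (X → Ω)) (r : R) :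
    (fun _ : X => algebraMap R Ω r) ∈ B :=
  B.algebraMap_mem r

/-- patching along the fibres of a map `t`. -/
theorem S19GA_patch {X K : Type*} [Finite X] [DecidableEq K] (B : Subalgebra R (X → Ω))
    (t : X → K) (F : X → Ω)
    (h : ∀ x₀ : X, (fun x => if t x = t x₀ then F x else 0) ∈ B) : F ∈ B := by
  classical
  haveI : Fintype X := Fintype.ofFinite X
  have e : F = ∑ k ∈ Finset.univ.image t, fun x => if t x = k then F x else 0 := by
    funext x
    rw [Finset.sum_apply, Finset.sum_eq_single (t x)]
    · rw [if_pos rfl]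
    · intro k _ hk
      rw [if_neg (fun h' => hk h'.symm)]
    · intro hx
      exact absurd (Finset.mem_image_of_mem t (Finset.mem_univ x)) hx
  rw [e]
  refine Subalgebra.sum_mem B ?_
  intro k hk
  obtain ⟨x₀, -, rfl⟩ := Finset.mem_image.1 hk
  exact h x₀

/-- definition by cases along an indicator function of the algebra. -/
theorem S19GA_ite_mem {X : Type*} (B : Subalgebra R (X → Ω)) (c : X → Prop) [DecidablePred c]
    (he : (fun x => if c x then (1 : Ω) else 0) ∈ B) {f g : X → Ω} (hf : f ∈ B) (hg : g ∈ B) :
    (fun x => if c x then f x else g x) ∈ B := by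
  have e : (fun x => if c x then f x else g x) =
      (fun x => if c x then (1 : Ω) else 0) * f + (1 - fun x => if c x then (1 : Ω) else 0) * g := by
    funext x
    simp only [Pi.add_apply, Pi.mul_apply, Pi.sub_apply, Pi.one_apply]
    split_ifs <;> simp
  rw [e]
  exact B.add_mem (B.mul_mem he hf) (B.mul_mem (B.sub_mem B.one_mem he) hg)

end tools

section main

variable {Ω : Type*} [Field Ω] (A : ValuationSubring Ω)
  {Γ : Type*} [Group Γ] [MulSemiringAction Γ Ω] (D I : Subgroup Γ)
  {J : Type} [AddCommGroup J] [DistribMulAction Γ J]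
  {Jb : Type} [AddCommGroup Jb] (red : J →+ Jb)
  {G : Type} [AddCommGroup G] (act : Γ → G → G) (incl : G →+ J)
  {ν : Type} (Good : (ν → J → Ω) → Prop)

/-- the hypotheses of GEOASM. -/
structure S19GA_Hyp : Prop where
  incl_inj : Function.Injective incl
  incl_act : ∀ σ x, incl (act σ x) = σ • incl x
  r1 : ∀ τ ∈ I, ∀ y, red (τ • y) = red y
  r2 : ∀ σ ∈ D, ∀ y, red y = 0 → red (σ • y) = 0
  lift : ∀ x : G, ∃ xt : J, red xt = red (incl x) ∧ ∀ τ ∈ I, τ • xt = xt
  g1 : ∀ κ, Good κ → ∀ y, red y = 0 → ∀ j, κ j y ∈ A
  g2 : ∀ κ κ' κ'', Good κ → Good κ' → Good κ'' → ∀ (X : Type) [Finite X] (a b : X → J),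
      (∀ x, red (a x) = 0) → (∀ x, red (b x) = 0) → ∀ j,
      (fun x => κ'' j (a x + b x)) ∈ Algebra.adjoin ↥A
        (Set.range (fun i x => κ i (a x)) ∪ Set.range (fun i x => κ' i (b x)))
  g3 : ∀ κ, Good κ → ∀ y y', red y = 0 → red y' = 0 → (∀ j, κ j y = κ j y') → y = y'
  g4 : ∀ κ, Good κ → ∀ σ ∈ D, Good (fun j y => σ • κ j (σ⁻¹ • y))
  g5 : ∃ κ, Good κ ∧ ∀ τ ∈ I, ∀ y, red y = 0 → ∀ j, κ j (τ • y) = τ • κ j y

variable {A D I red act incl Good}

/-- a constant function with value in `A`. -/
theorem S19GA_constA_mem {X : Type*} (B : Subalgebra ↥A (X → Ω)) {c : Ω} (hc : c ∈ A) :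
    (fun _ : X => c) ∈ B :=
  B.algebraMap_mem ⟨c, hc⟩

/-- the key step: on a finite `X`, for maps `a, a' : X → J¹` that are "coordinates of elements
of the algebra `B`" and a constant `w ∈ J¹`, the coordinates `κ''` of `a + (a' + w)` are in `B`. -/
theorem S19GA_key (H : S19GA_Hyp A D I red act incl Good) {κ κ'' : ν → J → Ω}
    (hκ : Good κ) (hκ'' : Good κ'') {X : Type} [Finite X] (B : Subalgebra ↥A (X → Ω))
    (a a' : X → J) (w : J) (ha : ∀ x, red (a x) = 0) (ha' : ∀ x, red (a' x) = 0)
    (hw : red w = 0) (hBa : ∀ i, (fun x => κ i (a x)) ∈ B)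
    (hBa' : ∀ i, (fun x => κ i (a' x)) ∈ B) (j : ν) :
    (fun x => κ'' j (a x + (a' x + w))) ∈ B := by
  have hb : ∀ x, red (a' x + w) = 0 := fun x => by rw [map_add, ha' x, hw, add_zero]
  have h1 := H.g2 κ κ κ'' hκ hκ hκ'' X a (fun x => a' x + w) ha hb j
  have h2 : ∀ i, (fun x => κ i (a' x + w)) ∈ B := by
    intro i
    have h3 := H.g2 κ κ κ hκ hκ hκ X a' (fun _ => w) ha' (fun _ => hw) i
    refine Algebra.adjoin_le ?_ h3
    rintro f (⟨i', rfl⟩ | ⟨i', rfl⟩)
    · exact hBa' i'
    · exact S19GA_constA_mem B (H.g1 κ hκ w hw i')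
  refine Algebra.adjoin_le ?_ h1
  rintro f (⟨i', rfl⟩ | ⟨i', rfl⟩)
  · exact hBa i'
  · exact h2 i'

/-- the family of GEOASM: indicators of the fibres of `red` and the translated coordinates. -/
noncomputable def S19GA_fam (red : J →+ Jb) (incl : G →+ J) (κ : ν → J → Ω) (xt : G → J) :
    G ⊕ (G × ν) → G → Ω := by
  classical
  exact fun i x =>
    match i with
    | Sum.inl x₀ => if red (incl x) = red (incl x₀) then 1 else 0
    | Sum.inr (x₀, j) => if red (incl x) = red (incl x₀) then κ j (incl x - xt x₀) else 0

theorem S19GA_fam_inl (κ : ν → J → Ω) (xt : G → J) (x₀ x : G) [Decidable (red (incl x) = red (incl x₀))] :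
    S19GA_fam red incl κ xt (Sum.inl x₀) x = if red (incl x) = red (incl x₀) then 1 else 0 := by
  unfold S19GA_fam
  simp only
  congr

theorem S19GA_fam_inr (κ : ν → J → Ω) (xt : G → J) (x₀ x : G) (j : ν)
    [Decidable (red (incl x) = red (incl x₀))] :
    S19GA_fam red incl κ xt (Sum.inr (x₀, j)) x =
      if red (incl x) = red (incl x₀) then κ j (incl x - xt x₀) else 0 := by
  unfold S19GA_fam
  simp only
  congr

variable [Finite G] [Finite ν]

/-- **GEOASM**: the family `S19GA_fam` has the properties `S19GA_Out`. -/
theorem S19GA_main (H : S19GA_Hyp A D I red act incl Good) :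
    ∃ (ι : Type) (_ : Finite ι) (h : ι → G → Ω), S19GA_Out A D I act h := by
  classical
  obtain ⟨κ, hκ, hκI⟩ := H.g5
  choose xt hxt hxtI using H.lift
  have hred0 : ∀ x x₀ : G, red (incl x) = red (incl x₀) → red (incl x - xt x₀) = 0 := by
    intro x x₀ h
    rw [map_sub, hxt, h, sub_self]
  have hκ0 : ∀ i, κ i 0 ∈ A := fun i => H.g1 κ hκ 0 (map_zero red) i
  refine ⟨G ⊕ (G × ν), inferInstance, S19GA_fam red incl κ xt, ?_, ?_, ?_, ?_, ?_⟩
  -- int
  · rintro (x₀ | ⟨x₀, j⟩) x
    · rw [S19GA_fam_inl]
      split_ifs
      · exact A.one_mem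
      · exact A.zero_mem
    · rw [S19GA_fam_inr]
      split_ifs with h
      · exact H.g1 κ hκ _ (hred0 x x₀ h) j
      · exact A.zero_mem
  -- inert
  · intro τ hτ i x
    have hcl : red (incl (act τ x)) = red (incl x) := by rw [H.incl_act, H.r1 τ hτ]
    rcases i with x₀ | ⟨x₀, j⟩
    · rw [S19GA_fam_inl, S19GA_fam_inl, hcl]
      split_ifs
      · rw [smul_one]
      · rw [smul_zero]
    · rw [S19GA_fam_inr, S19GA_fam_inr, hcl]
      split_ifs with h
      · rw [H.incl_act, ← hκI τ hτ _ (hred0 x x₀ h) j, smul_sub, hxtI x₀ τ hτ]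
      · rw [smul_zero]
  -- dstab
  · intro σ hσ i
    set B₁ := Algebra.adjoin ↥A (Set.range (S19GA_fam red incl κ xt)) with hB₁
    have hσ' : σ⁻¹ ∈ D := D.inv_mem hσ
    have hmem : ∀ i, S19GA_fam red incl κ xt i ∈ B₁ := fun i =>
      Algebra.subset_adjoin ⟨i, rfl⟩
    -- the class of `act σ⁻¹ x`
    have hclass : ∀ x₀ x : G, red (incl (act σ⁻¹ x)) = red (incl x₀) ↔
        red (incl x) = red (incl (act σ x₀)) := by
      intro x₀ x
      rw [H.incl_act, H.incl_act]
      constructor
      · intro h
        have h1 : red (σ⁻¹ • incl x - incl x₀) = 0 := by rw [map_sub, h, sub_self]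
        have h2 := H.r2 σ hσ _ h1
        rw [smul_sub, smul_inv_smul, map_sub, sub_eq_zero] at h2
        exact h2
      · intro h
        have h1 : red (incl x - σ • incl x₀) = 0 := by rw [map_sub, h, sub_self]
        have h2 := H.r2 σ⁻¹ hσ' _ h1
        rw [smul_sub, inv_smul_smul, map_sub, sub_eq_zero] at h2
        exact h2
    have hind : ∀ x₀ : G, (fun x => if red (incl x) = red (incl x₀) then (1 : Ω) else 0) ∈ B₁ := by
      intro x₀
      have := hmem (Sum.inl x₀)
      convert this using 1
      funext x
      rw [S19GA_fam_inl]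
    rcases i with x₀ | ⟨x₀, j⟩
    · have e : (fun x => σ • S19GA_fam red incl κ xt (Sum.inl x₀) (act σ⁻¹ x)) =
          fun x => if red (incl x) = red (incl (act σ x₀)) then (1 : Ω) else 0 := by
        funext x
        rw [S19GA_fam_inl]
        by_cases h : red (incl (act σ⁻¹ x)) = red (incl x₀)
        · rw [if_pos h, if_pos ((hclass x₀ x).1 h), smul_one]
        · rw [if_neg h, if_neg (fun h' => h ((hclass x₀ x).2 h')), smul_zero]
      rw [e]
      exact hind _
    · set x₀' := act σ x₀ with hx₀'
      set κσ : ν → J → Ω := fun j y => σ • κ j (σ⁻¹ • y) with hκσ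
      have hκσG : Good κσ := H.g4 κ hκ σ hσ
      set w : J := xt x₀' - σ • xt x₀ with hw
      have hw0 : red w = 0 := by
        have h1 : red (xt x₀ - incl x₀) = 0 := by rw [map_sub, hxt, sub_self]
        have h2 := H.r2 σ hσ _ h1
        rw [smul_sub, map_sub, sub_eq_zero] at h2
        rw [hw, map_sub, hxt, h2, hx₀', H.incl_act, sub_self]
      set a : G → J := fun x => if red (incl x) = red (incl x₀') then incl x - xt x₀' else 0
        with ha
      have ha0 : ∀ x, red (a x) = 0 := by
        intro x
        rw [ha]
        simp only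
        split_ifs with h
        · exact hred0 x x₀' h
        · exact map_zero red
      have hBa : ∀ i, (fun x => κ i (a x)) ∈ B₁ := by
        intro i
        have e : (fun x => κ i (a x)) = fun x => if red (incl x) = red (incl x₀') then
            S19GA_fam red incl κ xt (Sum.inr (x₀', i)) x else (fun _ => κ i 0) x := by
          funext x
          rw [ha]
          simp only
          split_ifs with h
          · rw [S19GA_fam_inr, if_pos h]
          · rfl
        rw [e]
        exact S19GA_ite_mem B₁ _ (hind x₀') (hmem _) (S19GA_constA_mem B₁ (hκ0 i))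
      have key := S19GA_key H hκ hκσG B₁ a (fun _ => 0) w ha0 (fun _ => map_zero red) hw0 hBa
        (fun i => S19GA_constA_mem B₁ (hκ0 i)) j
      have e : (fun x => σ • S19GA_fam red incl κ xt (Sum.inr (x₀, j)) (act σ⁻¹ x)) =
          fun x => if red (incl x) = red (incl x₀') then
            (fun x => κσ j (a x + (0 + w))) x else (fun _ => (0 : Ω)) x := by
        funext x
        rw [S19GA_fam_inr]
        by_cases h : red (incl (act σ⁻¹ x)) = red (incl x₀)
        · have h' := (hclass x₀ x).1 h
          rw [if_pos h, if_pos h']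
          simp only [ha, hκσ, hw, zero_add]
          rw [H.incl_act]
          congr 2
          rw [if_pos h', sub_add_sub_cancel, smul_sub, inv_smul_smul]
        · rw [if_neg h, if_neg (fun h' => h ((hclass x₀ x).2 h')), smul_zero]
      rw [e]
      exact S19GA_ite_mem B₁ _ (hind x₀') key (B₁.zero_mem)
  -- sep
  · intro x y hxy
    have h1 := hxy (Sum.inl x)
    rw [S19GA_fam_inl, S19GA_fam_inl, if_pos rfl] at h1
    have hcl : red (incl y) = red (incl x) := by
      by_contra hne
      rw [if_neg hne] at h1
      exact one_ne_zero h1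
    have h2 : ∀ j, κ j (incl x - xt x) = κ j (incl y - xt x) := by
      intro j
      have := hxy (Sum.inr (x, j))
      rw [S19GA_fam_inr, S19GA_fam_inr, if_pos rfl, if_pos hcl] at this
      exact this
    have h3 := H.g3 κ hκ _ _ (hred0 x x rfl) (hred0 y x hcl) h2
    exact H.incl_inj (sub_left_injective h3)
  -- comul
  · intro i
    set B₂ := Algebra.adjoin ↥A
      (Set.range (fun j (p : G × G) => S19GA_fam red incl κ xt j p.1) ∪
        Set.range (fun j (p : G × G) => S19GA_fam red incl κ xt j p.2)) with hB₂
    have hm1 : ∀ j, (fun p : G × G => S19GA_fam red incl κ xt j p.1) ∈ B₂ := fun j =>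
      Algebra.subset_adjoin (Or.inl ⟨j, rfl⟩)
    have hm2 : ∀ j, (fun p : G × G => S19GA_fam red incl κ xt j p.2) ∈ B₂ := fun j =>
      Algebra.subset_adjoin (Or.inr ⟨j, rfl⟩)
    refine S19GA_patch B₂ (fun p : G × G => (red (incl p.1), red (incl p.2))) _ ?_
    rintro ⟨x₁, x₂⟩
    simp only
    have hiff : ∀ p : G × G, (red (incl p.1), red (incl p.2)) = (red (incl x₁), red (incl x₂)) ↔
        (red (incl p.1) = red (incl x₁) ∧ red (incl p.2) = red (incl x₂)) := fun p =>
      Prod.mk_inj
    have hind : (fun p : G × G =>
        if (red (incl p.1), red (incl p.2)) = (red (incl x₁), red (incl x₂))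
          then (1 : Ω) else 0) ∈ B₂ := by
      have := B₂.mul_mem (hm1 (Sum.inl x₁)) (hm2 (Sum.inl x₂))
      convert this using 1
      funext p
      rw [Pi.mul_apply, S19GA_fam_inl, S19GA_fam_inl]
      by_cases h1 : red (incl p.1) = red (incl x₁)
      · by_cases h2 : red (incl p.2) = red (incl x₂)
        · rw [if_pos ((hiff p).2 ⟨h1, h2⟩), if_pos h1, if_pos h2, mul_one]
        · rw [if_neg (fun h => h2 ((hiff p).1 h).2), if_neg h2, mul_zero]
      · rw [if_neg (fun h => h1 ((hiff p).1 h).1), if_neg h1, zero_mul]
    have hsum : ∀ p : G × G,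
        (red (incl p.1), red (incl p.2)) = (red (incl x₁), red (incl x₂)) →
        red (incl (p.1 + p.2)) = red (incl x₁) + red (incl x₂) := by
      intro p h
      rw [map_add, map_add, ((hiff p).1 h).1, ((hiff p).1 h).2]
    rcases i with x₀ | ⟨x₀, j⟩
    · by_cases hc : red (incl x₁) + red (incl x₂) = red (incl x₀)
      · have e : (fun p : G × G =>
            if (red (incl p.1), red (incl p.2)) = (red (incl x₁), red (incl x₂))
              then S19GA_fam red incl κ xt (Sum.inl x₀) (p.1 + p.2) else 0) =
            fun p : G × G =>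
              if (red (incl p.1), red (incl p.2)) = (red (incl x₁), red (incl x₂))
                then (1 : Ω) else 0 := by
          funext p
          by_cases h : (red (incl p.1), red (incl p.2)) = (red (incl x₁), red (incl x₂))
          · rw [if_pos h, if_pos h, S19GA_fam_inl, if_pos ((hsum p h).trans hc)]
          · rw [if_neg h, if_neg h]
        rw [e]
        exact hind
      · have e : (fun p : G × G =>
            if (red (incl p.1), red (incl p.2)) = (red (incl x₁), red (incl x₂))
              then S19GA_fam red incl κ xt (Sum.inl x₀) (p.1 + p.2) else 0) = 0 := by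
          funext p
          by_cases h : (red (incl p.1), red (incl p.2)) = (red (incl x₁), red (incl x₂))
          · rw [if_pos h, S19GA_fam_inl, if_neg (fun h' => hc ((hsum p h).symm.trans h'))]
            rfl
          · rw [if_neg h]
            rfl
        rw [e]
        exact B₂.zero_mem
    · by_cases hc : red (incl x₁) + red (incl x₂) = red (incl x₀)
      · set w : J := xt x₁ + xt x₂ - xt x₀ with hw
        have hw0 : red w = 0 := by
          rw [hw, map_sub, map_add, hxt, hxt, hxt, hc, sub_self]
        set a : G × G → J := fun p =>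
          if (red (incl p.1), red (incl p.2)) = (red (incl x₁), red (incl x₂))
            then incl p.1 - xt x₁ else 0 with ha
        set a' : G × G → J := fun p =>
          if (red (incl p.1), red (incl p.2)) = (red (incl x₁), red (incl x₂))
            then incl p.2 - xt x₂ else 0 with ha'
        have ha0 : ∀ p, red (a p) = 0 := by
          intro p
          rw [ha]
          simp only
          split_ifs with h
          · exact hred0 _ _ ((hiff p).1 h).1
          · exact map_zero red
        have ha'0 : ∀ p, red (a' p) = 0 := by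
          intro p
          rw [ha']
          simp only
          split_ifs with h
          · exact hred0 _ _ ((hiff p).1 h).2
          · exact map_zero red
        have hBa : ∀ i, (fun p => κ i (a p)) ∈ B₂ := by
          intro i
          have e : (fun p => κ i (a p)) = fun p : G × G =>
              if (red (incl p.1), red (incl p.2)) = (red (incl x₁), red (incl x₂)) then
                (fun p : G × G => S19GA_fam red incl κ xt (Sum.inr (x₁, i)) p.1) p
              else (fun _ => κ i 0) p := by
            funext p
            rw [ha]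
            simp only
            split_ifs with h
            · rw [S19GA_fam_inr, if_pos ((hiff p).1 h).1]
            · rfl
          rw [e]
          exact S19GA_ite_mem B₂ _ hind (hm1 _) (S19GA_constA_mem B₂ (hκ0 i))
        have hBa' : ∀ i, (fun p => κ i (a' p)) ∈ B₂ := by
          intro i
          have e : (fun p => κ i (a' p)) = fun p : G × G =>
              if (red (incl p.1), red (incl p.2)) = (red (incl x₁), red (incl x₂)) then
                (fun p : G × G => S19GA_fam red incl κ xt (Sum.inr (x₂, i)) p.2) p
              else (fun _ => κ i 0) p := by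
            funext p
            rw [ha']
            simp only
            split_ifs with h
            · rw [S19GA_fam_inr, if_pos ((hiff p).1 h).2]
            · rfl
          rw [e]
          exact S19GA_ite_mem B₂ _ hind (hm2 _) (S19GA_constA_mem B₂ (hκ0 i))
        have key := S19GA_key H hκ hκ B₂ a a' w ha0 ha'0 hw0 hBa hBa' j
        have e : (fun p : G × G =>
            if (red (incl p.1), red (incl p.2)) = (red (incl x₁), red (incl x₂))
              then S19GA_fam red incl κ xt (Sum.inr (x₀, j)) (p.1 + p.2) else 0) =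
            fun p : G × G =>
              if (red (incl p.1), red (incl p.2)) = (red (incl x₁), red (incl x₂))
                then (fun p => κ j (a p + (a' p + w))) p else (fun _ => (0 : Ω)) p := by
          funext p
          by_cases h : (red (incl p.1), red (incl p.2)) = (red (incl x₁), red (incl x₂))
          · rw [if_pos h, if_pos h, S19GA_fam_inr, if_pos ((hsum p h).trans hc)]
            simp only [ha, ha', hw]
            rw [if_pos h, if_pos h, map_add]
            congr 1
            abel
          · rw [if_neg h, if_neg h]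
        rw [e]
        exact S19GA_ite_mem B₂ _ hind key B₂.zero_mem
      · have e : (fun p : G × G =>
            if (red (incl p.1), red (incl p.2)) = (red (incl x₁), red (incl x₂))
              then S19GA_fam red incl κ xt (Sum.inr (x₀, j)) (p.1 + p.2) else 0) = 0 := by
          funext p
          by_cases h : (red (incl p.1), red (incl p.2)) = (red (incl x₁), red (incl x₂))
          · rw [if_pos h, S19GA_fam_inr, if_neg (fun h' => hc ((hsum p h).symm.trans h'))]
            rfl
          · rw [if_neg h]
            rfl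
        rw [e]
        exact B₂.zero_mem

end main

end Fermat.Agent.S19
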