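import Mathlib
import Fermat.Agent.S19.Iface
import Fermat.Agent.S19.GeoAsm

/-!
# TRACK 9 (S19), package GEOINST (helper16), prefix `S19GI_`: the hypotheses of GEOASM from the
statements of the geometry packages

Abstract over `S : S18_Spec L F k Fk`, a group `Γ` acting on `L` and on `Pic0 L F`, subgroups
`D, I`, and a homomorphism `red : Pic0 L F →+ Jb` whose kernel is `J¹ = S19IF_J1 S`.

`Good κ := ∃ C : S19IF_Chart S D₀ n g, ∀ y, red y = 0 → S19IF_IsCoord C y (fun p => κ p y)`.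

* `S19GI_g2`   : ADD3 in the `Finset` form of `Iface.lean` gives `(g2)` of GEOASM;
* `S19GI_hyp`  : `S19GA_Hyp` from COORD, ADD3, EQV, (g5), LIFT-J, `(r1)`, `(r2)`;
* `S19GI_main` : the family `h` with `S19GA_Out`.
-/

set_option autoImplicit false
set_option linter.style.haveILetI false
set_option linter.unusedSectionVars false

open AlgebraicCurve

namespace Fermat.Agent.S19

open Fermat.Agent.S18 Fermat.Agent.Lib

variable {L F k Fk : Type} [Field L] [Field F] [Algebra L F] [Field k] [Field Fk]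
  [Algebra k Fk] {S : S18_Spec L F k Fk} {D₀ : Divisor L F} {n g : ℕ}

/-- ADD3 for maps `a, b : X → J¹` on a finite type `X`. -/
theorem S19GI_g2 {C C' C'' : S19IF_Chart S D₀ n g} (hadd : S19IF_Add3 C C' C'')
    (κ κ' κ'' : Fin n × Fin n → Pic0 L F → L)
    (hκ : ∀ y, S19IF_J1 S y → S19IF_IsCoord C y (fun p => κ p y))
    (hκ' : ∀ y, S19IF_J1 S y → S19IF_IsCoord C' y (fun p => κ' p y))
    (hκ'' : ∀ y, S19IF_J1 S y → S19IF_IsCoord C'' y (fun p => κ'' p y))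
    (hJadd : ∀ x y, S19IF_J1 S x → S19IF_J1 S y → S19IF_J1 S (x + y))
    (X : Type) [Finite X] (a b : X → Pic0 L F) (ha : ∀ x, S19IF_J1 S (a x))
    (hb : ∀ x, S19IF_J1 S (b x)) (j : Fin n × Fin n) :
    (fun x => κ'' j (a x + b x)) ∈ Algebra.adjoin ↥S.A
      (Set.range (fun i x => κ i (a x)) ∪ Set.range (fun i x => κ' i (b x))) := by
  classical
  haveI : Fintype X := Fintype.ofFinite X
  set S₁ : Finset (Pic0 L F) := Finset.univ.image a with hS₁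
  set S₂ : Finset (Pic0 L F) := Finset.univ.image b with hS₂
  have h1 : ∀ y ∈ S₁, S19IF_J1 S y := by
    intro y hy
    obtain ⟨x, -, rfl⟩ := Finset.mem_image.1 hy
    exact ha x
  have h2 : ∀ y ∈ S₂, S19IF_J1 S y := by
    intro y hy
    obtain ⟨x, -, rfl⟩ := Finset.mem_image.1 hy
    exact hb x
  have key := hadd S₁ S₂ κ κ' κ'' h1 h2 (fun y hy => hκ y (h1 y hy))
    (fun y hy => hκ' y (h2 y hy))
    (fun x hx y hy => hκ'' _ (hJadd x y (h1 x hx) (h2 y hy))) j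
  set φ : X → ↥S₁ × ↥S₂ := fun x =>
    (⟨a x, Finset.mem_image_of_mem a (Finset.mem_univ x)⟩,
      ⟨b x, Finset.mem_image_of_mem b (Finset.mem_univ x)⟩) with hφ
  have key2 := S19GA_adjoin_comp (R := ↥S.A) φ key
  refine Algebra.adjoin_mono ?_ key2
  rintro f ⟨u, hu, rfl⟩
  rcases hu with ⟨i, rfl⟩ | ⟨i, rfl⟩
  · exact Or.inl ⟨i, rfl⟩
  · exact Or.inr ⟨i, rfl⟩

section hyp

variable {Γ : Type*} [Group Γ] [MulSemiringAction Γ L] [DistribMulAction Γ (Pic0 L F)]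
  (D I : Subgroup Γ) {Jb : Type} [AddCommGroup Jb] (red : Pic0 L F →+ Jb)
  {G : Type} [AddCommGroup G] (act : Γ → G → G) (incl : G →+ Pic0 L F)

variable (S D₀ n g) in
/-- the predicate `Good` of GEOASM in the geometric situation. -/
def S19GI_Good (red : Pic0 L F →+ Jb) (κ : Fin n × Fin n → Pic0 L F → L) : Prop :=
  ∃ C : S19IF_Chart S D₀ n g, ∀ y, red y = 0 → S19IF_IsCoord C y (fun p => κ p y)

/-- **GEOINST**: the hypotheses of GEOASM from the statements of the geometry packages. -/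
theorem S19GI_hyp
    (hJ1 : ∀ y, S19IF_J1 S y ↔ red y = 0)
    (hEx : ∀ C : S19IF_Chart S D₀ n g, S19IF_CoordEx C)
    (hUniq : ∀ C : S19IF_Chart S D₀ n g, S19IF_CoordUniq C)
    (hSep : ∀ C : S19IF_Chart S D₀ n g, S19IF_Sep C)
    (hAdd : ∀ C C' C'' : S19IF_Chart S D₀ n g, S19IF_Add3 C C' C'')
    (hEqv : ∀ σ ∈ D, ∀ C : S19IF_Chart S D₀ n g, ∃ C' : S19IF_Chart S D₀ n g,
      ∀ y κ, S19IF_J1 S y → S19IF_IsCoord C y κ → S19IF_IsCoord C' (σ • y) (fun p => σ • κ p))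
    (hInv : ∃ C : S19IF_Chart S D₀ n g, ∀ τ ∈ I,
      ∀ y κ, S19IF_J1 S y → S19IF_IsCoord C y κ → S19IF_IsCoord C (τ • y) (fun p => τ • κ p))
    (incl_inj : Function.Injective incl)
    (incl_act : ∀ σ x, incl (act σ x) = σ • incl x)
    (r1 : ∀ τ ∈ I, ∀ y, red (τ • y) = red y)
    (r2 : ∀ σ ∈ D, ∀ y, red y = 0 → red (σ • y) = 0)
    (lift : ∀ x : G, ∃ xt : Pic0 L F, red xt = red (incl x) ∧ ∀ τ ∈ I, τ • xt = xt) :
    S19GA_Hyp S.A D I red act incl (S19GI_Good S D₀ n g red) := by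
  classical
  refine ⟨incl_inj, incl_act, r1, r2, lift, ?_, ?_, ?_, ?_, ?_⟩
  -- g1
  · rintro κ ⟨C, hC⟩ y hy j
    obtain ⟨κ₀, h0, hint⟩ := hEx C y ((hJ1 y).2 hy)
    have e := hUniq C y _ _ ((hJ1 y).2 hy) (hC y hy) h0
    have : κ j y = κ₀ j := congrFun e j
    rw [this]
    exact hint j
  -- g2
  · rintro κ κ' κ'' ⟨C, hC⟩ ⟨C', hC'⟩ ⟨C'', hC''⟩ X _ a b ha hb j
    refine S19GI_g2 (hAdd C C' C'') κ κ' κ'' (fun y hy => hC y ((hJ1 y).1 hy))
      (fun y hy => hC' y ((hJ1 y).1 hy)) (fun y hy => hC'' y ((hJ1 y).1 hy)) ?_ X a b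
      (fun x => (hJ1 _).2 (ha x)) (fun x => (hJ1 _).2 (hb x)) j
    intro x y hx hy
    rw [hJ1] at hx hy ⊢
    rw [map_add, hx, hy, add_zero]
  -- g3
  · rintro κ ⟨C, hC⟩ y y' hy hy' h
    have e : (fun p => κ p y') = fun p => κ p y := funext fun p => (h p).symm
    have h1 := hC y' hy'
    rw [e] at h1
    exact hSep C y y' _ ((hJ1 y).2 hy) ((hJ1 y').2 hy') (hC y hy) h1
  -- g4
  · rintro κ ⟨C, hC⟩ σ hσ
    obtain ⟨C', hC'⟩ := hEqv σ hσ C
    refine ⟨C', fun y hy => ?_⟩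
    have h1 : red (σ⁻¹ • y) = 0 := r2 σ⁻¹ (D.inv_mem hσ) y hy
    have h2 := hC' (σ⁻¹ • y) _ ((hJ1 _).2 h1) (hC _ h1)
    rw [smul_inv_smul] at h2
    exact h2
  -- g5
  · obtain ⟨C, hC⟩ := hInv
    have hex : ∀ y, red y = 0 → ∃ κ₀, S19IF_IsCoord C y κ₀ := fun y hy => by
      obtain ⟨κ₀, h0, -⟩ := hEx C y ((hJ1 y).2 hy)
      exact ⟨κ₀, h0⟩
    set κ : Fin n × Fin n → Pic0 L F → L := fun p y =>
      if hy : red y = 0 then Classical.choose (hex y hy) p else 0 with hκ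
    have hκC : ∀ y, red y = 0 → S19IF_IsCoord C y (fun p => κ p y) := by
      intro y hy
      have e : (fun p => κ p y) = Classical.choose (hex y hy) := by
        funext p
        rw [hκ]
        simp only
        rw [dif_pos hy]
      rw [e]
      exact Classical.choose_spec (hex y hy)
    refine ⟨κ, ⟨C, hκC⟩, ?_⟩
    intro τ hτ y hy j
    have hy' : red (τ • y) = 0 := by rw [r1 τ hτ, hy]
    have h1 := hC τ hτ y _ ((hJ1 y).2 hy) (hκC y hy)
    have h2 := hκC (τ • y) hy'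
    exact congrFun (hUniq C (τ • y) _ _ ((hJ1 _).2 hy') h2 h1) j

/-- **GEOINST, main**: the finite family with the properties `S19GA_Out`. -/
theorem S19GI_main [Finite G]
    (hJ1 : ∀ y, S19IF_J1 S y ↔ red y = 0)
    (hEx : ∀ C : S19IF_Chart S D₀ n g, S19IF_CoordEx C)
    (hUniq : ∀ C : S19IF_Chart S D₀ n g, S19IF_CoordUniq C)
    (hSep : ∀ C : S19IF_Chart S D₀ n g, S19IF_Sep C)
    (hAdd : ∀ C C' C'' : S19IF_Chart S D₀ n g, S19IF_Add3 C C' C'')
    (hEqv : ∀ σ ∈ D, ∀ C : S19IF_Chart S D₀ n g, ∃ C' : S19IF_Chart S D₀ n g,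
      ∀ y κ, S19IF_J1 S y → S19IF_IsCoord C y κ → S19IF_IsCoord C' (σ • y) (fun p => σ • κ p))
    (hInv : ∃ C : S19IF_Chart S D₀ n g, ∀ τ ∈ I,
      ∀ y κ, S19IF_J1 S y → S19IF_IsCoord C y κ → S19IF_IsCoord C (τ • y) (fun p => τ • κ p))
    (incl_inj : Function.Injective incl)
    (incl_act : ∀ σ x, incl (act σ x) = σ • incl x)
    (r1 : ∀ τ ∈ I, ∀ y, red (τ • y) = red y)
    (r2 : ∀ σ ∈ D, ∀ y, red y = 0 → red (σ • y) = 0)
    (lift : ∀ x : G, ∃ xt : Pic0 L F, red xt = red (incl x) ∧ ∀ τ ∈ I, τ • xt = xt) :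
    ∃ (ι : Type) (_ : Finite ι) (h : ι → G → L), S19GA_Out S.A D I act h :=
  S19GA_main (S19GI_hyp D I red act incl hJ1 hEx hUniq hSep hAdd hEqv hInv incl_inj incl_act
    r1 r2 lift)

end hyp

end Fermat.Agent.S19
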