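import Mathlib
import Fermat.Agent.S18.RiMain
import Fermat.Agent.S17.Unram
import Fermat.Agent.S19.GeoInst
import Fermat.Agent.S19.HopfJZero

/-!
# TRACK 9 (S19), final assembly, part 1 (helper16), prefix `S19FIN_`

`S19FIN_geo` : the concrete instance of `S19GI_main` for `X₀(N)`, `ℓ ∤ N`, `A | ℓ`:
from the statements of the geometry packages (as hypotheses) to the input of DESC for
`G = J₀(N)[ℓ^k]`.
-/

set_option autoImplicit false
set_option synthInstance.maxHeartbeats 400000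
set_option maxHeartbeats 1000000
set_option linter.style.haveILetI false

open AlgebraicCurve ModularCurve

namespace Fermat.Agent.S19

open Fermat.Agent.S18

variable (N : ℕ) [NeZero N] {ℓ : ℕ} [Fact ℓ.Prime] (k : ℕ)
  (A : ValuationSubring (AlgebraicClosure ℚ)) (h : ReductionInputsModL A N)

/-- the inclusion `J₀(N)[ℓ^k] → J₀(N)`. -/
noncomputable def S19FIN_incl (N ℓ k : ℕ) :
    ↥(Submodule.torsionBy ℤ (JZero N) ((ℓ : ℤ) ^ k)) →+ JZero N :=
  (Submodule.torsionBy ℤ (JZero N) ((ℓ : ℤ) ^ k)).subtype.toAddMonoidHom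

theorem S19FIN_incl_apply (N ℓ k : ℕ) (x : ↥(Submodule.torsionBy ℤ (JZero N) ((ℓ : ℤ) ^ k))) :
    S19FIN_incl N ℓ k x = (x : JZero N) := rfl

/-- **the geometry, concrete**: the family `h` on `J₀(N)[ℓ^k]`. -/
theorem S19FIN_geo (hℓN : ¬ ℓ ∣ N) (hA : A.LiesOverPrime ℓ)
    (D₀ : Divisor (AlgebraicClosure ℚ) ↥(modularFunctionFieldBar N)) (n g : ℕ)
    (hJ1 : ∀ y : JZero N, S19IF_J1 (S18_specModL N A h) y ↔ reductionModL A N y = 0)
    (hEx : ∀ C : S19IF_Chart (S18_specModL N A h) D₀ n g, S19IF_CoordEx C)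
    (hUniq : ∀ C : S19IF_Chart (S18_specModL N A h) D₀ n g, S19IF_CoordUniq C)
    (hSep : ∀ C : S19IF_Chart (S18_specModL N A h) D₀ n g, S19IF_Sep C)
    (hAdd : ∀ C C' C'' : S19IF_Chart (S18_specModL N A h) D₀ n g, S19IF_Add3 C C' C'')
    (hEqv : ∀ σ ∈ A.decompositionSubgroup ℚ, ∀ C : S19IF_Chart (S18_specModL N A h) D₀ n g,
      ∃ C' : S19IF_Chart (S18_specModL N A h) D₀ n g,
      ∀ (y : JZero N) κ, S19IF_J1 (S18_specModL N A h) y → S19IF_IsCoord C y κ →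
        S19IF_IsCoord C' (σ • y) (fun p => σ • κ p))
    (hInv : ∃ C : S19IF_Chart (S18_specModL N A h) D₀ n g, ∀ τ ∈ A.inertiaSubgroupIn ℚ,
      ∀ (y : JZero N) κ, S19IF_J1 (S18_specModL N A h) y → S19IF_IsCoord C y κ →
        S19IF_IsCoord C (τ • y) (fun p => τ • κ p))
    (r2 : ∀ σ ∈ A.decompositionSubgroup ℚ, ∀ y : JZero N, reductionModL A N y = 0 →
      reductionModL A N (σ • y) = 0)
    (lift : ∀ c : JZeroC (IsLocalRing.ResidueField A) N, ∃ xt : JZero N,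
      reductionModL A N xt = c ∧ ∀ τ ∈ A.inertiaSubgroupIn ℚ, τ • xt = xt) :
    ∃ (ι : Type) (_ : Finite ι)
      (f : ι → ↥(Submodule.torsionBy ℤ (JZero N) ((ℓ : ℤ) ^ k)) → AlgebraicClosure ℚ),
      S19GA_Out A (A.decompositionSubgroup ℚ) (A.inertiaSubgroupIn ℚ) (S19F_act N ℓ k) f := by
  haveI := S19F_jzero_finite N ℓ k
  exact S19GI_main (S := S18_specModL N A h) (A.decompositionSubgroup ℚ) (A.inertiaSubgroupIn ℚ)
    (reductionModL A N) (S19F_act N ℓ k) (S19FIN_incl N ℓ k) hJ1 hEx hUniq hSep hAdd hEqv hInv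
    (fun x y hxy => Subtype.ext hxy) (fun σ x => rfl)
    (fun τ hτ y => Fermat.Agent.S17.S17U_inertia N (Fact.out : ℓ.Prime) hℓN A hA τ hτ y)
    r2 (fun x => lift _)

end Fermat.Agent.S19
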