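import Mathlib
import Fermat.Prelude.Def_AlgebraicCurve_BaseChangeGalois
import Fermat.Prelude.Def_ModularCurve_ReductionModL

/-!
# TRACK 9 (S19), package LIFT-J (helper18): invariant lifts of divisor classes

`(L)` of the route note `NOTES/items/18_route_helper16.md` §2: every class `c` of the reduced
Jacobian has a lift `x̃ ∈ J` (in general NOT a torsion class) with `red x̃ = c` which is fixed by
the inertia group.  It follows formally from LIFT-P (every place of the reduced function field has
an inertia-fixed lift).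

* `S19LJ_lift_divisor_all` : abstract, divisors: a section `Q ↦ P_Q` of the place map `r` with
  `Γ`-fixed values lifts every divisor `E` to a `Γ`-fixed divisor `D` with `r_* D = E`, of the
  same degree;
* `S19LJ_abs` : abstract, classes: for a reduction homomorphism `red : Pic⁰(F) → Pic⁰(Fk)` induced
  by `r_*`;
* `S19LJ_main` : the concrete statement for `reductionModL A N` and the arithmetic Galois action,
  against the hypothesis LIFT-P in the shape
  `∀ Q, ∃ P, placeReductionModL h P = Q ∧ ∀ τ ∈ I, arithmeticGalois _ τ • P = P`.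
-/

set_option autoImplicit false

open AlgebraicCurve

namespace Fermat.Agent.S19

section abstract

variable {L F k Fk : Type*} [Field L] [Field F] [Algebra L F] [Field k] [Field Fk]
  [Algebra k Fk]

/-- **LIFT-J, divisors**: if every place of `Fk` has a `Γ`-fixed lift under the place map `r`,
then every divisor of `Fk` is `r_*` of a `Γ`-fixed divisor of `F` of the same degree. -/
theorem S19LJ_lift_divisor_all (r : Place L F → Place k Fk) (hdeg : ∀ P, (r P).deg = P.deg)
    (Γ : Set (SemilinearAut L F))
    (hlift : ∀ Q : Place k Fk, ∃ P : Place L F, r P = Q ∧ ∀ g ∈ Γ, g • P = P)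
    (E : Divisor k Fk) :
    ∃ D : Divisor L F, Finsupp.mapDomain r D = E ∧ (∀ g ∈ Γ, g • D = D) ∧
      Divisor.degree D = Divisor.degree E := by
  classical
  choose s hs hsΓ using hlift
  refine ⟨Finsupp.mapDomain s E, ?_, ?_, ?_⟩
  · rw [← Finsupp.mapDomain_comp]
    have hrs : r ∘ s = id := funext hs
    rw [hrs, Finsupp.mapDomain_id]
  · intro g hg
    rw [SemilinearAut.divisor_smul_def, ← Finsupp.mapDomain_comp]
    have hgs : (fun P => g • P) ∘ s = s := funext fun Q => hsΓ Q g hg
    rw [hgs]
  · induction E using Finsupp.induction with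
    | zero => simp
    | single_add Q n E _ _ ih =>
      rw [Finsupp.mapDomain_add, map_add, map_add, ih, Finsupp.mapDomain_single,
        Divisor.degree_single, Divisor.degree_single, ← hdeg (s Q), hs Q]

/-- **LIFT-J, classes (abstract)**: for a homomorphism `red : Pic⁰(F) → Pic⁰(Fk)` induced by the
place map `r`, every class of `Pic⁰(Fk)` is the reduction of a `Γ`-fixed class. -/
theorem S19LJ_abs (r : Place L F → Place k Fk) (hdeg : ∀ P, (r P).deg = P.deg)
    (red : Pic0 L F →+ Pic0 k Fk)
    (hred : ∀ (D : Divisor.degZero (K := L) (F := F)) (E : Divisor.degZero (K := k) (F := Fk)),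
      (E : Divisor k Fk) = Finsupp.mapDomain r (D : Divisor L F) → red (Pic0.mk D) = Pic0.mk E)
    (Γ : Set (SemilinearAut L F))
    (hlift : ∀ Q : Place k Fk, ∃ P : Place L F, r P = Q ∧ ∀ g ∈ Γ, g • P = P)
    (c : Pic0 k Fk) :
    ∃ x : Pic0 L F, red x = c ∧ ∀ g ∈ Γ, g • x = x := by
  obtain ⟨E, rfl⟩ := Pic0.mk_surjective c
  obtain ⟨D, hD, hΓ, hdegD⟩ := S19LJ_lift_divisor_all r hdeg Γ hlift (E : Divisor k Fk)
  have hD0 : D ∈ Divisor.degZero (K := L) (F := F) := by
    rw [Divisor.mem_degZero, hdegD]
    exact Divisor.mem_degZero.mp E.2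
  refine ⟨Pic0.mk ⟨D, hD0⟩, hred ⟨D, hD0⟩ E hD.symm, fun g hg => ?_⟩
  rw [SemilinearAut.pic0_smul_mk]
  exact congrArg Pic0.mk (Subtype.ext (by
    rw [SemilinearAut.coe_degZeroSMulHom]
    exact hΓ g hg))

end abstract

section concrete

open ModularCurve

set_option synthInstance.maxHeartbeats 400000 in
/-- **LIFT-J** for `X₀(N)`: if every place of the reduced function field has a lift fixed by
all `τ ∈ I` (LIFT-P), then every class `c` of the reduced Jacobian is the reduction of a class
`x̃ ∈ J₀(N)` fixed by all `τ ∈ I`. -/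
theorem S19LJ_main (N : ℕ) (A : ValuationSubring (AlgebraicClosure ℚ))
    (h : ReductionInputsModL A N)
    (I : Set (AlgebraicClosure ℚ ≃ₐ[ℚ] AlgebraicClosure ℚ))
    (hLP : ∀ Q : Place (IsLocalRing.ResidueField A)
        (modularFunctionFieldFullC (IsLocalRing.ResidueField A) N),
      ∃ P : Place (AlgebraicClosure ℚ) (modularFunctionFieldBar N),
        placeReductionModL h P = Q ∧
          ∀ τ ∈ I, arithmeticGalois (modularFunctionFieldFull N) τ • P = P)
    (c : JZeroC (IsLocalRing.ResidueField A) N) :
    ∃ x : JZero N, reductionModL A N x = c ∧ ∀ τ ∈ I, τ • x = x := by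
  have hr := isPlaceReductionModL_placeReductionModL h
  obtain ⟨x, hx, hfix⟩ := S19LJ_abs (placeReductionModL h) hr.1 (reductionModL A N)
    (fun D E hE => by
      rw [reductionModL_mk h D]
      exact congrArg Pic0.mk (Subtype.ext hE.symm))
    {g | ∃ τ ∈ I, g = arithmeticGalois (modularFunctionFieldFull N) τ}
    (fun Q => by
      obtain ⟨P, hP, hPI⟩ := hLP Q
      refine ⟨P, hP, ?_⟩
      rintro g ⟨τ, hτ, rfl⟩
      exact hPI τ hτ) c
  refine ⟨x, hx, fun τ hτ => ?_⟩
  rw [galois_smul_pic0_def]
  exact hfix _ ⟨τ, hτ, rfl⟩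

end concrete

end Fermat.Agent.S19
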