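import Mathlib
import Fermat.Agent.S18.Spec
import Fermat.Agent.Lib.RiemannBasic
import Fermat.Prelude.Def_AlgebraicCurve_BaseChangeGalois

/-!
# TRACK 9 (S19), package LIFT (helper21): residue discs and invariant lifts of places

Abstract over a specialisation datum `S : S18_Spec L F k Fk` (Gauss valuation ring `O ⊂ F`,
reduction `red : O → Fk`, specialisation of places `r : Pl(F) → Pl(Fk)`).

The RESIDUE DISC of a place `Q` of `Fk` is the fibre `r⁻¹(Q)`.  A function `x ∈ O` is a
COORDINATE on the disc of `Q` if `x` is regular on the disc and `red x` has a simple zero at `Q`.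

* `S19LF_exists_unique_zero`  : a coordinate has exactly one zero on the disc, and it is simple;
* `S19LF_exists_unique_value` : for every `a ∈ 𝔪_A` the coordinate takes the value `a` at exactly
  one place of the disc (so `P ↦ x(P)` is a bijection `disc → 𝔪_A`, with `S19LF_value_mem`);
* `S19LF_value_mem`           : the value of a coordinate at a place of the disc lies in `𝔪_A`;
* `S19LF_fixed`               : if `g • x = x` and `r (g • P) = r P` on the disc for a semilinear
  automorphism `g`, then `g` fixes the zero of `x` on the disc (INVARIANT LIFT of `Q`);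
* `S19LF_exists_fixed_lift`   : the same for a set `Γ` of semilinear automorphisms;
* `S19LF_lift_divisor`        : an effective divisor `B̄ = Q₁ + … + Q_g` of `Fk`, each `Q_i` with a
  `Γ`-invariant coordinate, lifts to an effective `Γ`-invariant divisor `B` with `r_* B = B̄`.
-/

set_option autoImplicit false

open AlgebraicCurve

namespace Fermat.Agent.S19

open Fermat.Agent.S18 Fermat.Agent.Lib

section combinatorics

/-- the fibre sum as a finite sum. -/
theorem S19LF_mapDomain_apply {α β : Type*} [DecidableEq β] (r : α → β) (D : α →₀ ℤ) (Q : β) :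
    Finsupp.mapDomain r D Q = ∑ P ∈ D.support.filter (fun P => r P = Q), D P := by
  classical
  rw [Finsupp.mapDomain, Finsupp.sum_apply, Finsupp.sum, Finset.sum_filter]
  refine Finset.sum_congr rfl fun P _ => ?_
  rw [Finsupp.single_apply]

/-- a nonnegative fibre with sum `1` has exactly one positive term, equal to `1`. -/
theorem S19LF_unique_of_mapDomain_eq_one {α β : Type*} (r : α → β) (D : α →₀ ℤ) (Q : β)
    (hnn : ∀ P, r P = Q → 0 ≤ D P) (h1 : Finsupp.mapDomain r D Q = 1) :
    ∃ P, r P = Q ∧ D P = 1 ∧ ∀ P', r P' = Q → 0 < D P' → P' = P := by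
  classical
  rw [S19LF_mapDomain_apply] at h1
  set T := D.support.filter (fun P => r P = Q) with hT
  have hTnn : ∀ P ∈ T, 0 ≤ D P := fun P hP => hnn P (Finset.mem_filter.mp hP).2
  -- a positive term exists
  have hex : ∃ P ∈ T, 0 < D P := by
    by_contra hcon
    push Not at hcon
    have : ∑ P ∈ T, D P = 0 :=
      Finset.sum_eq_zero fun P hP => le_antisymm (hcon P hP) (hTnn P hP)
    omega
  obtain ⟨P, hPT, hPpos⟩ := hex
  have hsplit : ∑ P' ∈ T, D P' = D P + ∑ P' ∈ T.erase P, D P' :=
    (Finset.add_sum_erase T D hPT).symm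
  have hrest : 0 ≤ ∑ P' ∈ T.erase P, D P' :=
    Finset.sum_nonneg fun P' hP' => hTnn P' (Finset.mem_of_mem_erase hP')
  have hDP : D P = 1 := by omega
  have hrest0 : ∑ P' ∈ T.erase P, D P' = 0 := by omega
  refine ⟨P, (Finset.mem_filter.mp hPT).2, hDP, fun P' hP' hpos => ?_⟩
  by_contra hne
  have hP'T : P' ∈ T := Finset.mem_filter.mpr ⟨Finsupp.mem_support_iff.mpr hpos.ne', hP'⟩
  have hmem : P' ∈ T.erase P := Finset.mem_erase.mpr ⟨hne, hP'T⟩
  have := (Finset.sum_eq_zero_iff_of_nonneg
    (fun P'' hP'' => hTnn P'' (Finset.mem_of_mem_erase hP''))).mp hrest0 P' hmem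
  omega

end combinatorics

variable {L F k Fk : Type*} [Field L] [Field F] [Algebra L F] [Field k] [Field Fk]
  [Algebra k Fk]

section ord

/-- constants have order `0`. -/
theorem S19LF_ord_algebraMap {K E : Type*} [Field K] [Field E] [Algebra K E]
    (P : Place K E) (a : K) : P.ord (algebraMap K E a) = 0 := by
  rcases eq_or_ne a 0 with rfl | ha
  · simp
  · have hu : IsUnit (algebraMap K P.toValuationSubring a) :=
      (IsUnit.mk0 a ha).map (algebraMap K P.toValuationSubring)
    have := P.ord_coe_unit hu.unit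
    simpa using this

/-- `x` regular at `P` ⇒ `x - a` regular at `P`. -/
theorem S19LF_ord_sub_const_nonneg {K E : Type*} [Field K] [Field E] [Algebra K E]
    (P : Place K E) (x : E) (a : K) (hx : 0 ≤ P.ord x) : 0 ≤ P.ord (x - algebraMap K E a) := by
  rcases eq_or_ne (x - algebraMap K E a) 0 with h0 | h0
  · rw [h0, Place.ord_zero]
  · have h1 : P.adicValuation x ≤ 1 := P.adicValuation_le_one_iff.mpr (Or.inr hx)
    have h2 : P.adicValuation (algebraMap K E a) ≤ 1 := P.adicValuation_algebraMap_le_one a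
    have h3 : P.adicValuation (x - algebraMap K E a) ≤ 1 :=
      (Valuation.map_sub _ _ _).trans (max_le h1 h2)
    exact (P.adicValuation_le_one_iff.mp h3).resolve_left h0

/-- a function with a zero at `Q` is not a nonzero constant. -/
theorem S19LF_const_eq_zero_of_ord_pos {K E : Type*} [Field K] [Field E] [Algebra K E]
    (Q : Place K E) (c : K) (h : 0 < Q.ord (algebraMap K E c)) : c = 0 := by
  rw [S19LF_ord_algebraMap] at h
  exact absurd h (lt_irrefl _)

/-- if `y` and `y - c` both vanish at `Q`, then `c = 0`. -/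
theorem S19LF_const_eq_zero {K E : Type*} [Field K] [Field E] [Algebra K E]
    (Q : Place K E) (y : E) (c : K) (hy : 0 < Q.ord y)
    (hyc : y = algebraMap K E c ∨ 0 < Q.ord (y - algebraMap K E c)) : c = 0 := by
  rcases hyc with h | h
  · rw [h] at hy
    exact S19LF_const_eq_zero_of_ord_pos Q c hy
  · by_contra hc
    have hy0 : y ≠ 0 := by
      intro h0
      rw [h0, Place.ord_zero] at hy
      exact lt_irrefl _ hy
    have hyc0 : y - algebraMap K E c ≠ 0 := by
      intro h0
      rw [h0, Place.ord_zero] at h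
      exact lt_irrefl _ h
    have hc0 : algebraMap K E c ≠ 0 := by
      rw [Ne, map_eq_zero]; exact hc
    -- valuations
    have h1 : Q.adicValuation y < 1 := by
      rw [Q.adicValuation_eq_exp_neg_ord hy0, ← WithZero.exp_zero, WithZero.exp_lt_exp]
      omega
    have h2 : Q.adicValuation (y - algebraMap K E c) < 1 := by
      rw [Q.adicValuation_eq_exp_neg_ord hyc0, ← WithZero.exp_zero, WithZero.exp_lt_exp]
      omega
    have h3 : Q.adicValuation (algebraMap K E c) < 1 := by
      have e : algebraMap K E c = y - (y - algebraMap K E c) := by ring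
      rw [e]
      exact (Valuation.map_sub _ _ _).trans_lt (max_lt h1 h2)
    rw [Q.adicValuation_eq_exp_neg_ord hc0, S19LF_ord_algebraMap, neg_zero, WithZero.exp_zero] at h3
    exact lt_irrefl _ h3

end ord

section disc

variable (S : S18_Spec L F k Fk)

/-- the shifted coordinate `x - a`, `a ∈ 𝔪_A`. -/
theorem S19LF_shift (x : S.O) (a : L) (ha : a ∈ S.A) (hres : S.res ⟨a, ha⟩ = 0) :
    ∃ x' : S.O, (x' : F) = (x : F) - algebraMap L F a ∧ S.red x' = S.red x := by
  have haO : algebraMap L F a ∈ S.O := (S.algebraMap_mem_iff a).mpr ha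
  refine ⟨x - ⟨algebraMap L F a, haO⟩, rfl, ?_⟩
  rw [map_sub, S.red_algebraMap a ha haO, hres, map_zero, sub_zero]

variable (hPD : HasPrincipalDivisors L F)

include hPD

/-- **LIFT 1**: a coordinate `x` on the residue disc of `Q` (regular on the disc, `red x` has a
simple zero at `Q`) has exactly one zero on the disc, and this zero is simple. -/
theorem S19LF_exists_unique_zero (x : S.O) (Q : Place k Fk)
    (hreg : ∀ P, S.r P = Q → 0 ≤ P.ord (x : F)) (hQ : Q.ord (S.red x) = 1) :
    ∃ P : Place L F, S.r P = Q ∧ P.ord (x : F) = 1 ∧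
      ∀ P' : Place L F, S.r P' = Q → 0 < P'.ord (x : F) → P' = P := by
  have hred : S.red x ≠ 0 := by
    intro h0
    rw [h0, Place.ord_zero] at hQ
    exact zero_ne_one hQ
  obtain ⟨D, hD, -⟩ := hPD.exists_divisor (x : F) (S.ne_zero_of_red_ne_zero hred)
  have h1 := S.mapDomain_div x hred D hD Q
  rw [hQ] at h1
  obtain ⟨P, hP, hDP, huniq⟩ := S19LF_unique_of_mapDomain_eq_one S.r D Q
    (fun P hP => by rw [hD P]; exact hreg P hP) h1
  refine ⟨P, hP, by rw [← hD P]; exact hDP, fun P' hP' hpos => huniq P' hP' ?_⟩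
  rw [hD P']
  exact hpos

/-- **LIFT 2**: for every `a ∈ 𝔪_A` a coordinate `x` on the disc of `Q` takes the value `a` at
exactly one place of the disc. -/
theorem S19LF_exists_unique_value (x : S.O) (Q : Place k Fk)
    (hreg : ∀ P, S.r P = Q → 0 ≤ P.ord (x : F)) (hQ : Q.ord (S.red x) = 1)
    (a : L) (ha : a ∈ S.A) (hres : S.res ⟨a, ha⟩ = 0) :
    ∃ P : Place L F, S.r P = Q ∧ P.ord ((x : F) - algebraMap L F a) = 1 ∧
      ∀ P' : Place L F, S.r P' = Q → 0 < P'.ord ((x : F) - algebraMap L F a) → P' = P := by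
  obtain ⟨x', hx', hredx'⟩ := S19LF_shift S x a ha hres
  have := S19LF_exists_unique_zero S hPD x' Q
    (fun P hP => by rw [hx']; exact S19LF_ord_sub_const_nonneg P _ a (hreg P hP))
    (by rw [hredx']; exact hQ)
  rw [hx'] at this
  exact this

/-- **LIFT 3**: the value of a coordinate at a place of the disc of `Q` lies in `𝔪_A`. -/
theorem S19LF_value_mem (x : S.O) (Q : Place k Fk)
    (hreg : ∀ P, S.r P = Q → 0 ≤ P.ord (x : F)) (hQ : 0 < Q.ord (S.red x))
    (P : Place L F) (hP : S.r P = Q) (a : L)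
    (ha : 0 < P.ord ((x : F) - algebraMap L F a)) :
    ∃ haA : a ∈ S.A, S.res ⟨a, haA⟩ = 0 := by
  obtain ⟨haA, h⟩ := S.value_reduction hPD x Q hreg P hP a ha
  exact ⟨haA, S19LF_const_eq_zero Q (S.red x) _ hQ h⟩

/-- values exist (places of degree one): every place of the disc of `Q` has a value in `𝔪_A`. -/
theorem S19LF_exists_value (hdeg : ∀ P : Place L F, P.deg = 1) (x : S.O) (Q : Place k Fk)
    (hreg : ∀ P, S.r P = Q → 0 ≤ P.ord (x : F)) (hQ : 0 < Q.ord (S.red x))
    (P : Place L F) (hP : S.r P = Q) :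
    ∃ (a : L) (haA : a ∈ S.A), S.res ⟨a, haA⟩ = 0 ∧
      ((x : F) = algebraMap L F a ∨ 0 < P.ord ((x : F) - algebraMap L F a)) := by
  have hredx : S.red x ≠ 0 := by
    intro h0
    rw [h0, Place.ord_zero] at hQ
    exact lt_irrefl _ hQ
  obtain ⟨c, hc⟩ := RR_exists_const P (hdeg P) (f := (x : F))
    (P.adicValuation_le_one_iff.mpr (Or.inr (hreg P hP)))
  by_cases h0 : (x : F) - algebraMap L F c = 0
  · -- `x` is constant: impossible unless ... `red x` would be a constant with a zero
    exfalso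
    have hxc : (x : F) = algebraMap L F c := sub_eq_zero.mp h0
    have hcA : c ∈ S.A := (S.algebraMap_mem_iff c).mp (hxc ▸ x.2)
    have hxc' : x = ⟨algebraMap L F c, (S.algebraMap_mem_iff c).mpr hcA⟩ := Subtype.ext hxc
    have hr : S.red x = algebraMap k Fk (S.res ⟨c, hcA⟩) := by
      rw [hxc']; exact S.red_algebraMap c hcA _
    rw [hr] at hQ hredx
    have := S19LF_const_eq_zero_of_ord_pos Q _ hQ
    rw [this, map_zero] at hredx
    exact hredx rfl
  · have hpos : 0 < P.ord ((x : F) - algebraMap L F c) := by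
      rw [P.adicValuation_eq_exp_neg_ord h0, ← WithZero.exp_zero, WithZero.exp_lt_exp] at hc
      omega
    obtain ⟨haA, hres⟩ := S19LF_value_mem S hPD x Q hreg hQ P hP c hpos
    exact ⟨c, haA, hres, Or.inr hpos⟩

/-- **LIFT 4** (invariant lift): a semilinear automorphism `g` that fixes the coordinate `x` and
is compatible with `r` on the disc of `Q` fixes the zero of `x` on the disc. -/
theorem S19LF_fixed (x : S.O) (Q : Place k Fk)
    (hreg : ∀ P, S.r P = Q → 0 ≤ P.ord (x : F)) (hQ : Q.ord (S.red x) = 1)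
    (g : SemilinearAut L F) (hgx : g • (x : F) = (x : F))
    (hgr : ∀ P, S.r P = Q → S.r (g • P) = Q)
    (P : Place L F) (hP : S.r P = Q) (hPx : 0 < P.ord (x : F)) : g • P = P := by
  obtain ⟨P₀, -, -, huniq⟩ := S19LF_exists_unique_zero S hPD x Q hreg hQ
  have h1 : P = P₀ := huniq P hP hPx
  have h2 : g • P = P₀ := by
    apply huniq (g • P) (hgr P hP)
    have := SemilinearAut.ord_smul g P (x : F)
    rw [hgx] at this
    rw [this]
    exact hPx
  rw [h2, ← h1]

/-- **LIFT 4'**: existence of a `Γ`-invariant lift of `Q`. -/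
theorem S19LF_exists_fixed_lift (Γ : Set (SemilinearAut L F)) (x : S.O) (Q : Place k Fk)
    (hreg : ∀ P, S.r P = Q → 0 ≤ P.ord (x : F)) (hQ : Q.ord (S.red x) = 1)
    (hgx : ∀ g ∈ Γ, g • (x : F) = (x : F))
    (hgr : ∀ g ∈ Γ, ∀ P, S.r P = Q → S.r (g • P) = Q) :
    ∃ P : Place L F, S.r P = Q ∧ P.ord (x : F) = 1 ∧ ∀ g ∈ Γ, g • P = P := by
  obtain ⟨P, hP, hord, -⟩ := S19LF_exists_unique_zero S hPD x Q hreg hQ
  exact ⟨P, hP, hord, fun g hg =>
    S19LF_fixed S hPD x Q hreg hQ g (hgx g hg) (hgr g hg) P hP (by omega)⟩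

/-- **LIFT 5**: a finite family of places `Q i` of `Fk`, each with a `Γ`-invariant coordinate,
lifts to a family of `Γ`-invariant places; the divisor `∑ single (P i) 1` is effective,
`Γ`-invariant, and `r_*` of it is `∑ single (Q i) 1`. -/
theorem S19LF_lift_divisor (Γ : Set (SemilinearAut L F)) {ι : Type*} [Fintype ι]
    (Q : ι → Place k Fk) (x : ι → S.O)
    (hreg : ∀ i, ∀ P, S.r P = Q i → 0 ≤ P.ord (x i : F)) (hQ : ∀ i, (Q i).ord (S.red (x i)) = 1)
    (hgx : ∀ i, ∀ g ∈ Γ, g • (x i : F) = (x i : F))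
    (hgr : ∀ g ∈ Γ, ∀ P, S.r (g • P) = S.r P) :
    ∃ P : ι → Place L F, (∀ i, S.r (P i) = Q i) ∧ (∀ i, (P i).ord (x i : F) = 1) ∧
      (∀ i, ∀ g ∈ Γ, g • P i = P i) ∧
      Finsupp.mapDomain S.r (∑ i, Finsupp.single (P i) (1 : ℤ)) = ∑ i, Finsupp.single (Q i) (1 : ℤ) ∧
      ∀ g ∈ Γ, g • (∑ i, Finsupp.single (P i) (1 : ℤ) : Divisor L F) =
        ∑ i, Finsupp.single (P i) (1 : ℤ) := by
  have h := fun i => S19LF_exists_fixed_lift S hPD Γ (x i) (Q i) (hreg i) (hQ i) (hgx i)
    (fun g hg P hP => by rw [hgr g hg P]; exact hP)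
  choose P hP hord hfix using h
  refine ⟨P, hP, hord, hfix, ?_, fun g hg => ?_⟩
  · rw [Finsupp.mapDomain_finsetSum]
    refine Finset.sum_congr rfl fun i _ => ?_
    rw [Finsupp.mapDomain_single, hP i]
  · rw [Finset.smul_sum]
    refine Finset.sum_congr rfl fun i _ => ?_
    rw [SemilinearAut.smul_single, hfix i g hg]

end disc

end Fermat.Agent.S19
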