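import Mathlib
import Fermat.Agent.S19.Lift
import Fermat.Agent.S17.RRAvoid

/-!
# TRACK 9 (S19), package LIFT-P (helper21): every place of `Fk` has a `Γ`-invariant lift

Abstract over `S : S18_Spec L F k Fk`, a place `O` of `F` (the cusp `∞`), a set `Γ` of semilinear
automorphisms of `F` (the inertia group) with `g • O = O` and `r ∘ g = r` for `g ∈ Γ`.

* `S19LF_onto_of_basis` : if `b i ∈ S.O` are `Γ`-invariant and regular off `O`, and every residue
  has a `Γ`-invariant lift (TEICH), then every element of the `k`-span of the `red (b i)` has a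
  `Γ`-invariant lift in `S.O` that is regular off `O`;
* `S19LF_lift_all`      : **LIFT-P**: if every element of `L̄(m·r(O))` (`m ≥ 2g + 2`) has a
  `Γ`-invariant lift in `S.O` that is regular off `O`, then every place `Q` of `Fk` has a lift `P`
  (`r P = Q`) with `g • P = P` for all `g ∈ Γ`;
* `S19LF_lift_all_of_basis` : both together.
-/

set_option autoImplicit false

open AlgebraicCurve

namespace Fermat.Agent.S19

open Fermat.Agent.S18 Fermat.Agent.Lib Fermat.Agent.S17

variable {L F k Fk : Type*} [Field L] [Field F] [Algebra L F] [Field k] [Field Fk]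
  [Algebra k Fk] (S : S18_Spec L F k Fk)

/-- `Γ`-invariant lifts of the elements of the span of the reductions of a `Γ`-invariant
family. -/
theorem S19LF_onto_of_basis (Γ : Set (SemilinearAut L F)) (O : Place L F)
    {ι : Type*} [Fintype ι] (b : ι → S.O)
    (hb_inv : ∀ i, ∀ g ∈ Γ, g • (b i : F) = (b i : F))
    (hb_reg : ∀ i, ∀ P : Place L F, P ≠ O → 0 ≤ P.ord (b i : F))
    (hres : ∀ c : k, ∃ (a : L) (ha : a ∈ S.A), S.res ⟨a, ha⟩ = c ∧
      ∀ g ∈ Γ, g • algebraMap L F a = algebraMap L F a)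
    (xb : Fk) (hxb : xb ∈ Submodule.span k (Set.range fun i => S.red (b i))) :
    ∃ x : S.O, S.red x = xb ∧ (∀ P : Place L F, P ≠ O → 0 ≤ P.ord (x : F)) ∧
      ∀ g ∈ Γ, g • (x : F) = (x : F) := by
  classical
  obtain ⟨c, rfl⟩ := (Submodule.mem_span_range_iff_exists_fun k).mp hxb
  choose a ha hres hinv using hres
  have haO : ∀ i, algebraMap L F (a (c i)) ∈ S.O := fun i =>
    (S.algebraMap_mem_iff _).mpr (ha (c i))
  refine ⟨∑ i, ⟨algebraMap L F (a (c i)), haO i⟩ * b i, ?_, ?_, ?_⟩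
  · rw [map_sum]
    refine Finset.sum_congr rfl fun i _ => ?_
    rw [map_mul, S.red_algebraMap _ (ha (c i)) (haO i), hres, Algebra.smul_def]
  · intro P hP
    have hcoe : ((∑ i, ⟨algebraMap L F (a (c i)), haO i⟩ * b i : S.O) : F) =
        ∑ i, algebraMap L F (a (c i)) * (b i : F) := by
      simp
    rw [hcoe]
    have hle : P.adicValuation (∑ i, algebraMap L F (a (c i)) * (b i : F)) ≤ 1 := by
      refine Valuation.map_sum_le _ fun i _ => ?_
      rw [map_mul]
      exact mul_le_one' (P.adicValuation_algebraMap_le_one _)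
        (P.adicValuation_le_one_iff.mpr (Or.inr (hb_reg i P hP)))
    rcases P.adicValuation_le_one_iff.mp hle with h0 | h
    · rw [h0, Place.ord_zero]
    · exact h
  · intro g hg
    have hcoe : ((∑ i, ⟨algebraMap L F (a (c i)), haO i⟩ * b i : S.O) : F) =
        ∑ i, algebraMap L F (a (c i)) * (b i : F) := by
      simp
    rw [hcoe, Finset.smul_sum]
    refine Finset.sum_congr rfl fun i _ => ?_
    rw [smul_mul', hinv (c i) g hg, hb_inv i g hg]

variable (hPD : HasPrincipalDivisors L F)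

include hPD

/-- **LIFT-P**: every place of `Fk` has a `Γ`-invariant lift. -/
theorem S19LF_lift_all [Infinite k] (hRRk : RR_Hyp k Fk) (Γ : Set (SemilinearAut L F))
    (O : Place L F) (hO : ∀ g ∈ Γ, g • O = O)
    (hgr : ∀ g ∈ Γ, ∀ P : Place L F, S.r (g • P) = S.r P)
    (m : ℕ) (hm : 2 * RR_genus k Fk + 2 ≤ m)
    (honto : ∀ xb : Fk, xb ∈ riemannRochSpace (Finsupp.single (S.r O) (m : ℤ)) →
      ∃ x : S.O, S.red x = xb ∧ (∀ P : Place L F, P ≠ O → 0 ≤ P.ord (x : F)) ∧
        ∀ g ∈ Γ, g • (x : F) = (x : F))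
    (Q : Place k Fk) :
    ∃ P : Place L F, S.r P = Q ∧ ∀ g ∈ Γ, g • P = P := by
  classical
  by_cases hQ : Q = S.r O
  · exact ⟨O, hQ.symm, hO⟩
  set D : Divisor k Fk := Finsupp.single (S.r O) (m : ℤ) - Finsupp.single Q 1 with hD
  have hdeg : D.degree = (m : ℤ) - 1 := by
    rw [hD, S17RS_degree_sub_single hRRk, Divisor.degree_single, hRRk.deg_one]
    simp
  obtain ⟨f, hf0, hf, hord⟩ := S17RS_exists_ord_eq hRRk D
    (by rw [hdeg]; have : (2 * RR_genus k Fk + 2 : ℤ) ≤ m := by exact_mod_cast hm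
        linarith) {Q}
  have hordQ : Q.ord f = 1 := by
    have := hord Q (Finset.mem_singleton_self Q)
    rw [this, hD, Finsupp.sub_apply, Finsupp.single_apply, Finsupp.single_apply, if_pos rfl,
      if_neg (Ne.symm hQ)]
    norm_num
  have hfm : f ∈ riemannRochSpace (Finsupp.single (S.r O) (m : ℤ)) :=
    RR_mono (S17RS_sub_single_le _ Q) hf
  obtain ⟨x, hx, hreg, hinv⟩ := honto f hfm
  have hreg' : ∀ P : Place L F, S.r P = Q → 0 ≤ P.ord (x : F) := by
    intro P hP
    apply hreg P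
    rintro rfl
    exact hQ hP.symm
  obtain ⟨P, hP, -, hfix⟩ := S19LF_exists_fixed_lift S hPD Γ x Q hreg' (by rw [hx]; exact hordQ)
    hinv (fun g hg P hP => by rw [hgr g hg P]; exact hP)
  exact ⟨P, hP, hfix⟩

/-- **LIFT-P** from a `Γ`-invariant family `b` (RATB) whose reductions span `L̄(m·r(O))` and
`Γ`-invariant lifts of residues (TEICH). -/
theorem S19LF_lift_all_of_basis [Infinite k] (hRRk : RR_Hyp k Fk) (Γ : Set (SemilinearAut L F))
    (O : Place L F) (hO : ∀ g ∈ Γ, g • O = O)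
    (hgr : ∀ g ∈ Γ, ∀ P : Place L F, S.r (g • P) = S.r P)
    (m : ℕ) (hm : 2 * RR_genus k Fk + 2 ≤ m)
    {ι : Type*} [Fintype ι] (b : ι → S.O)
    (hb_inv : ∀ i, ∀ g ∈ Γ, g • (b i : F) = (b i : F))
    (hb_reg : ∀ i, ∀ P : Place L F, P ≠ O → 0 ≤ P.ord (b i : F))
    (hb_span : riemannRochSpace (Finsupp.single (S.r O) (m : ℤ)) ≤
      Submodule.span k (Set.range fun i => S.red (b i)))
    (hres : ∀ c : k, ∃ (a : L) (ha : a ∈ S.A), S.res ⟨a, ha⟩ = c ∧
      ∀ g ∈ Γ, g • algebraMap L F a = algebraMap L F a)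
    (Q : Place k Fk) :
    ∃ P : Place L F, S.r P = Q ∧ ∀ g ∈ Γ, g • P = P :=
  S19LF_lift_all S hPD hRRk Γ O hO hgr m hm
    (fun xb hxb => S19LF_onto_of_basis S Γ O b hb_inv hb_reg hres xb (hb_span hxb)) Q

end Fermat.Agent.S19
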