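import Mathlib
import Fermat.Prelude.Def_FLTPrelim_Ramification

/-!
# TRACK 9 (S19), package LIFT-P, part TEICH (helper21): inertia-invariant lifts of residues

`L / ℚ` algebraic and algebraically closed, `A ⊂ L` a valuation ring with `ℓ ∈ 𝔪_A` (`ℓ` prime).

* `S19TE_inertia_mem`, `S19TE_inertia_sub_mem` : `τ ∈ I_A` preserves `A` and is trivial mod `𝔪_A`;
* `S19TE_exists_order` : every `c ≠ 0` of the residue field is a root of unity of order prime
  to `ℓ`;
* `S19TE_exists_lift`  : **Teichmüller lifts**: every `c` of the residue field has a lift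
  `a ∈ A` with `τ a = a` for all `τ ∈ I_A` (`a = 0` or a root of unity of order prime to `ℓ`).
-/

set_option autoImplicit false

open Polynomial

namespace Fermat.Agent.S19

section inertia

variable {S : Type*} {K : Type*} [Field S] [Field K] [Algebra S K] (A : ValuationSubring K)

/-- an element of the inertia group maps `A` into `A`. -/
theorem S19TE_inertia_mem {σ : K ≃ₐ[S] K} (hσ : σ ∈ A.inertiaSubgroupIn S) {x : K} (hx : x ∈ A) :
    σ x ∈ A := by
  obtain ⟨g, -, rfl⟩ := hσ
  exact (g • (⟨x, hx⟩ : A)).2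

/-- an element of the inertia group acts trivially modulo the maximal ideal. -/
theorem S19TE_inertia_sub_mem {σ : K ≃ₐ[S] K} (hσ : σ ∈ A.inertiaSubgroupIn S) {x : K}
    (hx : x ∈ A) : σ x - x ∈ A.nonunits := by
  obtain ⟨g, hg, rfl⟩ := hσ
  have hg' : MulSemiringAction.toRingAut (A.decompositionSubgroup S)
      (IsLocalRing.ResidueField A) g = 1 := hg
  have h1 : g • (IsLocalRing.residue A ⟨x, hx⟩) = IsLocalRing.residue A ⟨x, hx⟩ := by
    have := congrArg (fun f => f (IsLocalRing.residue A ⟨x, hx⟩)) hg'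
    simpa using this
  rw [← IsLocalRing.ResidueField.residue_smul] at h1
  have h2 : IsLocalRing.residue A (g • (⟨x, hx⟩ : A) - ⟨x, hx⟩) = 0 := by
    rw [map_sub, h1, sub_self]
  rw [IsLocalRing.residue_eq_zero_iff] at h2
  have h3 := ValuationSubring.coe_mem_nonunits_iff.mpr h2
  exact h3

end inertia

section order

variable {L : Type*} [Field L] [Algebra ℚ L] [Algebra.IsAlgebraic ℚ L] (A : ValuationSubring L)

/-- residues are algebraic over the prime field: a nonzero integer polynomial, nonzero mod `ℓ`,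
kills the residue. -/
theorem S19TE_exists_poly {ℓ : ℕ} (hℓ : ℓ.Prime) (a : L) :
    ∃ P : ℤ[X], P.map (Int.castRingHom (ZMod ℓ)) ≠ 0 ∧ aeval a P = 0 := by
  haveI : CharZero L := algebraRat.charZero L
  have halg : IsAlgebraic ℚ a := Algebra.IsAlgebraic.isAlgebraic a
  have halgZ : IsAlgebraic ℤ a := (IsFractionRing.isAlgebraic_iff ℤ ℚ L).mpr halg
  obtain ⟨p, hp0, hp⟩ := halgZ
  refine ⟨p.primPart, ?_, ?_⟩
  · intro h0
    have hprim := p.isPrimitive_primPart
    have hdvd : (C (ℓ : ℤ)) ∣ p.primPart := by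
      rw [Polynomial.C_dvd_iff_dvd_coeff]
      intro n
      have := congrArg (fun q => q.coeff n) h0
      simp only [coeff_map, coeff_zero] at this
      exact (ZMod.intCast_zmod_eq_zero_iff_dvd _ _).mp (by simpa using this)
    have := hprim _ hdvd
    rw [Int.isUnit_iff] at this
    have h2 := hℓ.two_le
    omega
  · exact Polynomial.aeval_primPart_eq_zero hp0 hp

omit [Algebra ℚ L] [Algebra.IsAlgebraic ℚ L] in
/-- the residue characteristic. -/
theorem S19TE_cast_eq_zero {ℓ : ℕ} (hA : (ℓ : L) ∈ A.nonunits) :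
    (ℓ : IsLocalRing.ResidueField A) = 0 := by
  have hmem : (ℓ : L) ∈ A := A.nonunits_le hA
  have h1 : ((ℓ : A) : L) = (ℓ : L) := by simp
  have h2 : (ℓ : A) ∈ IsLocalRing.maximalIdeal A := by
    rw [← ValuationSubring.coe_mem_nonunits_iff, h1]
    exact hA
  have h3 := (IsLocalRing.residue_eq_zero_iff (ℓ : A)).mpr h2
  rw [map_natCast] at h3
  exact h3

/-- every nonzero residue is a root of unity of order prime to `ℓ`. -/
theorem S19TE_exists_order {ℓ : ℕ} (hℓ : ℓ.Prime) (hA : (ℓ : L) ∈ A.nonunits)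
    (c : IsLocalRing.ResidueField A) (hc : c ≠ 0) :
    ∃ M : ℕ, 0 < M ∧ (M : IsLocalRing.ResidueField A) ≠ 0 ∧ c ^ M = 1 := by
  classical
  have hℓ0 := S19TE_cast_eq_zero A hA
  haveI : Fact ℓ.Prime := ⟨hℓ⟩
  haveI : CharP (IsLocalRing.ResidueField A) ℓ := (CharP.charP_iff_prime_eq_zero hℓ).mpr hℓ0
  letI : Algebra (ZMod ℓ) (IsLocalRing.ResidueField A) := ZMod.algebra _ ℓ
  obtain ⟨a, rfl⟩ := IsLocalRing.residue_surjective c
  obtain ⟨P, hP0, hP⟩ := S19TE_exists_poly (L := L) hℓ (a : L)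
  -- `P(a) = 0` in `A`
  have hPA : eval₂ (Int.castRingHom A) a P = 0 := by
    apply Subtype.ext
    have := Polynomial.hom_eval₂ P (Int.castRingHom A) A.subtype a
    have e : A.subtype.comp (Int.castRingHom A) = algebraMap ℤ L := RingHom.ext_int _ _
    rw [e] at this
    exact this.trans hP
  have hPk : eval₂ (Int.castRingHom (IsLocalRing.ResidueField A)) (IsLocalRing.residue A a) P
      = 0 := by
    have := Polynomial.hom_eval₂ P (Int.castRingHom A) (IsLocalRing.residue A) a
    rw [hPA, map_zero] at this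
    have e : (IsLocalRing.residue A).comp (Int.castRingHom A) =
        Int.castRingHom (IsLocalRing.ResidueField A) := RingHom.ext_int _ _
    rw [e] at this
    exact this.symm
  have halg : IsAlgebraic (ZMod ℓ) (IsLocalRing.residue A a) := by
    refine ⟨P.map (Int.castRingHom (ZMod ℓ)), hP0, ?_⟩
    rw [aeval_def, eval₂_map]
    have e : (algebraMap (ZMod ℓ) (IsLocalRing.ResidueField A)).comp (Int.castRingHom (ZMod ℓ)) =
        Int.castRingHom (IsLocalRing.ResidueField A) := RingHom.ext_int _ _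
    rw [e]
    exact hPk
  -- the finite field `𝔽_ℓ(c)`
  set c := IsLocalRing.residue A a with hcdef
  set E := IntermediateField.adjoin (ZMod ℓ) ({c} : Set (IsLocalRing.ResidueField A)) with hE
  haveI : FiniteDimensional (ZMod ℓ) E :=
    IntermediateField.adjoin.finiteDimensional halg.isIntegral
  haveI : Finite E := Module.finite_of_finite (ZMod ℓ)
  letI : Fintype E := Fintype.ofFinite E
  have hcE : c ∈ E := IntermediateField.mem_adjoin_simple_self _ c
  have hc0 : (⟨c, hcE⟩ : E) ≠ 0 := by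
    intro h0
    exact hc (congrArg Subtype.val h0)
  have hpow := FiniteField.pow_card_sub_one_eq_one (⟨c, hcE⟩ : E) hc0
  haveI : CharP E ℓ := by
    refine (CharP.charP_iff_prime_eq_zero hℓ).mpr ?_
    apply Subtype.ext
    simp
  obtain ⟨n, -, hn⟩ := FiniteField.card E ℓ
  have hq2 : 2 ≤ Fintype.card E := by
    rw [hn]
    calc 2 ≤ ℓ := hℓ.two_le
      _ = ℓ ^ 1 := (pow_one ℓ).symm
      _ ≤ ℓ ^ (n : ℕ) := Nat.pow_le_pow_right hℓ.pos n.2
  refine ⟨Fintype.card E - 1, by omega, ?_, ?_⟩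
  · rw [Nat.cast_sub (by omega), hn, Nat.cast_pow, hℓ0, zero_pow n.ne_zero, Nat.cast_one, zero_sub]
    exact neg_ne_zero.mpr one_ne_zero
  · have := congrArg (fun x : E => (x : IsLocalRing.ResidueField A)) hpow
    simpa using this

/-- roots of unity lie in every valuation ring. -/
theorem S19TE_root_mem {K : Type*} [Field K] (B : ValuationSubring K) {M : ℕ} (hM : 0 < M)
    {ζ : K} (hζ : ζ ^ M = 1) : ζ ∈ B := by
  rcases B.mem_or_inv_mem ζ with h | h
  · exact h
  · have hζ0 : ζ ≠ 0 := by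
      rintro rfl
      rw [zero_pow hM.ne'] at hζ
      exact zero_ne_one hζ
    have e : ζ = ζ⁻¹ ^ (M - 1) := by
      have h1 : ζ ^ (M - 1) * ζ = 1 := by
        rw [← pow_succ, Nat.sub_add_cancel hM, hζ]
      rw [inv_pow]
      exact (eq_inv_of_mul_eq_one_right h1)
    rw [e]
    exact pow_mem h _

/-- **Teichmüller lifts**: every element of the residue field of `A` has a lift in `A` that is
fixed by the inertia group. -/
theorem S19TE_exists_lift [IsAlgClosed L] {ℓ : ℕ} (hℓ : ℓ.Prime) (hA : (ℓ : L) ∈ A.nonunits)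
    (c : IsLocalRing.ResidueField A) :
    ∃ a : A, IsLocalRing.residue A a = c ∧
      ∀ τ ∈ A.inertiaSubgroupIn ℚ, τ (a : L) = (a : L) := by
  classical
  haveI : CharZero L := algebraRat.charZero L
  rcases eq_or_ne c 0 with rfl | hc
  · exact ⟨0, map_zero _, fun τ _ => by simp⟩
  obtain ⟨M, hM, hMk, hcM⟩ := S19TE_exists_order A hℓ hA c hc
  obtain ⟨a, rfl⟩ := IsLocalRing.residue_surjective c
  haveI : NeZero (M : L) := ⟨by exact_mod_cast hM.ne'⟩
  obtain ⟨ζ₀, hζ₀⟩ := HasEnoughRootsOfUnity.exists_primitiveRoot L M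
  have hprod := Polynomial.X_pow_sub_one_eq_prod hM hζ₀
  have heval : (a : L) ^ M - 1 = ∏ ζ ∈ nthRootsFinset M (1 : L), ((a : L) - ζ) := by
    have := congrArg (Polynomial.eval (a : L)) hprod
    simpa [Polynomial.eval_prod] using this
  have hroot : ∀ ζ ∈ nthRootsFinset M (1 : L), ζ ^ M = 1 := fun ζ hζ =>
    (Polynomial.mem_nthRootsFinset hM 1).mp hζ
  have hmemA : ∀ ζ ∈ nthRootsFinset M (1 : L), ζ ∈ A := fun ζ hζ =>
    S19TE_root_mem A hM (hroot ζ hζ)
  -- the left hand side is a non-unit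
  have hL : (a : L) ^ M - 1 ∈ A.nonunits := by
    have h1 : IsLocalRing.residue A (a ^ M - 1) = 0 := by
      rw [map_sub, map_pow, map_one, hcM, sub_self]
    rw [IsLocalRing.residue_eq_zero_iff] at h1
    have := ValuationSubring.coe_mem_nonunits_iff.mpr h1
    simpa using this
  -- some factor is a non-unit
  have hex : ∃ ζ ∈ nthRootsFinset M (1 : L), (a : L) - ζ ∈ A.nonunits := by
    by_contra hcon
    push Not at hcon
    have hone : ∀ ζ ∈ nthRootsFinset M (1 : L), A.valuation ((a : L) - ζ) = 1 := by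
      intro ζ hζ
      have hle : A.valuation ((a : L) - ζ) ≤ 1 :=
        (A.valuation_le_one_iff _).mpr (A.sub_mem a.2 (hmemA ζ hζ))
      have hnlt : ¬ A.valuation ((a : L) - ζ) < 1 := fun h =>
        hcon ζ hζ (A.mem_nonunits_iff.mpr h)
      exact le_antisymm hle (not_lt.mp hnlt)
    have hv : A.valuation ((a : L) ^ M - 1) = 1 := by
      rw [heval, map_prod]
      exact Finset.prod_eq_one hone
    have := A.mem_nonunits_iff.mp hL
    rw [hv] at this
    exact lt_irrefl _ this
  obtain ⟨ζ, hζ, hfac⟩ := hex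
  have hζA := hmemA ζ hζ
  have hresζ : IsLocalRing.residue A ⟨ζ, hζA⟩ = IsLocalRing.residue A a := by
    have h1 : (a - ⟨ζ, hζA⟩ : A) ∈ IsLocalRing.maximalIdeal A := by
      rw [← ValuationSubring.coe_mem_nonunits_iff]
      exact hfac
    have h2 := (IsLocalRing.residue_eq_zero_iff _).mpr h1
    rw [map_sub, sub_eq_zero] at h2
    exact h2.symm
  refine ⟨⟨ζ, hζA⟩, hresζ, fun τ hτ => ?_⟩
  -- invariance
  have hτA : τ ζ ∈ A := S19TE_inertia_mem A hτ hζA
  have hτsub : τ ζ - ζ ∈ A.nonunits := S19TE_inertia_sub_mem A hτ hζA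
  have hresτ : IsLocalRing.residue A ⟨τ ζ, hτA⟩ = IsLocalRing.residue A ⟨ζ, hζA⟩ := by
    have h1 : ((⟨τ ζ, hτA⟩ : A) - ⟨ζ, hζA⟩ : A) ∈ IsLocalRing.maximalIdeal A := by
      rw [← ValuationSubring.coe_mem_nonunits_iff]
      exact hτsub
    have h2 := (IsLocalRing.residue_eq_zero_iff _).mpr h1
    rw [map_sub, sub_eq_zero] at h2
    exact h2
  set ζA : A := ⟨ζ, hζA⟩ with hζAdef
  set τA : A := ⟨τ ζ, hτA⟩ with hτAdef
  have hζM : ζA ^ M = 1 := by
    apply Subtype.ext
    simpa using hroot ζ hζ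
  have hτM : τA ^ M = 1 := by
    apply Subtype.ext
    have : (τ ζ) ^ M = 1 := by rw [← map_pow, hroot ζ hζ, map_one]
    simpa using this
  set ξ : A := τA * ζA ^ (M - 1) with hξ
  have hξM : ξ ^ M = 1 := by
    rw [hξ, mul_pow, hτM, one_mul, ← pow_mul, mul_comm, pow_mul, hζM, one_pow]
  have hresξ : IsLocalRing.residue A ξ = 1 := by
    rw [hξ, map_mul, map_pow, hresτ, ← pow_succ', Nat.sub_add_cancel hM, ← map_pow, hζM, map_one]
  have hξ1 : ξ = 1 := by
    by_contra hne
    have hgeom := geom_sum_mul ξ M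
    rw [hξM, sub_self] at hgeom
    have hsum : ∑ i ∈ Finset.range M, ξ ^ i = 0 := by
      rcases mul_eq_zero.mp hgeom with h | h
      · exact h
      · exact absurd (sub_eq_zero.mp h) hne
    have := congrArg (IsLocalRing.residue A) hsum
    rw [map_sum, map_zero] at this
    simp only [map_pow, hresξ, one_pow, Finset.sum_const, Finset.card_range, nsmul_eq_mul,
      mul_one] at this
    exact hMk this
  -- `τ ζ · ζ^(M-1) = 1 = ζ · ζ^(M-1)`
  have h1 : (τ ζ) * ζ ^ (M - 1) = 1 := by
    have := congrArg (fun x : A => (x : L)) hξ1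
    simpa [hξ] using this
  have h2 : ζ * ζ ^ (M - 1) = 1 := by
    rw [← pow_succ', Nat.sub_add_cancel hM, hroot ζ hζ]
  have hne : ζ ^ (M - 1) ≠ 0 := by
    intro h0
    rw [h0, mul_zero] at h2
    exact zero_ne_one h2
  exact mul_right_cancel₀ hne (h1.trans h2.symm)

end order

end Fermat.Agent.S19
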