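import Mathlib
import Fermat.Agent.S19.LiftP
import Fermat.Agent.S19.Teich
import Fermat.Agent.S19.GalRed
import Fermat.Agent.S18.Sep
import Fermat.Agent.S18.Reduce

/-!
# TRACK 9 (S19), package LIFT-P, concrete form for `X₀(N)` (helper21)

`F = modularFunctionFieldBar N`, `A ⊂ ℚ̄` a valuation subring over `ℓ ∤ N`,
`h : ReductionInputsModL A N`, `S = S18_specModL N A h`, `I = A.inertiaSubgroupIn ℚ`.

* `S19LF_Ratb N A h`  : the input RATB in the shape used here: a place `O` of `F` fixed by `I`,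
  `m ≥ 2 g + 2`, and a family `b i ∈ S.O`, fixed by `I`, regular off `O`, whose reductions span
  `L̄(m · r(O))`;
* `S19LF_teich_X0`    : TEICH in the shape of `S19LF_onto_of_basis`;
* `S19LF_liftP_X0`    : **LIFT-P**: every place `Q` of the reduced function field has a lift `P`
  with `τ • P = P` for all `τ ∈ I` — exactly the hypothesis `hLP` of `S19LJ_main`.
-/

set_option autoImplicit false
set_option synthInstance.maxHeartbeats 400000
set_option maxHeartbeats 1000000
set_option linter.style.haveILetI false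

open HahnSeries IntermediateField AlgebraicCurve ModularCurve

namespace Fermat.Agent.S19

open Fermat.Agent.S18 Fermat.Agent.Lib

variable (N : ℕ) [NeZero N] (A : ValuationSubring (AlgebraicClosure ℚ))
  (h : ReductionInputsModL A N)

/-- the input RATB: an `I`-invariant family of integral functions, regular off an `I`-invariant
place `O`, whose reductions span `L̄(m · r(O))`, `m ≥ 2 g + 2`. -/
def S19LF_Ratb : Prop :=
  ∃ (O : Place (AlgebraicClosure ℚ) ↥(modularFunctionFieldBar N)) (m n : ℕ)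
    (b : Fin n → (S18_specModL N A h).O),
    2 * RR_genus (IsLocalRing.ResidueField A)
      ↥(modularFunctionFieldFullC (IsLocalRing.ResidueField A) N) + 2 ≤ m ∧
    (∀ τ ∈ A.inertiaSubgroupIn ℚ, arithmeticGalois (modularFunctionFieldFull N) τ • O = O) ∧
    (∀ i, ∀ τ ∈ A.inertiaSubgroupIn ℚ,
      arithmeticGalois (modularFunctionFieldFull N) τ • (b i : ↥(modularFunctionFieldBar N)) =
        (b i : ↥(modularFunctionFieldBar N))) ∧
    (∀ i, ∀ P : Place (AlgebraicClosure ℚ) ↥(modularFunctionFieldBar N), P ≠ O →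
      0 ≤ P.ord (b i : ↥(modularFunctionFieldBar N))) ∧
    riemannRochSpace (Finsupp.single ((S18_specModL N A h).r O) (m : ℤ)) ≤
      Submodule.span (IsLocalRing.ResidueField A)
        (Set.range fun i => (S18_specModL N A h).red (b i))

/-- TEICH for `X₀(N)`: every residue has a lift fixed by the inertia group (as a constant of
`F`). -/
theorem S19LF_teich_X0 {ℓ : ℕ} (hℓ : ℓ.Prime) (hA : A.LiesOverPrime ℓ)
    (c : IsLocalRing.ResidueField A) :
    ∃ (a : AlgebraicClosure ℚ) (ha : a ∈ (S18_specModL N A h).A),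
      (S18_specModL N A h).res ⟨a, ha⟩ = c ∧
      ∀ g ∈ {g | ∃ τ ∈ A.inertiaSubgroupIn ℚ, g = arithmeticGalois (modularFunctionFieldFull N) τ},
        g • algebraMap (AlgebraicClosure ℚ) ↥(modularFunctionFieldBar N) a =
          algebraMap (AlgebraicClosure ℚ) ↥(modularFunctionFieldBar N) a := by
  haveI : Algebra.IsAlgebraic ℚ (AlgebraicClosure ℚ) := AlgebraicClosure.isAlgebraic ℚ
  obtain ⟨a, ha, hfix⟩ := S19TE_exists_lift A hℓ hA c
  refine ⟨(a : AlgebraicClosure ℚ), a.2, ha, ?_⟩
  rintro g ⟨τ, hτ, rfl⟩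
  rw [SemilinearAut.smul_algebraMap, baseAut_arithmeticGalois]
  exact congrArg _ (hfix τ hτ)

/-- **LIFT-P for `X₀(N)`**: every place of the reduced function field has a lift fixed by the
inertia group. -/
theorem S19LF_liftP_X0 {ℓ : ℕ} (hℓ : ℓ.Prime) (hA : A.LiesOverPrime ℓ) (hℓN : ¬ ℓ ∣ N)
    (hR : S19LF_Ratb N A h)
    (Q : Place (IsLocalRing.ResidueField A)
      ↥(modularFunctionFieldFullC (IsLocalRing.ResidueField A) N)) :
    ∃ P : Place (AlgebraicClosure ℚ) ↥(modularFunctionFieldBar N),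
      placeReductionModL h P = Q ∧
        ∀ τ ∈ A.inertiaSubgroupIn ℚ, arithmeticGalois (modularFunctionFieldFull N) τ • P = P := by
  haveI : IsAlgClosed (IsLocalRing.ResidueField A) := S18_residue_isAlgClosed A
  haveI : Infinite (IsLocalRing.ResidueField A) := IsAlgClosed.instInfinite
  obtain ⟨O, m, n, b, hm, hO, hb_inv, hb_reg, hb_span⟩ := hR
  obtain ⟨P, hP, hfix⟩ := S19LF_lift_all_of_basis (S18_specModL N A h) (S18_hPD N)
    (S18_hk N A hℓ hA hℓN)
    {g | ∃ τ ∈ A.inertiaSubgroupIn ℚ, g = arithmeticGalois (modularFunctionFieldFull N) τ}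
    O (by rintro g ⟨τ, hτ, rfl⟩; exact hO τ hτ)
    (by
      rintro g ⟨τ, hτ, rfl⟩ P
      exact S19GR_inertia N A h hℓ hA hℓN τ hτ P)
    m hm b
    (by rintro i g ⟨τ, hτ, rfl⟩; exact hb_inv i τ hτ)
    hb_reg hb_span (S19LF_teich_X0 N A h hℓ hA) Q
  exact ⟨P, hP, fun τ hτ => hfix _ ⟨τ, hτ, rfl⟩⟩

end Fermat.Agent.S19
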