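import Mathlib
import Fermat.Prelude.Def_GaloisRep_Flat
import Fermat.Agent.S19.HopfMain

/-!
# TRACK 9 (S19 / S32), package F1.x: Galois modules with a Hopf order

`S19FO_HasOrder ℓ act` : the finite abelian group `G` with the Galois action `act` has a Hopf
order of functions over `ℤ_(ℓ)`: an `R`-subalgebra `H₀ ⊂ (G → ℚ̄)` of Galois-equivariant functions,
finitely generated as a module, separating the points, with `Δ(H₀) ⊂ im(H₀ ⊗ H₀)`.

`S19FO_HasOrder.flat` : then `G` is the group of points of a finite flat cocommutative Hopf algebra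
over `ℤ_(ℓ)` (the body of `GaloisRepAdic.IsFlatAt` / the conclusion of S19) — this is `S19F_main'`.
-/

set_option autoImplicit false

noncomputable section

namespace Fermat.Agent.S19

/-- `G` has a Hopf order of functions over `ℤ_(ℓ)`. -/
def S19FO_HasOrder (ℓ : ℕ) {G : Type} [AddCommGroup G]
    (act : (AlgebraicClosure ℚ ≃ₐ[ℚ] AlgebraicClosure ℚ) → G → G) : Prop :=
  ∃ H₀ : Subalgebra ↥(GaloisRep.ratLocalizedAt ℓ) (G → AlgebraicClosure ℚ),
    (∀ f ∈ H₀, ∀ σ x, f (act σ x) = σ (f x)) ∧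
    (Subalgebra.toSubmodule H₀).FG ∧
    (∀ x y, x ≠ y → ∃ f ∈ H₀, f x ≠ f y) ∧
    (∀ f ∈ H₀, ∃ (n : ℕ) (a b : Fin n → G → AlgebraicClosure ℚ),
      (∀ i, a i ∈ H₀) ∧ (∀ i, b i ∈ H₀) ∧ ∀ x y, f (x + y) = ∑ i, a i x * b i y)

/-- A Galois module with a Hopf order is the group of points of a finite flat cocommutative Hopf
algebra over `ℤ_(ℓ)`. -/
theorem S19FO_HasOrder.flat {ℓ : ℕ} [Fact ℓ.Prime] {G : Type} [AddCommGroup G] [Finite G]
    {act : (AlgebraicClosure ℚ ≃ₐ[ℚ] AlgebraicClosure ℚ) → G → G}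
    (h : S19FO_HasOrder ℓ act) (hact0 : ∀ σ, act σ 0 = 0)
    (hsurj : ∀ σ, Function.Surjective (act σ)) :
    ∃ (H : Type) (_ : CommRing H) (_ : HopfAlgebra (GaloisRep.ratLocalizedAt ℓ) H),
      Module.Finite (GaloisRep.ratLocalizedAt ℓ) H ∧ Module.Flat (GaloisRep.ratLocalizedAt ℓ) H ∧
      Coalgebra.IsCocomm (GaloisRep.ratLocalizedAt ℓ) H ∧
      ∃ e : WithConv (H →ₐ[GaloisRep.ratLocalizedAt ℓ] AlgebraicClosure ℚ) ≃ G,
        (∀ f g, e (f * g) = e f + e g) ∧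
        ∀ (σ : AlgebraicClosure ℚ ≃ₐ[ℚ] AlgebraicClosure ℚ)
          (f g : WithConv (H →ₐ[GaloisRep.ratLocalizedAt ℓ] AlgebraicClosure ℚ)),
          (∀ h : H, g h = σ (f h)) → e g = act σ (e f) := by
  obtain ⟨H₀, h1, h2, h3, h4⟩ := h
  exact S19F_main' act hact0 hsurj H₀ h1 h2 h3 h4

end Fermat.Agent.S19
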