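import Mathlib
import Fermat.Agent.S19.RedRR
import Fermat.Agent.S34.OntoM

/-!
# TRACK 9 (S19), package RED-RR, concrete instance for `X₀(N)` at `ℓ ∤ N` (helper5)

* `S19RR_lat_of_isCart` : the lattice lemma `S19RR_Lat S` from a cartesian chart of `S.toVal`;
* `S19RR_lat_X0`        : `S19RR_Lat (S18_specModL N A h)` (chart `j`, `S34OM_isCart`);
* `S19RR_genus_X0`      : genus equality `g(F) = g(F_k)` (`S34OM_genus_eq`), re-exported.
-/

set_option autoImplicit false
set_option synthInstance.maxHeartbeats 400000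
set_option maxHeartbeats 1000000

open AlgebraicCurve ModularCurve

namespace Fermat.Agent.S19

open Fermat.Agent.Lib Fermat.Agent.S18 Fermat.Agent.S34 Fermat.Agent.S24

section Abstract

variable {L F k Fk : Type*} [Field L] [Field F] [Algebra L F] [Field k] [Field Fk]
  [Algebra k Fk]

/-- the lattice lemma from a cartesian chart of a valued function field. -/
theorem S19RR_lat_of_val (S : S18_Spec L F k Fk) (T : S18_Val L F k Fk) (hT : T = S.toVal)
    {n : ℕ} (x : T.O) (y : Fin n → T.O) (hC : T.IsCart x y) : S19RR_Lat S := by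
  subst hT
  intro V hV
  exact (hC.finrank_redSub V).ge

end Abstract

section X0

variable (N : ℕ) [NeZero N] (A : ValuationSubring (AlgebraicClosure ℚ)) {ℓ : ℕ}

/-- **the lattice lemma for `X₀(N)` at `ℓ ∤ N`**. -/
theorem S19RR_lat_X0 (hℓ : ℓ.Prime) (hℓN : ¬ ℓ ∣ N) (hA : A.LiesOverPrime ℓ)
    (h : ReductionInputsModL A N) : S19RR_Lat (S18_specModL N A h) := by
  obtain ⟨n, y, hy⟩ := S34OM_isCart N A h.choose_spec.2 hℓ hℓN hA
  exact S19RR_lat_of_val (S18_specModL N A h) (AX_G N A h.choose_spec.2).toVal rfl _ y hy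

/-- **genus equality** for `X₀(N)` at `ℓ ∤ N` (re-export of `S34OM_genus_eq`). -/
theorem S19RR_genus_X0 (hℓ : ℓ.Prime) (hℓN : ¬ ℓ ∣ N) (hA : A.LiesOverPrime ℓ) :
    RR_genus (AlgebraicClosure ℚ) ↥(modularFunctionFieldBar N) =
      RR_genus (IsLocalRing.ResidueField A)
        ↥(modularFunctionFieldFullC (IsLocalRing.ResidueField A) N) :=
  S34OM_genus_eq N A hℓ hℓN hA

end X0

end Fermat.Agent.S19
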