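import Mathlib
import Fermat.Agent.S19.Final
import Fermat.Agent.S19.Inst
import Fermat.Agent.S19.Coord
import Fermat.Agent.S19.RedRRX0
import Fermat.Agent.S19.EqvInst
import Fermat.Agent.S19.LiftJ
import Fermat.Agent.S19.LiftPX0
import Fermat.Agent.S19.DescAsm
import Fermat.Agent.S19.OrdDefs

/-!
# TRACK 9 (S19), final assembly, part 2 (helper16), prefix `S19FIN_`

`S19FIN_hasOrder` : `S19FO_HasOrder ℓ (S19F_act N ℓ k)` for `ℓ ∤ N`, from the packages on main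
(COORD, RED-RR, EQV, GALRED, LIFT-J, LIFT-P, INST, DESC assembly, GEOASM, GEOINST) and the
statements that are still open, taken as hypotheses:

* `hAdd`  : ADD3 for the charts of `D₀ = (5g+2)·∞`, `n = 4g+3`;
* `hInv`  : (g5), an inertia-invariant chart;
* `hRatb` : RATB in the shape `S19LF_Ratb` of LIFT-P;
* `hK`    : the core (K) of DESC.
-/

set_option autoImplicit false
set_option synthInstance.maxHeartbeats 400000
set_option maxHeartbeats 1000000
set_option linter.style.haveILetI false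
set_option linter.unusedSectionVars false

open AlgebraicCurve ModularCurve

namespace Fermat.Agent.S19

open Fermat.Agent.S18 Fermat.Agent.Lib Fermat.Agent.S17

/-- the statement of the core (K) of DESC (`S19D_K`, helper26). -/
def S19FIN_KStmt (ℓ : ℕ) : Prop :=
  ∀ {S : Type} [Finite S] (act : S19PW_Gal → S → S)
    (_ : ∀ x, act 1 x = x) (_ : ∀ σ τ x, act (σ * τ) x = act σ (act τ x))
    (_ : ∃ T : Finset S19PW_Om, ∀ σ : S19PW_Gal, (∀ t ∈ T, σ t = t) → ∀ x, act σ x = x)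
    (A : ValuationSubring S19PW_Om) (_ : A.LiesOverPrime ℓ)
    {ι : Type} [Finite ι] (h : ι → S → S19PW_Om)
    (_ : ∀ i x, h i x ∈ A)
    (_ : ∀ τ ∈ A.inertiaSubgroupIn ℚ, ∀ i x, h i (act τ x) = τ (h i x))
    (_ : ∀ σ ∈ A.decompositionSubgroup ℚ, ∀ i,
      (fun x => σ (h i (act σ⁻¹ x))) ∈ Algebra.adjoin ↥A (Set.range h))
    (_ : ∀ x y, (∀ i, h i x = h i y) → x = y),
    Subalgebra.toSubmodule (Algebra.adjoin ↥A (Set.range h)) ≤
      Submodule.span ↥A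
        {f | f ∈ Algebra.adjoin ↥A (Set.range h) ∧ ∀ σ x, f (act σ x) = σ (f x)}

variable (N : ℕ) [NeZero N] {ℓ : ℕ} [Fact ℓ.Prime] (k : ℕ)
  (A : ValuationSubring (AlgebraicClosure ℚ))

/-- DESC: from the output of the geometry to a Hopf order. -/
theorem S19FIN_desc (hA : A.LiesOverPrime ℓ) (hK : S19FIN_KStmt ℓ)
    {ι : Type} [Finite ι]
    (f : ι → ↥(Submodule.torsionBy ℤ (JZero N) ((ℓ : ℤ) ^ k)) → AlgebraicClosure ℚ)
    (hf : S19GA_Out A (A.decompositionSubgroup ℚ) (A.inertiaSubgroupIn ℚ) (S19F_act N ℓ k) f) :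
    S19FO_HasOrder ℓ (S19F_act N ℓ k) := by
  haveI := S19F_jzero_finite N ℓ k
  have hKf := hK (S19F_act N ℓ k) (S19F_act_one N ℓ k) (S19F_act_mul N ℓ k)
    (S19IN_cont N ℓ k) A hA f hf.int (fun τ hτ i x => hf.inert τ hτ i x)
    (fun σ hσ i => hf.dstab σ hσ i) hf.sep
  obtain ⟨H₀, -, h1, h2, h3, h4⟩ := S19DA_main (S19F_act N ℓ k) (S19F_act_one N ℓ k)
    (S19F_act_mul N ℓ k) (S19F_act_add N ℓ k) A hA f hf.int hf.sep hf.comul hKf
  exact ⟨H₀, h1, h2, h3, h4⟩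

/-- **S19, reduced to the four open statements.** -/
theorem S19FIN_hasOrder (hℓN : ¬ ℓ ∣ N) (hA : A.LiesOverPrime ℓ)
    (hK : S19FIN_KStmt ℓ)
    (hRatb : S19LF_Ratb N A (RI_main N A (Fact.out : ℓ.Prime) hA hℓN))
    (hAdd : ∀ C C' C'' : S19IF_Chart (S18_specModL N A (RI_main N A (Fact.out : ℓ.Prime) hA hℓN))
        (S17EM_D N (5 * RR_genus (AlgebraicClosure ℚ) ↥(modularFunctionFieldBar N) + 2))
        (4 * RR_genus (AlgebraicClosure ℚ) ↥(modularFunctionFieldBar N) + 3)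
        (RR_genus (AlgebraicClosure ℚ) ↥(modularFunctionFieldBar N)), S19IF_Add3 C C' C'')
    (hInv : ∃ C : S19IF_Chart (S18_specModL N A (RI_main N A (Fact.out : ℓ.Prime) hA hℓN))
        (S17EM_D N (5 * RR_genus (AlgebraicClosure ℚ) ↥(modularFunctionFieldBar N) + 2))
        (4 * RR_genus (AlgebraicClosure ℚ) ↥(modularFunctionFieldBar N) + 3)
        (RR_genus (AlgebraicClosure ℚ) ↥(modularFunctionFieldBar N)),
      ∀ τ ∈ A.inertiaSubgroupIn ℚ, ∀ (y : JZero N) κ,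
        S19IF_J1 (S18_specModL N A (RI_main N A (Fact.out : ℓ.Prime) hA hℓN)) y →
        S19IF_IsCoord C y κ → S19IF_IsCoord C (τ • y) (fun p => τ • κ p)) :
    S19FO_HasOrder ℓ (S19F_act N ℓ k) := by
  have hℓ : ℓ.Prime := Fact.out
  set h := RI_main N A hℓ hA hℓN with hh
  set g := RR_genus (AlgebraicClosure ℚ) ↥(modularFunctionFieldBar N) with hg
  haveI : Infinite (IsLocalRing.ResidueField A) := S19IN_infinite A
  have hdeg : (S17EM_D N (5 * g + 2)).degree + 1 = ((4 * g + 3 : ℕ) : ℤ) + g := by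
    rw [S17EM_D, Divisor.degree_single, S19IN_deg_one N (S17EM_O N)]
    push_cast
    ring
  have hNum : S19IF_Num (S18_specModL N A h) (S17EM_D N (5 * g + 2)) (4 * g + 3) g :=
    S19IN_num N A hℓ hA hℓN h _ _ (by exact_mod_cast hdeg) le_rfl
  have hLat := S19RR_lat_X0 N A hℓ hℓN hA h
  have hD₀ : ∀ σ : AlgebraicClosure ℚ ≃ₐ[ℚ] AlgebraicClosure ℚ,
      arithmeticGalois (modularFunctionFieldFull N) σ • S17EM_D N (5 * g + 2) =
        S17EM_D N (5 * g + 2) := fun σ => S19EQ_smul_single_O N σ _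
  obtain ⟨ι, hι, f, hf⟩ := S19FIN_geo N k A h hℓN hA (S17EM_D N (5 * g + 2)) (4 * g + 3) g
    (S19IN_J1_iff N A h)
    (fun C => (S19CO_main hNum hLat C).1)
    (fun C => (S19CO_main hNum hLat C).2.1)
    (fun C => (S19CO_main hNum hLat C).2.2)
    hAdd
    (fun σ hσ C => ⟨S19EQ_chart (S19EQ_compat_dec N A h hℓ hA hℓN ⟨σ, hσ⟩) (hD₀ σ) C,
      fun y κ _ hκ => S19EQ_isCoord (S19EQ_compat_dec N A h hℓ hA hℓN ⟨σ, hσ⟩) (hD₀ σ) C hκ⟩)
    hInv
    (fun σ hσ y hy => (S19IN_J1_iff N A h _).1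
      (S19EQ_J1_dec N A h hℓ hA hℓN ⟨σ, hσ⟩ ((S19IN_J1_iff N A h y).2 hy)))
    (fun c => S19LJ_main N A h (A.inertiaSubgroupIn ℚ)
      (fun Q => S19LF_liftP_X0 N A h hℓ hA hℓN hRatb Q) c)
  exact S19FIN_desc N k A hA hK f hf

end Fermat.Agent.S19
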