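import Mathlib
import Fermat.Agent.S19.LiftPX0
import Fermat.Agent.S19.RedRRX0
import Fermat.Agent.S17.Emb
import Fermat.Agent.S17.RRSharp

/-!
# TRACK 9 (S19), package LIFT-P: the bridge RATB ⇒ `S19LF_Ratb` ⇒ LIFT-P (helper21)

`F = modularFunctionFieldBar N`, `A ⊂ ℚ̄` over `ℓ ∤ N`, `S = S18_specModL N A h`,
`D₀ = S17EM_D N m = m · (∞)`.

* `S19LF_RatbChart N A h m` : the conclusion of RATB (`S19RB_main`, helper7) at `m`, verbatim;
* `S19LF_span_of_chart`     : an orthonormal basis of `L(D₀)` reduces onto `L̄(m · r(∞))`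
  (dimension count: Riemann–Roch on both sides + genus equality `S19RR_genus_X0`);
* `S19LF_ratb_of_chart`     : `S19LF_RatbChart N A h m`, `2 g + 2 ≤ m` ⇒ `S19LF_Ratb N A h`;
* `S19LF_liftP_of_chart`    : **LIFT-P** from RATB at one `m ≥ 2 g + 2`;
* `S19LF_liftP_of_charts`   : **LIFT-P** from RATB at all `m`.
-/

set_option autoImplicit false
set_option synthInstance.maxHeartbeats 400000
set_option maxHeartbeats 1000000
set_option linter.style.haveILetI false

open HahnSeries IntermediateField AlgebraicCurve ModularCurve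

namespace Fermat.Agent.S19

open Fermat.Agent.S18 Fermat.Agent.Lib Fermat.Agent.S17

variable (N : ℕ) [NeZero N] (A : ValuationSubring (AlgebraicClosure ℚ))
  (h : ReductionInputsModL A N)

/-- the conclusion of RATB (`S19RB_main`) at `m`, verbatim. -/
def S19LF_RatbChart (m : ℕ) : Prop :=
  ∃ (n : ℕ) (b : Fin n → ↥(modularFunctionFieldBar N))
    (hO : ∀ i, b i ∈ (S18_specModL N A h).O),
    (∀ (σ : AlgebraicClosure ℚ ≃ₐ[ℚ] AlgebraicClosure ℚ) i,
      arithmeticGalois (modularFunctionFieldFull N) σ • b i = b i) ∧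
    (∀ i, b i ∈ riemannRochSpace (S17EM_D N m)) ∧
    (∀ f ∈ riemannRochSpace (S17EM_D N m),
      ∃ c : Fin n → AlgebraicClosure ℚ, f = ∑ i, c i • b i) ∧
    LinearIndependent (IsLocalRing.ResidueField A)
      (fun i => (S18_specModL N A h).red ⟨b i, hO i⟩)

variable {N A h}

/-- an orthonormal basis of `L(m · ∞)` reduces onto `L̄(m · r(∞))`. -/
theorem S19LF_span_of_chart {ℓ : ℕ} (hℓ : ℓ.Prime) (hA : A.LiesOverPrime ℓ) (hℓN : ¬ ℓ ∣ N)
    (m : ℕ)
    (hm : 2 * RR_genus (IsLocalRing.ResidueField A)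
      ↥(modularFunctionFieldFullC (IsLocalRing.ResidueField A) N) ≤ m)
    {n : ℕ} (b : Fin n → (S18_specModL N A h).O)
    (hmem : ∀ i, (b i : ↥(modularFunctionFieldBar N)) ∈ riemannRochSpace (S17EM_D N m))
    (hspan : ∀ f ∈ riemannRochSpace (S17EM_D N m),
      ∃ c : Fin n → AlgebraicClosure ℚ, f = ∑ i, c i • (b i : ↥(modularFunctionFieldBar N)))
    (hred : LinearIndependent (IsLocalRing.ResidueField A)
      (fun i => (S18_specModL N A h).red (b i))) :
    riemannRochSpace (Finsupp.single ((S18_specModL N A h).r (S17EM_O N)) (m : ℤ)) ≤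
      Submodule.span (IsLocalRing.ResidueField A)
        (Set.range fun i => (S18_specModL N A h).red (b i)) := by
  haveI : IsAlgClosed (IsLocalRing.ResidueField A) := S18_residue_isAlgClosed A
  haveI : Infinite (IsLocalRing.ResidueField A) := IsAlgClosed.instInfinite
  haveI : Infinite (AlgebraicClosure ℚ) := IsAlgClosed.instInfinite
  have hk := S18_hk N A hℓ hA hℓN
  have hF := S18_hRR N
  have hg := S19RR_genus_X0 N A hℓ hℓN hA
  set Dk : Divisor (IsLocalRing.ResidueField A)
      ↥(modularFunctionFieldFullC (IsLocalRing.ResidueField A) N) :=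
    Finsupp.single ((S18_specModL N A h).r (S17EM_O N)) (m : ℤ) with hDk
  haveI : FiniteDimensional (IsLocalRing.ResidueField A) (riemannRochSpace Dk) :=
    RR_finite hk Dk
  haveI : FiniteDimensional (AlgebraicClosure ℚ) (riemannRochSpace (S17EM_D N m)) :=
    RR_finite hF (S17EM_D N m)
  -- the dimensions
  have hdk : Dk.degree = m := by
    rw [hDk, Divisor.degree_single, hk.deg_one, Nat.cast_one, mul_one]
  have hd : (S17EM_D N m).degree = m := by
    rw [S17EM_D, Divisor.degree_single, hF.deg_one, Nat.cast_one, mul_one]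
  have h1 := S17RS_riemann_eq hk Dk (by rw [hdk]; exact_mod_cast hm)
  have h2 := S17RS_riemann_eq hF (S17EM_D N m) (by rw [hd, hg]; exact_mod_cast hm)
  rw [hdk] at h1
  rw [hd, hg] at h2
  have hfr : Module.finrank (IsLocalRing.ResidueField A) (riemannRochSpace Dk) =
      Module.finrank (AlgebraicClosure ℚ) (riemannRochSpace (S17EM_D N m)) := by
    have : (Module.finrank (IsLocalRing.ResidueField A) (riemannRochSpace Dk) : ℤ) =
        Module.finrank (AlgebraicClosure ℚ) (riemannRochSpace (S17EM_D N m)) := by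
      rw [h1, h2]
    exact_mod_cast this
  -- `b` is a basis of `L(D₀)`
  have hli : LinearIndependent (AlgebraicClosure ℚ)
      (fun i => (b i : ↥(modularFunctionFieldBar N))) :=
    (S18_specModL N A h).toVal.linearIndependent_of_red b hred
  have hsp : riemannRochSpace (S17EM_D N m) =
      Submodule.span (AlgebraicClosure ℚ)
        (Set.range fun i => (b i : ↥(modularFunctionFieldBar N))) := by
    apply le_antisymm
    · intro f hf
      obtain ⟨c, rfl⟩ := hspan f hf
      exact Submodule.sum_mem _ fun i _ =>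
        Submodule.smul_mem _ _ (Submodule.subset_span ⟨i, rfl⟩)
    · rw [Submodule.span_le]
      rintro _ ⟨i, rfl⟩
      exact hmem i
  have hn : Module.finrank (AlgebraicClosure ℚ) (riemannRochSpace (S17EM_D N m)) = n := by
    rw [hsp, finrank_span_eq_card hli, Fintype.card_fin]
  have hnk : Module.finrank (IsLocalRing.ResidueField A)
      (Submodule.span (IsLocalRing.ResidueField A)
        (Set.range fun i => (S18_specModL N A h).red (b i))) = n := by
    rw [finrank_span_eq_card hred, Fintype.card_fin]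
  -- the span of the reductions lies in `L̄(r_* D₀)`
  have hle : Submodule.span (IsLocalRing.ResidueField A)
      (Set.range fun i => (S18_specModL N A h).red (b i)) ≤ riemannRochSpace Dk := by
    rw [Submodule.span_le]
    rintro _ ⟨i, rfl⟩
    have := S19RR_red_mem (S18_specModL N A h) (S18_hPD N) (S17EM_D N m) (b i) (hmem i)
    rwa [S17EM_D, Finsupp.mapDomain_single] at this
  have heq := Submodule.eq_of_le_of_finrank_le hle (by rw [hnk, hfr, hn])
  exact heq.ge

variable (N A h)

/-- RATB at one `m ≥ 2 g + 2` gives the input `S19LF_Ratb` of LIFT-P. -/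
theorem S19LF_ratb_of_chart {ℓ : ℕ} (hℓ : ℓ.Prime) (hA : A.LiesOverPrime ℓ) (hℓN : ¬ ℓ ∣ N)
    (m : ℕ)
    (hm : 2 * RR_genus (IsLocalRing.ResidueField A)
      ↥(modularFunctionFieldFullC (IsLocalRing.ResidueField A) N) + 2 ≤ m)
    (hC : S19LF_RatbChart N A h m) : S19LF_Ratb N A h := by
  obtain ⟨n, b, hO, hinv, hmem, hspan, hred⟩ := hC
  refine ⟨S17EM_O N, m, n, fun i => ⟨b i, hO i⟩, hm, fun τ _ => S17EM_smul_O N τ,
    fun i τ _ => hinv τ i, ?_, ?_⟩
  · intro i P hP
    have h1 := hmem i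
    rw [mem_riemannRochSpace_iff] at h1
    rcases h1 P with h0 | h1
    · change 0 ≤ P.ord (b i)
      rw [h0, Place.ord_zero]
    · have h2 : S17EM_D N m P = 0 := by
        classical
        rw [S17EM_D, Finsupp.single_apply, if_neg (Ne.symm hP)]
      rw [h2] at h1
      change 0 ≤ P.ord (b i)
      linarith
  · exact S19LF_span_of_chart hℓ hA hℓN m (by omega) (fun i => ⟨b i, hO i⟩) hmem hspan hred

/-- **LIFT-P** from RATB at one `m ≥ 2 g + 2`. -/
theorem S19LF_liftP_of_chart {ℓ : ℕ} (hℓ : ℓ.Prime) (hA : A.LiesOverPrime ℓ) (hℓN : ¬ ℓ ∣ N)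
    (m : ℕ)
    (hm : 2 * RR_genus (IsLocalRing.ResidueField A)
      ↥(modularFunctionFieldFullC (IsLocalRing.ResidueField A) N) + 2 ≤ m)
    (hC : S19LF_RatbChart N A h m)
    (Q : Place (IsLocalRing.ResidueField A)
      ↥(modularFunctionFieldFullC (IsLocalRing.ResidueField A) N)) :
    ∃ P : Place (AlgebraicClosure ℚ) ↥(modularFunctionFieldBar N),
      placeReductionModL h P = Q ∧
        ∀ τ ∈ A.inertiaSubgroupIn ℚ, arithmeticGalois (modularFunctionFieldFull N) τ • P = P :=
  S19LF_liftP_X0 N A h hℓ hA hℓN (S19LF_ratb_of_chart N A h hℓ hA hℓN m hm hC) Q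

/-- **LIFT-P** from RATB at all `m`. -/
theorem S19LF_liftP_of_charts {ℓ : ℕ} (hℓ : ℓ.Prime) (hA : A.LiesOverPrime ℓ) (hℓN : ¬ ℓ ∣ N)
    (hC : ∀ m : ℕ, S19LF_RatbChart N A h m)
    (Q : Place (IsLocalRing.ResidueField A)
      ↥(modularFunctionFieldFullC (IsLocalRing.ResidueField A) N)) :
    ∃ P : Place (AlgebraicClosure ℚ) ↥(modularFunctionFieldBar N),
      placeReductionModL h P = Q ∧
        ∀ τ ∈ A.inertiaSubgroupIn ℚ, arithmeticGalois (modularFunctionFieldFull N) τ • P = P :=
  S19LF_liftP_of_chart N A h hℓ hA hℓN _ le_rfl (hC _) Q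

end Fermat.Agent.S19
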