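import Mathlib
import Fermat.Agent.S19.Final2
import Fermat.Agent.S19.ChartEx
import Fermat.Agent.S19.LiftPRB
import Fermat.Agent.S19.DescMain
import Fermat.Agent.S19.Add3

/-!
# TRACK 9 (S19), final assembly, part 3 (helper16), prefix `S19FIN_`

* `S19FIN_inv`  : (g5) — an inertia-invariant chart from RATB (`S19LF_RatbChart`), CHART-EX, LIFT-P
                  and EQV (E3);
* `S19FIN_hasOrder'` : `S19FO_HasOrder ℓ (S19F_act N ℓ k)` from RATB and ADD3 only.
-/

set_option autoImplicit false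
set_option synthInstance.maxHeartbeats 400000
set_option maxHeartbeats 1000000
set_option linter.style.haveILetI false
set_option linter.unusedSectionVars false

open AlgebraicCurve ModularCurve

namespace Fermat.Agent.S19

open Fermat.Agent.S18 Fermat.Agent.Lib Fermat.Agent.S17

variable (N : ℕ) [NeZero N] {ℓ : ℕ} [Fact ℓ.Prime] (k : ℕ)
  (A : ValuationSubring (AlgebraicClosure ℚ)) (h : ReductionInputsModL A N)

/-- the number of elements of an orthonormal basis of `L(D₀)`. -/
theorem S19FIN_card_eq {D₀ : Divisor (AlgebraicClosure ℚ) ↥(modularFunctionFieldBar N)}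
    {n g : ℕ} [Infinite (IsLocalRing.ResidueField A)]
    (hNum : S19IF_Num (S18_specModL N A h) D₀ n g) {n' : ℕ}
    (b : Fin n' → ↥(modularFunctionFieldBar N))
    (hO : ∀ i, b i ∈ (S18_specModL N A h).O)
    (hmem : ∀ i, b i ∈ riemannRochSpace D₀)
    (hspan : ∀ f ∈ riemannRochSpace D₀, ∃ c : Fin n' → AlgebraicClosure ℚ, f = ∑ i, c i • b i)
    (hred : LinearIndependent (IsLocalRing.ResidueField A)
      (fun i => (S18_specModL N A h).red ⟨b i, hO i⟩)) : n' = n := by
  haveI := RR_finite hNum.hL D₀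
  have h1 := S19CX_finrank_D₀ (S18_specModL N A h) hNum
  have h2 := S19RR_card_le (S := S18_specModL N A h) (riemannRochSpace D₀)
    (fun i => (⟨b i, hO i⟩ : (S18_specModL N A h).O)) hmem hred
  rw [Fintype.card_fin, h1] at h2
  have h3 : riemannRochSpace D₀ ≤ Submodule.span (AlgebraicClosure ℚ) (Set.range b) := by
    intro f hf
    obtain ⟨c, rfl⟩ := hspan f hf
    exact Submodule.sum_mem _ fun i _ =>
      Submodule.smul_mem _ _ (Submodule.subset_span ⟨i, rfl⟩)
  have h4 : Module.finrank (AlgebraicClosure ℚ) (riemannRochSpace D₀) ≤ n' := by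
    haveI : Module.Finite (AlgebraicClosure ℚ)
        (Submodule.span (AlgebraicClosure ℚ) (Set.range b)) :=
      FiniteDimensional.span_of_finite _ (Set.finite_range b)
    calc Module.finrank (AlgebraicClosure ℚ) (riemannRochSpace D₀)
        ≤ Module.finrank (AlgebraicClosure ℚ)
            (Submodule.span (AlgebraicClosure ℚ) (Set.range b)) :=
          Submodule.finrank_mono h3
      _ ≤ Fintype.card (Fin n') := finrank_range_le_card b
      _ = n' := Fintype.card_fin n'
  rw [h1] at h4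
  omega

/-- **(g5)**: an inertia-invariant chart. -/
theorem S19FIN_inv (hℓN : ¬ ℓ ∣ N) (hA : A.LiesOverPrime ℓ)
    {n g m : ℕ}
    (hNum : S19IF_Num (S18_specModL N A h) (S17EM_D N m) n g) (hm : 2 * g + 2 ≤ m)
    (hRB : S19LF_RatbChart N A h m) :
    ∃ C : S19IF_Chart (S18_specModL N A h) (S17EM_D N m) n g,
      ∀ τ ∈ A.inertiaSubgroupIn ℚ, ∀ (y : JZero N) κ,
        S19IF_J1 (S18_specModL N A h) y → S19IF_IsCoord C y κ →
          S19IF_IsCoord C (τ • y) (fun p => τ • κ p) := by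
  have hℓ : ℓ.Prime := Fact.out
  haveI : Infinite (IsLocalRing.ResidueField A) := S19IN_infinite A
  have hm' : 2 * RR_genus (IsLocalRing.ResidueField A)
      ↥(modularFunctionFieldFullC (IsLocalRing.ResidueField A) N) + 2 ≤ m := by
    rw [hNum.genus_k]; exact hm
  have hRatb : S19LF_Ratb N A h := S19LF_ratb_of_chart N A h hℓ hA hℓN m hm' hRB
  obtain ⟨n', b, hO, hinv, hmem, hspan, hred⟩ := hRB
  obtain rfl : n' = n := S19FIN_card_eq N A h hNum b hO hmem hspan hred
  obtain ⟨C, Pl, hCb, hCB, hgood, -, -⟩ := S19CX_chart_ex (S18_specModL N A h) hNum b hO hmem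
    hspan hred
    (fun P => ∀ τ ∈ A.inertiaSubgroupIn ℚ,
      arithmeticGalois (modularFunctionFieldFull N) τ • P = P)
    (fun Q => S19LF_liftP_X0 N A h hℓ hA hℓN hRatb Q) ∅
  refine ⟨C, ?_⟩
  intro τ hτ y κ hy hκ
  obtain ⟨gτ, hgτ, rfl⟩ := hτ
  have hτ' : ((A.decompositionSubgroup ℚ).subtype gτ) ∈ A.inertiaSubgroupIn ℚ :=
    ⟨gτ, hgτ, rfl⟩
  have hc := S19EQ_compat_dec N A h hℓ hA hℓN gτ
  have hD₀ : S19EQ_g N A gτ • S17EM_D N m = S17EM_D N m := S19EQ_smul_single_O N _ _
  have hb : ∀ i, S19EQ_g N A gτ • C.b i = C.b i := by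
    intro i
    rw [hCb]
    exact hinv _ i
  have hB : S19EQ_g N A gτ • C.B₀ = C.B₀ := by
    rw [hCB, Finset.smul_sum]
    refine Finset.sum_congr rfl fun i _ => ?_
    rw [SemilinearAut.smul_single]
    congr 1
    exact hgood i _ hτ'
  have h1 := S19EQ_isCoord hc hD₀ C hκ
  rw [S19EQ_chart_eq hc hD₀ C hb hB] at h1
  exact h1

/-- **S19, reduced to RATB.** -/
theorem S19FIN_hasOrder' (hℓN : ¬ ℓ ∣ N) (hA : A.LiesOverPrime ℓ)
    (hRB : ∀ m : ℕ, S19LF_RatbChart N A (RI_main N A (Fact.out : ℓ.Prime) hA hℓN) m) :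
    S19FO_HasOrder ℓ (S19F_act N ℓ k) := by
  have hℓ : ℓ.Prime := Fact.out
  set h := RI_main N A hℓ hA hℓN with hh
  set g := RR_genus (AlgebraicClosure ℚ) ↥(modularFunctionFieldBar N) with hg
  have hdeg : (S17EM_D N (5 * g + 2)).degree + 1 = ((4 * g + 3 : ℕ) : ℤ) + g := by
    rw [S17EM_D, Divisor.degree_single, S19IN_deg_one N (S17EM_O N)]
    push_cast
    ring
  have hNum : S19IF_Num (S18_specModL N A h) (S17EM_D N (5 * g + 2)) (4 * g + 3) g :=
    S19IN_num N A hℓ hA hℓN h _ _ (by exact_mod_cast hdeg) le_rfl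
  haveI : Infinite (IsLocalRing.ResidueField A) := S19IN_infinite A
  have hgk : RR_genus (IsLocalRing.ResidueField A)
      ↥(modularFunctionFieldFullC (IsLocalRing.ResidueField A) N) = g := hNum.genus_k
  refine S19FIN_hasOrder N k A hℓN hA
    (by
      intro S _ act h1 h2 h3 A' hA' ι _ f ha hb hc hd
      exact S19D_K ℓ act h1 h2 h3 A' hA' f ha hb hc hd)
    (S19LF_ratb_of_chart N A h hℓ hA hℓN (5 * g + 2) (by rw [hgk]; omega) (hRB _))
    (fun C C' C'' => S19A3_main (S19RR_lat_X0 N A hℓ hℓN hA h) hNum C C' C'')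
    (S19FIN_inv N A h hℓN hA hNum (by omega) (hRB _))

end Fermat.Agent.S19
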