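import Mathlib
import Fermat.Agent.S18.LiftCart
import Fermat.Agent.S18.LiftMore

/-!
# TRACK 9 (S19), package RATB (helper7), abstract part: rational orthonormal bases

`S : S18_Val L F k Fk` a valued function field (valuation ring `A ⊂ L`, Gauss valuation ring
`O ⊂ F`), `K₀ → L` a subfield (`K₀ = ℚ`, `L = ℚ̄`).

* `S19RB_A₀ S`, `S19RB_res₀ S` : the valuation ring `A ∩ K₀` of `K₀` and the restriction of `res`;
* `S19RB_elim` : if `u · e_j = ∑_a q_{ja} w_a` with `q_{ja} ∈ K₀`, `w` an orthonormal family of `O`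
  and `u` a unit of `O`, then suitable `K₀`-combinations `v_b` of the `e_j` lie in `O`, have
  `k`-independent reductions and span the `e_j` over `K₀`
  (Gaussian elimination `S18_L_subspace_basis` over the valuation ring `A ∩ K₀`);
* `S19RB_of_cart` : the same from a cartesian chart `(x, y)` and `K₀`-rational representations
  `d_j(x) · e_j = ∑_i p_{ji}(x) · y_i`, `d_j, p_{ji} ∈ K₀[X]`.
-/

set_option autoImplicit false
set_option linter.style.haveILetI false

open Polynomial

namespace Fermat.Agent.S19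

open Fermat.Agent.S18

variable {K₀ L F k Fk : Type*} [Field K₀] [Field L] [Algebra K₀ L] [Field F] [Algebra L F]
  [Field k] [Field Fk] [Algebra k Fk]

/-- the valuation ring `A ∩ K₀` of `K₀`. -/
def S19RB_A₀ (K₀ : Type*) [Field K₀] [Algebra K₀ L] (S : S18_Val L F k Fk) :
    ValuationSubring K₀ :=
  S.A.comap (algebraMap K₀ L)

theorem S19RB_mem_A₀ (S : S18_Val L F k Fk) {c : K₀} :
    c ∈ S19RB_A₀ K₀ S ↔ algebraMap K₀ L c ∈ S.A := Iff.rfl

/-- the inclusion `A ∩ K₀ → A`. -/
def S19RB_incl (K₀ : Type*) [Field K₀] [Algebra K₀ L] (S : S18_Val L F k Fk) :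
    S19RB_A₀ K₀ S →+* S.A :=
  (algebraMap K₀ L).restrict (S19RB_A₀ K₀ S) S.A (fun _ hx => hx)

@[simp] theorem S19RB_incl_coe (S : S18_Val L F k Fk) (c : S19RB_A₀ K₀ S) :
    ((S19RB_incl K₀ S c : S.A) : L) = algebraMap K₀ L (c : K₀) := rfl

/-- the restriction of the residue map to `A ∩ K₀`. -/
def S19RB_res₀ (K₀ : Type*) [Field K₀] [Algebra K₀ L] (S : S18_Val L F k Fk) :
    S19RB_A₀ K₀ S →+* k :=
  S.res.comp (S19RB_incl K₀ S)

/-- **rational Gaussian elimination**. -/
theorem S19RB_elim (S : S18_Val L F k Fk) {I : Type*} [Fintype I] (w : I → S.O)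
    (hw : LinearIndependent k (fun a => S.red (w a))) (u : S.O) (hu : S.red u ≠ 0)
    {t : ℕ} (e : Fin t → F) (q : Fin t → I → K₀)
    (he : ∀ j, (u : F) * e j = ∑ a, algebraMap K₀ L (q j a) • (w a : F)) :
    ∃ (r : ℕ) (v : Fin r → S.O) (lam : Fin r → Fin t → K₀) (mu : Fin t → Fin r → K₀),
      (∀ b, (v b : F) = ∑ j, algebraMap K₀ L (lam b j) • e j) ∧
      LinearIndependent k (fun b => S.red (v b)) ∧
      (∀ j, e j = ∑ b, algebraMap K₀ L (mu j b) • (v b : F)) := by
  classical
  obtain ⟨r, v₀, hv₀V, hv₀ind, hv₀span⟩ :=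
    S18_L_subspace_basis (S19RB_A₀ K₀ S) (S19RB_res₀ K₀ S)
      (Submodule.span K₀ (Set.range q))
  -- the coefficient matrices
  have hlam : ∀ b, ∃ c : Fin t → K₀, ∑ j, c j • q j = fun a => ((v₀ b a : S19RB_A₀ K₀ S) : K₀) :=
    fun b => (Submodule.mem_span_range_iff_exists_fun K₀).mp (hv₀V b)
  choose lam hlam using hlam
  have hmu : ∀ j, ∃ c : Fin r → K₀,
      ∑ b, c b • (fun a => ((v₀ b a : S19RB_A₀ K₀ S) : K₀)) = q j := fun j =>
    (Submodule.mem_span_range_iff_exists_fun K₀).mp
      (hv₀span (Submodule.subset_span ⟨j, rfl⟩))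
  choose mu hmu using hmu
  -- the unit
  obtain ⟨uu, rfl⟩ := (S.red_ne_zero_iff u).mp hu
  have huF : ((uu : S.O) : F) ≠ 0 := by
    intro h0
    apply hu
    have : (uu : S.O) = 0 := Subtype.ext h0
    rw [this, map_zero]
  have hinv : (((uu⁻¹ : S.Oˣ) : S.O) : F) * ((uu : S.O) : F) = 1 := by
    have h := congrArg (fun z : S.O => (z : F)) uu.inv_mul
    exact h
  set v' : Fin r → S.O := fun b => ∑ a, S.const (S19RB_incl K₀ S (v₀ b a)) * w a with hv'
  have hv'F : ∀ b, ((v' b : S.O) : F) = ∑ a, algebraMap K₀ L ((v₀ b a : S19RB_A₀ K₀ S) : K₀) •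
      (w a : F) := by
    intro b
    rw [hv']
    push_cast
    refine Finset.sum_congr rfl fun a _ => ?_
    rw [Algebra.smul_def, S18_Val.coe_const, S19RB_incl_coe]
  have hv'e : ∀ b, ((v' b : S.O) : F) = ((uu : S.O) : F) * ∑ j, algebraMap K₀ L (lam b j) • e j := by
    intro b
    rw [hv'F, Finset.mul_sum]
    have h1 : ∀ j, ((uu : S.O) : F) * (algebraMap K₀ L (lam b j) • e j) =
        ∑ a, algebraMap K₀ L (lam b j * q j a) • (w a : F) := by
      intro j
      rw [mul_smul_comm, he j, Finset.smul_sum]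
      refine Finset.sum_congr rfl fun a _ => ?_
      rw [smul_smul, ← map_mul]
    rw [Finset.sum_congr rfl fun j _ => h1 j, Finset.sum_comm]
    refine Finset.sum_congr rfl fun a _ => ?_
    rw [← Finset.sum_smul, ← map_sum]
    congr 2
    have := congrFun (hlam b) a
    rw [Finset.sum_apply] at this
    rw [← this]
    refine Finset.sum_congr rfl fun j _ => ?_
    rw [Pi.smul_apply, smul_eq_mul]
  refine ⟨r, fun b => ((uu⁻¹ : S.Oˣ) : S.O) * v' b, lam, mu, ?_, ?_, ?_⟩
  · intro b
    push_cast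
    rw [hv'e b, ← mul_assoc, hinv, one_mul]
  · set Φk : (I → k) →ₗ[k] Fk := Fintype.linearCombination k (fun a => S.red (w a)) with hΦk
    have hker : LinearMap.ker Φk = ⊥ := by
      rw [LinearMap.ker_eq_bot']
      intro c hc
      rw [hΦk, Fintype.linearCombination_apply] at hc
      exact funext (Fintype.linearIndependent_iff.mp hw c hc)
    have h2 := hv₀ind.map' Φk hker
    have h3 : (fun b => S.red (v' b)) =
        Φk ∘ (fun b => fun a => S19RB_res₀ K₀ S (v₀ b a)) := by
      funext b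
      rw [hv', S.red_sum, Function.comp_apply, hΦk, Fintype.linearCombination_apply]
      rfl
    have h4 : LinearIndependent k (fun b => S.red (v' b)) := by
      rw [h3]
      exact h2
    have h1 : (fun b => S.red (((uu⁻¹ : S.Oˣ) : S.O) * v' b)) =
        (LinearMap.mulLeft k (S.red ((uu⁻¹ : S.Oˣ) : S.O))) ∘ fun b => S.red (v' b) := by
      funext b
      simp [map_mul]
    rw [h1]
    refine h4.map' _ ?_
    rw [LinearMap.ker_eq_bot']
    intro z hz
    rw [LinearMap.mulLeft_apply] at hz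
    have hne : S.red ((uu⁻¹ : S.Oˣ) : S.O) ≠ 0 :=
      (S.red_ne_zero_iff _).mpr (uu⁻¹).isUnit
    exact (mul_eq_zero.mp hz).resolve_left hne
  · intro j
    apply mul_left_cancel₀ huF
    rw [he j, Finset.mul_sum]
    have h1 : ∀ b, ((uu : S.O) : F) * (algebraMap K₀ L (mu j b) •
        ((((uu⁻¹ : S.Oˣ) : S.O) * v' b : S.O) : F)) =
        ∑ a, algebraMap K₀ L (mu j b * ((v₀ b a : S19RB_A₀ K₀ S) : K₀)) • (w a : F) := by
      intro b
      push_cast
      rw [mul_smul_comm, ← mul_assoc, mul_comm ((uu : S.O) : F), hinv, one_mul, hv'F,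
        Finset.smul_sum]
      refine Finset.sum_congr rfl fun a _ => ?_
      rw [smul_smul, ← map_mul]
    rw [Finset.sum_congr rfl fun b _ => h1 b, Finset.sum_comm]
    refine Finset.sum_congr rfl fun a _ => ?_
    rw [← Finset.sum_smul, ← map_sum]
    congr 2
    have := congrFun (hmu j) a
    rw [Finset.sum_apply] at this
    rw [← this]
    refine Finset.sum_congr rfl fun b _ => ?_
    rw [Pi.smul_apply, smul_eq_mul]

/-- `aeval` of a mapped polynomial of degree `< M` as a sum over `Fin M`. -/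
theorem S19RB_aeval_map (x : F) (P : K₀[X]) {M : ℕ} (hP : P.natDegree < M) :
    aeval x (P.map (algebraMap K₀ L)) =
      ∑ a : Fin M, algebraMap K₀ L (P.coeff a) • x ^ (a : ℕ) := by
  rw [aeval_eq_sum_range' (lt_of_le_of_lt natDegree_map_le hP), Finset.sum_range]
  refine Finset.sum_congr rfl fun a _ => ?_
  rw [coeff_map]

/-- **rational orthonormal basis from a cartesian chart**: if the `e_j` have `K₀`-rational
representations in the chart `(x, y)`, then suitable `K₀`-combinations of the `e_j` lie in `O`,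
have `k`-independent reductions and span the `e_j`. -/
theorem S19RB_of_cart (S : S18_Val L F k Fk) {x : S.O} {n : ℕ} {y : Fin n → S.O}
    (hC : S.IsCart x y) {t : ℕ} (e : Fin t → F)
    (hrat : ∀ j, ∃ (d : K₀[X]) (p : Fin n → K₀[X]), d ≠ 0 ∧
      aeval (x : F) (d.map (algebraMap K₀ L)) * e j =
        ∑ i, aeval (x : F) ((p i).map (algebraMap K₀ L)) * (y i : F)) :
    ∃ (r : ℕ) (v : Fin r → S.O) (lam : Fin r → Fin t → K₀) (mu : Fin t → Fin r → K₀),
      (∀ b, (v b : F) = ∑ j, algebraMap K₀ L (lam b j) • e j) ∧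
      LinearIndependent k (fun b => S.red (v b)) ∧
      (∀ j, e j = ∑ b, algebraMap K₀ L (mu j b) • (v b : F)) := by
  classical
  choose d p hd hdp using hrat
  set D : K₀[X] := ∏ j, d j with hD
  have hD0 : D ≠ 0 := Finset.prod_ne_zero_iff.mpr fun j _ => hd j
  set P : Fin t → Fin n → K₀[X] := fun j i => (∏ j' ∈ Finset.univ.erase j, d j') * p j i with hP
  have hDP : ∀ j, aeval (x : F) (D.map (algebraMap K₀ L)) * e j =
      ∑ i, aeval (x : F) ((P j i).map (algebraMap K₀ L)) * (y i : F) := by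
    intro j
    rw [hD, ← Finset.mul_prod_erase Finset.univ d (Finset.mem_univ j), Polynomial.map_mul,
      map_mul, mul_comm (aeval (x : F) ((d j).map (algebraMap K₀ L))), mul_assoc, hdp j,
      Finset.mul_sum]
    refine Finset.sum_congr rfl fun i _ => ?_
    rw [hP, Polynomial.map_mul, map_mul, mul_assoc]
  set M : ℕ := D.natDegree + (∑ j, ∑ i, (P j i).natDegree) + 1 with hM
  have hDM : D.natDegree < M := by rw [hM]; omega
  have hPM : ∀ j i, (P j i).natDegree < M := by
    intro j i
    have h1 : (P j i).natDegree ≤ ∑ i', (P j i').natDegree :=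
      Finset.single_le_sum (f := fun i' => (P j i').natDegree) (fun _ _ => Nat.zero_le _)
        (Finset.mem_univ i)
    have h2 : (∑ i', (P j i').natDegree) ≤ ∑ j', ∑ i', (P j' i').natDegree :=
      Finset.single_le_sum (f := fun j' => ∑ i', (P j' i').natDegree)
        (fun _ _ => Nat.zero_le _) (Finset.mem_univ j)
    rw [hM]; omega
  -- pivot
  set f : Fin M → K₀ := fun a => D.coeff a with hf
  have hf0 : f ≠ 0 := by
    intro h
    have := congrFun h ⟨D.natDegree, hDM⟩
    simp only [hf, Pi.zero_apply] at this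
    exact hD0 (leadingCoeff_eq_zero.mp this)
  obtain ⟨a₀, ha₀, hpiv⟩ := S18_L_exists_pivot (S19RB_A₀ K₀ S) f hf0
  set c : Fin M → S19RB_A₀ K₀ S := fun a => ⟨f a / f a₀, hpiv a⟩ with hc
  set u : S.O := ∑ a : Fin M, S.const (S19RB_incl K₀ S (c a)) * x ^ (a : ℕ) with hu
  have hured : S.red u ≠ 0 := by
    rw [hu, S.red_sum_pow]
    intro h0
    have h2 := (transcendental_iff.mp hC.transc) _ h0
    have h3 := congrArg (fun p => p.coeff (a₀ : ℕ)) h2
    simp only [finsetSum_coeff, coeff_C_mul, coeff_X_pow, coeff_zero] at h3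
    rw [Finset.sum_eq_single a₀] at h3
    · have h1 : c a₀ = 1 := by
        apply Subtype.ext
        simp [hc, div_self ha₀]
      simp [h1] at h3
    · intro a _ ha
      have : (a₀ : ℕ) ≠ (a : ℕ) := fun h => ha (Fin.ext h.symm)
      simp [this]
    · intro h
      exact absurd (Finset.mem_univ _) h
  have huF : (u : F) = algebraMap K₀ L (f a₀)⁻¹ • aeval (x : F) (D.map (algebraMap K₀ L)) := by
    rw [S19RB_aeval_map _ _ hDM, Finset.smul_sum, hu]
    have hcoe : ((∑ a : Fin M, S.const (S19RB_incl K₀ S (c a)) * x ^ (a : ℕ) : S.O) : F) =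
        ∑ a : Fin M, ((S.const (S19RB_incl K₀ S (c a)) : S.O) : F) * (x : F) ^ (a : ℕ) := by
      push_cast
      rfl
    rw [hcoe]
    refine Finset.sum_congr rfl fun a _ => ?_
    have hca : algebraMap K₀ L ((c a : S19RB_A₀ K₀ S) : K₀) =
        algebraMap K₀ L (f a₀)⁻¹ * algebraMap K₀ L (D.coeff a) := by
      rw [← map_mul]
      congr 1
      simp only [hc, hf]
      rw [div_eq_inv_mul]
    rw [S18_Val.coe_const, S19RB_incl_coe, smul_smul, hca, Algebra.smul_def]
  refine S19RB_elim S (S18_Val.cartFam x y M) (hC.linearIndependent_cartFam M) u hured e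
    (fun j ia => (f a₀)⁻¹ * (P j ia.1).coeff (ia.2 : ℕ)) ?_
  intro j
  rw [huF, smul_mul_assoc, hDP j, Finset.smul_sum, Fintype.sum_prod_type]
  refine Finset.sum_congr rfl fun i _ => ?_
  rw [S19RB_aeval_map _ _ (hPM j i), Finset.sum_mul, Finset.smul_sum]
  refine Finset.sum_congr rfl fun a _ => ?_
  have hcf : ((S18_Val.cartFam x y M (i, a) : S.O) : F) = (x : F) ^ (a : ℕ) * (y i : F) := by
    simp only [S18_Val.cartFam]
    push_cast
    rfl
  rw [hcf, smul_mul_assoc, smul_smul, map_mul]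

/-! ### the functional trick -/

/-- a `K₀`-linear functional `φ : L → K₀` applied to the coefficients of an `L`-linear relation
between `K₀`-rational vectors gives a `K₀`-linear relation. -/
theorem S19RB_functional {V X ι : Type*} [AddCommGroup V] [Module L V] [Fintype ι]
    (coef : X → V →ₗ[L] L) (hinj : ∀ v, (∀ n, coef n v = 0) → v = 0)
    (φ : L →ₗ[K₀] K₀) (g : ι → V)
    (hg : ∀ i n, coef n (g i) ∈ Set.range (algebraMap K₀ L))
    (c : ι → L) (h : ∑ i, c i • g i = 0) :
    ∑ i, algebraMap K₀ L (φ (c i)) • g i = 0 := by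
  apply hinj
  intro n
  choose r hr using hg
  have h2 : ∑ i, c i * algebraMap K₀ L (r i n) = 0 := by
    have := congrArg (coef n) h
    rw [map_sum, map_zero] at this
    rw [← this]
    refine Finset.sum_congr rfl fun i _ => ?_
    rw [map_smul, smul_eq_mul, hr]
  have h1 : ∑ i, φ (c i) * r i n = φ (∑ i, c i * algebraMap K₀ L (r i n)) := by
    rw [map_sum]
    refine Finset.sum_congr rfl fun i _ => ?_
    rw [mul_comm (c i), ← Algebra.smul_def, map_smul, smul_eq_mul, mul_comm]
  rw [map_sum]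
  have h3 : ∀ i, coef n (algebraMap K₀ L (φ (c i)) • g i) =
      algebraMap K₀ L (φ (c i) * r i n) := by
    intro i
    rw [map_smul, smul_eq_mul, ← hr, map_mul]
  rw [Finset.sum_congr rfl fun i _ => h3 i, ← map_sum, h1, h2, map_zero, map_zero]

/-- the polynomial with coefficients `φ (d.coeff a)`. -/
noncomputable def S19RB_polyMap (φ : L →ₗ[K₀] K₀) (d : L[X]) : K₀[X] :=
  ∑ a ∈ Finset.range (d.natDegree + 1), Polynomial.monomial a (φ (d.coeff a))

theorem S19RB_polyMap_coeff (φ : L →ₗ[K₀] K₀) (d : L[X]) (a : ℕ) :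
    (S19RB_polyMap φ d).coeff a = φ (d.coeff a) := by
  classical
  rw [S19RB_polyMap, Polynomial.finsetSum_coeff]
  simp only [Polynomial.coeff_monomial]
  rw [Finset.sum_ite_eq' (Finset.range (d.natDegree + 1)) a (fun b => φ (d.coeff b))]
  split_ifs with h
  · rfl
  · have h1 : d.natDegree < a := by
      rw [Finset.mem_range] at h
      omega
    rw [Polynomial.coeff_eq_zero_of_natDegree_lt h1, map_zero]

theorem S19RB_polyMap_natDegree_le (φ : L →ₗ[K₀] K₀) (d : L[X]) :
    (S19RB_polyMap φ d).natDegree ≤ d.natDegree := by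
  rw [Polynomial.natDegree_le_iff_coeff_eq_zero]
  intro a ha
  rw [S19RB_polyMap_coeff, Polynomial.coeff_eq_zero_of_natDegree_lt ha, map_zero]

/-- **rational representations**: if `x^a · e` and `x^a · y_i` are `K₀`-rational (with respect to
a jointly injective family of `L`-linear coefficient functionals), then a representation
`d(x) · e = ∑ p_i(x) · y_i` over `L` gives one over `K₀`. -/
theorem S19RB_rat_repr {X : Type*} (coef : X → F →ₗ[L] L)
    (hinj : ∀ v, (∀ n, coef n v = 0) → v = 0) (x e : F) {n : ℕ} (y : Fin n → F)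
    (hxe : ∀ (a : ℕ) (m : X), coef m (x ^ a * e) ∈ Set.range (algebraMap K₀ L))
    (hxy : ∀ (a : ℕ) (i : Fin n) (m : X), coef m (x ^ a * y i) ∈ Set.range (algebraMap K₀ L))
    (d : L[X]) (p : Fin n → L[X]) (hd : d ≠ 0)
    (h : aeval x d * e = ∑ i, aeval x (p i) * y i) :
    ∃ (d' : K₀[X]) (p' : Fin n → K₀[X]), d' ≠ 0 ∧
      aeval x (d'.map (algebraMap K₀ L)) * e =
        ∑ i, aeval x ((p' i).map (algebraMap K₀ L)) * y i := by
  classical
  -- the functional
  have hlc : d.leadingCoeff ≠ 0 := leadingCoeff_ne_zero.mpr hd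
  obtain ⟨φ, hφ⟩ : ∃ φ : Module.Dual K₀ L, φ d.leadingCoeff ≠ 0 := by
    by_contra hcon
    push Not at hcon
    exact hlc ((Module.forall_dual_apply_eq_zero_iff K₀ d.leadingCoeff).mp hcon)
  set M : ℕ := d.natDegree + (∑ i, (p i).natDegree) + 1 with hM
  have hdM : d.natDegree < M := by rw [hM]; omega
  have hpM : ∀ i, (p i).natDegree < M := by
    intro i
    have h1 : (p i).natDegree ≤ ∑ i', (p i').natDegree :=
      Finset.single_le_sum (f := fun i' => (p i').natDegree) (fun _ _ => Nat.zero_le _)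
        (Finset.mem_univ i)
    rw [hM]; omega
  refine ⟨S19RB_polyMap φ d, fun i => S19RB_polyMap φ (p i), ?_, ?_⟩
  · intro h0
    apply hφ
    have := congrArg (fun q => q.coeff d.natDegree) h0
    simpa [S19RB_polyMap_coeff] using this
  -- the relation
  set g : Fin M ⊕ (Fin n × Fin M) → F := fun z =>
    Sum.elim (fun a : Fin M => x ^ (a : ℕ) * e)
      (fun ia : Fin n × Fin M => x ^ (ia.2 : ℕ) * y ia.1) z with hg
  set c : Fin M ⊕ (Fin n × Fin M) → L := fun z =>
    Sum.elim (fun a : Fin M => d.coeff (a : ℕ))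
      (fun ia : Fin n × Fin M => -(p ia.1).coeff (ia.2 : ℕ)) z with hc
  have hexp : ∀ (q : L[X]), q.natDegree < M → ∀ z : F,
      aeval x q * z = ∑ a : Fin M, q.coeff (a : ℕ) • (x ^ (a : ℕ) * z) := by
    intro q hq z
    rw [aeval_eq_sum_range' hq, Finset.sum_range, Finset.sum_mul]
    refine Finset.sum_congr rfl fun a _ => ?_
    rw [smul_mul_assoc]
  have hrel : ∑ z, c z • g z = 0 := by
    rw [Fintype.sum_sum_type, Fintype.sum_prod_type]
    simp only [hc, hg, Sum.elim_inl, Sum.elim_inr, neg_smul, Finset.sum_neg_distrib]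
    rw [← hexp d hdM e, h, Finset.sum_congr rfl fun i _ => hexp (p i) (hpM i) (y i)]
    exact add_neg_cancel _
  have hgrat : ∀ z m, coef m (g z) ∈ Set.range (algebraMap K₀ L) := by
    rintro (a | ⟨i, a⟩) m
    · exact hxe _ m
    · exact hxy _ i m
  have hfun := S19RB_functional coef hinj φ g hgrat c hrel
  rw [Fintype.sum_sum_type, Fintype.sum_prod_type] at hfun
  simp only [hc, hg, Sum.elim_inl, Sum.elim_inr, map_neg, neg_smul,
    Finset.sum_neg_distrib] at hfun
  have hexp' : ∀ (q : L[X]), q.natDegree < M → ∀ z : F,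
      aeval x ((S19RB_polyMap φ q).map (algebraMap K₀ L)) * z =
        ∑ a : Fin M, algebraMap K₀ L (φ (q.coeff (a : ℕ))) • (x ^ (a : ℕ) * z) := by
    intro q hq z
    rw [S19RB_aeval_map x _ (lt_of_le_of_lt (S19RB_polyMap_natDegree_le φ q) hq),
      Finset.sum_mul]
    refine Finset.sum_congr rfl fun a _ => ?_
    rw [smul_mul_assoc, S19RB_polyMap_coeff]
  rw [hexp' d hdM e, Finset.sum_congr rfl fun i _ => hexp' (p i) (hpM i) (y i)]
  exact add_neg_eq_zero.mp hfun

/-! ### a cartesian chart inside a multiplicative set -/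

open IntermediateField in
/-- **rational cartesian chart**: if `Fk` is generated over `k` by the reductions of a
multiplicative set `T ⊂ O` and `[F : L(x)] ≤ [Fk : k(red x)]`, there is a cartesian chart
`(x, y)` with all `y i ∈ T`. -/
theorem S19RB_exists_cart (S : S18_Val L F k Fk) (x : S.O) (hx : Transcendental k (S.red x))
    [FiniteDimensional L⟮(x : F)⟯ F] [FiniteDimensional k⟮S.red x⟯ Fk]
    (hdeg : Module.finrank L⟮(x : F)⟯ F ≤ Module.finrank k⟮S.red x⟯ Fk)
    (T : Submonoid S.O)
    (hT : IntermediateField.adjoin k (S.red '' (T : Set S.O)) = ⊤) :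
    ∃ (n : ℕ) (y : Fin n → S.O), (∀ i, y i ∈ T) ∧ S.IsCart x y := by
  classical
  set B : Set Fk := S.red '' (T : Set S.O) with hB
  have hBm : (T.map (S.red : S.O →* Fk) : Set Fk) = B := by
    ext z
    simp only [Submonoid.coe_map, hB]
    rfl
  have h1 : Subalgebra.toSubmodule (Algebra.adjoin k⟮S.red x⟯ B) =
      Submodule.span k⟮S.red x⟯ B := by
    rw [Algebra.adjoin_eq_span, ← hBm, Submonoid.closure_eq]
  have halg : Algebra.IsAlgebraic k⟮S.red x⟯ Fk := Algebra.IsAlgebraic.of_finite _ _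
  have h4 : IntermediateField.adjoin k⟮S.red x⟯ B = ⊤ := by
    rw [eq_top_iff]
    intro z _
    have hz : z ∈ IntermediateField.adjoin k B := by rw [hT]; trivial
    have hsub : ∀ b ∈ B, b ∈ IntermediateField.adjoin k⟮S.red x⟯ B := fun b hb =>
      IntermediateField.subset_adjoin k⟮S.red x⟯ B hb
    have hle : IntermediateField.adjoin k B ≤
        (IntermediateField.adjoin k⟮S.red x⟯ B).restrictScalars k := by
      rw [IntermediateField.adjoin_le_iff]
      intro b hb
      exact (IntermediateField.mem_restrictScalars k).mpr (hsub b hb)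
    exact (IntermediateField.mem_restrictScalars k).mp (hle hz)
  have h2 : Algebra.adjoin k⟮S.red x⟯ B = ⊤ := by
    rw [← IntermediateField.adjoin_toSubalgebra, h4, IntermediateField.top_toSubalgebra]
  have hspan : Submodule.span k⟮S.red x⟯ B = ⊤ := by
    rw [← h1, h2, Algebra.top_toSubmodule]
  obtain ⟨b, hbB, hbspan, hbli⟩ := exists_linearIndependent k⟮S.red x⟯ B
  have hbfin : b.Finite := hbli.setFinite
  letI : Fintype b := hbfin.fintype
  have hcard : Module.finrank k⟮S.red x⟯ Fk ≤ Fintype.card b := by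
    have h5 := finrank_span_le_card (R := k⟮S.red x⟯) b
    rw [hbspan, hspan, finrank_top, Set.toFinset_card] at h5
    exact h5
  set n := Fintype.card b with hn
  set eq : b ≃ Fin n := Fintype.equivFin b with heq
  have hmem : ∀ i : Fin n, ∃ z : S.O, z ∈ T ∧ S.red z = ((eq.symm i : b) : Fk) := by
    intro i
    obtain ⟨z, hzT, hz⟩ := hbB (eq.symm i).2
    exact ⟨z, hzT, hz⟩
  choose y hyT hy using hmem
  have hli : LinearIndependent k⟮S.red x⟯ (fun i : Fin n => ((eq.symm i : b) : Fk)) :=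
    hbli.comp eq.symm eq.symm.injective
  refine ⟨n, y, hyT, S18_Val.IsCart.of_indep S x hx (hdeg.trans hcard) y ?_⟩
  intro p hp
  rw [Fintype.linearIndependent_iff] at hli
  have h6 : ∀ q : k[X], aeval (S.red x) q ∈ k⟮S.red x⟯ := by
    intro q
    have : aeval (S.red x) q ∈ Algebra.adjoin k {S.red x} := by
      rw [Algebra.adjoin_singleton_eq_range_aeval]
      exact ⟨q, rfl⟩
    exact algebra_adjoin_le_adjoin k _ this
  have h7 := hli (fun i => ⟨aeval (S.red x) (p i), h6 _⟩) (by
    rw [← hp]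
    refine Finset.sum_congr rfl fun i _ => ?_
    rw [IntermediateField.smul_def, smul_eq_mul, hy i])
  intro i
  have h8 := congrArg (fun z : k⟮S.red x⟯ => (z : Fk)) (h7 i)
  exact (transcendental_iff.mp hx) _ h8

end Fermat.Agent.S19
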