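import Mathlib
import Fermat.Agent.S19.RatBAbs
import Fermat.Agent.S17.Emb

/-!
# TRACK 9 (S19), package RATB (helper7), piece P3 (helper26): coefficient functionals

`F = modularFunctionFieldBar N ⊂ ℚ̄((q))`.

* `S19RC_coef N n` : the `ℚ̄`-linear functional `f ↦ n`-th coefficient of the `q`-expansion of `f`;
* `S19RC_inj`      : an element all of whose coefficients vanish is zero;
* `S19RC_rat`      : the coefficients of a Galois-invariant element are rational.
-/

set_option autoImplicit false
set_option linter.style.haveILetI false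
set_option linter.unusedVariables false
set_option linter.unusedSectionVars false

open ModularCurve HahnSeries

namespace Fermat.Agent.S19

open Fermat.Agent.S17

noncomputable section

variable (N : ℕ) [NeZero N]

/-- the `n`-th coefficient of the `q`-expansion, as a linear functional. -/
def S19RC_coef (n : ℤ) :
    ↥(modularFunctionFieldBar N) →ₗ[AlgebraicClosure ℚ] AlgebraicClosure ℚ where
  toFun f := (f : LaurentSeries (AlgebraicClosure ℚ)).coeff n
  map_add' f g := rfl
  map_smul' a f := by
    have h1 : a • f = algebraMap (AlgebraicClosure ℚ) ↥(modularFunctionFieldBar N) a * f :=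
      Algebra.smul_def a f
    show ((a • f : ↥(modularFunctionFieldBar N)) : LaurentSeries (AlgebraicClosure ℚ)).coeff n
      = a • (f : LaurentSeries (AlgebraicClosure ℚ)).coeff n
    rw [h1, S17EM_coeff_const_mul, smul_eq_mul]

theorem S19RC_coef_apply (n : ℤ) (f : ↥(modularFunctionFieldBar N)) :
    S19RC_coef N n f = (f : LaurentSeries (AlgebraicClosure ℚ)).coeff n := rfl

/-- an element all of whose coefficients vanish is zero. -/
theorem S19RC_inj (v : ↥(modularFunctionFieldBar N)) (hv : ∀ n, S19RC_coef N n v = 0) :
    v = 0 := by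
  apply Subtype.ext
  apply HahnSeries.ext
  funext n
  exact hv n

/-- the coefficients of a Galois-invariant element are rational. -/
theorem S19RC_rat (f : ↥(modularFunctionFieldBar N))
    (hf : ∀ σ : AlgebraicClosure ℚ ≃ₐ[ℚ] AlgebraicClosure ℚ,
      arithmeticGalois (modularFunctionFieldFull N) σ • f = f) (n : ℤ) :
    S19RC_coef N n f ∈ Set.range (algebraMap ℚ (AlgebraicClosure ℚ)) := by
  haveI : IsAlgClosure ℚ (AlgebraicClosure ℚ) := ⟨inferInstance, AlgebraicClosure.isAlgebraic ℚ⟩
  haveI : IsGalois ℚ (AlgebraicClosure ℚ) := IsAlgClosure.isGalois ℚ (AlgebraicClosure ℚ)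
  rw [InfiniteGalois.mem_range_algebraMap_iff_fixed]
  intro σ
  rw [S19RC_coef_apply]
  have h1 := S17EM_coeff_smul N σ f n
  rw [hf σ] at h1
  exact h1.symm

end

end Fermat.Agent.S19
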