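import Mathlib
import Fermat.Agent.S18.AsmX0
import Fermat.Agent.S18.SepAux

/-!
# TRACK 9 (S19), package RATB, piece P2 (helper21): the degree of the chart `j`

`F = modularFunctionFieldBar N`, `A ⊂ ℚ̄` a valuation ring over `ℓ ∤ N`, `κ` its residue field,
`Fκ = modularFunctionFieldFullC κ N`, `S = (S18_specModL N A h).toVal`, `jO = S18_jO N A h`
(`j` as an element of the Gauss ring `O`).

* `S19RD_transc`     : `red j` is transcendental over `κ`;
* `S19RD_finite_F`   : `F / ℚ̄(j)` is finite;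
* `S19RD_finite_k`   : `Fκ / κ(red j)` is finite;
* `S19RD_finrank_le` : `[F : ℚ̄(j)] ≤ [Fκ : κ(red j)]` (in fact equality, `S19RD_finrank_eq`).
-/

set_option autoImplicit false
set_option synthInstance.maxHeartbeats 400000
set_option maxHeartbeats 1000000
set_option linter.style.haveILetI false

open HahnSeries IntermediateField AlgebraicCurve ModularCurve

namespace Fermat.Agent.S19

open Fermat.Agent.S18 Fermat.Agent.Lib Fermat.Agent.S24

variable (N : ℕ) [NeZero N] (A : ValuationSubring (AlgebraicClosure ℚ))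
  (h : ReductionInputsModL A N)

/-- `red j = j̄` (the element `S18_jbar`), in the shape with `toVal`. -/
theorem S19RD_red_jO : (S18_specModL N A h).toVal.red (S18_jO N A h) =
    S18_jbar N (IsLocalRing.ResidueField A) :=
  S18_red_jO N A h

/-- `red j` is transcendental over `κ`. -/
theorem S19RD_transc : Transcendental (IsLocalRing.ResidueField A)
    ((S18_specModL N A h).toVal.red (S18_jO N A h)) := by
  rw [S19RD_red_jO, ← SP_jbarN_eq N A h.choose_spec.2]
  exact AX_red_jB_transcendental N A h.choose_spec.2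

/-- `F / ℚ̄(j)` is finite. -/
theorem S19RD_finite_F :
    FiniteDimensional
      (AlgebraicClosure ℚ)⟮((S18_jO N A h : (S18_specModL N A h).toVal.O) :
        ↥(modularFunctionFieldBar N))⟯ ↥(modularFunctionFieldBar N) :=
  finiteDimensional_jB N

/-- `Fκ / κ(red j)` is finite. -/
theorem S19RD_finite_k {ℓ : ℕ} [Fact ℓ.Prime] (hA : A.LiesOverPrime ℓ) (hℓN : ¬ ℓ ∣ N) :
    FiniteDimensional
      (IsLocalRing.ResidueField A)⟮(S18_specModL N A h).toVal.red (S18_jO N A h)⟯
      ↥(modularFunctionFieldFullC (IsLocalRing.ResidueField A) N) := by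
  rw [S19RD_red_jO, ← SP_jbarN_eq N A h.choose_spec.2]
  exact SP_finite_jbarN N A h.choose_spec.2 hA hℓN

/-- `[Fκ : κ(red j)] = [F : ℚ̄(j)]`. -/
theorem S19RD_finrank_eq {ℓ : ℕ} [Fact ℓ.Prime] (hA : A.LiesOverPrime ℓ) (hℓN : ¬ ℓ ∣ N) :
    Module.finrank
      (IsLocalRing.ResidueField A)⟮(S18_specModL N A h).toVal.red (S18_jO N A h)⟯
      ↥(modularFunctionFieldFullC (IsLocalRing.ResidueField A) N) =
    Module.finrank
      (AlgebraicClosure ℚ)⟮((S18_jO N A h : (S18_specModL N A h).toVal.O) :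
        ↥(modularFunctionFieldBar N))⟯ ↥(modularFunctionFieldBar N) := by
  rw [S19RD_red_jO, ← SP_jbarN_eq N A h.choose_spec.2]
  exact SP_finrank_jbarN N A h.choose_spec.2 hA hℓN

/-- `[F : ℚ̄(j)] ≤ [Fκ : κ(red j)]`. -/
theorem S19RD_finrank_le {ℓ : ℕ} [Fact ℓ.Prime] (hA : A.LiesOverPrime ℓ) (hℓN : ¬ ℓ ∣ N) :
    Module.finrank
      (AlgebraicClosure ℚ)⟮((S18_jO N A h : (S18_specModL N A h).toVal.O) :
        ↥(modularFunctionFieldBar N))⟯ ↥(modularFunctionFieldBar N) ≤
    Module.finrank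
      (IsLocalRing.ResidueField A)⟮(S18_specModL N A h).toVal.red (S18_jO N A h)⟯
      ↥(modularFunctionFieldFullC (IsLocalRing.ResidueField A) N) :=
  (S19RD_finrank_eq N A h hA hℓN).ge

end Fermat.Agent.S19
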