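import Mathlib
import Fermat.Agent.S18.Reduce
import Fermat.Agent.S18.ValDiv
import Fermat.Agent.S18.LiftVal

/-!
# TRACK 9 (S19), package RATB, piece P1 (helper6): rational generators

`S = (S18_specModL N A h).toVal` the Gauss datum of `F = ℚ̄(j(q^d) : d ∣ N)`.

* `S19RG_T N A h` : the submonoid of the elements of `O` fixed by the arithmetic Galois action;
* `S19RG_jd`      : `j(q^d)`, `d ∣ N`, as an element of `O`; it lies in `T` (`S19RG_jd_mem`) and
  reduces to `j(q^d)` over the residue field (`S19RG_red_jd`);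
* `S19RG_adjoin`  : the reductions of the elements of `T` generate `F_κ` over `κ`.
-/

set_option autoImplicit false
set_option synthInstance.maxHeartbeats 400000
set_option maxHeartbeats 1000000

open HahnSeries IntermediateField AlgebraicCurve ModularCurve

namespace Fermat.Agent.S19

open Fermat.Agent.S18

variable (N : ℕ) [NeZero N] (A : ValuationSubring (AlgebraicClosure ℚ))
  (h : ReductionInputsModL A N)

/-- the Γ-invariant elements of O. -/
def S19RG_T : Submonoid ↥(S18_specModL N A h).toVal.O where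
  carrier := {z | ∀ σ : AlgebraicClosure ℚ ≃ₐ[ℚ] AlgebraicClosure ℚ,
      arithmeticGalois (modularFunctionFieldFull N) σ • (z : ↥(modularFunctionFieldBar N)) = z}
  one_mem' := by
    intro σ
    apply Subtype.ext
    rw [coe_arithmeticGalois_smul]
    exact map_one _
  mul_mem' := by
    intro a b ha hb σ
    have h1 := congrArg Subtype.val (ha σ)
    have h2 := congrArg Subtype.val (hb σ)
    rw [coe_arithmeticGalois_smul] at h1 h2
    apply Subtype.ext
    rw [coe_arithmeticGalois_smul]
    show coeffMap _ (((a : ↥(modularFunctionFieldBar N)) : LaurentSeries (AlgebraicClosure ℚ)) *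
      ((b : ↥(modularFunctionFieldBar N)) : LaurentSeries (AlgebraicClosure ℚ))) = _
    rw [map_mul, h1, h2]
    rfl

theorem S19RG_mem_T {z : ↥(S18_specModL N A h).toVal.O} :
    z ∈ S19RG_T N A h ↔ ∀ σ : AlgebraicClosure ℚ ≃ₐ[ℚ] AlgebraicClosure ℚ,
      arithmeticGalois (modularFunctionFieldFull N) σ • (z : ↥(modularFunctionFieldBar N)) = z :=
  Iff.rfl

/-- `j(q^d)` as an element of `B`. -/
noncomputable def S19RG_jdB {d : ℕ} [NeZero d] (hd : d ∣ N) : S18_B A N :=
  ⟨jqNModC A d, S18_jqN_mem_B A N hd⟩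

/-- `j(q^d)` as an element of the Gauss ring. -/
noncomputable def S19RG_jd {d : ℕ} [NeZero d] (hd : d ∣ N) : ↥(S18_specModL N A h).toVal.O :=
  ⟨S18_Bι A N (S19RG_jdB N A hd), S18_Bι_mem_O A N _⟩

theorem S19RG_jd_coe {d : ℕ} [NeZero d] (hd : d ∣ N) :
    (((S19RG_jd N A h hd : ↥(S18_specModL N A h).toVal.O) : ↥(modularFunctionFieldBar N)) :
      LaurentSeries (AlgebraicClosure ℚ)) = coeffEmb (AlgebraicClosure ℚ) (jqNModC ℚ d) := by
  show coeffMap A.subtype (jqNModC A d) = coeffEmb (AlgebraicClosure ℚ) (jqNModC ℚ d)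
  rw [coeffMap_jqNModC, coeffEmb, coeffMap_jqNModC]

theorem S19RG_jd_mem {d : ℕ} [NeZero d] (hd : d ∣ N) : S19RG_jd N A h hd ∈ S19RG_T N A h := by
  intro σ
  apply Subtype.ext
  rw [coe_arithmeticGalois_smul, S19RG_jd_coe, coeffMap_coeffEmb]

theorem S19RG_red_jd {d : ℕ} [NeZero d] (hd : d ∣ N) :
    (((S18_specModL N A h).toVal.red (S19RG_jd N A h hd) :
      ↥(modularFunctionFieldFullC (IsLocalRing.ResidueField A) N)) :
      LaurentSeries (IsLocalRing.ResidueField A)) =
      qExpand (IsLocalRing.ResidueField A) d (jqModC (IsLocalRing.ResidueField A)) := by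
  have h1 : (S18_specModL N A h).toVal.red (S19RG_jd N A h hd) =
      S18_Bρ A N (S19RG_jdB N A hd) := by
    show S18_red A N ⟨S18_Bι A N (S19RG_jdB N A hd), S18_Bι_mem_O A N _⟩ = _
    exact S18_red_Bι A N _
  rw [h1]
  show coeffMap (IsLocalRing.residue A) (jqNModC A d) = _
  rw [coeffMap_jqNModC]
  rfl

/-- **P1**: the reductions of the Galois-invariant elements of `O` generate `F_κ`. -/
theorem S19RG_adjoin :
    IntermediateField.adjoin (IsLocalRing.ResidueField A)
      ((S18_specModL N A h).toVal.red '' (S19RG_T N A h : Set ↥(S18_specModL N A h).toVal.O)) = ⊤ := by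
  rw [eq_top_iff]
  intro x _
  rw [← IntermediateField.mem_lift]
  have hle : modularFunctionFieldFullC (IsLocalRing.ResidueField A) N ≤
      IntermediateField.lift (IntermediateField.adjoin (IsLocalRing.ResidueField A)
        ((S18_specModL N A h).toVal.red ''
          (S19RG_T N A h : Set ↥(S18_specModL N A h).toVal.O))) := by
    show IntermediateField.adjoin (IsLocalRing.ResidueField A)
      (divisorExpansionsC (IsLocalRing.ResidueField A) N) ≤ _
    rw [IntermediateField.adjoin_le_iff]
    rintro y ⟨d, hd0, hd, rfl⟩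
    have := hd0
    have hmem : qExpand (IsLocalRing.ResidueField A) d (jqModC (IsLocalRing.ResidueField A)) ∈
        modularFunctionFieldFullC (IsLocalRing.ResidueField A) N :=
      jqModCd_mem_full _ N hd
    refine (IntermediateField.mem_lift
      (⟨_, hmem⟩ : ↥(modularFunctionFieldFullC (IsLocalRing.ResidueField A) N))).mpr ?_
    refine IntermediateField.subset_adjoin _ _ ⟨S19RG_jd N A h hd, S19RG_jd_mem N A h hd, ?_⟩
    exact Subtype.ext (S19RG_red_jd N A h hd)
  exact hle x.2

end Fermat.Agent.S19
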