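import Mathlib
import Fermat.Agent.S19.RatBAbs
import Fermat.Agent.S17.Emb2
import Fermat.Agent.S19.RatBGen
import Fermat.Agent.S19.RatBDeg
import Fermat.Agent.S19.RatBCoef

/-!
# TRACK 9 (S19), package RATB (helper7): a `Γ`-invariant orthonormal basis of `L(m · ∞)`

`F = modularFunctionFieldBar N`, `S : S18_Spec ℚ̄ F k Fk` a specialisation datum.

* `S19RB_main` : **RATB** for `X₀(N)`, `ℓ ∤ N` (pieces P1 `RatBGen` helper6, P2 `RatBDeg` helper28,
  P3 `RatBCoef` helper26).
* `S19RB_main_of` : from a `Γ`-invariant chart function `x` (degree preservation), a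
  multiplicative set `T` of `Γ`-invariant elements of `O` whose reductions generate `Fk`, and
  coefficient functionals detecting rationality, the space `L(m · ∞)` has a basis of
  `Γ`-invariant elements of `O` with `k`-independent reductions.
-/

set_option autoImplicit false
set_option synthInstance.maxHeartbeats 400000
set_option maxHeartbeats 1000000
set_option linter.style.haveILetI false
set_option linter.unusedSectionVars false

open AlgebraicCurve ModularCurve IntermediateField Polynomial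

namespace Fermat.Agent.S19

open Fermat.Agent.S18 Fermat.Agent.S17

variable (N : ℕ) [NeZero N]

/-- the Galois action on a rational multiple. -/
theorem S19RB_smul_rat_smul (σ : AlgebraicClosure ℚ ≃ₐ[ℚ] AlgebraicClosure ℚ) (c : ℚ)
    (f : ↥(modularFunctionFieldBar N)) :
    arithmeticGalois (modularFunctionFieldFull N) σ •
        (algebraMap ℚ (AlgebraicClosure ℚ) c • f) =
      algebraMap ℚ (AlgebraicClosure ℚ) c •
        (arithmeticGalois (modularFunctionFieldFull N) σ • f) := by
  rw [Algebra.smul_def, smul_mul', SemilinearAut.smul_algebraMap, baseAut_arithmeticGalois,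
    Algebra.smul_def]
  congr 2
  exact σ.commutes c

/-- a rational combination of invariant functions is invariant. -/
theorem S19RB_smul_sum {ι : Type*} (s : Finset ι)
    (σ : AlgebraicClosure ℚ ≃ₐ[ℚ] AlgebraicClosure ℚ) (c : ι → ℚ)
    (f : ι → ↥(modularFunctionFieldBar N))
    (hf : ∀ i, arithmeticGalois (modularFunctionFieldFull N) σ • f i = f i) :
    arithmeticGalois (modularFunctionFieldFull N) σ •
        (∑ i ∈ s, algebraMap ℚ (AlgebraicClosure ℚ) (c i) • f i) =
      ∑ i ∈ s, algebraMap ℚ (AlgebraicClosure ℚ) (c i) • f i := by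
  rw [Finset.smul_sum]
  refine Finset.sum_congr rfl fun i _ => ?_
  rw [S19RB_smul_rat_smul, hf i]

/-- **RATB**, from the inputs P1–P3. -/
theorem S19RB_main_of {k Fk : Type*} [Field k] [Field Fk] [Algebra k Fk]
    (S : S18_Spec (AlgebraicClosure ℚ) ↥(modularFunctionFieldBar N) k Fk)
    (x : S.toVal.O) (hx : Transcendental k (S.toVal.red x))
    (hxinv : ∀ σ : AlgebraicClosure ℚ ≃ₐ[ℚ] AlgebraicClosure ℚ,
      arithmeticGalois (modularFunctionFieldFull N) σ • (x : ↥(modularFunctionFieldBar N)) = x)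
    (hfinF : FiniteDimensional (AlgebraicClosure ℚ)⟮(x : ↥(modularFunctionFieldBar N))⟯
      ↥(modularFunctionFieldBar N))
    (hfink : FiniteDimensional k⟮S.toVal.red x⟯ Fk)
    (hdeg : Module.finrank (AlgebraicClosure ℚ)⟮(x : ↥(modularFunctionFieldBar N))⟯
        ↥(modularFunctionFieldBar N) ≤ Module.finrank k⟮S.toVal.red x⟯ Fk)
    (T : Submonoid S.toVal.O)
    (hT : ∀ z ∈ T, ∀ σ : AlgebraicClosure ℚ ≃ₐ[ℚ] AlgebraicClosure ℚ,
      arithmeticGalois (modularFunctionFieldFull N) σ • (z : ↥(modularFunctionFieldBar N)) = z)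
    (hadj : IntermediateField.adjoin k (S.toVal.red '' (T : Set S.toVal.O)) = ⊤)
    (coef : ℤ → ↥(modularFunctionFieldBar N) →ₗ[AlgebraicClosure ℚ] AlgebraicClosure ℚ)
    (hinj : ∀ v, (∀ n, coef n v = 0) → v = 0)
    (hrat : ∀ f : ↥(modularFunctionFieldBar N),
      (∀ σ : AlgebraicClosure ℚ ≃ₐ[ℚ] AlgebraicClosure ℚ,
        arithmeticGalois (modularFunctionFieldFull N) σ • f = f) →
      ∀ n, coef n f ∈ Set.range (algebraMap ℚ (AlgebraicClosure ℚ)))
    (m : ℕ) :
    ∃ (n : ℕ) (b : Fin n → ↥(modularFunctionFieldBar N))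
      (hO : ∀ i, b i ∈ S.O),
      (∀ (σ : AlgebraicClosure ℚ ≃ₐ[ℚ] AlgebraicClosure ℚ) i,
          arithmeticGalois (modularFunctionFieldFull N) σ • b i = b i) ∧
      (∀ i, b i ∈ riemannRochSpace (S17EM_D N m)) ∧
      (∀ f ∈ riemannRochSpace (S17EM_D N m),
          ∃ c : Fin n → AlgebraicClosure ℚ, f = ∑ i, c i • b i) ∧
      LinearIndependent k (fun i => S.red ⟨b i, hO i⟩) := by
  classical
  obtain ⟨n, y, hyT, hC⟩ := S19RB_exists_cart S.toVal x hx hdeg T hadj
  -- rational representations of the echelon basis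
  have hrep : ∀ j : Fin (S17EM_r N m + 1), ∃ (d : ℚ[X]) (p : Fin n → ℚ[X]), d ≠ 0 ∧
      aeval (x : ↥(modularFunctionFieldBar N)) (d.map (algebraMap ℚ (AlgebraicClosure ℚ))) *
          S17EM_e N m j =
        ∑ i, aeval (x : ↥(modularFunctionFieldBar N))
          ((p i).map (algebraMap ℚ (AlgebraicClosure ℚ))) *
            (y i : ↥(modularFunctionFieldBar N)) := by
    intro j
    obtain ⟨d, p, hd, hdp⟩ := hC.span (S17EM_e N m j)
    refine S19RB_rat_repr (K₀ := ℚ) coef hinj (x : ↥(modularFunctionFieldBar N))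
      (S17EM_e N m j) (fun i => (y i : ↥(modularFunctionFieldBar N))) ?_ ?_ d p hd hdp
    · intro a l
      refine hrat _ (fun σ => ?_) l
      rw [smul_mul', smul_pow', hxinv σ, S17EM_e_rational]
    · intro a i l
      refine hrat _ (fun σ => ?_) l
      rw [smul_mul', smul_pow', hxinv σ, hT _ (hyT i) σ]
  obtain ⟨r, v, lam, mu, hv, hvind, hvspan⟩ :=
    S19RB_of_cart (K₀ := ℚ) S.toVal hC (S17EM_e N m) hrep
  refine ⟨r, fun b => (v b : ↥(modularFunctionFieldBar N)), fun b => (v b).2, ?_, ?_, ?_, ?_⟩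
  · intro σ b
    show arithmeticGalois (modularFunctionFieldFull N) σ • (v b : ↥(modularFunctionFieldBar N)) =
      (v b : ↥(modularFunctionFieldBar N))
    rw [hv b]
    exact S19RB_smul_sum N Finset.univ σ (lam b) (S17EM_e N m)
      (fun j => S17EM_e_rational N m σ j)
  · intro b
    show (v b : ↥(modularFunctionFieldBar N)) ∈ riemannRochSpace (S17EM_D N m)
    rw [hv b]
    exact Submodule.sum_mem _ fun j _ => Submodule.smul_mem _ _ (S17EM_e_mem N m j)
  · intro f hf
    rw [← S17EM_span_e, Submodule.mem_span_range_iff_exists_fun] at hf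
    obtain ⟨c, rfl⟩ := hf
    refine ⟨fun b => ∑ j, c j * algebraMap ℚ (AlgebraicClosure ℚ) (mu j b), ?_⟩
    have h1 : ∀ j, c j • S17EM_e N m j =
        ∑ b, (c j * algebraMap ℚ (AlgebraicClosure ℚ) (mu j b)) •
          (v b : ↥(modularFunctionFieldBar N)) := by
      intro j
      conv_lhs => rw [hvspan j]
      rw [Finset.smul_sum]
      refine Finset.sum_congr rfl fun b _ => ?_
      rw [smul_smul]
    rw [Finset.sum_congr rfl fun j _ => h1 j, Finset.sum_comm]
    refine Finset.sum_congr rfl fun b _ => ?_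
    rw [Finset.sum_smul]
  · exact hvind

/-- `j` is `Γ`-invariant. -/
theorem S19RB_jO_inv (A : ValuationSubring (AlgebraicClosure ℚ)) (h : ReductionInputsModL A N)
    (σ : AlgebraicClosure ℚ ≃ₐ[ℚ] AlgebraicClosure ℚ) :
    arithmeticGalois (modularFunctionFieldFull N) σ •
        ((S18_jO N A h : (S18_specModL N A h).toVal.O) : ↥(modularFunctionFieldBar N)) =
      ((S18_jO N A h : (S18_specModL N A h).toVal.O) : ↥(modularFunctionFieldBar N)) :=
  Subtype.ext (coeffMap_coeffEmb σ _)

/-- **RATB**: a `Γ`-invariant orthonormal basis of `L(m · ∞)`. -/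
theorem S19RB_main (A : ValuationSubring (AlgebraicClosure ℚ))
    (h : ReductionInputsModL A N) {ℓ : ℕ} [Fact ℓ.Prime] (hA : A.LiesOverPrime ℓ) (hℓN : ¬ ℓ ∣ N)
    (m : ℕ) :
    ∃ (n : ℕ) (b : Fin n → ↥(modularFunctionFieldBar N))
      (hO : ∀ i, b i ∈ (S18_specModL N A h).O),
      (∀ (σ : AlgebraicClosure ℚ ≃ₐ[ℚ] AlgebraicClosure ℚ) i,
          arithmeticGalois (modularFunctionFieldFull N) σ • b i = b i) ∧
      (∀ i, b i ∈ riemannRochSpace (S17EM_D N m)) ∧
      (∀ f ∈ riemannRochSpace (S17EM_D N m),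
          ∃ c : Fin n → AlgebraicClosure ℚ, f = ∑ i, c i • b i) ∧
      LinearIndependent (IsLocalRing.ResidueField A)
        (fun i => (S18_specModL N A h).red ⟨b i, hO i⟩) :=
  S19RB_main_of N (S18_specModL N A h) (S18_jO N A h) (S19RD_transc N A h)
    (S19RB_jO_inv N A h) (S19RD_finite_F N A h) (S19RD_finite_k N A h hA hℓN)
    (S19RD_finrank_le N A h hA hℓN) (S19RG_T N A h) (fun _ hz => hz) (S19RG_adjoin N A h)
    (S19RC_coef N) (S19RC_inj N) (S19RC_rat N) m

end Fermat.Agent.S19
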