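import Mathlib
import Fermat.Agent.S19.Final3
import Fermat.Agent.S19.RatB
import Fermat.Agent.Lib.FrobExists

/-!
# TRACK 9 — S19: the final statement in `HasOrder` form

`S19FIN_main`: for a prime `ℓ ∤ N`, the Galois action on `J₀(N)[ℓ^k]` has an order
(`S19FO_HasOrder`), obtained from `S19FIN_hasOrder'` (everything but RATB) and
`S19RB_main` (RATB).
-/

namespace Fermat.Agent.S19

open ModularCurve

theorem S19FIN_main (N : ℕ) [NeZero N] (ℓ : ℕ) [Fact ℓ.Prime] (hℓN : ¬ ℓ ∣ N) (k : ℕ) :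
    S19FO_HasOrder ℓ (S19F_act N ℓ k) := by
  obtain ⟨A, hA⟩ := Fermat.Agent.Lib.frobExists_exists_valuationSubring ℓ (Fact.out : ℓ.Prime)
  exact S19FIN_hasOrder' N k A hℓN hA (fun m => S19RB_main N A _ hA hℓN m)

end Fermat.Agent.S19
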