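import Mathlib

/-!
# TRACK 9 "FLAT" (S19), package CRK (helper10): pointwise ranks ⇒ unit minor + vanishing minors

Setting: `B` a commutative ring ("functions on a finite set `S` with values in a valuation ring,
all in one residue class"), `ev s : B →+* K` the evaluations (`K` a field), `π : B →+* k` the
reduction (`k` a field), with

* `hinj`  : `b = 0` as soon as `ev s b = 0` for all `s`   (`B ↪ ∏_s K`),
* `hunit` : `π b ≠ 0 → IsUnit b`                          (`B` local with reduction `π`).

Main results (prefix `S19CR_`):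

* `S19CR_exists_cols`, `S19CR_exists_minor` : over a field, `ρ ≤ rank M` gives `ρ` independent
  columns resp. a non-vanishing `ρ × ρ` minor;
* `S19CR_minor_eq_zero` : over a field, `rank M ≤ ρ` kills every minor of size `> ρ`;
* `S19CR_unit_minor`, `S19CR_minors_vanish`, `S19CR_minors` : the same over `B` from the
  POINTWISE hypotheses `rank (ev s M) ≤ ρ` (all `s`) and `ρ ≤ rank (π M)`:
  a `ρ × ρ` minor of `M` is a unit of `B` and all larger minors of `M` vanish in `B`.
  These are exactly the hypotheses of the Cramer package LA.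
-/

set_option autoImplicit false
set_option linter.unusedSectionVars false
set_option linter.style.haveILetI false

namespace Fermat.Agent.S19

open Matrix Module

section field

variable {k : Type*} [Field k] {m n : Type*} [Fintype m] [Fintype n]

/-- over a field, `ρ ≤ rank M` gives `ρ` linearly independent columns. -/
theorem S19CR_exists_cols (M : Matrix m n k) (ρ : ℕ) (h : ρ ≤ M.rank) :
    ∃ g : Fin ρ → n, LinearIndependent k (fun a => M.col (g a)) := by
  classical
  obtain ⟨κ, a, ha, hspan, hli⟩ := exists_linearIndependent' k M.col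
  haveI : Finite κ := Finite.of_injective a ha
  haveI := Fintype.ofFinite κ
  have hcard : Fintype.card κ = M.rank := by
    rw [Matrix.rank_eq_finrank_span_cols, ← hspan]
    exact (finrank_span_eq_card hli).symm
  have hle : Fintype.card (Fin ρ) ≤ Fintype.card κ := by
    rw [Fintype.card_fin, hcard]; exact h
  obtain ⟨e⟩ : Nonempty (Fin ρ ↪ κ) := Function.Embedding.nonempty_of_card_le hle
  exact ⟨a ∘ e, hli.comp e e.injective⟩

/-- over a field, `ρ ≤ rank M` gives a non-vanishing `ρ × ρ` minor. -/
theorem S19CR_exists_minor [DecidableEq m] [DecidableEq n] (M : Matrix m n k) (ρ : ℕ)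
    (h : ρ ≤ M.rank) :
    ∃ (f : Fin ρ → m) (g : Fin ρ → n), (M.submatrix f g).det ≠ 0 := by
  classical
  obtain ⟨g, hg⟩ := S19CR_exists_cols M ρ h
  -- the matrix of the chosen columns, transposed
  set N₀ : Matrix (Fin ρ) m k := (M.submatrix id g)ᵀ with hN₀
  have hrow : LinearIndependent k N₀.row := by
    have : N₀.row = fun a => M.col (g a) := by
      funext a i
      rfl
    rw [this]; exact hg
  have hrank : N₀.rank = ρ := by
    rw [hrow.rank_matrix, Fintype.card_fin]
  obtain ⟨f, hf⟩ := S19CR_exists_cols N₀ ρ hrank.ge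
  refine ⟨f, g, ?_⟩
  have hrows : LinearIndependent k (M.submatrix f g).row := by
    have : (M.submatrix f g).row = fun b => N₀.col (f b) := by
      funext b a
      rfl
    rw [this]; exact hf
  have hunit : IsUnit (M.submatrix f g) := Matrix.linearIndependent_rows_iff_isUnit.mp hrows
  exact ((Matrix.isUnit_iff_isUnit_det _).mp hunit).ne_zero

/-- over a field, `rank M ≤ ρ` kills every minor of size `> ρ`. -/
theorem S19CR_minor_eq_zero (M : Matrix m n k) (ρ : ℕ) (h : M.rank ≤ ρ)
    {ι : Type*} [Fintype ι] [DecidableEq ι] (f : ι → m) (g : ι → n) (hι : ρ < Fintype.card ι) :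
    (M.submatrix f g).det = 0 := by
  by_contra hne
  have hunit : IsUnit (M.submatrix f g) :=
    (Matrix.isUnit_iff_isUnit_det _).mpr (isUnit_iff_ne_zero.mpr hne)
  have h1 : (M.submatrix f g).rank = Fintype.card ι := Matrix.rank_of_isUnit _ hunit
  have h2 : (M.submatrix f g).rank ≤ M.rank := Matrix.rank_submatrix_le M f g
  omega

end field

section ring

variable {B K k S : Type*} [CommRing B] [Field K] [Field k]
variable (ev : S → B →+* K) (π : B →+* k)
variable {m n : Type*} [Fintype m] [Fintype n] [DecidableEq m] [DecidableEq n]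

/-- a ring homomorphism commutes with minors. -/
theorem S19CR_map_minor {B' : Type*} [CommRing B'] (φ : B →+* B') (M : Matrix m n B)
    {ι : Type*} [Fintype ι] [DecidableEq ι] (f : ι → m) (g : ι → n) :
    φ (M.submatrix f g).det = ((M.map φ).submatrix f g).det := by
  rw [RingHom.map_det]
  rfl

variable {ev π}

/-- **unit minor**: if the reduction of `M` has rank `≥ ρ`, some `ρ × ρ` minor of `M` is a unit. -/
theorem S19CR_unit_minor (hunit : ∀ b : B, π b ≠ 0 → IsUnit b)
    (M : Matrix m n B) (ρ : ℕ) (hk : ρ ≤ (M.map π).rank) :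
    ∃ (f : Fin ρ → m) (g : Fin ρ → n), IsUnit (M.submatrix f g).det := by
  obtain ⟨f, g, hfg⟩ := S19CR_exists_minor (M.map π) ρ hk
  refine ⟨f, g, hunit _ ?_⟩
  rw [S19CR_map_minor]
  exact hfg

/-- **vanishing minors**: if all evaluations of `M` have rank `≤ ρ`, every minor of `M` of size
`> ρ` vanishes in `B`. -/
theorem S19CR_minors_vanish (hinj : ∀ b : B, (∀ s, ev s b = 0) → b = 0)
    (M : Matrix m n B) (ρ : ℕ) (hK : ∀ s, ((M.map (ev s)).rank ≤ ρ))
    {ι : Type*} [Fintype ι] [DecidableEq ι] (f : ι → m) (g : ι → n) (hι : ρ < Fintype.card ι) :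
    (M.submatrix f g).det = 0 := by
  refine hinj _ (fun s => ?_)
  rw [S19CR_map_minor]
  exact S19CR_minor_eq_zero _ ρ (hK s) f g hι

/-- **CRK (minor form)**: pointwise ranks give the hypotheses of Cramer's rule over `B`. -/
theorem S19CR_minors (hinj : ∀ b : B, (∀ s, ev s b = 0) → b = 0)
    (hunit : ∀ b : B, π b ≠ 0 → IsUnit b)
    (M : Matrix m n B) (ρ : ℕ) (hK : ∀ s, ((M.map (ev s)).rank ≤ ρ))
    (hk : ρ ≤ (M.map π).rank) :
    (∃ (f : Fin ρ → m) (g : Fin ρ → n), IsUnit (M.submatrix f g).det) ∧
      (∀ (f : Fin (ρ + 1) → m) (g : Fin (ρ + 1) → n), (M.submatrix f g).det = 0) :=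
  ⟨S19CR_unit_minor hunit M ρ hk,
    fun f g => S19CR_minors_vanish hinj M ρ hK f g (by simp)⟩

end ring

end Fermat.Agent.S19
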