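import Mathlib

/-!
# TRACK 9 "FLAT" (S19), package CRK (helper10), part 2: the local ring `A[κ] ⊂ Map(S, Ω)`

`Ω` a field, `A` a valuation subring, `S` a finite set with a base point `s₀`, `gens` a set of
functions `S → Ω` with values in `A` which are constant modulo `𝔪_A`
(`f s - f s₀ ∈ A.nonunits`).  Then `B := Algebra.adjoin A gens ⊂ (S → Ω)` is a local ring:

* `S19CR_adjoin_int`, `S19CR_adjoin_const` : every `b ∈ B` has values in `A`, constant mod `𝔪_A`;
* `S19CR_inv_mem` : (u) if all values of `b ∈ B'` (any subalgebra of `S → Ω`) are units of `A`,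
  then `b⁻¹ ∈ B'`;
* `S19CR_pi` : the reduction `π : B →+* A/𝔪_A`, `π b = residue (b s)` for EVERY `s`
  (`S19CR_pi_apply`);
* `S19CR_pi_unit` : `π b ≠ 0 → IsUnit b`;   `S19CR_ev_inj` : `B ↪ ∏_s Ω`.

These are the two fields `inj`, `unit` of the structure `S19LB_Loc` of the family layer LINB for
`ev s := evaluation at s` and `π := S19CR_pi`.
-/

set_option autoImplicit false
set_option linter.unusedSectionVars false
set_option linter.style.haveILetI false

namespace Fermat.Agent.S19

open Polynomial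

section unit

variable {A T : Type*} [CommRing A] [CommRing T] [Algebra A T]

/-- an element killed by a polynomial with unit constant coefficient is invertible inside
`A[b]`. -/
theorem S19CR_inv_of_aeval (b : T) (p : A[X]) (hp : aeval b p = 0) (h0 : IsUnit (p.coeff 0)) :
    ∃ c ∈ Algebra.adjoin A {b}, b * c = 1 := by
  obtain ⟨u, hu⟩ := h0
  have hdiv : p = divX p * X + C (p.coeff 0) := (divX_mul_X_add p).symm
  have h1 : aeval b (divX p) * b + algebraMap A T (p.coeff 0) = 0 := by
    have := congrArg (aeval b) hdiv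
    rw [hp] at this
    simpa using this.symm
  refine ⟨- (algebraMap A T (↑u⁻¹ : A)) * aeval b (divX p), ?_, ?_⟩
  · refine Subalgebra.mul_mem _ (Subalgebra.neg_mem _ (Subalgebra.algebraMap_mem _ _)) ?_
    exact aeval_mem_adjoin_singleton A b
  · have h2 : aeval b (divX p) * b = - algebraMap A T (p.coeff 0) := by
      rw [eq_neg_iff_add_eq_zero]; exact h1
    calc b * (- (algebraMap A T (↑u⁻¹ : A)) * aeval b (divX p))
        = - (algebraMap A T (↑u⁻¹ : A)) * (aeval b (divX p) * b) := by ring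
      _ = algebraMap A T (↑u⁻¹ : A) * algebraMap A T (p.coeff 0) := by rw [h2]; ring
      _ = algebraMap A T ((↑u⁻¹ : A) * p.coeff 0) := by rw [map_mul]
      _ = 1 := by rw [← hu, Units.inv_mul, map_one]

end unit

section valuation

variable {Ω : Type*} [Field Ω] (A : ValuationSubring Ω) {S : Type*}

/-- (u): a function with unit values in `A` is invertible in every `A`-subalgebra of `S → Ω`
containing it. -/
theorem S19CR_inv_mem [Finite S] (B' : Subalgebra ↥A (S → Ω)) (b : S → Ω) (hb : b ∈ B')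
    (hint : ∀ s, b s ∈ A) (hunit : ∀ s, (b s)⁻¹ ∈ A) (hne : ∀ s, b s ≠ 0) :
    ∃ c ∈ B', b * c = 1 := by
  classical
  haveI := Fintype.ofFinite S
  set p : (↥A)[X] := ∏ s : S, (X - C (⟨b s, hint s⟩ : ↥A)) with hp
  have hp0 : aeval b p = 0 := by
    funext s'
    have h1 : (aeval b p) s' = aeval (b s') p := by
      have := Polynomial.aeval_algHom_apply (Pi.evalAlgHom ↥A (fun _ : S => Ω) s') b p
      simpa using this.symm
    rw [h1, hp, map_prod]
    simp only [Pi.zero_apply]
    refine Finset.prod_eq_zero (Finset.mem_univ s') ?_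
    simp only [map_sub, aeval_X, aeval_C]
    rw [sub_eq_zero]
    rfl
  have hcoeff : IsUnit (p.coeff 0) := by
    rw [coeff_zero_eq_eval_zero, hp, eval_prod]
    refine (IsUnit.prod_iff).mpr (fun s _ => ?_)
    simp only [eval_sub, eval_X, eval_C, zero_sub]
    refine IsUnit.neg ?_
    refine isUnit_iff_exists_inv.mpr ⟨⟨(b s)⁻¹, hunit s⟩, ?_⟩
    apply Subtype.ext
    simp [mul_inv_cancel₀ (hne s)]
  obtain ⟨c, hc, hbc⟩ := S19CR_inv_of_aeval (A := ↥A) b p hp0 hcoeff
  exact ⟨c, Algebra.adjoin_le (by simpa using hb) hc, hbc⟩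

variable (s₀ : S) (gens : Set (S → Ω))

/-- every element of `A[gens]` has values in `A`. -/
theorem S19CR_adjoin_int (hint : ∀ f ∈ gens, ∀ s, f s ∈ A) :
    ∀ b ∈ Algebra.adjoin ↥A gens, ∀ s, b s ∈ A := by
  intro b hb
  induction hb using Algebra.adjoin_induction with
  | mem x hx => exact hint x hx
  | algebraMap r => intro s; exact r.2
  | add x y _ _ hx hy => intro s; exact A.add_mem _ _ (hx s) (hy s)
  | mul x y _ _ hx hy => intro s; exact A.mul_mem _ _ (hx s) (hy s)

/-- the maximal ideal as a subset of `Ω`: `x - y ∈ A.nonunits` is a congruence on `A`. -/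
theorem S19CR_nonunits_add {x y : Ω} (hx : x ∈ A.nonunits) (hy : y ∈ A.nonunits) :
    x + y ∈ A.nonunits := by
  rw [ValuationSubring.mem_nonunits_iff] at *
  exact lt_of_le_of_lt (A.valuation.map_add x y) (max_lt hx hy)

theorem S19CR_nonunits_mul_left {x y : Ω} (hx : x ∈ A) (hy : y ∈ A.nonunits) :
    x * y ∈ A.nonunits := by
  rw [ValuationSubring.mem_nonunits_iff] at *
  rw [map_mul]
  have h1 : A.valuation x ≤ 1 := (A.valuation_le_one_iff x).mpr hx
  calc A.valuation x * A.valuation y ≤ 1 * A.valuation y := by gcongr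
    _ = A.valuation y := one_mul _
    _ < 1 := hy

/-- every element of `A[gens]` is constant modulo `𝔪_A`. -/
theorem S19CR_adjoin_const (hint : ∀ f ∈ gens, ∀ s, f s ∈ A)
    (hconst : ∀ f ∈ gens, ∀ s, f s - f s₀ ∈ A.nonunits) :
    ∀ b ∈ Algebra.adjoin ↥A gens, ∀ s, b s - b s₀ ∈ A.nonunits := by
  intro b hb
  induction hb using Algebra.adjoin_induction with
  | mem x hx => exact hconst x hx
  | algebraMap r =>
      intro s
      have : (algebraMap ↥A (S → Ω) r) s - (algebraMap ↥A (S → Ω) r) s₀ = 0 := by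
        simp [Pi.algebraMap_apply]
      rw [this, ValuationSubring.mem_nonunits_iff, map_zero]
      exact zero_lt_one
  | add x y _ _ hx hy =>
      intro s
      have : (x + y) s - (x + y) s₀ = (x s - x s₀) + (y s - y s₀) := by
        simp only [Pi.add_apply]; ring
      rw [this]
      exact S19CR_nonunits_add A (hx s) (hy s)
  | mul x y hxm hym hx hy =>
      intro s
      have : (x * y) s - (x * y) s₀ = x s * (y s - y s₀) + y s₀ * (x s - x s₀) := by
        simp only [Pi.mul_apply]; ring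
      rw [this]
      exact S19CR_nonunits_add A
        (S19CR_nonunits_mul_left A (S19CR_adjoin_int A gens hint x hxm s) (hy s))
        (S19CR_nonunits_mul_left A (S19CR_adjoin_int A gens hint y hym s₀) (hx s))

/-- evaluation at `s` as a ring homomorphism `A[gens] → A`. -/
noncomputable def S19CR_evA (hint : ∀ f ∈ gens, ∀ s, f s ∈ A) (s : S) :
    ↥(Algebra.adjoin ↥A gens) →+* ↥A where
  toFun b := ⟨(b : S → Ω) s, S19CR_adjoin_int A gens hint b b.2 s⟩
  map_one' := rfl
  map_mul' _ _ := rfl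
  map_zero' := rfl
  map_add' _ _ := rfl

@[simp] theorem S19CR_evA_coe (hint : ∀ f ∈ gens, ∀ s, f s ∈ A) (s : S)
    (b : ↥(Algebra.adjoin ↥A gens)) :
    ((S19CR_evA A gens hint s b : ↥A) : Ω) = (b : S → Ω) s := rfl

/-- the reduction `π : A[gens] → A/𝔪_A` (evaluation at the base point, then residue). -/
noncomputable def S19CR_pi (hint : ∀ f ∈ gens, ∀ s, f s ∈ A) :
    ↥(Algebra.adjoin ↥A gens) →+* IsLocalRing.ResidueField ↥A :=
  (IsLocalRing.residue ↥A).comp (S19CR_evA A gens hint s₀)

/-- the reduction can be computed at EVERY point. -/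
theorem S19CR_pi_apply (hint : ∀ f ∈ gens, ∀ s, f s ∈ A)
    (hconst : ∀ f ∈ gens, ∀ s, f s - f s₀ ∈ A.nonunits)
    (b : ↥(Algebra.adjoin ↥A gens)) (s : S) :
    S19CR_pi A s₀ gens hint b = IsLocalRing.residue ↥A (S19CR_evA A gens hint s b) := by
  unfold S19CR_pi
  rw [RingHom.comp_apply, eq_comm, ← sub_eq_zero, ← map_sub, IsLocalRing.residue_eq_zero_iff,
    ← ValuationSubring.coe_mem_nonunits_iff]
  exact S19CR_adjoin_const A s₀ gens hint hconst b b.2 s

/-- `B ↪ ∏_s Ω`. -/
theorem S19CR_ev_inj (b : ↥(Algebra.adjoin ↥A gens)) (h : ∀ s, (b : S → Ω) s = 0) : b = 0 := by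
  apply Subtype.ext
  funext s
  exact h s

/-- `B` is local with reduction `π`. -/
theorem S19CR_pi_unit [Finite S] (hint : ∀ f ∈ gens, ∀ s, f s ∈ A)
    (hconst : ∀ f ∈ gens, ∀ s, f s - f s₀ ∈ A.nonunits)
    (b : ↥(Algebra.adjoin ↥A gens)) (hb : S19CR_pi A s₀ gens hint b ≠ 0) : IsUnit b := by
  have hu : ∀ s, IsUnit (S19CR_evA A gens hint s b) := by
    intro s
    rw [S19CR_pi_apply A s₀ gens hint hconst b s] at hb
    by_contra hnu
    exact hb ((IsLocalRing.residue_eq_zero_iff _).mpr hnu)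
  have hne : ∀ s, (b : S → Ω) s ≠ 0 := by
    intro s h0
    have h1 : S19CR_evA A gens hint s b = 0 := Subtype.ext h0
    have h2 := hu s
    rw [h1] at h2
    exact not_isUnit_zero h2
  have hinv : ∀ s, ((b : S → Ω) s)⁻¹ ∈ A := by
    intro s
    obtain ⟨c, hc⟩ := isUnit_iff_exists_inv.mp (hu s)
    have h1 : (b : S → Ω) s * (c : Ω) = 1 := by
      have := congrArg (fun x : ↥A => (x : Ω)) hc
      simpa using this
    have h2 : (c : Ω) = ((b : S → Ω) s)⁻¹ := eq_inv_of_mul_eq_one_right h1
    rw [← h2]; exact c.2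
  obtain ⟨c, hc, hbc⟩ := S19CR_inv_mem A (Algebra.adjoin ↥A gens) (b : S → Ω) b.2
    (fun s => S19CR_adjoin_int A gens hint b b.2 s) hinv hne
  exact isUnit_iff_exists_inv.mpr ⟨⟨c, hc⟩, Subtype.ext hbc⟩

end valuation

end Fermat.Agent.S19
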