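import Fermat.Agent.S19.DescAsm
import Fermat.Agent.S19.HopfMain

/-!
# TRACK 9 "FLAT" (S19 + S32): DESC assembly + F1  (helper1)

The composition of `S19DA_main` (DESC assembly) with `S19F_main'` (F1, helper24): a finite family
`h : ι → G → Ω` with values in `A`, separating the points, with `A`-defined comultiplication, and such
that `A[h]` is generated by its Galois-equivariant elements (the core (K), `S19D_K`), yields a finite
flat cocommutative Hopf algebra over `ℤ_(ℓ)` whose `Ω`-points are `G`, Galois-equivariantly.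
-/

set_option autoImplicit false
set_option linter.unusedSectionVars false
set_option linter.unusedVariables false

namespace Fermat.Agent.S19

theorem S19DA_hopf {ℓ : ℕ} [Fact ℓ.Prime] {G : Type} [AddCommGroup G] [Finite G]
    (act : S19PW_Gal → G → G)
    (hact1 : ∀ x, act 1 x = x) (hactmul : ∀ σ τ x, act (σ * τ) x = act σ (act τ x))
    (hadd : ∀ σ x y, act σ (x + y) = act σ x + act σ y)
    (A : ValuationSubring S19PW_Om) (hA : A.LiesOverPrime ℓ)
    {ι : Type} [Finite ι] (h : ι → G → S19PW_Om)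
    (ha : ∀ i x, h i x ∈ A)
    (hd : ∀ x y, (∀ i, h i x = h i y) → x = y)
    (he : ∀ i, (fun p : G × G => h i (p.1 + p.2)) ∈ Algebra.adjoin ↥A
      (Set.range (fun j (p : G × G) => h j p.1) ∪ Set.range (fun j (p : G × G) => h j p.2)))
    (hK : Subalgebra.toSubmodule (Algebra.adjoin ↥A (Set.range h)) ≤
      Submodule.span ↥A
        {f | f ∈ Algebra.adjoin ↥A (Set.range h) ∧ ∀ σ x, f (act σ x) = σ (f x)}) :
    ∃ (H : Type) (_ : CommRing H) (_ : HopfAlgebra (GaloisRep.ratLocalizedAt ℓ) H),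
      Module.Finite (GaloisRep.ratLocalizedAt ℓ) H ∧ Module.Flat (GaloisRep.ratLocalizedAt ℓ) H ∧
      Coalgebra.IsCocomm (GaloisRep.ratLocalizedAt ℓ) H ∧
      ∃ e : WithConv (H →ₐ[GaloisRep.ratLocalizedAt ℓ] AlgebraicClosure ℚ) ≃ G,
        (∀ f g, e (f * g) = e f + e g) ∧
        ∀ (σ : AlgebraicClosure ℚ ≃ₐ[ℚ] AlgebraicClosure ℚ)
          (f g : WithConv (H →ₐ[GaloisRep.ratLocalizedAt ℓ] AlgebraicClosure ℚ)),
          (∀ h : H, g h = σ (f h)) → e g = act σ (e f) := by
  obtain ⟨H₀, -, heq, hfin, hsep, hcomul⟩ :=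
    S19DA_main act hact1 hactmul hadd A hA h ha hd he hK
  have hact0 : ∀ σ, act σ 0 = 0 := by
    intro σ
    have h1 := hadd σ 0 0
    rw [add_zero] at h1
    exact left_eq_add.mp h1
  exact S19F_main' act hact0 (S19DA_surj act hact1 hactmul) H₀ heq hfin hsep hcomul

end Fermat.Agent.S19
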