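import Mathlib
import Fermat.Prelude.Def_GaloisRep_Flat

/-!
# TRACK 9 "FLAT" (S19 + S32), package PW (helper1), part 1: the base ring and Artin's lemma

`Ω = AlgebraicClosure ℚ`, `R = GaloisRep.ratLocalizedAt ℓ` (`= ℤ_(ℓ) ⊂ ℚ`), `A` a valuation subring
of `Ω` over `ℓ`.

* `S19PW_mem_R_iff`, `S19PW_R_pid` : `ℤ_(ℓ)` is a principal ideal domain;
* `S19PW_R_le_A`, `S19PW_rat_mem_R` : `ℚ ∩ A = ℤ_(ℓ)`;
* `S19PW_fixed_rat` : the fixed field of `Gal(Ω/ℚ)` is `ℚ`;
* `S19PW_ld` : Artin's lemma — Galois-equivariant functions on a finite Galois set which are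
  linearly independent over `ℚ` are linearly independent over `Ω`.
-/

set_option autoImplicit false
set_option linter.unusedSectionVars false
set_option linter.unusedVariables false
set_option linter.style.haveILetI false

open Finset

namespace Fermat.Agent.S19

/-- `Ω = ℚ̄`. -/
abbrev S19PW_Om : Type := AlgebraicClosure ℚ

/-- the absolute Galois group. -/
abbrev S19PW_Gal : Type := S19PW_Om ≃ₐ[ℚ] S19PW_Om

section base

variable (ℓ : ℕ) [hℓ : Fact ℓ.Prime]

theorem S19PW_mem_R_iff (r : ℚ) : r ∈ GaloisRep.ratLocalizedAt ℓ ↔ r.den.Coprime ℓ := Iff.rfl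

theorem S19PW_mem_R_iff' (r : ℚ) : r ∈ GaloisRep.ratLocalizedAt ℓ ↔ ¬ ℓ ∣ r.den := by
  rw [S19PW_mem_R_iff, Nat.coprime_comm, hℓ.out.coprime_iff_not_dvd]

theorem S19PW_int_mem_R (n : ℤ) : (n : ℚ) ∈ GaloisRep.ratLocalizedAt ℓ := by
  rw [S19PW_mem_R_iff]
  simp

/-- `x ∈ ℤ_(ℓ)`, `x ≠ 0` has non-negative `ℓ`-adic valuation. -/
theorem S19PW_padic_nonneg {r : ℚ} (hr : r ∈ GaloisRep.ratLocalizedAt ℓ) :
    0 ≤ padicValRat ℓ r := by
  rw [S19PW_mem_R_iff'] at hr
  unfold padicValRat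
  have h : padicValNat ℓ r.den = 0 := padicValNat.eq_zero_of_not_dvd hr
  rw [h]
  simp

/-- a rational number with non-negative `ℓ`-adic valuation is in `ℤ_(ℓ)`. -/
theorem S19PW_mem_R_of_padic {r : ℚ} (hr0 : r ≠ 0) (hr : 0 ≤ padicValRat ℓ r) :
    r ∈ GaloisRep.ratLocalizedAt ℓ := by
  rw [S19PW_mem_R_iff']
  intro hd
  have hnum : ¬ (ℓ : ℤ) ∣ r.num := by
    intro hn
    have h1 : (ℓ : ℤ) ∣ (r.den : ℤ) := by exact_mod_cast hd
    have hcop := r.reduced
    have h2 : ℓ ∣ r.num.natAbs := by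
      exact Int.natCast_dvd.mp hn
    have h3 : ℓ ∣ Nat.gcd r.num.natAbs r.den := Nat.dvd_gcd h2 hd
    rw [Nat.Coprime] at hcop
    rw [hcop] at h3
    exact hℓ.out.one_lt.ne' (Nat.dvd_one.mp h3)
  unfold padicValRat at hr
  have h1 : padicValInt ℓ r.num = 0 := padicValInt.eq_zero_of_not_dvd hnum
  have h2 : 1 ≤ padicValNat ℓ r.den :=
    one_le_padicValNat_of_dvd r.den_pos.ne' hd
  rw [h1] at hr
  omega

/-- **`ℤ_(ℓ)` is a principal ideal ring.** -/
instance S19PW_R_pid : IsPrincipalIdealRing ↥(GaloisRep.ratLocalizedAt ℓ) := by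
  classical
  refine ⟨fun I => ?_⟩
  by_cases hI : I = ⊥
  · rw [hI]
    exact ⟨⟨0, by simp⟩⟩
  · -- the minimal valuation
    have hex : ∃ n : ℕ, ∃ x ∈ I, x ≠ 0 ∧ padicValRat ℓ (x : ℚ) = n := by
      obtain ⟨x, hx, hx0⟩ := Submodule.exists_mem_ne_zero_of_ne_bot hI
      have h := S19PW_padic_nonneg ℓ x.2
      exact ⟨(padicValRat ℓ (x : ℚ)).toNat, x, hx, hx0, (Int.toNat_of_nonneg h).symm⟩
    obtain ⟨x₀, hx₀, hx₀0, hv₀⟩ := Nat.find_spec hex
    refine ⟨⟨x₀, ?_⟩⟩
    apply le_antisymm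
    · intro y hy
      by_cases hy0 : y = 0
      · rw [hy0]
        exact Submodule.zero_mem _
      · have hvy : (Nat.find hex : ℤ) ≤ padicValRat ℓ (y : ℚ) := by
          have h := S19PW_padic_nonneg ℓ y.2
          have h1 : Nat.find hex ≤ (padicValRat ℓ (y : ℚ)).toNat :=
            Nat.find_min' hex ⟨y, hy, hy0, (Int.toNat_of_nonneg h).symm⟩
          omega
        have hx₀' : (x₀ : ℚ) ≠ 0 := fun h => hx₀0 (Subtype.ext h)
        have hy' : (y : ℚ) ≠ 0 := fun h => hy0 (Subtype.ext h)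
        have hq : (y : ℚ) / (x₀ : ℚ) ∈ GaloisRep.ratLocalizedAt ℓ := by
          apply S19PW_mem_R_of_padic ℓ (div_ne_zero hy' hx₀')
          rw [padicValRat.div hy' hx₀', hv₀]
          omega
        rw [Submodule.mem_span_singleton]
        refine ⟨⟨_, hq⟩, ?_⟩
        apply Subtype.ext
        show (y : ℚ) / (x₀ : ℚ) * (x₀ : ℚ) = (y : ℚ)
        field_simp
    · rw [Submodule.span_le]
      intro y hy
      rw [Set.mem_singleton_iff] at hy
      rw [hy]
      exact hx₀

variable {ℓ}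

/-- `ℤ_(ℓ) ⊂ A` for a valuation subring `A` of `Ω` over `ℓ`. -/
theorem S19PW_R_le_A (A : ValuationSubring S19PW_Om) (hA : A.LiesOverPrime ℓ)
    (r : ↥(GaloisRep.ratLocalizedAt ℓ)) : algebraMap ℚ S19PW_Om (r : ℚ) ∈ A := by
  have hr := (S19PW_mem_R_iff' ℓ (r : ℚ)).mp r.2
  -- `den` is a unit of `A`
  have hden : ((r : ℚ).den : S19PW_Om) ∈ A := by
    exact natCast_mem A _
  have hℓA : (ℓ : S19PW_Om) ∈ A.nonunits := hA
  have hdeninv : (((r : ℚ).den : S19PW_Om))⁻¹ ∈ A := by
    by_contra hni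
    -- then `den` is a nonunit, and `1 = u den + v ℓ` is a nonunit
    have hdn : ((r : ℚ).den : S19PW_Om) ∈ A.nonunits := by
      rw [ValuationSubring.mem_nonunits_iff A]
      have h1 := (A.valuation_le_one_iff _).mpr hden
      rcases lt_or_eq_of_le h1 with h | h
      · exact h
      · exfalso
        apply hni
        rw [← A.valuation_le_one_iff, map_inv₀, h, inv_one]
    have hcop : Nat.Coprime (r : ℚ).den ℓ := r.2
    have hb : IsCoprime ((r : ℚ).den : ℤ) (ℓ : ℤ) := Nat.isCoprime_iff_coprime.mpr hcop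
    obtain ⟨u, v, huv⟩ := hb
    have h1 : ((u : S19PW_Om) * ((r : ℚ).den : S19PW_Om) + (v : S19PW_Om) * (ℓ : S19PW_Om)) = 1 := by
      have := congrArg (fun z : ℤ => (z : S19PW_Om)) huv
      push_cast at this
      exact this
    have hu : (u : S19PW_Om) ∈ A := by exact intCast_mem A _
    have hv : (v : S19PW_Om) ∈ A := by exact intCast_mem A _
    have hlt1 : A.valuation ((u : S19PW_Om) * ((r : ℚ).den : S19PW_Om)) < 1 := by
      rw [map_mul]
      exact mul_lt_one_of_nonneg_of_lt_one_right ((A.valuation_le_one_iff _).mpr hu) zero_le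
        ((ValuationSubring.mem_nonunits_iff A).mp hdn)
    have hlt2 : A.valuation ((v : S19PW_Om) * (ℓ : S19PW_Om)) < 1 := by
      rw [map_mul]
      exact mul_lt_one_of_nonneg_of_lt_one_right ((A.valuation_le_one_iff _).mpr hv) zero_le
        ((ValuationSubring.mem_nonunits_iff A).mp hℓA)
    have hlt : A.valuation (1 : S19PW_Om) < 1 := by
      rw [← h1]
      exact lt_of_le_of_lt (A.valuation.map_add _ _) (max_lt hlt1 hlt2)
    rw [map_one] at hlt
    exact lt_irrefl _ hlt
  have hnum : ((r : ℚ).num : S19PW_Om) ∈ A := by exact intCast_mem A _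
  have e : algebraMap ℚ S19PW_Om (r : ℚ)
      = ((r : ℚ).num : S19PW_Om) * (((r : ℚ).den : S19PW_Om))⁻¹ := by
    conv_lhs => rw [← Rat.num_div_den (r : ℚ)]
    rw [map_div₀]
    simp [div_eq_mul_inv]
  rw [e]
  exact A.mul_mem _ _ hnum hdeninv

/-- `ℚ ∩ A ⊂ ℤ_(ℓ)`. -/
theorem S19PW_rat_mem_R (A : ValuationSubring S19PW_Om) (hA : A.LiesOverPrime ℓ) (q : ℚ)
    (hq : algebraMap ℚ S19PW_Om q ∈ A) : q ∈ GaloisRep.ratLocalizedAt ℓ := by
  by_cases hq0 : q = 0
  · rw [hq0]
    exact Subring.zero_mem _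
  by_contra hni
  -- then `1/q = ℓ · r` with `r ∈ ℤ_(ℓ)`
  have hneg : padicValRat ℓ q < 0 := by
    by_contra h
    push Not at h
    exact hni (S19PW_mem_R_of_padic ℓ hq0 h)
  have hℓ0 : (ℓ : ℚ) ≠ 0 := by exact_mod_cast hℓ.out.ne_zero
  have hr : (q * ℓ)⁻¹ ∈ GaloisRep.ratLocalizedAt ℓ := by
    apply S19PW_mem_R_of_padic ℓ (inv_ne_zero (mul_ne_zero hq0 hℓ0))
    rw [padicValRat.inv, padicValRat.mul hq0 hℓ0]
    have : padicValRat ℓ (ℓ : ℚ) = 1 := padicValRat.self hℓ.out.one_lt
    rw [this]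
    omega
  have h1 := S19PW_R_le_A A hA ⟨_, hr⟩
  have h2 : algebraMap ℚ S19PW_Om q * algebraMap ℚ S19PW_Om ((q * ℓ)⁻¹) ∈ A := A.mul_mem _ _ hq h1
  have h3 : algebraMap ℚ S19PW_Om q * algebraMap ℚ S19PW_Om ((q * ℓ)⁻¹) = ((ℓ : S19PW_Om))⁻¹ := by
    rw [← map_mul]
    have : q * (q * ℓ)⁻¹ = (ℓ : ℚ)⁻¹ := by
      field_simp
    rw [this, map_inv₀]
    simp
  rw [h3] at h2
  have hℓA : (ℓ : S19PW_Om) ∈ A.nonunits := hA
  rw [ValuationSubring.mem_nonunits_iff A] at hℓA
  have h4 := (A.valuation_le_one_iff _).mpr h2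
  rw [map_inv₀] at h4
  have hℓne : A.valuation (ℓ : S19PW_Om) ≠ 0 := by
    rw [Valuation.ne_zero_iff]
    exact_mod_cast hℓ.out.ne_zero
  have h5 : 1 ≤ A.valuation (ℓ : S19PW_Om) := by
    have := (inv_le_one₀ (zero_lt_iff.mpr hℓne)).mp h4
    exact this
  exact absurd hℓA (not_lt.mpr h5)

end base

/-- the fixed field of `Gal(Ω/ℚ)` is `ℚ`. -/
theorem S19PW_fixed_rat (x : S19PW_Om) (hx : ∀ σ : S19PW_Gal, σ x = x) :
    ∃ q : ℚ, algebraMap ℚ S19PW_Om q = x := by
  haveI : IsAlgClosure ℚ S19PW_Om := ⟨inferInstance, AlgebraicClosure.isAlgebraic ℚ⟩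
  haveI : IsGalois ℚ S19PW_Om := IsAlgClosure.isGalois ℚ S19PW_Om
  exact (InfiniteGalois.mem_range_algebraMap_iff_fixed x).mpr hx

section artin

variable {S : Type} (actS : S19PW_Gal → S → S)

/-- **Artin's lemma**: equivariant functions, independent over `ℚ`, are independent over `Ω`. -/
theorem S19PW_ld (hsurj : ∀ σ, Function.Surjective (actS σ)) {ι : Type} (h : ι → S → S19PW_Om)
    (heq : ∀ i σ s, h i (actS σ s) = σ (h i s))
    (hli : LinearIndependent ℚ h) : LinearIndependent S19PW_Om h := by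
  classical
  rw [linearIndependent_iff']
  intro T
  induction T using Finset.induction_on with
  | empty => intro c _ i hi; simp at hi
  | insert a T ha ih =>
    intro c hc
    by_cases hca : c a = 0
    · have h1 : ∑ i ∈ T, c i • h i = 0 := by
        rw [Finset.sum_insert ha, hca, zero_smul, zero_add] at hc
        exact hc
      intro i hi
      rcases Finset.mem_insert.mp hi with rfl | hi
      · exact hca
      · exact ih c h1 i hi
    · exfalso
      -- normalise
      set c' : ι → S19PW_Om := fun i => c i / c a with hc'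
      have hc'a : c' a = 1 := div_self hca
      have hc'0 : ∑ i ∈ insert a T, c' i • h i = 0 := by
        have : ∑ i ∈ insert a T, c' i • h i = (c a)⁻¹ • ∑ i ∈ insert a T, c i • h i := by
          rw [Finset.smul_sum]
          refine Finset.sum_congr rfl fun i _ => ?_
          rw [smul_smul]
          congr 1
          show c i / c a = (c a)⁻¹ * c i
          rw [div_eq_inv_mul]
        rw [this, hc, smul_zero]
      -- Galois conjugates
      have hσ : ∀ σ : S19PW_Gal, ∑ i ∈ insert a T, σ (c' i) • h i = 0 := by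
        intro σ
        funext s
        obtain ⟨s', rfl⟩ := hsurj σ s
        have h0 := congrFun hc'0 s'
        simp only [Finset.sum_apply, Pi.smul_apply, smul_eq_mul, Pi.zero_apply] at h0 ⊢
        have h1 := congrArg σ h0
        rw [map_sum, map_zero] at h1
        rw [← h1]
        refine Finset.sum_congr rfl fun i _ => ?_
        rw [map_mul, heq]
      have hfix : ∀ σ : S19PW_Gal, ∀ i ∈ insert a T, σ (c' i) = c' i := by
        intro σ
        have h1 : ∑ i ∈ T, (σ (c' i) - c' i) • h i = 0 := by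
          have h2 : ∑ i ∈ insert a T, (σ (c' i) - c' i) • h i = 0 := by
            simp only [sub_smul, Finset.sum_sub_distrib, hσ σ, hc'0, sub_zero]
          rw [Finset.sum_insert ha, hc'a, map_one, sub_self, zero_smul, zero_add] at h2
          exact h2
        have h3 := ih (fun i => σ (c' i) - c' i) h1
        intro i hi
        rcases Finset.mem_insert.mp hi with rfl | hi
        · rw [hc'a, map_one]
        · exact sub_eq_zero.mp (h3 i hi)
      -- rationality
      have hrat : ∀ i, ∃ q : ℚ, i ∈ insert a T → algebraMap ℚ S19PW_Om q = c' i := by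
        intro i
        by_cases hi : i ∈ insert a T
        · obtain ⟨q, hq⟩ := S19PW_fixed_rat (c' i) (fun σ => hfix σ i hi)
          exact ⟨q, fun _ => hq⟩
        · exact ⟨0, fun h => absurd h hi⟩
      choose q hq using hrat
      have hsum : ∑ i ∈ insert a T, q i • h i = 0 := by
        rw [← hc'0]
        refine Finset.sum_congr rfl fun i hi => ?_
        rw [← hq i hi, algebraMap_smul]
      have h4 := (linearIndependent_iff'.mp hli) (insert a T) q hsum a (Finset.mem_insert_self a T)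
      have h5 := hq a (Finset.mem_insert_self a T)
      rw [h4, map_zero, hc'a] at h5
      exact zero_ne_one h5

end artin

end Fermat.Agent.S19
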