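import Mathlib
import Fermat.Prelude.Def_FLTPrelim_Ramification
import Fermat.Agent.Lib.InertiaCriterion
import Fermat.Agent.Lib.InertiaLift
import Fermat.Agent.S19.PwBase

/-!
# TRACK 9 "FLAT" (S19 + S32), package DESC (helper26), part 1: number theory at a place of `ℚ̄`

`Ω = ℚ̄`, `Γ = Gal(Ω/ℚ)`, `A` a valuation subring of `Ω` over `ℓ`, `D`, `I` its decomposition and
inertia groups, `𝔪 = A.nonunits`.

* `S19D_frob`      : a Frobenius at `A` on algebraic integers;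
* `S19D_ff`        : `b ^ ℓ ^ F ≡ b` for integers fixed by a normal subgroup of finite index;
* `S19D_root_unit` : distinct roots of unity of order prime to `ℓ` differ by a unit of `A`;
* `S19D_nt2`       : lifting of inertia (`Lib.inertiaLift_exists`);
* `S19D_nt1`       : lifting of decomposition;
* `S19D_arch`      : an algebraic integer of `𝔪` has a power in `ℓ A`;
* `S19D_nt`        : the package consumed by the twisted traces of `DescK`.
-/

set_option autoImplicit false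
set_option linter.unusedSectionVars false
set_option linter.unusedVariables false
set_option linter.style.haveILetI false

open scoped Pointwise
open Fermat.Agent.Lib

namespace Fermat.Agent.S19

noncomputable section

/-- the ring of all algebraic integers. -/
abbrev S19D_Zbar : Subalgebra ℤ S19PW_Om := integralClosure ℤ S19PW_Om

/-- the Galois action on algebraic integers. -/
local instance S19D_zbarAction : MulSemiringAction S19PW_Gal S19D_Zbar where
  smul σ b := ⟨σ b.1, b.2.map (σ.toAlgHom.restrictScalars ℤ)⟩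
  one_smul _ := rfl
  mul_smul _ _ _ := rfl
  smul_zero σ := Subtype.ext (map_zero σ)
  smul_add σ _ _ := Subtype.ext (map_add σ _ _)
  smul_one σ := Subtype.ext (map_one σ)
  smul_mul σ _ _ := Subtype.ext (map_mul σ _ _)

theorem S19D_coe_smul (σ : S19PW_Gal) (b : S19D_Zbar) :
    ((σ • b : S19D_Zbar) : S19PW_Om) = σ b.1 := rfl

local instance S19D_zbarSMulComm : SMulCommClass S19PW_Gal ℤ S19D_Zbar where
  smul_comm σ n b := Subtype.ext (by
    show σ ((n • b : S19D_Zbar) : S19PW_Om) = n • σ b.1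
    rw [Subalgebra.coe_smul, map_zsmul])

local instance S19D_zbarTop : TopologicalSpace S19D_Zbar := ⊥

local instance S19D_zbarDisc : DiscreteTopology S19D_Zbar := ⟨rfl⟩

theorem S19D_isIntegralExt : Algebra.IsIntegral ℚ S19PW_Om :=
  haveI : Algebra.IsAlgebraic ℚ S19PW_Om := AlgebraicClosure.isAlgebraic ℚ
  Algebra.IsAlgebraic.isIntegral

theorem S19D_isGalois : IsGalois ℚ S19PW_Om :=
  haveI : IsAlgClosure ℚ S19PW_Om := ⟨inferInstance, AlgebraicClosure.isAlgebraic ℚ⟩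
  IsAlgClosure.isGalois ℚ S19PW_Om

local instance S19D_zbarCont : ContinuousSMul S19PW_Gal S19D_Zbar := by
  haveI := S19D_isIntegralExt
  rw [continuousSMul_iff_stabilizer_isOpen]
  intro b
  convert stabilizer_isOpen_of_isIntegral (K := ℚ) (L := S19PW_Om) b.1 using 1
  ext σ
  simp only [SetLike.mem_coe, MulAction.mem_stabilizer_iff]
  exact ⟨fun h => congrArg Subtype.val h, fun h => Subtype.ext h⟩

local instance S19D_zbarInvariant : Algebra.IsInvariant ℤ S19D_Zbar S19PW_Gal := by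
  haveI := S19D_isGalois
  refine ⟨fun b hb => ?_⟩
  have hb' : (b : S19PW_Om) ∈
      IntermediateField.fixedField (⊤ : Subgroup S19PW_Gal) := by
    rintro ⟨g, -⟩
    exact congrArg Subtype.val (hb g)
  rw [InfiniteGalois.fixedField_bot, IntermediateField.mem_bot] at hb'
  obtain ⟨k, hk⟩ := hb'
  have hint : IsIntegral ℤ (algebraMap ℚ S19PW_Om k) := hk ▸ b.2
  rw [isIntegral_algebraMap_iff (FaithfulSMul.algebraMap_injective ℚ S19PW_Om)] at hint
  obtain ⟨a, rfl⟩ := IsIntegrallyClosed.algebraMap_eq_of_integral hint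
  refine ⟨a, Subtype.ext ?_⟩
  rw [← hk]
  simp

section basics

variable (A : ValuationSubring S19PW_Om)

theorem S19D_halg (x : S19PW_Om) : IsAlgebraic ℤ x :=
  (IsFractionRing.isAlgebraic_iff ℤ ℚ S19PW_Om).mpr
    ((AlgebraicClosure.isAlgebraic ℚ).isAlgebraic x)

theorem S19D_int_mem {x : S19PW_Om} (hx : IsIntegral ℤ x) : x ∈ A :=
  inertiaCrit_mem_of_isIntegral A hx

theorem S19D_int_map (σ : S19PW_Gal) {x : S19PW_Om} (hx : IsIntegral ℤ x) :
    IsIntegral ℤ (σ x) :=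
  hx.map (σ.toAlgHom.restrictScalars ℤ)

/-- the inclusion of the algebraic integers into `A`. -/
def S19D_incl : S19D_Zbar →+* A where
  toFun b := ⟨b.1, S19D_int_mem A b.2⟩
  map_one' := rfl
  map_mul' _ _ := rfl
  map_zero' := rfl
  map_add' _ _ := rfl

/-- the prime `𝔪_A ∩ ℤ̄`. -/
def S19D_Q : Ideal S19D_Zbar := Ideal.comap (S19D_incl A) (IsLocalRing.maximalIdeal A)

theorem S19D_mem_Q (b : S19D_Zbar) : b ∈ S19D_Q A ↔ (b : S19PW_Om) ∈ A.nonunits := by
  unfold S19D_Q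
  rw [Ideal.mem_comap, ← ValuationSubring.coe_mem_nonunits_iff]
  rfl

instance S19D_Q_prime : (S19D_Q A).IsPrime := Ideal.comap_isPrime (S19D_incl A) _

variable {A}

theorem S19D_nu_mem {x : S19PW_Om} (hx : x ∈ A.nonunits) : x ∈ A :=
  (A.valuation_le_one_iff x).mp (le_of_lt (A.mem_nonunits_iff.mp hx))

theorem S19D_nu_add {x y : S19PW_Om} (hx : x ∈ A.nonunits) (hy : y ∈ A.nonunits) :
    x + y ∈ A.nonunits := by
  rw [A.mem_nonunits_iff] at *
  exact lt_of_le_of_lt (Valuation.map_add _ _ _) (max_lt hx hy)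

theorem S19D_nu_neg {x : S19PW_Om} (hx : x ∈ A.nonunits) : -x ∈ A.nonunits := by
  rw [A.mem_nonunits_iff] at *
  rwa [Valuation.map_neg]

theorem S19D_nu_sub {x y : S19PW_Om} (hx : x ∈ A.nonunits) (hy : y ∈ A.nonunits) :
    x - y ∈ A.nonunits := by
  rw [sub_eq_add_neg]
  exact S19D_nu_add hx (S19D_nu_neg hy)

theorem S19D_nu_mul {a x : S19PW_Om} (ha : a ∈ A) (hx : x ∈ A.nonunits) :
    a * x ∈ A.nonunits := by
  rw [A.mem_nonunits_iff] at *
  rw [map_mul]
  have h1 : A.valuation a ≤ 1 := (A.valuation_le_one_iff a).mpr ha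
  calc A.valuation a * A.valuation x ≤ 1 * A.valuation x := by gcongr
    _ = A.valuation x := one_mul _
    _ < 1 := hx

theorem S19D_nu_mul' {a x : S19PW_Om} (hx : x ∈ A.nonunits) (ha : a ∈ A) :
    x * a ∈ A.nonunits := by
  rw [mul_comm]
  exact S19D_nu_mul ha hx

theorem S19D_nu_pow {x : S19PW_Om} (hx : x ∈ A.nonunits) {k : ℕ} (hk : k ≠ 0) :
    x ^ k ∈ A.nonunits := by
  obtain ⟨j, rfl⟩ := Nat.exists_eq_succ_of_ne_zero hk
  rw [pow_succ]
  exact S19D_nu_mul (A.toSubring.pow_mem (S19D_nu_mem hx) j) hx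

theorem S19D_zero_nu : (0 : S19PW_Om) ∈ A.nonunits := by
  rw [A.mem_nonunits_iff, map_zero]
  exact zero_lt_one

/-- the nonunits form a prime "ideal". -/
theorem S19D_nu_of_mul {x y : S19PW_Om} (hx : x ∈ A) (hy : y ∈ A) (hxy : x * y ∈ A.nonunits) :
    x ∈ A.nonunits ∨ y ∈ A.nonunits := by
  by_contra hcon
  rw [not_or] at hcon
  have h1 : A.valuation x = 1 := le_antisymm ((A.valuation_le_one_iff x).mpr hx)
    (not_lt.mp fun h => hcon.1 (A.mem_nonunits_iff.mpr h))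
  have h2 : A.valuation y = 1 := le_antisymm ((A.valuation_le_one_iff y).mpr hy)
    (not_lt.mp fun h => hcon.2 (A.mem_nonunits_iff.mpr h))
  rw [A.mem_nonunits_iff, map_mul, h1, h2, one_mul] at hxy
  exact lt_irrefl _ hxy

/-- an element of `A` which is not in `𝔪` has its inverse in `A`. -/
theorem S19D_inv_mem {x : S19PW_Om} (hx : x ∈ A) (hxu : x ∉ A.nonunits) : x⁻¹ ∈ A := by
  have h1 : A.valuation x = 1 := le_antisymm ((A.valuation_le_one_iff x).mpr hx)
    (not_lt.mp fun h => hxu (A.mem_nonunits_iff.mpr h))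
  rw [← A.valuation_le_one_iff, map_inv₀, h1, inv_one]

theorem S19D_ne_zero_of_not_nu {x : S19PW_Om} (hxu : x ∉ A.nonunits) : x ≠ 0 := by
  rintro rfl
  exact hxu S19D_zero_nu

theorem S19D_one_sub_unit {y : S19PW_Om} (hy : y ∈ A.nonunits) : 1 - y ∉ A.nonunits := by
  intro h
  have := S19D_nu_add h hy
  rw [sub_add_cancel, A.mem_nonunits_iff, map_one] at this
  exact lt_irrefl _ this

theorem S19D_dec_mem {σ : S19PW_Gal} (hσ : σ ∈ A.decompositionSubgroup ℚ) {x : S19PW_Om}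
    (hx : x ∈ A) : σ x ∈ A := by
  have h1 : σ • A = A := hσ
  rw [← h1]
  exact ⟨x, hx, rfl⟩

theorem S19D_dec_nu {σ : S19PW_Gal} (hσ : σ ∈ A.decompositionSubgroup ℚ) {x : S19PW_Om}
    (hx : x ∈ A.nonunits) : σ x ∈ A.nonunits := by
  by_contra hcon
  have h1 : σ x ∈ A := S19D_dec_mem hσ (S19D_nu_mem hx)
  have h2 := S19D_inv_mem h1 hcon
  have h3 : σ⁻¹ ((σ x)⁻¹) ∈ A := S19D_dec_mem (inv_mem hσ) h2
  have h4 : σ⁻¹ ((σ x)⁻¹) = x⁻¹ := by
    rw [map_inv₀]
    congr 1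
    exact σ.symm_apply_apply x
  rw [h4] at h3
  have hx0 : x ≠ 0 := by
    rintro rfl
    rw [map_zero] at hcon
    exact hcon S19D_zero_nu
  have h5 : x * x⁻¹ ∈ A.nonunits := S19D_nu_mul' hx h3
  rw [mul_inv_cancel₀ hx0, A.mem_nonunits_iff, map_one] at h5
  exact lt_irrefl _ h5

theorem S19D_inertia_le {τ : S19PW_Gal} (hτ : τ ∈ A.inertiaSubgroupIn ℚ) :
    τ ∈ A.decompositionSubgroup ℚ := by
  obtain ⟨g, -, rfl⟩ := hτ
  exact g.2

theorem S19D_inertia_sub {τ : S19PW_Gal} (hτ : τ ∈ A.inertiaSubgroupIn ℚ) {x : S19PW_Om}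
    (hx : x ∈ A) : τ x - x ∈ A.nonunits := by
  obtain ⟨g, hg, rfl⟩ := hτ
  have hg' : MulSemiringAction.toRingAut (A.decompositionSubgroup ℚ)
      (IsLocalRing.ResidueField A) g = 1 := hg
  have h1 : g • (IsLocalRing.residue A ⟨x, hx⟩) = IsLocalRing.residue A ⟨x, hx⟩ := by
    have := congrArg (fun f => f (IsLocalRing.residue A ⟨x, hx⟩)) hg'
    simpa using this
  rw [← IsLocalRing.ResidueField.residue_smul] at h1
  have h2 : IsLocalRing.residue A (g • (⟨x, hx⟩ : A) - ⟨x, hx⟩) = 0 := by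
    rw [map_sub, h1, sub_self]
  rw [IsLocalRing.residue_eq_zero_iff] at h2
  have h3 := ValuationSubring.coe_mem_nonunits_iff.mpr h2
  exact h3

end basics

section frob

variable {ℓ : ℕ} [hℓ : Fact ℓ.Prime] (A : ValuationSubring S19PW_Om)

set_option synthInstance.maxHeartbeats 400000 in
/-- **Frobenius at `A`** on algebraic integers. -/
theorem S19D_frob (hA : A.LiesOverPrime ℓ) :
    ∃ φ : S19PW_Gal, ∀ x : S19PW_Om, IsIntegral ℤ x → φ x - x ^ ℓ ∈ A.nonunits := by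
  haveI := S19D_isGalois
  haveI := S19D_isIntegralExt
  have hA' : (ℓ : S19PW_Om) ∈ A.nonunits := hA
  let Q : Ideal S19D_Zbar := S19D_Q A
  have hQmem : ∀ b : S19D_Zbar, b ∈ Q ↔ (b : S19PW_Om) ∈ A.nonunits := S19D_mem_Q A
  haveI hQprime : Q.IsPrime := S19D_Q_prime A
  let P : Ideal ℤ := Ideal.span {(ℓ : ℤ)}
  haveI hPmax : P.IsMaximal := Int.ideal_span_isMaximal_of_prime ℓ
  haveI hQP : Q.LiesOver P := by
    constructor
    refine hPmax.eq_of_le Ideal.IsPrime.ne_top' ?_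
    rw [Ideal.span_singleton_le_iff_mem, Ideal.under_def, Ideal.mem_comap, hQmem]
    simpa using hA'
  haveI hQmax : Q.IsMaximal := Ideal.IsMaximal.of_liesOver_isMaximal Q P
  letI := Ideal.Quotient.field P
  letI := Ideal.Quotient.field Q
  have hℓQ : ((ℓ : ℕ) : S19D_Zbar ⧸ Q) = 0 := by
    have h1 : ((ℓ : ℕ) : S19D_Zbar) ∈ Q := by
      rw [hQmem]
      simpa using hA'
    have h2 := Ideal.Quotient.eq_zero_iff_mem.mpr h1
    simpa using h2
  haveI : CharP (S19D_Zbar ⧸ Q) ℓ := (CharP.charP_iff_prime_eq_zero hℓ.out).mpr hℓQ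
  let φ₀ : (S19D_Zbar ⧸ Q) →ₐ[ℤ ⧸ P] (S19D_Zbar ⧸ Q) :=
    { frobenius (S19D_Zbar ⧸ Q) ℓ with
      commutes' := by
        intro r
        obtain ⟨n, rfl⟩ := Ideal.Quotient.mk_surjective r
        have : algebraMap (ℤ ⧸ P) (S19D_Zbar ⧸ Q) (Ideal.Quotient.mk P n) =
            ((n : ℤ) : S19D_Zbar ⧸ Q) := by
          rw [← Ideal.Quotient.algebraMap_eq, ← IsScalarTower.algebraMap_apply]
          simp
        simp only [RingHom.toMonoidHom_eq_coe, OneHom.toFun_eq_coe, MonoidHom.toOneHom_coe,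
          MonoidHom.coe_coe]
        rw [this, map_intCast] }
  have hbij : Function.Bijective φ₀ := Algebra.IsAlgebraic.algHom_bijective φ₀
  let φ : (S19D_Zbar ⧸ Q) ≃ₐ[ℤ ⧸ P] (S19D_Zbar ⧸ Q) := AlgEquiv.ofBijective φ₀ hbij
  obtain ⟨σ, hσ⟩ := Ideal.Quotient.stabilizerHom_surjective_of_profinite
    (G := S19PW_Gal) P Q φ
  refine ⟨σ.1, fun x hx => ?_⟩
  have h1 := DFunLike.congr_fun hσ (Ideal.Quotient.mk Q ⟨x, hx⟩)
  rw [Ideal.Quotient.stabilizerHom_apply] at h1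
  have h2 : φ (Ideal.Quotient.mk Q ⟨x, hx⟩) = Ideal.Quotient.mk Q (⟨x, hx⟩ ^ ℓ) := by
    rw [map_pow]
    rfl
  rw [h2, Ideal.Quotient.eq, hQmem] at h1
  exact h1

/-- iterates of the Frobenius. -/
theorem S19D_frob_pow {φ : S19PW_Gal}
    (hφ : ∀ x : S19PW_Om, IsIntegral ℤ x → φ x - x ^ ℓ ∈ A.nonunits) (k : ℕ)
    {b : S19PW_Om} (hb : IsIntegral ℤ b) : (φ ^ k) b - b ^ ℓ ^ k ∈ A.nonunits := by
  induction k with
  | zero => simp
  | succ k ih =>
    have h1 : IsIntegral ℤ ((φ ^ k) b) := S19D_int_map _ hb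
    have h2 := hφ _ h1
    have e : (φ ^ (k + 1)) b - b ^ ℓ ^ (k + 1)
        = (φ ((φ ^ k) b) - ((φ ^ k) b) ^ ℓ) + (((φ ^ k) b) ^ ℓ - (b ^ ℓ ^ k) ^ ℓ) := by
      rw [pow_succ' φ k, AlgEquiv.mul_apply, pow_succ ℓ k, pow_mul]
      ring
    rw [e]
    refine S19D_nu_add h2 ?_
    -- `x ^ ℓ - y ^ ℓ` is divisible by `x - y`
    have h3 : ((φ ^ k) b) ^ ℓ - (b ^ ℓ ^ k) ^ ℓ
        = ((φ ^ k) b - b ^ ℓ ^ k) * ∑ i ∈ Finset.range ℓ,
            ((φ ^ k) b) ^ i * (b ^ ℓ ^ k) ^ (ℓ - 1 - i) := by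
      rw [mul_comm, (Commute.all _ _).geom_sum₂_mul]
    rw [h3]
    refine S19D_nu_mul' ih ?_
    refine A.toSubring.sum_mem fun i _ => ?_
    exact A.mul_mem _ _ (A.toSubring.pow_mem (S19D_int_mem A h1) _)
      (A.toSubring.pow_mem (A.toSubring.pow_mem (S19D_int_mem A hb) _) _)

/-- **(FF)** a uniform exponent for the integers fixed by a normal subgroup of finite index. -/
theorem S19D_ff (hA : A.LiesOverPrime ℓ) (N : Subgroup S19PW_Gal) [N.Normal] [N.FiniteIndex] :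
    ∃ F : ℕ, 0 < F ∧ ∀ b : S19PW_Om, IsIntegral ℤ b → (∀ ν ∈ N, ν b = b) →
      b ^ ℓ ^ F - b ∈ A.nonunits := by
  obtain ⟨φ, hφ⟩ := S19D_frob A hA
  refine ⟨N.index, Nat.pos_of_ne_zero Subgroup.FiniteIndex.index_ne_zero, fun b hb hN => ?_⟩
  have h1 := S19D_frob_pow A hφ N.index hb
  rw [hN _ (N.pow_index_mem φ)] at h1
  have := S19D_nu_neg h1
  rwa [neg_sub] at this

end frob

section roots

variable {ℓ : ℕ} [hℓ : Fact ℓ.Prime] (A : ValuationSubring S19PW_Om)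

/-- an integer prime to `ℓ` is a unit of `A`. -/
theorem S19D_nat_unit (hA : A.LiesOverPrime ℓ) {m : ℕ} (hm : ¬ ℓ ∣ m) :
    (m : S19PW_Om) ∉ A.nonunits := by
  intro h
  have hcop : Nat.Coprime ℓ m := (Nat.Prime.coprime_iff_not_dvd hℓ.out).mpr hm
  have hb := Nat.gcd_eq_gcd_ab ℓ m
  rw [hcop] at hb
  have h1 : ((ℓ : ℤ) * Nat.gcdA ℓ m + (m : ℤ) * Nat.gcdB ℓ m : ℤ) = 1 := by
    rw [← hb]; simp
  have h2 : (ℓ : S19PW_Om) * ((Nat.gcdA ℓ m : ℤ) : S19PW_Om)
      + (m : S19PW_Om) * ((Nat.gcdB ℓ m : ℤ) : S19PW_Om) = 1 := by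
    have := congrArg (fun z : ℤ => (z : S19PW_Om)) h1
    simpa using this
  have h3 : (1 : S19PW_Om) ∈ A.nonunits := by
    rw [← h2]
    exact S19D_nu_add (S19D_nu_mul' hA (intCast_mem A.toSubring _))
      (S19D_nu_mul' h (intCast_mem A.toSubring _))
  rw [A.mem_nonunits_iff, map_one] at h3
  exact lt_irrefl _ h3

/-- **(U1)** distinct roots of unity of order prime to `ℓ` differ by a unit of `A`. -/
theorem S19D_root_unit (hA : A.LiesOverPrime ℓ) {m : ℕ} (hm : ¬ ℓ ∣ m) {ζ₁ ζ₂ : S19PW_Om}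
    (h1 : ζ₁ ^ m = 1) (h2 : ζ₂ ^ m = 1) (hne : ζ₁ ≠ ζ₂) : ζ₁ - ζ₂ ∉ A.nonunits := by
  have hm0 : m ≠ 0 := fun h => hm (h ▸ dvd_zero ℓ)
  have hζ₂0 : ζ₂ ≠ 0 := by
    rintro rfl
    rw [zero_pow hm0] at h2
    exact zero_ne_one h2
  have hint : ∀ ζ : S19PW_Om, ζ ^ m = 1 → IsIntegral ℤ ζ := fun ζ hζ =>
    ⟨Polynomial.X ^ m - 1, Polynomial.monic_X_pow_sub_C 1 hm0, by simp [hζ]⟩
  set η : S19PW_Om := ζ₁ / ζ₂ with hη
  have hηm : η ^ m = 1 := by rw [hη, div_pow, h1, h2, div_one]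
  have hη1 : η ≠ 1 := by
    intro h
    rw [hη, div_eq_one_iff_eq hζ₂0] at h
    exact hne h
  have hηint : IsIntegral ℤ η := hint η hηm
  have hsum0 : ∑ k ∈ Finset.range m, η ^ k = 0 := by
    have := mul_geom_sum η m
    rw [hηm, sub_self] at this
    rcases mul_eq_zero.mp this with h | h
    · exact absurd (sub_eq_zero.mp h) hη1
    · exact h
  have hkey : (m : S19PW_Om) = (1 - η) * ∑ k ∈ Finset.range m, ∑ j ∈ Finset.range k, η ^ j := by
    rw [Finset.mul_sum]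
    have : ∀ k ∈ Finset.range m, (1 - η) * ∑ j ∈ Finset.range k, η ^ j = 1 - η ^ k := by
      intro k _
      have := mul_neg_geom_sum η k
      exact this
    rw [Finset.sum_congr rfl this, Finset.sum_sub_distrib, hsum0]
    simp
  intro hnu
  have h3 : 1 - η ∈ A.nonunits := by
    have e : 1 - η = -((ζ₁ - ζ₂) * ζ₂⁻¹) := by
      rw [hη]; field_simp; ring
    rw [e]
    refine S19D_nu_neg (S19D_nu_mul' hnu ?_)
    have : ζ₂⁻¹ = ζ₂ ^ (m - 1) := by
      have : ζ₂ * ζ₂ ^ (m - 1) = 1 := by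
        rw [← pow_succ', Nat.sub_add_cancel (Nat.pos_of_ne_zero hm0), h2]
      exact (eq_inv_of_mul_eq_one_right this).symm
    rw [this]
    exact A.toSubring.pow_mem (S19D_int_mem A (hint ζ₂ h2)) _
  have h4 : (m : S19PW_Om) ∈ A.nonunits := by
    rw [hkey]
    refine S19D_nu_mul' h3 ?_
    refine A.toSubring.sum_mem fun k _ => A.toSubring.sum_mem fun j _ => ?_
    exact A.toSubring.pow_mem (S19D_int_mem A hηint) _
  exact S19D_nat_unit A hA hm h4

end roots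

end

end Fermat.Agent.S19
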