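import Mathlib
import Fermat.Agent.S19.DescNT
import Fermat.Agent.S34.RankOne
import Fermat.Agent.Lib.ValFraction

/-!
# TRACK 9 "FLAT" (S19), package DESC, sub-lemma (WA) (helper25): weak approximation

`Ω = ℚ̄`, `Γ = Gal(Ω/ℚ)`, `A` a valuation subring of `Ω` over `ℓ`, `D`, `I` its decomposition and
inertia groups, `N ◁ Γ` closed of finite index.

* `S19DW_dec_of_stab` : `δ` preserving `𝔪_A ∩ ℤ̄` in both directions lies in `D`;
* `S19DW_nt1`         : `γ ∉ D·N` ⇒ some `N`-fixed integer `a ∉ 𝔪` has `γ a ∈ 𝔪`;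
* `S19DW_arch`        : a power of an integer of `𝔪` lies in `ℓ^n A`;
* `S19DW_wa`          : the weak approximation element `u`.
-/

set_option autoImplicit false
set_option linter.unusedSectionVars false
set_option linter.unusedVariables false
set_option linter.style.haveILetI false

open scoped Pointwise
open Fermat.Agent.Lib

namespace Fermat.Agent.S19

noncomputable section

attribute [local instance] S19D_zbarAction S19D_zbarSMulComm S19D_zbarTop S19D_zbarDisc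
  S19D_zbarCont S19D_zbarInvariant

variable {ℓ : ℕ} [hℓ : Fact ℓ.Prime] (A : ValuationSubring S19PW_Om)

/-- an automorphism preserving `𝔪_A ∩ ℤ̄` in both directions lies in the decomposition group. -/
theorem S19DW_dec_of_stab (hA : A.LiesOverPrime ℓ) (δ : S19PW_Gal)
    (h1 : ∀ b : S19PW_Om, IsIntegral ℤ b → b ∈ A.nonunits → δ b ∈ A.nonunits)
    (h2 : ∀ b : S19PW_Om, IsIntegral ℤ b → b ∈ A.nonunits → δ.symm b ∈ A.nonunits) :
    δ ∈ A.decompositionSubgroup ℚ := by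
  have key : ∀ (σ : S19PW_Gal),
      (∀ b : S19PW_Om, IsIntegral ℤ b → b ∈ A.nonunits → σ.symm b ∈ A.nonunits) →
      ∀ x ∈ A, σ x ∈ A := by
    intro σ hσ x hx
    obtain ⟨s, y, hs, hy, hsA, hsu, hsy⟩ :=
      exists_integral_fraction_of_mem_valuationSubring hℓ.out A hA (S19D_halg x) hx
    have hs0 : s ≠ 0 := S19D_ne_zero_of_not_nu hsu
    have hσs : σ s ∉ A.nonunits := by
      intro hcon
      have := hσ (σ s) (S19D_int_map σ hs) hcon
      rw [AlgEquiv.symm_apply_apply] at this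
      exact hsu this
    have hσsA : σ s ∈ A := S19D_int_mem A (S19D_int_map σ hs)
    have hinv : (σ s)⁻¹ ∈ A := S19D_inv_mem hσsA hσs
    have hσy : σ y ∈ A := S19D_int_mem A (S19D_int_map σ hy)
    have hx' : x = y / s := by
      field_simp
      rw [mul_comm]; exact hsy
    rw [hx', map_div₀, div_eq_mul_inv]
    exact A.mul_mem _ _ hσy hinv
  refine inertiaCrit_mem_decomposition_of_forall A δ (key δ h2) ?_
  have := key δ.symm (fun b hb hbn => by simpa using h1 b hb hbn)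
  exact this

/-- the chain argument: if `γ b ∈ 𝔪 → b ∈ 𝔪` on `N`-fixed integers, then also
`b ∈ 𝔪 → γ b ∈ 𝔪`. -/
theorem S19DW_chain (N : Subgroup S19PW_Gal) [N.Normal] [N.FiniteIndex] (γ : S19PW_Gal)
    (h : ∀ b : S19PW_Om, IsIntegral ℤ b → (∀ ν ∈ N, ν b = b) → γ b ∈ A.nonunits →
      b ∈ A.nonunits)
    (a : S19PW_Om) (ha : IsIntegral ℤ a) (haN : ∀ ν ∈ N, ν a = a) (hm : a ∈ A.nonunits) :
    γ a ∈ A.nonunits := by
  -- `γ ^ k` preserves the `N`-fixed integers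
  have hfix : ∀ (k : ℕ) (ν : S19PW_Gal), ν ∈ N → ν ((γ ^ k) a) = (γ ^ k) a := by
    intro k ν hν
    have hmem : (γ ^ k)⁻¹ * ν * (γ ^ k) ∈ N := by
      have := Subgroup.Normal.conj_mem (inferInstance : N.Normal) ν hν (γ ^ k)⁻¹
      simpa using this
    have h2 := haN _ hmem
    have h3 : ν ((γ ^ k) a) = (γ ^ k) (((γ ^ k)⁻¹ * ν * (γ ^ k)) a) := by
      simp only [AlgEquiv.mul_apply]
      rw [← AlgEquiv.mul_apply (γ ^ k) (γ ^ k)⁻¹, mul_inv_cancel, AlgEquiv.one_apply]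
    rw [h3, h2]
  have step : ∀ k : ℕ, (γ ^ (k + 1)) a ∈ A.nonunits → γ a ∈ A.nonunits := by
    intro k
    induction k with
    | zero => intro h0; simpa using h0
    | succ k ih =>
      intro h1
      apply ih
      have e : (γ ^ (k + 1 + 1)) a = γ ((γ ^ (k + 1)) a) := by
        rw [pow_succ' γ (k + 1), AlgEquiv.mul_apply]
      rw [e] at h1
      exact h _ (S19D_int_map _ ha) (hfix (k + 1)) h1
  have hidx : N.index ≠ 0 := Subgroup.FiniteIndex.index_ne_zero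
  obtain ⟨k, hk⟩ := Nat.exists_eq_succ_of_ne_zero hidx
  apply step k
  have hN : γ ^ (k + 1) ∈ N := by
    have := N.pow_index_mem γ
    rwa [hk] at this
  rw [haN _ hN]
  exact hm

set_option synthInstance.maxHeartbeats 400000 in
/-- **(NT1)** if no `N`-fixed integer outside `𝔪` is moved into `𝔪` by `γ`, then `γ ∈ D · N`. -/
theorem S19DW_nt1_aux (hA : A.LiesOverPrime ℓ)
    (N : Subgroup S19PW_Gal) [N.Normal] [N.FiniteIndex] (hNc : IsClosed (N : Set S19PW_Gal))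
    (γ : S19PW_Gal)
    (h : ∀ b : S19PW_Om, IsIntegral ℤ b → (∀ ν ∈ N, ν b = b) → γ b ∈ A.nonunits →
      b ∈ A.nonunits) :
    ∃ δ ∈ A.decompositionSubgroup ℚ, ∃ ν ∈ N, γ = δ * ν := by
  classical
  haveI := S19D_isGalois
  haveI := S19D_isIntegralExt
  have : CompactSpace N := isCompact_iff_compactSpace.mp hNc.isCompact
  let S := FixedPoints.subalgebra ℤ S19D_Zbar N
  haveI hinv : Algebra.IsInvariant S S19D_Zbar N := inertiaLift_isInvariant (B := S19D_Zbar) N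
  let Q : Ideal S19D_Zbar := S19D_Q A
  have hQmem : ∀ b : S19D_Zbar, b ∈ Q ↔ (b : S19PW_Om) ∈ A.nonunits := S19D_mem_Q A
  haveI hQprime : Q.IsPrime := S19D_Q_prime A
  have hfixed : ∀ a : S, ∀ ν ∈ N, ν ((a : S19D_Zbar) : S19PW_Om) = ((a : S19D_Zbar) : S19PW_Om) := by
    intro a ν hν
    have := a.2 ⟨ν, hν⟩
    exact congrArg Subtype.val this
  have hunder : (γ⁻¹ • Q).under S = Q.under S := by
    ext a
    simp only [Ideal.under_def, Ideal.mem_comap]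
    rw [Ideal.mem_pointwise_smul_iff_inv_smul_mem, inv_inv]
    show γ • (a : S19D_Zbar) ∈ Q ↔ (a : S19D_Zbar) ∈ Q
    rw [hQmem, hQmem, S19D_coe_smul]
    constructor
    · exact h _ (a : S19D_Zbar).2 (hfixed a)
    · exact S19DW_chain A N γ h _ (a : S19D_Zbar).2 (hfixed a)
  obtain ⟨ν, hν⟩ := Algebra.IsInvariant.exists_smul_of_under_eq_of_profinite
    (A := S) (B := S19D_Zbar) (G := N) (γ⁻¹ • Q) Q hunder
  -- `δ := ν γ⁻¹` stabilises `Q`
  have hstab : ((ν : S19PW_Gal) * γ⁻¹) • Q = Q := by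
    rw [mul_smul]; exact hν.symm
  have hstab' : ∀ b : S19D_Zbar, b ∈ Q ↔ ((ν : S19PW_Gal) * γ⁻¹) • b ∈ Q := by
    intro b
    conv_rhs => rw [← hstab]
    rw [Ideal.smul_mem_pointwise_smul_iff]
  have hδ : ((ν : S19PW_Gal) * γ⁻¹) ∈ A.decompositionSubgroup ℚ := by
    refine S19DW_dec_of_stab A hA _ ?_ ?_
    · intro b hb hbn
      have := (hstab' ⟨b, hb⟩).mp ((hQmem _).mpr hbn)
      exact (hQmem _).mp this
    · intro b hb hbn
      have hb' : IsIntegral ℤ (((ν : S19PW_Gal) * γ⁻¹).symm b) := S19D_int_map _ hb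
      have := (hstab' ⟨_, hb'⟩).mpr (by
        rw [hQmem, S19D_coe_smul]
        simpa using hbn)
      exact (hQmem _).mp this
  refine ⟨((ν : S19PW_Gal) * γ⁻¹)⁻¹, inv_mem hδ, (ν : S19PW_Gal), ν.2, ?_⟩
  group

/-- **(NT1)**, contrapositive: for `γ ∉ D · N` some `N`-fixed integer outside `𝔪` is moved into
`𝔪` by `γ`. -/
theorem S19DW_nt1 (hA : A.LiesOverPrime ℓ)
    (N : Subgroup S19PW_Gal) [N.Normal] [N.FiniteIndex] (hNc : IsClosed (N : Set S19PW_Gal))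
    (γ : S19PW_Gal) (hγ : ¬ ∃ δ ∈ A.decompositionSubgroup ℚ, ∃ ν ∈ N, γ = δ * ν) :
    ∃ a : S19PW_Om, IsIntegral ℤ a ∧ (∀ ν ∈ N, ν a = a) ∧ a ∉ A.nonunits ∧ γ a ∈ A.nonunits := by
  by_contra hcon
  apply hγ
  apply S19DW_nt1_aux A hA N hNc γ
  intro b hb hbN hγb
  by_contra hb'
  exact hcon ⟨b, hb, hbN, hb', hγb⟩

/-- **(ARCH)** a power of an element of `𝔪` lies in `ℓ ^ n · A`. -/
theorem S19DW_arch (hA : A.LiesOverPrime ℓ) (n : ℕ) {c : S19PW_Om} (hc : c ∈ A.nonunits) :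
    ∃ k : ℕ, ∃ y ∈ A, c ^ k = (ℓ : S19PW_Om) ^ n * y := by
  rcases eq_or_ne c 0 with rfl | hc0
  · exact ⟨1, 0, A.zero_mem, by simp⟩
  have hcA : c ∈ A := S19D_nu_mem hc
  have hnu : ¬ IsUnit (⟨c, hcA⟩ : A) := by
    have h1 : (⟨c, hcA⟩ : A) ∈ IsLocalRing.maximalIdeal A :=
      ValuationSubring.coe_mem_nonunits_iff.mp hc
    exact (IsLocalRing.mem_maximalIdeal _).mp h1
  have hne : (⟨c, hcA⟩ : A) ≠ 0 := fun h0 => hc0 (congrArg Subtype.val h0)
  haveI : Algebra.IsAlgebraic ℚ S19PW_Om := AlgebraicClosure.isAlgebraic ℚ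
  obtain ⟨i, y, hy⟩ := Fermat.Agent.S34.S34RO_q_dvd_pow A hℓ.out hA ⟨c, hcA⟩ hnu hne
  refine ⟨i * n, ((y ^ n : A) : S19PW_Om), (y ^ n).2, ?_⟩
  have h2 : c ^ i = (ℓ : S19PW_Om) * (y : S19PW_Om) := by
    have := congrArg (fun z : A => (z : S19PW_Om)) hy
    simpa using this
  rw [pow_mul, h2, mul_pow]
  rfl

variable {A}

/-- "unit of `A`": in `A`, not in `𝔪`. -/
def S19DW_U (A : ValuationSubring S19PW_Om) (x : S19PW_Om) : Prop := x ∈ A ∧ x ∉ A.nonunits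

theorem S19DW_U_iff {x : S19PW_Om} : S19DW_U A x ↔ A.valuation x = 1 := by
  constructor
  · rintro ⟨h1, h2⟩
    exact le_antisymm ((A.valuation_le_one_iff x).mpr h1)
      (not_lt.mp fun h => h2 (A.mem_nonunits_iff.mpr h))
  · intro h
    refine ⟨(A.valuation_le_one_iff x).mp h.le, fun h2 => ?_⟩
    rw [A.mem_nonunits_iff, h] at h2
    exact lt_irrefl _ h2

theorem S19DW_U_one : S19DW_U A 1 := S19DW_U_iff.mpr (map_one _)

theorem S19DW_U_mul {x y : S19PW_Om} (hx : S19DW_U A x) (hy : S19DW_U A y) :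
    S19DW_U A (x * y) := by
  rw [S19DW_U_iff] at *
  rw [map_mul, hx, hy, one_mul]

theorem S19DW_U_pow {x : S19PW_Om} (hx : S19DW_U A x) (k : ℕ) : S19DW_U A (x ^ k) := by
  rw [S19DW_U_iff] at *
  rw [map_pow, hx, one_pow]

theorem S19DW_U_prod {ι : Type*} (s : Finset ι) (f : ι → S19PW_Om)
    (h : ∀ i ∈ s, S19DW_U A (f i)) : S19DW_U A (∏ i ∈ s, f i) := by
  rw [S19DW_U_iff, map_prod]
  exact Finset.prod_eq_one fun i hi => S19DW_U_iff.mp (h i hi)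

theorem S19DW_U_dec {δ : S19PW_Gal} (hδ : δ ∈ A.decompositionSubgroup ℚ) {x : S19PW_Om}
    (hx : S19DW_U A x) : S19DW_U A (δ x) := by
  refine ⟨S19D_dec_mem hδ hx.1, fun h => hx.2 ?_⟩
  have := S19D_dec_nu (inv_mem hδ) h
  have e : δ⁻¹ (δ x) = x := δ.symm_apply_apply x
  rwa [e] at this

variable (A)

/-- the local elements: for every `γ` an `N`-fixed integral unit `e` with `γ e ∈ ℓ ^ n A` if
`γ ∉ D · N`. -/
theorem S19DW_local (hA : A.LiesOverPrime ℓ)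
    (N : Subgroup S19PW_Gal) [N.Normal] [N.FiniteIndex] (hNc : IsClosed (N : Set S19PW_Gal))
    (n : ℕ) (γ : S19PW_Gal) :
    ∃ e : S19PW_Om, IsIntegral ℤ e ∧ (∀ ν ∈ N, ν e = e) ∧ S19DW_U A e ∧
      ((¬ ∃ δ ∈ A.decompositionSubgroup ℚ, ∃ ν ∈ N, γ = δ * ν) →
        ∃ y ∈ A, γ e = (ℓ : S19PW_Om) ^ n * y) := by
  by_cases hγ : ∃ δ ∈ A.decompositionSubgroup ℚ, ∃ ν ∈ N, γ = δ * ν
  · exact ⟨1, isIntegral_one, fun ν _ => map_one ν, S19DW_U_one, fun h => absurd hγ h⟩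
  · obtain ⟨a, ha, haN, hau, hγa⟩ := S19DW_nt1 A hA N hNc γ hγ
    obtain ⟨k, y, hy, hky⟩ := S19DW_arch A hA n hγa
    refine ⟨a ^ k, ha.pow k, fun ν hν => by rw [map_pow, haN ν hν],
      S19DW_U_pow ⟨S19D_int_mem A ha, hau⟩ k, fun _ => ⟨y, hy, ?_⟩⟩
    rw [map_pow, hky]

/-- the element `w`: integral, `N`-fixed, a unit of `A`, with `γ w ∈ ℓ ^ n A` for `γ ∉ D · N`. -/
theorem S19DW_w (hA : A.LiesOverPrime ℓ)
    (N : Subgroup S19PW_Gal) [N.Normal] [N.FiniteIndex] (hNc : IsClosed (N : Set S19PW_Gal))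
    (n : ℕ) :
    ∃ w : S19PW_Om, IsIntegral ℤ w ∧ (∀ ν ∈ N, ν w = w) ∧ S19DW_U A w ∧
      ∀ γ : S19PW_Gal, (¬ ∃ δ ∈ A.decompositionSubgroup ℚ, ∃ ν ∈ N, γ = δ * ν) →
        ∃ y ∈ A, γ w = (ℓ : S19PW_Om) ^ n * y := by
  classical
  choose e he1 he2 he3 he4 using S19DW_local A hA N hNc n
  haveI : Finite (S19PW_Gal ⧸ N) := Subgroup.finite_quotient_of_finiteIndex
  haveI : Fintype (S19PW_Gal ⧸ N) := Fintype.ofFinite _
  refine ⟨∏ q : S19PW_Gal ⧸ N, e (Quotient.out q), ?_, ?_, ?_, ?_⟩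
  · exact IsIntegral.prod _ fun q _ => he1 _
  · intro ν hν
    rw [map_prod]
    exact Finset.prod_congr rfl fun q _ => he2 _ ν hν
  · exact S19DW_U_prod _ _ fun q _ => he3 _
  · intro γ hγ
    set q₀ : S19PW_Gal ⧸ N := (γ : S19PW_Gal ⧸ N) with hq₀
    obtain ⟨ν₀, hν₀⟩ := QuotientGroup.mk_out_eq_mul N γ
    have hout : ¬ ∃ δ ∈ A.decompositionSubgroup ℚ, ∃ ν ∈ N, Quotient.out q₀ = δ * ν := by
      rintro ⟨δ, hδ, ν, hν, h⟩
      apply hγ
      refine ⟨δ, hδ, ν * (ν₀ : S19PW_Gal)⁻¹, N.mul_mem hν (N.inv_mem ν₀.2), ?_⟩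
      have h1 : Quotient.out q₀ = γ * (ν₀ : S19PW_Gal) := hν₀
      rw [h1] at h
      rw [← mul_assoc, ← h]
      group
    obtain ⟨y, hy, hyγ⟩ := he4 (Quotient.out q₀) hout
    have h2 : γ (e (Quotient.out q₀)) = (ℓ : S19PW_Om) ^ n * y := by
      rw [← hyγ]
      have h1 : Quotient.out q₀ = γ * (ν₀ : S19PW_Gal) := hν₀
      have h3 : (Quotient.out q₀) (e (Quotient.out q₀)) =
          (γ * (ν₀ : S19PW_Gal)) (e (Quotient.out q₀)) :=
        congrArg (fun g : S19PW_Gal => g (e (Quotient.out q₀))) h1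
      rw [h3, AlgEquiv.mul_apply, he2 _ (ν₀ : S19PW_Gal) ν₀.2]
    rw [map_prod, ← Finset.mul_prod_erase Finset.univ _ (Finset.mem_univ q₀), h2, mul_assoc]
    refine ⟨_, A.mul_mem _ _ hy ?_, rfl⟩
    refine A.toSubring.prod_mem fun q _ => ?_
    exact S19D_int_mem A (S19D_int_map γ (he1 _))

/-- **(WA)** the weak approximation element: an algebraic integer `u`, fixed by `N` and by the
inertia group of `A`, a unit at `A`, with `γ u ∈ ℓ ^ n · A` for every `γ ∉ D · N`. -/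
theorem S19DW_wa (hA : A.LiesOverPrime ℓ)
    (N : Subgroup S19PW_Gal) [N.Normal] [N.FiniteIndex] (hNc : IsClosed (N : Set S19PW_Gal))
    (n : ℕ) :
    ∃ u : S19PW_Om, IsIntegral ℤ u ∧ (∀ ν ∈ N, ν u = u) ∧
      (∀ τ ∈ A.inertiaSubgroupIn ℚ, τ u = u) ∧ u ∉ A.nonunits ∧
      ∀ γ : S19PW_Gal, (¬ ∃ δ ∈ A.decompositionSubgroup ℚ, ∃ ν ∈ N, γ = δ * ν) →
        ∃ y ∈ A, γ u = (ℓ : S19PW_Om) ^ n * y := by
  classical
  obtain ⟨w, hw1, hw2, hw3, hw4⟩ := S19DW_w A hA N hNc n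
  haveI : Finite (S19PW_Gal ⧸ N) := Subgroup.finite_quotient_of_finiteIndex
  haveI : Fintype (S19PW_Gal ⧸ N) := Fintype.ofFinite _
  -- the cosets met by the inertia group
  let IN : S19PW_Gal → Prop := fun γ => ∃ ι ∈ A.inertiaSubgroupIn ℚ, ∃ ν ∈ N, γ = ι * ν
  let G₀ : S19PW_Gal → S19PW_Om := fun γ => if IN γ then γ w else 1
  have hG₀ : ∀ γ, G₀ γ = if IN γ then γ w else 1 := fun γ => rfl
  -- (c1) right `N`-invariance
  have hIN_right : ∀ γ ν, ν ∈ N → (IN (γ * ν) ↔ IN γ) := by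
    intro γ ν hν
    constructor
    · rintro ⟨ι, hι, ν', hν', h⟩
      refine ⟨ι, hι, ν' * ν⁻¹, N.mul_mem hν' (N.inv_mem hν), ?_⟩
      rw [← mul_assoc, ← h]
      group
    · rintro ⟨ι, hι, ν', hν', h⟩
      exact ⟨ι, hι, ν' * ν, N.mul_mem hν' hν, by rw [h, mul_assoc]⟩
  have c1 : ∀ γ ν, ν ∈ N → G₀ (γ * ν) = G₀ γ := by
    intro γ ν hν
    rw [hG₀, hG₀]
    by_cases h : IN γ
    · rw [if_pos h, if_pos ((hIN_right γ ν hν).mpr h), AlgEquiv.mul_apply, hw2 ν hν]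
    · rw [if_neg h, if_neg (fun h' => h ((hIN_right γ ν hν).mp h'))]
  have c1' : ∀ γ : S19PW_Gal, G₀ (Quotient.out ((γ : S19PW_Gal) : S19PW_Gal ⧸ N)) = G₀ γ := by
    intro γ
    obtain ⟨ν₀, hν₀⟩ := QuotientGroup.mk_out_eq_mul N γ
    rw [hν₀]
    exact c1 γ ν₀ ν₀.2
  -- (c2) left `I`-equivariance
  have hIN_left : ∀ τ γ, τ ∈ A.inertiaSubgroupIn ℚ → (IN (τ * γ) ↔ IN γ) := by
    intro τ γ hτ
    constructor
    · rintro ⟨ι, hι, ν, hν, h⟩
      refine ⟨τ⁻¹ * ι, (A.inertiaSubgroupIn ℚ).mul_mem ((A.inertiaSubgroupIn ℚ).inv_mem hτ) hι,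
        ν, hν, ?_⟩
      rw [mul_assoc, ← h]
      group
    · rintro ⟨ι, hι, ν, hν, h⟩
      exact ⟨τ * ι, (A.inertiaSubgroupIn ℚ).mul_mem hτ hι, ν, hν, by rw [h, mul_assoc]⟩
  have c2 : ∀ τ γ, τ ∈ A.inertiaSubgroupIn ℚ → τ (G₀ γ) = G₀ (τ * γ) := by
    intro τ γ hτ
    rw [hG₀, hG₀]
    by_cases h : IN γ
    · rw [if_pos h, if_pos ((hIN_left τ γ hτ).mpr h), AlgEquiv.mul_apply]
    · rw [if_neg h, if_neg (fun h' => h ((hIN_left τ γ hτ).mp h')), map_one]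
  -- (c3) `N`-invariance of the values
  have c3 : ∀ ν γ, ν ∈ N → ν (G₀ γ) = G₀ γ := by
    intro ν γ hν
    rw [hG₀]
    by_cases h : IN γ
    · rw [if_pos h]
      have hmem : γ⁻¹ * ν * γ ∈ N := by
        have := Subgroup.Normal.conj_mem (inferInstance : N.Normal) ν hν γ⁻¹
        simpa using this
      have h2 := hw2 _ hmem
      have h3 : ν (γ w) = γ ((γ⁻¹ * ν * γ) w) := by
        simp only [AlgEquiv.mul_apply]
        rw [← AlgEquiv.mul_apply γ γ⁻¹, mul_inv_cancel, AlgEquiv.one_apply]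
      rw [h3, h2]
    · rw [if_neg h, map_one]
  -- (c4) integrality and units
  have c4 : ∀ γ, IsIntegral ℤ (G₀ γ) := by
    intro γ
    rw [hG₀]
    split_ifs
    · exact S19D_int_map γ hw1
    · exact isIntegral_one
  have c5 : ∀ γ, S19DW_U A (G₀ γ) := by
    intro γ
    rw [hG₀]
    by_cases h : IN γ
    · rw [if_pos h]
      obtain ⟨ι, hι, ν, hν, rfl⟩ := h
      rw [AlgEquiv.mul_apply, hw2 ν hν]
      exact S19DW_U_dec (S19D_inertia_le hι) hw3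
    · rw [if_neg h]
      exact S19DW_U_one
  have hIN1 : IN 1 := ⟨1, one_mem _, 1, one_mem _, by simp⟩
  have hG₀1 : G₀ 1 = w := by rw [hG₀, if_pos hIN1, AlgEquiv.one_apply]
  refine ⟨∏ q : S19PW_Gal ⧸ N, G₀ (Quotient.out q), ?_, ?_, ?_, ?_, ?_⟩
  · exact IsIntegral.prod _ fun q _ => c4 _
  · intro ν hν
    rw [map_prod]
    exact Finset.prod_congr rfl fun q _ => c3 ν _ hν
  · intro τ hτ
    rw [map_prod]
    have e1 : ∀ q : S19PW_Gal ⧸ N, τ (G₀ (Quotient.out q)) =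
        G₀ (Quotient.out ((τ : S19PW_Gal ⧸ N) * q)) := by
      intro q
      rw [c2 τ _ hτ, ← c1' (τ * Quotient.out q), QuotientGroup.mk_mul, QuotientGroup.out_eq']
    rw [Finset.prod_congr rfl fun q _ => e1 q]
    exact Equiv.prod_comp (Equiv.mulLeft (τ : S19PW_Gal ⧸ N))
      (fun q => G₀ (Quotient.out q))
  · exact (S19DW_U_prod _ _ fun q _ => c5 _).2
  · intro γ hγ
    obtain ⟨y, hy, hyγ⟩ := hw4 γ hγ
    have h1 : G₀ (Quotient.out ((1 : S19PW_Gal) : S19PW_Gal ⧸ N)) = w := by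
      rw [c1' 1, hG₀1]
    rw [map_prod, ← Finset.mul_prod_erase Finset.univ _
      (Finset.mem_univ ((1 : S19PW_Gal) : S19PW_Gal ⧸ N)), h1, hyγ, mul_assoc]
    refine ⟨_, A.mul_mem _ _ hy ?_, rfl⟩
    refine A.toSubring.prod_mem fun q _ => ?_
    exact S19D_int_mem A (S19D_int_map γ (c4 _))

end

end Fermat.Agent.S19
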