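import Mathlib
import Fermat.Prelude.Def_FLTPrelim_Ramification
import Fermat.Agent.S34.RankOne

/-!
# TRACK 9 "FLAT" (S19 + S32), package TRANSL (helper8), part 1: closedness

`R` a commutative ring (in the application `R = ↥A`, `A` a valuation subring of `Ω = ℚ̄` over `ℓ`),
`Ω` a field with `[Algebra R Ω]`, `S` a finite set.  A function `f : S → Ω` is *integral* if its
values lie in (the image of) `R`: `f ∈ S19T_int R Ω S`.

* `S19T_sep_mul` : an integral subalgebra `𝒜 ⊂ Map(S, Ω)` separating the points of `S` contains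
  `d · Map(S, R)` for some `d ≠ 0`;
* `S19T_closed`  : if moreover every `d ≠ 0` divides a power of `π` (rank one), then a function
  which is congruent modulo every `π ^ n` to an element of `𝒜` lies in `𝒜`
  (this is how the approximate addition formulas (ADD-n) are consumed: no completion);
* `S19T_rankOne` : the rank-one hypothesis for `R = ↥A`, `π = ℓ` (from helper25's
  `S34RO_dvd_pow_q`).
-/

set_option autoImplicit false

namespace Fermat.Agent.S19

open Finset

section closed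

variable {R Ω S : Type*} [CommRing R] [Field Ω] [Algebra R Ω]

/-- the `R`-subalgebra of the functions `S → Ω` with values in (the image of) `R`. -/
def S19T_int (R Ω S : Type*) [CommRing R] [Field Ω] [Algebra R Ω] : Subalgebra R (S → Ω) where
  carrier := {f | ∀ x, f x ∈ (algebraMap R Ω).range}
  mul_mem' := fun ha hb x => (algebraMap R Ω).range.mul_mem (ha x) (hb x)
  one_mem' := fun _ => (algebraMap R Ω).range.one_mem
  add_mem' := fun ha hb x => (algebraMap R Ω).range.add_mem (ha x) (hb x)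
  zero_mem' := fun _ => (algebraMap R Ω).range.zero_mem
  algebraMap_mem' := fun r _ => ⟨r, rfl⟩

theorem S19T_mem_int {f : S → Ω} :
    f ∈ S19T_int R Ω S ↔ ∀ x, ∃ r : R, algebraMap R Ω r = f x := Iff.rfl

/-- **(SEP)** an integral separating subalgebra of functions on a finite set contains
`d · Map(S, R)` for some `d ≠ 0`. -/
theorem S19T_sep_mul [Finite S] (𝒜 : Subalgebra R (S → Ω)) (hint : 𝒜 ≤ S19T_int R Ω S)
    (hsep : ∀ x y : S, x ≠ y → ∃ f ∈ 𝒜, f x ≠ f y) :
    ∃ d : R, algebraMap R Ω d ≠ 0 ∧ ∀ g ∈ S19T_int R Ω S, d • g ∈ 𝒜 := by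
  classical
  have := Fintype.ofFinite S
  have hδ : ∀ x : S, ∃ δ ∈ 𝒜, (∀ z, z ≠ x → δ z = 0) ∧ δ x ≠ 0 := by
    intro x
    choose! f hf hfne using (fun y (hy : x ≠ y) => hsep x y hy)
    have hc : ∀ y, x ≠ y → ∃ r : R, algebraMap R Ω r = f y y := fun y hy => hint (hf y hy) y
    choose! r hr using hc
    refine ⟨∏ y ∈ Finset.univ.erase x, (f y - algebraMap R (S → Ω) (r y)), ?_, ?_, ?_⟩
    · exact Subalgebra.prod_mem _ (fun y hy =>
        𝒜.sub_mem (hf y (Finset.ne_of_mem_erase hy).symm) (𝒜.algebraMap_mem _))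
    · intro z hz
      rw [Finset.prod_apply]
      apply Finset.prod_eq_zero (Finset.mem_erase.mpr ⟨hz, Finset.mem_univ z⟩)
      rw [Pi.sub_apply, Pi.algebraMap_apply, hr z hz.symm, sub_self]
    · rw [Finset.prod_apply, Finset.prod_ne_zero_iff]
      intro y hy
      have hne := Finset.ne_of_mem_erase hy
      rw [Pi.sub_apply, Pi.algebraMap_apply, hr y hne.symm]
      exact sub_ne_zero.mpr (hfne y hne.symm)
  choose δ hδ𝒜 hδ0 hδx using hδ
  have hρ : ∀ x, ∃ ρ : R, algebraMap R Ω ρ = δ x x := fun x => hint (hδ𝒜 x) x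
  choose ρ hρ using hρ
  refine ⟨∏ x, ρ x, ?_, ?_⟩
  · rw [map_prod]
    exact Finset.prod_ne_zero_iff.mpr (fun x _ => by rw [hρ]; exact hδx x)
  · intro g hg
    choose s hs using hg
    have hsum : (∏ x, ρ x) • g = ∑ x, (s x * ∏ y ∈ Finset.univ.erase x, ρ y) • δ x := by
      funext z
      rw [Finset.sum_apply, Finset.sum_eq_single z]
      · rw [Pi.smul_apply, Pi.smul_apply, Algebra.smul_def, Algebra.smul_def, ← hs z, ← hρ z,
          ← map_mul, ← map_mul, ← Finset.mul_prod_erase Finset.univ ρ (Finset.mem_univ z)]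
        congr 1
        ring
      · intro x _ hx
        rw [Pi.smul_apply, hδ0 x z hx.symm, smul_zero]
      · intro h
        exact absurd (Finset.mem_univ z) h
    rw [hsum]
    exact Subalgebra.sum_mem _ (fun x _ => 𝒜.smul_mem (hδ𝒜 x) _)

/-- **(CLOSED)** closedness of an integral separating subalgebra: a function which is
approximated modulo every power of `π` by elements of `𝒜` lies in `𝒜`. -/
theorem S19T_closed [Finite S] (π : R)
    (hπ : ∀ d : R, algebraMap R Ω d ≠ 0 → ∃ n : ℕ, ∃ r : R, π ^ n = d * r)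
    (𝒜 : Subalgebra R (S → Ω)) (hint : 𝒜 ≤ S19T_int R Ω S)
    (hsep : ∀ x y : S, x ≠ y → ∃ f ∈ 𝒜, f x ≠ f y)
    (F : S → Ω)
    (hF : ∀ n : ℕ, ∃ T ∈ 𝒜, ∀ x, ∃ r : R, F x - T x = algebraMap R Ω (π ^ n * r)) : F ∈ 𝒜 := by
  obtain ⟨d, hd, hdA⟩ := S19T_sep_mul 𝒜 hint hsep
  obtain ⟨n, r, hnr⟩ := hπ d hd
  obtain ⟨T, hT, hFT⟩ := hF n
  choose s hs using hFT
  have h1 : F = T + d • (fun x => algebraMap R Ω (r * s x)) := by
    funext x
    rw [Pi.add_apply, Pi.smul_apply, Algebra.smul_def, ← map_mul, ← mul_assoc, ← hnr, ← hs x]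
    ring
  rw [h1]
  exact 𝒜.add_mem hT (hdA _ (fun x => ⟨_, rfl⟩))

end closed

/-- **rank one**: every nonzero element of a valuation subring `A` of `ℚ̄` over the prime `ℓ`
divides a power of `ℓ` (the hypothesis `hπ` of `S19T_closed` for `R = ↥A`, `π = ℓ`). -/
theorem S19T_rankOne {ℓ : ℕ} (hℓ : ℓ.Prime) (A : ValuationSubring (AlgebraicClosure ℚ))
    (hA : A.LiesOverPrime ℓ) (d : A) (hd : algebraMap A (AlgebraicClosure ℚ) d ≠ 0) :
    ∃ n : ℕ, ∃ r : A, ((ℓ : ℕ) : A) ^ n = d * r := by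
  have := Fermat.Agent.S34.S34RO_isAlgebraic_Qbar
  have hd0 : d ≠ 0 := by
    rintro rfl
    exact hd (map_zero _)
  obtain ⟨e, r, hr⟩ := Fermat.Agent.S34.S34RO_dvd_pow_q A hℓ hA d hd0
  exact ⟨e, r, hr⟩

end Fermat.Agent.S19
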