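import Mathlib
import Fermat.Agent.S19.HopfOrder
import Fermat.Agent.S19.TranslClosed

/-!
# TRACK 9 "FLAT" (S19 + S32), package TRANSL (helper8), part 2: assembly over the fibres

`R` a commutative ring (in the application `R = ↥A`, `A` a valuation subring of `Ω = ℚ̄`), `Ω` a
field, `G` a finite set (group), `red : G → C` the reduction, `κ c i : G → Ω` the coordinate
functions of a chart at the fibre `G_c = red⁻¹ c` (only the values on `G_c` matter).

* `S19T_e red c` the indicator of `G_c`; `S19T_h red κ (c, none) = e_c`,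
  `S19T_h red κ (c, some i) = e_c · κ c i` the generators;
  `S19T_H R red κ := Algebra.adjoin R (range h)` the order, `S19T_H2 R red κ = H ⊗ H ⊂ Map(G × G, Ω)`
  (`= (S19HD_j2 H.val H.val).range`, `S19T_sup_eq_range`; finite sums of pure tensors,
  `S19T_sup_fin`).
* `S19T_patch1`, `S19T_patch2` : a function which is fibre-wise a polynomial (coefficients in `R`)
  in the coordinates lies in `H` resp. `H ⊗ H`;
  `S19T_patch1_approx`, `S19T_patch2_approx` : the same if this holds modulo every power of `π`.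
* `S19T_H_int` (a), `S19T_H_sep` (d), `S19T_H_fg` (finiteness), `S19T_h_equiv` (b').
* `S19T_H_add`, `S19T_H_add_approx` (e) : fibre-wise addition formulas (exact, or (ADD-n) modulo
  every power of `π`) give `Δ(H) ⊂ H ⊗ H`.
* `S19T_H_semi`, `S19T_H_semi_approx` (f), (c') : stability of `H` under `f ↦ s ∘ f ∘ u`
  (`s` a ring endomorphism of `Ω` preserving `R`, `u : G → G` compatible with `red`): antipode
  (`s = id`, `u = neg`) and Galois stability (`s = σ`, `u = σ⁻¹`).
-/

set_option autoImplicit false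

namespace Fermat.Agent.S19

open Finset MvPolynomial

section assembly

variable {R Ω : Type*} [CommRing R] [Field Ω] [Algebra R Ω]
variable {G C ι : Type*}

/-- the indicator function of the fibre `red⁻¹ c`. -/
noncomputable def S19T_e (red : G → C) (c : C) : G → Ω :=
  fun x => @ite Ω (red x = c) (Classical.propDecidable _) 1 0

theorem S19T_e_eq (red : G → C) {c : C} {x : G} (h : red x = c) :
    S19T_e (Ω := Ω) red c x = 1 := by
  unfold S19T_e
  rw [if_pos h]

theorem S19T_e_ne (red : G → C) {c : C} {x : G} (h : red x ≠ c) :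
    S19T_e (Ω := Ω) red c x = 0 := by
  unfold S19T_e
  rw [if_neg h]

/-- the coordinate functions of the fibre over `c`, with the constant `1` added. -/
def S19T_k (κ : C → ι → G → Ω) (c : C) : Option ι → G → Ω
  | none => 1
  | some i => κ c i

/-- the generators `e_c` and `e_c · κ c i` of the order. -/
noncomputable def S19T_h (red : G → C) (κ : C → ι → G → Ω) : C × Option ι → G → Ω :=
  fun p => S19T_e red p.1 * S19T_k κ p.1 p.2

theorem S19T_h_none (red : G → C) (κ : C → ι → G → Ω) (c : C) (x : G) :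
    S19T_h red κ (c, none) x = S19T_e red c x := by
  show S19T_e (Ω := Ω) red c x * (1 : Ω) = _
  rw [mul_one]

theorem S19T_h_some (red : G → C) (κ : C → ι → G → Ω) (c : C) (i : ι) (x : G) :
    S19T_h red κ (c, some i) x = S19T_e red c x * κ c i x := rfl

theorem S19T_h_zero (red : G → C) (κ : C → ι → G → Ω) (c : C) (o : Option ι) (x : G)
    (hx : red x ≠ c) : S19T_h red κ (c, o) x = 0 := by
  show S19T_e (Ω := Ω) red c x * S19T_k κ c o x = 0
  rw [S19T_e_ne red hx, zero_mul]

/-- the order `H = R[e_c, e_c · κ c i] ⊂ Map(G, Ω)`. -/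
noncomputable def S19T_H (R : Type*) [CommRing R] [Algebra R Ω] (red : G → C)
    (κ : C → ι → G → Ω) : Subalgebra R (G → Ω) :=
  Algebra.adjoin R (Set.range (S19T_h red κ))

variable (red : G → C) (κ : C → ι → G → Ω)

theorem S19T_h_mem (p : C × Option ι) : S19T_h red κ p ∈ S19T_H R red κ :=
  Algebra.subset_adjoin ⟨p, rfl⟩

theorem S19T_e_mem (c : C) : S19T_e red c ∈ S19T_H R red κ := by
  have h := S19T_h_mem (R := R) red κ (c, none)
  have h1 : S19T_h red κ (c, none) = S19T_e red c := by
    unfold S19T_h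
    show S19T_e red c * 1 = _
    rw [mul_one]
  rwa [h1] at h

theorem S19T_ek_mem (c : C) (i : ι) : S19T_e red c * κ c i ∈ S19T_H R red κ :=
  S19T_h_mem (R := R) red κ (c, some i)

/-- evaluation of `aeval` in a function algebra. -/
theorem S19T_aeval_apply {σ X : Type*} (v : σ → X → Ω) (P : MvPolynomial σ R) (x : X) :
    (aeval v P) x = aeval (fun j => v j x) P :=
  comp_aeval_apply (f := v) (Pi.evalAlgHom R (fun _ : X => Ω) x) P

/-- `e_c · P(κ c)` lies in `H`. -/
theorem S19T_e_aeval_mem (c : C) (P : MvPolynomial ι R) :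
    S19T_e red c * aeval (fun j => κ c j) P ∈ S19T_H R red κ := by
  have h1 : S19T_e red c * aeval (fun j => κ c j) P
      = S19T_e red c * aeval (fun j => S19T_e red c * κ c j) P := by
    funext x
    rw [Pi.mul_apply, Pi.mul_apply, S19T_aeval_apply, S19T_aeval_apply]
    by_cases hx : red x = c
    · simp only [Pi.mul_apply, S19T_e_eq red hx, one_mul]
    · rw [S19T_e_ne red hx, zero_mul, zero_mul]
  rw [h1]
  refine (S19T_H R red κ).mul_mem (S19T_e_mem red κ c) ?_
  have h2 : aeval (fun j => S19T_e red c * κ c j) P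
      ∈ Algebra.adjoin R (Set.range (fun j => S19T_e (Ω := Ω) red c * κ c j)) := by
    rw [Algebra.adjoin_range_eq_range_aeval]
    exact ⟨P, rfl⟩
  refine Algebra.adjoin_le ?_ h2
  rintro _ ⟨j, rfl⟩
  exact S19T_ek_mem red κ c j

/-- **(PATCH 1)** a function which is, on every fibre, a polynomial in the coordinates of the
fibre lies in `H`. -/
theorem S19T_patch1 [Finite G] (F : G → Ω)
    (hF : ∀ c : C, ∃ P : MvPolynomial ι R, ∀ x, red x = c → F x = aeval (fun j => κ c j x) P) :
    F ∈ S19T_H R red κ := by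
  classical
  have := Fintype.ofFinite G
  choose P hP using hF
  have h1 : F = ∑ c ∈ (Finset.univ : Finset G).image red,
      S19T_e red c * aeval (fun j => κ c j) (P c) := by
    funext x
    rw [Finset.sum_apply, Finset.sum_eq_single (red x)]
    · rw [Pi.mul_apply, S19T_e_eq red rfl, one_mul, S19T_aeval_apply]
      exact hP _ x rfl
    · intro c _ hc
      rw [Pi.mul_apply, S19T_e_ne red (Ne.symm hc), zero_mul]
    · intro h
      exact absurd (Finset.mem_image_of_mem red (Finset.mem_univ x)) h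
  rw [h1]
  exact Subalgebra.sum_mem _ (fun c _ => S19T_e_aeval_mem red κ c (P c))

/-- the algebra `H ⊗ H` of functions on `G × G`. -/
noncomputable def S19T_H2 (R : Type*) [CommRing R] [Algebra R Ω] (red : G → C)
    (κ : C → ι → G → Ω) : Subalgebra R (G × G → Ω) :=
  (S19T_H R red κ).map (S19HD_fst (Y := G)) ⊔ (S19T_H R red κ).map (S19HD_snd (X := G))

theorem S19T_fst_mem {a : G → Ω} (ha : a ∈ S19T_H R red κ) :
    (fun p : G × G => a p.1) ∈ S19T_H2 R red κ :=
  (le_sup_left : _ ≤ S19T_H2 R red κ) ⟨a, ha, rfl⟩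

theorem S19T_snd_mem {a : G → Ω} (ha : a ∈ S19T_H R red κ) :
    (fun p : G × G => a p.2) ∈ S19T_H2 R red κ :=
  (le_sup_right : _ ≤ S19T_H2 R red κ) ⟨a, ha, rfl⟩

/-- `(e_c ⊗ e_c') · P(κ c ⊗ 1, 1 ⊗ κ c')` lies in `H ⊗ H`. -/
theorem S19T_e_aeval_mem2 (c c' : C) (P : MvPolynomial (ι ⊕ ι) R) :
    (fun p : G × G => S19T_e red c p.1 * S19T_e red c' p.2 *
      aeval (Sum.elim (fun j => κ c j p.1) (fun j => κ c' j p.2)) P) ∈ S19T_H2 R red κ := by
  set v : ι ⊕ ι → G × G → Ω :=
    Sum.elim (fun j p => S19T_e red c p.1 * κ c j p.1) (fun j p => S19T_e red c' p.2 * κ c' j p.2)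
    with hv
  have h1 : (fun p : G × G => S19T_e red c p.1 * S19T_e red c' p.2 *
      aeval (Sum.elim (fun j => κ c j p.1) (fun j => κ c' j p.2)) P)
      = (fun p : G × G => S19T_e red c p.1) * (fun p : G × G => S19T_e red c' p.2) *
          aeval v P := by
    funext p
    rw [Pi.mul_apply, Pi.mul_apply, S19T_aeval_apply]
    by_cases hx : red p.1 = c
    · by_cases hy : red p.2 = c'
      · rw [S19T_e_eq red hx, S19T_e_eq red hy, one_mul, one_mul, one_mul]
        congr 2
        funext k
        rcases k with j | j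
        · simp only [hv, Sum.elim_inl, S19T_e_eq red hx, one_mul]
        · simp only [hv, Sum.elim_inr, S19T_e_eq red hy, one_mul]
      · rw [S19T_e_ne red hy, mul_zero, zero_mul, zero_mul]
    · rw [S19T_e_ne red hx, zero_mul, zero_mul, zero_mul]
  rw [h1]
  refine (S19T_H2 R red κ).mul_mem ((S19T_H2 R red κ).mul_mem
    (S19T_fst_mem red κ (S19T_e_mem red κ c)) (S19T_snd_mem red κ (S19T_e_mem red κ c'))) ?_
  have h2 : aeval v P ∈ Algebra.adjoin R (Set.range v) := by
    rw [Algebra.adjoin_range_eq_range_aeval]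
    exact ⟨P, rfl⟩
  refine Algebra.adjoin_le ?_ h2
  rintro _ ⟨k, rfl⟩
  rcases k with j | j
  · exact S19T_fst_mem red κ (S19T_ek_mem red κ c j)
  · exact S19T_snd_mem red κ (S19T_ek_mem red κ c' j)

/-- **(PATCH 2)** a function on `G × G` which is, on every product of two fibres, a polynomial
in the coordinates of the two fibres lies in `H ⊗ H`. -/
theorem S19T_patch2 [Finite G] (F : G × G → Ω)
    (hF : ∀ c c' : C, ∃ P : MvPolynomial (ι ⊕ ι) R, ∀ x y, red x = c → red y = c' →
      F (x, y) = aeval (Sum.elim (fun j => κ c j x) (fun j => κ c' j y)) P) :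
    F ∈ S19T_H2 R red κ := by
  classical
  have := Fintype.ofFinite G
  choose P hP using hF
  have h1 : F = ∑ c ∈ (Finset.univ : Finset G).image red,
      ∑ c' ∈ (Finset.univ : Finset G).image red,
        (fun p : G × G => S19T_e red c p.1 * S19T_e red c' p.2 *
          aeval (Sum.elim (fun j => κ c j p.1) (fun j => κ c' j p.2)) (P c c')) := by
    funext p
    rw [Finset.sum_apply, Finset.sum_eq_single (red p.1)]
    · rw [Finset.sum_apply, Finset.sum_eq_single (red p.2)]
      · simp only [S19T_e_eq red rfl, one_mul]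
        exact hP _ _ p.1 p.2 rfl rfl
      · intro c' _ hc'
        simp only [S19T_e_ne red (Ne.symm hc'), mul_zero, zero_mul]
      · intro h
        exact absurd (Finset.mem_image_of_mem red (Finset.mem_univ p.2)) h
    · intro c _ hc
      rw [Finset.sum_apply]
      refine Finset.sum_eq_zero (fun c' _ => ?_)
      simp only [S19T_e_ne red (Ne.symm hc), zero_mul]
    · intro h
      exact absurd (Finset.mem_image_of_mem red (Finset.mem_univ p.1)) h
  rw [h1]
  exact Subalgebra.sum_mem _ (fun c _ => Subalgebra.sum_mem _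
    (fun c' _ => S19T_e_aeval_mem2 red κ c c' (P c c')))

/-! ### integrality, separation, finiteness -/

section basic

variable (hκ : ∀ c i x, red x = c → κ c i x ∈ (algebraMap R Ω).range)
include hκ

theorem S19T_h_int (p : C × Option ι) : S19T_h red κ p ∈ S19T_int R Ω G := by
  intro x
  obtain ⟨c, o⟩ := p
  by_cases hx : red x = c
  · show S19T_e red c x * S19T_k κ c o x ∈ _
    rw [S19T_e_eq red hx, one_mul]
    cases o with
    | none => exact (algebraMap R Ω).range.one_mem
    | some i => exact hκ c i x hx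
  · show S19T_e red c x * S19T_k κ c o x ∈ _
    rw [S19T_e_ne red hx, zero_mul]
    exact (algebraMap R Ω).range.zero_mem

/-- **(a)** the elements of `H` are integral. -/
theorem S19T_H_int : S19T_H R red κ ≤ S19T_int R Ω G := by
  refine Algebra.adjoin_le ?_
  rintro _ ⟨p, rfl⟩
  exact S19T_h_int red κ hκ p

theorem S19T_H2_int : S19T_H2 R red κ ≤ S19T_int R Ω (G × G) := by
  refine sup_le ?_ ?_
  · rintro _ ⟨a, ha, rfl⟩ p
    exact S19T_H_int red κ hκ ha p.1
  · rintro _ ⟨a, ha, rfl⟩ p
    exact S19T_H_int red κ hκ ha p.2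

end basic

section sep

variable (hinj : ∀ x y, red x = red y → (∀ i, κ (red x) i x = κ (red x) i y) → x = y)
include hinj

/-- **(d)** `H` separates the points of `G`. -/
theorem S19T_H_sep : ∀ x y : G, x ≠ y → ∃ f ∈ S19T_H R red κ, f x ≠ f y := by
  intro x y hxy
  by_cases hr : red x = red y
  · have h1 : ¬ ∀ i, κ (red x) i x = κ (red x) i y := fun h => hxy (hinj x y hr h)
    push Not at h1
    obtain ⟨i, hi⟩ := h1
    refine ⟨_, S19T_ek_mem red κ (red x) i, ?_⟩
    rw [Pi.mul_apply, Pi.mul_apply, S19T_e_eq red rfl, S19T_e_eq red hr.symm, one_mul, one_mul]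
    exact hi
  · refine ⟨_, S19T_e_mem red κ (red x), ?_⟩
    rw [S19T_e_eq red rfl, S19T_e_ne red (Ne.symm hr)]
    exact one_ne_zero

theorem S19T_H2_sep : ∀ p q : G × G, p ≠ q → ∃ f ∈ S19T_H2 R red κ, f p ≠ f q := by
  intro p q hpq
  by_cases h1 : p.1 = q.1
  · have h2 : p.2 ≠ q.2 := fun h => hpq (Prod.ext h1 h)
    obtain ⟨f, hf, hne⟩ := S19T_H_sep (R := R) red κ hinj p.2 q.2 h2
    exact ⟨_, S19T_snd_mem red κ hf, hne⟩
  · obtain ⟨f, hf, hne⟩ := S19T_H_sep (R := R) red κ hinj p.1 q.1 h1
    exact ⟨_, S19T_fst_mem red κ hf, hne⟩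

end sep

/-- an integral function on a finite set is integral over `R`. -/
theorem S19T_isIntegral_of_int {S : Type*} [Finite S] {f : S → Ω} (hf : f ∈ S19T_int R Ω S) :
    IsIntegral R f := by
  classical
  have := Fintype.ofFinite S
  choose r hr using hf
  refine ⟨∏ x : S, (Polynomial.X - Polynomial.C (r x)), Polynomial.monic_prod_X_sub_C _ _, ?_⟩
  rw [← Polynomial.aeval_def, map_prod]
  funext x
  rw [Finset.prod_apply, Pi.zero_apply]
  refine Finset.prod_eq_zero (Finset.mem_univ x) ?_
  rw [map_sub, Polynomial.aeval_X, Polynomial.aeval_C, Pi.sub_apply, Pi.algebraMap_apply, hr x,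
    sub_self]

/-- `H` is a finitely generated `R`-module. -/
theorem S19T_H_fg [Finite G] [Finite ι]
    (hκ : ∀ c i x, red x = c → κ c i x ∈ (algebraMap R Ω).range) :
    (Subalgebra.toSubmodule (S19T_H R red κ)).FG := by
  classical
  refine fg_adjoin_of_finite ?_ ?_
  · have h1 : Set.range (S19T_h (Ω := Ω) red κ)
        ⊆ insert 0 (S19T_h red κ '' ((Set.range red) ×ˢ (Set.univ : Set (Option ι)))) := by
      rintro _ ⟨⟨c, o⟩, rfl⟩
      by_cases hc : c ∈ Set.range red
      · exact Set.mem_insert_of_mem _ ⟨(c, o), ⟨hc, Set.mem_univ _⟩, rfl⟩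
      · refine Set.mem_insert_iff.mpr (Or.inl ?_)
        funext x
        show S19T_e red c x * S19T_k κ c o x = 0
        rw [S19T_e_ne red (fun h => hc ⟨x, h⟩), zero_mul]
    refine Set.Finite.subset ?_ h1
    exact Set.Finite.insert _ (Set.Finite.image _
      (Set.Finite.prod (Set.finite_range red) Set.finite_univ))
  · rintro _ ⟨p, rfl⟩
    exact S19T_isIntegral_of_int (S19T_h_int red κ hκ p)

/-! ### approximation -/

section approx

variable [Finite G] (π : R)
  (hπ : ∀ d : R, algebraMap R Ω d ≠ 0 → ∃ n : ℕ, ∃ r : R, π ^ n = d * r)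
  (hκ : ∀ c i x, red x = c → κ c i x ∈ (algebraMap R Ω).range)
  (hinj : ∀ x y, red x = red y → (∀ i, κ (red x) i x = κ (red x) i y) → x = y)
include hπ hκ hinj

/-- **(PATCH 1, approximate form)** a function which is, on every fibre and modulo every power
of `π`, a polynomial in the coordinates of the fibre lies in `H`. -/
theorem S19T_patch1_approx (F : G → Ω)
    (hF : ∀ (n : ℕ) (c : C), ∃ P : MvPolynomial ι R, ∀ x, red x = c →
      ∃ r : R, F x - aeval (fun j => κ c j x) P = algebraMap R Ω (π ^ n * r)) :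
    F ∈ S19T_H R red κ := by
  refine S19T_closed π hπ _ (S19T_H_int red κ hκ) (S19T_H_sep red κ hinj) F (fun n => ?_)
  choose P hP using hF n
  refine ⟨fun x => aeval (fun j => κ (red x) j x) (P (red x)), ?_, fun x => hP _ x rfl⟩
  refine S19T_patch1 red κ _ (fun c => ⟨P c, fun x hx => ?_⟩)
  subst hx
  rfl

/-- **(PATCH 2, approximate form)**. -/
theorem S19T_patch2_approx (F : G × G → Ω)
    (hF : ∀ (n : ℕ) (c c' : C), ∃ P : MvPolynomial (ι ⊕ ι) R, ∀ x y, red x = c → red y = c' →
      ∃ r : R, F (x, y) - aeval (Sum.elim (fun j => κ c j x) (fun j => κ c' j y)) P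
        = algebraMap R Ω (π ^ n * r)) :
    F ∈ S19T_H2 R red κ := by
  refine S19T_closed π hπ _ (S19T_H2_int red κ hκ) (S19T_H2_sep red κ hinj) F (fun n => ?_)
  choose P hP using hF n
  refine ⟨fun p => aeval (Sum.elim (fun j => κ (red p.1) j p.1) (fun j => κ (red p.2) j p.2))
    (P (red p.1) (red p.2)), ?_, fun p => hP _ _ p.1 p.2 rfl rfl⟩
  refine S19T_patch2 red κ _ (fun c c' => ⟨P c c', fun x y hx hy => ?_⟩)
  subst hx
  subst hy
  rfl

end approx

/-! ### comultiplication -/

section add

variable [AddCommGroup G]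

/-- it suffices to check the comultiplication on the generators. -/
theorem S19T_H_add_of_gen
    (hgen : ∀ p : C × Option ι,
      (fun q : G × G => S19T_h red κ p (q.1 + q.2)) ∈ S19T_H2 R red κ) :
    ∀ f ∈ S19T_H R red κ, (fun q : G × G => f (q.1 + q.2)) ∈ S19T_H2 R red κ := by
  intro f hf
  have h1 : S19T_H R red κ ≤ (S19T_H2 R red κ).comap (S19HO_add (R := R)) := by
    refine Algebra.adjoin_le ?_
    rintro _ ⟨p, rfl⟩
    exact hgen p
  exact h1 hf

variable [Add C] (hred : ∀ x y, red (x + y) = red x + red y)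
include hred

/-- **(e), exact form**: if on every product of fibres the coordinates of `x + y` are polynomials
in the coordinates of `x` and `y`, then `Δ(H) ⊂ H ⊗ H`. -/
theorem S19T_H_add [Finite G]
    (hadd : ∀ (c c' : C) (i : ι), ∃ P : MvPolynomial (ι ⊕ ι) R, ∀ x y : G,
      red x = c → red y = c' →
      κ (c + c') i (x + y) = aeval (Sum.elim (fun j => κ c j x) (fun j => κ c' j y)) P) :
    ∀ f ∈ S19T_H R red κ, (fun q : G × G => f (q.1 + q.2)) ∈ S19T_H2 R red κ := by
  refine S19T_H_add_of_gen red κ ?_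
  rintro ⟨c₀, o⟩
  refine S19T_patch2 red κ _ (fun c c' => ?_)
  by_cases hc : c + c' = c₀
  · subst hc
    cases o with
    | none =>
      refine ⟨1, fun x y hx hy => ?_⟩
      rw [S19T_h_none, S19T_e_eq red (by rw [hred, hx, hy]), map_one]
    | some i =>
      obtain ⟨P, hP⟩ := hadd c c' i
      refine ⟨P, fun x y hx hy => ?_⟩
      rw [S19T_h_some, S19T_e_eq red (by rw [hred, hx, hy]), one_mul]
      exact hP x y hx hy
  · refine ⟨0, fun x y hx hy => ?_⟩
    rw [S19T_h_zero red κ c₀ o _ (by rw [hred, hx, hy]; exact hc), map_zero]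

/-- **(e), approximate form (ADD-n)**: the same if the addition formulas hold modulo every power
of `π` only. -/
theorem S19T_H_add_approx [Finite G] (π : R)
    (hπ : ∀ d : R, algebraMap R Ω d ≠ 0 → ∃ n : ℕ, ∃ r : R, π ^ n = d * r)
    (hκ : ∀ c i x, red x = c → κ c i x ∈ (algebraMap R Ω).range)
    (hinj : ∀ x y, red x = red y → (∀ i, κ (red x) i x = κ (red x) i y) → x = y)
    (hadd : ∀ (n : ℕ) (c c' : C) (i : ι), ∃ P : MvPolynomial (ι ⊕ ι) R, ∀ x y : G,
      red x = c → red y = c' →
      ∃ r : R, κ (c + c') i (x + y) - aeval (Sum.elim (fun j => κ c j x) (fun j => κ c' j y)) P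
        = algebraMap R Ω (π ^ n * r)) :
    ∀ f ∈ S19T_H R red κ, (fun q : G × G => f (q.1 + q.2)) ∈ S19T_H2 R red κ := by
  refine S19T_H_add_of_gen red κ ?_
  rintro ⟨c₀, o⟩
  refine S19T_patch2_approx red κ π hπ hκ hinj _ (fun n c c' => ?_)
  by_cases hc : c + c' = c₀
  · subst hc
    cases o with
    | none =>
      refine ⟨1, fun x y hx hy => ⟨0, ?_⟩⟩
      rw [S19T_h_none, S19T_e_eq red (by rw [hred, hx, hy]), map_one, sub_self, mul_zero, map_zero]
    | some i =>
      obtain ⟨P, hP⟩ := hadd n c c' i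
      refine ⟨P, fun x y hx hy => ?_⟩
      obtain ⟨r, hr⟩ := hP x y hx hy
      refine ⟨r, ?_⟩
      rw [S19T_h_some, S19T_e_eq red (by rw [hred, hx, hy]), one_mul]
      exact hr
  · refine ⟨0, fun x y hx hy => ⟨0, ?_⟩⟩
    rw [S19T_h_zero red κ c₀ o _ (by rw [hred, hx, hy]; exact hc), map_zero, sub_self, mul_zero,
      map_zero]

end add

/-! ### semilinear substitutions (antipode, Galois stability) -/

section semi

variable (s : Ω →+* Ω) (hs : ∀ r : R, s (algebraMap R Ω r) ∈ (algebraMap R Ω).range) (u : G → G)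
include hs

/-- it suffices to check the stability under `f ↦ s ∘ f ∘ u` on the generators. -/
theorem S19T_H_semi_of_gen
    (hgen : ∀ p : C × Option ι, (fun x => s (S19T_h red κ p (u x))) ∈ S19T_H R red κ) :
    ∀ f ∈ S19T_H R red κ, (fun x => s (f (u x))) ∈ S19T_H R red κ := by
  intro f hf
  induction hf using Algebra.adjoin_induction with
  | mem f hf =>
    obtain ⟨p, rfl⟩ := hf
    exact hgen p
  | algebraMap r =>
    obtain ⟨r', hr'⟩ := hs r
    have h1 : (fun x : G => s ((algebraMap R (G → Ω) r) (u x))) = algebraMap R (G → Ω) r' := by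
      funext x
      rw [Pi.algebraMap_apply, Pi.algebraMap_apply, hr']
    rw [h1]
    exact Subalgebra.algebraMap_mem _ _
  | add f g _ _ hf hg =>
    have h1 : (fun x : G => s ((f + g) (u x)))
        = (fun x => s (f (u x))) + (fun x => s (g (u x))) := by
      funext x
      rw [Pi.add_apply, Pi.add_apply, map_add]
    rw [h1]
    exact Subalgebra.add_mem _ hf hg
  | mul f g _ _ hf hg =>
    have h1 : (fun x : G => s ((f * g) (u x)))
        = (fun x => s (f (u x))) * (fun x => s (g (u x))) := by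
      funext x
      rw [Pi.mul_apply, Pi.mul_apply, map_mul]
    rw [h1]
    exact Subalgebra.mul_mem _ hf hg

variable (hu : ∀ x y, red x = red y → red (u x) = red (u y))
include hu

/-- **(f) / (c'), exact form**: stability of `H` under `f ↦ s ∘ f ∘ u` if, fibre by fibre, the
transformed coordinates are polynomials in the coordinates. -/
theorem S19T_H_semi [Finite G]
    (hsemi : ∀ (c : C) (i : ι) (c' : C), ∃ P : MvPolynomial ι R, ∀ x, red x = c' →
      red (u x) = c → s (κ c i (u x)) = aeval (fun j => κ c' j x) P) :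
    ∀ f ∈ S19T_H R red κ, (fun x => s (f (u x))) ∈ S19T_H R red κ := by
  classical
  refine S19T_H_semi_of_gen red κ s hs u ?_
  rintro ⟨c, o⟩
  refine S19T_patch1 red κ _ (fun c' => ?_)
  by_cases hc : ∃ x₀, red x₀ = c' ∧ red (u x₀) = c
  · obtain ⟨x₀, hx₀, hux₀⟩ := hc
    have hall : ∀ x, red x = c' → red (u x) = c := fun x hx =>
      (hu x x₀ (hx.trans hx₀.symm)).trans hux₀
    cases o with
    | none =>
      refine ⟨1, fun x hx => ?_⟩
      rw [S19T_h_none, S19T_e_eq red (hall x hx), map_one, map_one]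
    | some i =>
      obtain ⟨P, hP⟩ := hsemi c i c'
      refine ⟨P, fun x hx => ?_⟩
      rw [S19T_h_some, S19T_e_eq red (hall x hx), one_mul]
      exact hP x hx (hall x hx)
  · refine ⟨0, fun x hx => ?_⟩
    rw [S19T_h_zero red κ c o _ (fun h => hc ⟨x, hx, h⟩), map_zero, map_zero]

/-- **(f) / (c'), approximate form**. -/
theorem S19T_H_semi_approx [Finite G] (π : R)
    (hπ : ∀ d : R, algebraMap R Ω d ≠ 0 → ∃ n : ℕ, ∃ r : R, π ^ n = d * r)
    (hκ : ∀ c i x, red x = c → κ c i x ∈ (algebraMap R Ω).range)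
    (hinj : ∀ x y, red x = red y → (∀ i, κ (red x) i x = κ (red x) i y) → x = y)
    (hsemi : ∀ (n : ℕ) (c : C) (i : ι) (c' : C), ∃ P : MvPolynomial ι R, ∀ x, red x = c' →
      red (u x) = c →
      ∃ r : R, s (κ c i (u x)) - aeval (fun j => κ c' j x) P = algebraMap R Ω (π ^ n * r)) :
    ∀ f ∈ S19T_H R red κ, (fun x => s (f (u x))) ∈ S19T_H R red κ := by
  classical
  refine S19T_H_semi_of_gen red κ s hs u ?_
  rintro ⟨c, o⟩
  refine S19T_patch1_approx red κ π hπ hκ hinj _ (fun n c' => ?_)
  by_cases hc : ∃ x₀, red x₀ = c' ∧ red (u x₀) = c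
  · obtain ⟨x₀, hx₀, hux₀⟩ := hc
    have hall : ∀ x, red x = c' → red (u x) = c := fun x hx =>
      (hu x x₀ (hx.trans hx₀.symm)).trans hux₀
    cases o with
    | none =>
      refine ⟨1, fun x hx => ⟨0, ?_⟩⟩
      rw [S19T_h_none, S19T_e_eq red (hall x hx), map_one, map_one, sub_self, mul_zero, map_zero]
    | some i =>
      obtain ⟨P, hP⟩ := hsemi n c i c'
      refine ⟨P, fun x hx => ?_⟩
      obtain ⟨r, hr⟩ := hP x hx (hall x hx)
      refine ⟨r, ?_⟩
      rw [S19T_h_some, S19T_e_eq red (hall x hx), one_mul]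
      exact hr
  · refine ⟨0, fun x hx => ⟨0, ?_⟩⟩
    rw [S19T_h_zero red κ c o _ (fun h => hc ⟨x, hx, h⟩), map_zero, map_zero, sub_self, mul_zero,
      map_zero]

end semi

/-- **(b')** equivariance of the generators. -/
theorem S19T_h_equiv (τ : Ω →+* Ω) (g : G → G) (hg : ∀ x, red (g x) = red x)
    (hκτ : ∀ c i x, red x = c → κ c i (g x) = τ (κ c i x)) (p : C × Option ι) (x : G) :
    S19T_h red κ p (g x) = τ (S19T_h red κ p x) := by
  obtain ⟨c, o⟩ := p
  by_cases hx : red x = c
  · cases o with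
    | none =>
      rw [S19T_h_none, S19T_h_none, S19T_e_eq red ((hg x).trans hx), S19T_e_eq red hx, map_one]
    | some i =>
      rw [S19T_h_some, S19T_h_some, S19T_e_eq red ((hg x).trans hx), S19T_e_eq red hx, one_mul,
        one_mul]
      exact hκτ c i x hx
  · rw [S19T_h_zero red κ c o _ (fun h => hx ((hg x).symm.trans h)), S19T_h_zero red κ c o _ hx,
      map_zero]

end assembly

/-! ### the shapes consumed by (PW) and (STR) -/

section shapes

variable {R Ω G : Type*} [CommRing R] [Field Ω] [Algebra R Ω]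

/-- `H ⊗ H ⊂ Map(G × G, Ω)` is the range of helper11's `S19HD_j2`. -/
theorem S19T_sup_eq_range (H : Subalgebra R (G → Ω)) :
    H.map (S19HD_fst (Y := G)) ⊔ H.map (S19HD_snd (X := G)) = (S19HD_j2 H.val H.val).range := by
  unfold S19HD_j2
  rw [Algebra.TensorProduct.productMap_range, AlgHom.range_comp, AlgHom.range_comp,
    Subalgebra.range_val]

/-- the elements of `H ⊗ H` are finite sums of pure tensors. -/
theorem S19T_sup_fin (H : Subalgebra R (G → Ω)) (F : G × G → Ω)
    (hF : F ∈ H.map (S19HD_fst (Y := G)) ⊔ H.map (S19HD_snd (X := G))) :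
    ∃ (n : ℕ) (a b : Fin n → G → Ω), (∀ i, a i ∈ H) ∧ (∀ i, b i ∈ H) ∧
      ∀ x y, F (x, y) = ∑ i, a i x * b i y := by
  rw [← Subalgebra.mem_toSubmodule, ← Subalgebra.mul_toSubmodule] at hF
  induction hF using Submodule.mul_induction_on' with
  | mem_mul_mem m hm n hn =>
    obtain ⟨a, ha, rfl⟩ := hm
    obtain ⟨b, hb, rfl⟩ := hn
    exact ⟨1, fun _ => a, fun _ => b, fun _ => ha, fun _ => hb, fun x y => by simp⟩
  | add F _ F' _ hF hF' =>
    obtain ⟨n, a, b, ha, hb, hF⟩ := hF
    obtain ⟨n', a', b', ha', hb', hF'⟩ := hF'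
    refine ⟨n + n', Fin.append a a', Fin.append b b', ?_, ?_, ?_⟩
    · intro i
      refine Fin.addCases (fun j => ?_) (fun j => ?_) i
      · rw [Fin.append_left]; exact ha j
      · rw [Fin.append_right]; exact ha' j
    · intro i
      refine Fin.addCases (fun j => ?_) (fun j => ?_) i
      · rw [Fin.append_left]; exact hb j
      · rw [Fin.append_right]; exact hb' j
    · intro x y
      rw [Pi.add_apply, hF, hF', Fin.sum_univ_add]
      simp only [Fin.append_left, Fin.append_right]

end shapes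

end Fermat.Agent.S19
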