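import Fermat.Agent.S19.DescNT2
import Fermat.Agent.S19.DescWA
import Fermat.Agent.S19.Transl

/-!
# TRACK 9 "FLAT" (S19 + S32), package DESC (helper26), part 3: the descent `M = A·(M ∩ E)`

`Ω = ℚ̄`, `Γ = Gal(Ω/ℚ)`, `A` a valuation subring of `Ω` over `ℓ`, `S` a finite set with a continuous
action of `Γ`, `(σ ⋆ f)(x) = σ (f (σ⁻¹ x))` on `Map(S, Ω)`.

* `S19D_K_core` : an `A`-subalgebra `M ⊂ Map(S, A)`, finitely generated as a module, separating,
  stable under the decomposition group and generated by inertia-invariant functions, is generated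
  over `A` by its `Γ`-equivariant elements;
* `S19D_K` : the same for `M = A[h]`, `h` a finite family with (a), (b'), (c'), (d).

Proof: twisted traces `T(z, f) = Σ_{γ ∈ Γ/H} γ(z)·(γ ⋆ f)` over the cosets of the stabiliser `H` of
`(ζ, u, f)`; `ζ` the root of unity of `S19D_nt`, `u` the weak approximation element of `S19DW_wa`;
Lagrange interpolation on the roots of unity; Nakayama.
-/

set_option autoImplicit false
set_option linter.unusedSectionVars false
set_option linter.unusedVariables false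
set_option linter.style.haveILetI false

open scoped Pointwise
open Fermat.Agent.Lib

namespace Fermat.Agent.S19

noncomputable section

section star

variable {S : Type} (act : S19PW_Gal → S → S)

/-- the semilinear action of `Γ` on functions. -/
def S19D_star (σ : S19PW_Gal) (f : S → S19PW_Om) : S → S19PW_Om :=
  fun x => σ (f (act σ⁻¹ x))

theorem S19D_star_apply (σ : S19PW_Gal) (f : S → S19PW_Om) (x : S) :
    S19D_star act σ f x = σ (f (act σ⁻¹ x)) := rfl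

theorem S19D_star_add (σ : S19PW_Gal) (f g : S → S19PW_Om) :
    S19D_star act σ (f + g) = S19D_star act σ f + S19D_star act σ g := by
  funext x
  simp [S19D_star_apply]

theorem S19D_star_mulf (σ : S19PW_Gal) (f g : S → S19PW_Om) :
    S19D_star act σ (f * g) = S19D_star act σ f * S19D_star act σ g := by
  funext x
  simp [S19D_star_apply]

theorem S19D_star_smul (σ : S19PW_Gal) (c : S19PW_Om) (f : S → S19PW_Om) :
    S19D_star act σ (c • f) = σ c • S19D_star act σ f := by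
  funext x
  simp [S19D_star_apply]

theorem S19D_star_zero (σ : S19PW_Gal) : S19D_star act σ (0 : S → S19PW_Om) = 0 := by
  funext x
  simp [S19D_star_apply]

theorem S19D_star_sum {κ : Type*} (σ : S19PW_Gal) (s : Finset κ) (F : κ → S → S19PW_Om) :
    S19D_star act σ (∑ k ∈ s, F k) = ∑ k ∈ s, S19D_star act σ (F k) := by
  classical
  induction s using Finset.induction_on with
  | empty => simp [S19D_star_zero]
  | insert a s ha ih => rw [Finset.sum_insert ha, Finset.sum_insert ha, S19D_star_add, ih]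

variable (hact1 : ∀ x, act 1 x = x) (hactmul : ∀ σ τ x, act (σ * τ) x = act σ (act τ x))

include hact1 in
theorem S19D_star_one (f : S → S19PW_Om) : S19D_star act 1 f = f := by
  funext x
  simp [S19D_star_apply, hact1]

include hactmul in
theorem S19D_star_mul (σ τ : S19PW_Gal) (f : S → S19PW_Om) :
    S19D_star act (σ * τ) f = S19D_star act σ (S19D_star act τ f) := by
  funext x
  simp only [S19D_star_apply, mul_inv_rev, hactmul, AlgEquiv.mul_apply]

include hact1 hactmul in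
theorem S19D_act_inv (σ : S19PW_Gal) (x : S) : act σ (act σ⁻¹ x) = x := by
  rw [← hactmul, mul_inv_cancel, hact1]

include hact1 hactmul in
theorem S19D_act_inv' (σ : S19PW_Gal) (x : S) : act σ⁻¹ (act σ x) = x := by
  rw [← hactmul, inv_mul_cancel, hact1]

include hact1 hactmul in
theorem S19D_star_eq_iff (σ : S19PW_Gal) (f : S → S19PW_Om) :
    S19D_star act σ f = f ↔ ∀ x, f (act σ x) = σ (f x) := by
  constructor
  · intro h x
    have := congrFun h (act σ x)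
    rw [S19D_star_apply, S19D_act_inv' act hact1 hactmul] at this
    exact this.symm
  · intro h
    funext x
    rw [S19D_star_apply, ← h, S19D_act_inv act hact1 hactmul]

/-- the stabiliser of `(ζ, u, f)`. -/
def S19D_stab (ζ u : S19PW_Om) (f : S → S19PW_Om) : Subgroup S19PW_Gal where
  carrier := {η | η ζ = ζ ∧ η u = u ∧ S19D_star act η f = f}
  one_mem' := ⟨rfl, rfl, S19D_star_one act hact1 f⟩
  mul_mem' := by
    rintro a b ⟨ha1, ha2, ha3⟩ ⟨hb1, hb2, hb3⟩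
    refine ⟨?_, ?_, ?_⟩
    · rw [AlgEquiv.mul_apply, hb1, ha1]
    · rw [AlgEquiv.mul_apply, hb2, ha2]
    · rw [S19D_star_mul act hactmul, hb3, ha3]
  inv_mem' := by
    rintro a ⟨ha1, ha2, ha3⟩
    refine ⟨?_, ?_, ?_⟩
    · calc a⁻¹ ζ = a⁻¹ (a ζ) := by rw [ha1]
        _ = ζ := a.symm_apply_apply ζ
    · calc a⁻¹ u = a⁻¹ (a u) := by rw [ha2]
        _ = u := a.symm_apply_apply u
    · calc S19D_star act a⁻¹ f = S19D_star act a⁻¹ (S19D_star act a f) := by rw [ha3]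
        _ = S19D_star act (a⁻¹ * a) f := (S19D_star_mul act hactmul _ _ _).symm
        _ = f := by rw [inv_mul_cancel, S19D_star_one act hact1]

theorem S19D_mem_stab {ζ u : S19PW_Om} {f : S → S19PW_Om} {η : S19PW_Gal} :
    η ∈ S19D_stab act hact1 hactmul ζ u f ↔ η ζ = ζ ∧ η u = u ∧ S19D_star act η f = f :=
  Iff.rfl

end star

section trace

variable {S : Type} (act : S19PW_Gal → S → S)
  (hact1 : ∀ x, act 1 x = x) (hactmul : ∀ σ τ x, act (σ * τ) x = act σ (act τ x))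
  (H : Subgroup S19PW_Gal) [Fintype (S19PW_Gal ⧸ H)]

/-- a right-`H`-invariant function can be evaluated on representatives. -/
theorem S19D_out_eq {X : Type*} (F : S19PW_Gal → X) (hF : ∀ γ, ∀ η ∈ H, F (γ * η) = F γ)
    (γ : S19PW_Gal) : F ((γ : S19PW_Gal ⧸ H).out) = F γ := by
  obtain ⟨h, hh⟩ := QuotientGroup.mk_out_eq_mul H γ
  rw [hh]
  exact hF γ h h.2

/-- sums over cosets of right-invariant functions are left-invariant. -/
theorem S19D_sum_out {X : Type*} [AddCommMonoid X] (F : S19PW_Gal → X)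
    (hF : ∀ γ, ∀ η ∈ H, F (γ * η) = F γ) (σ : S19PW_Gal) :
    ∑ q : S19PW_Gal ⧸ H, F (σ * q.out) = ∑ q : S19PW_Gal ⧸ H, F q.out := by
  have h1 : ∀ q : S19PW_Gal ⧸ H, F (σ * q.out) = F ((σ • q).out) := by
    intro q
    have h2 : ((σ * q.out : S19PW_Gal) : S19PW_Gal ⧸ H) = σ • q := by
      conv_rhs => rw [← QuotientGroup.out_eq' q]
      rfl
    rw [← h2, S19D_out_eq H F hF]
  rw [Finset.sum_congr rfl fun q _ => h1 q]
  exact Equiv.sum_comp (MulAction.toPerm σ) (fun q : S19PW_Gal ⧸ H => F q.out)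

/-- the twisted trace. -/
def S19D_T (z : S19PW_Om) (f : S → S19PW_Om) : S → S19PW_Om :=
  ∑ q : S19PW_Gal ⧸ H, (q.out z) • S19D_star act q.out f

include hactmul in
theorem S19D_T_star (z : S19PW_Om) (f : S → S19PW_Om) (hz : ∀ η ∈ H, η z = z)
    (hf : ∀ η ∈ H, S19D_star act η f = f) (σ : S19PW_Gal) :
    S19D_star act σ (S19D_T act H z f) = S19D_T act H z f := by
  unfold S19D_T
  rw [S19D_star_sum]
  have h1 : ∀ q : S19PW_Gal ⧸ H, S19D_star act σ ((q.out z) • S19D_star act q.out f)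
      = ((σ * q.out) z) • S19D_star act (σ * q.out) f := by
    intro q
    rw [S19D_star_smul, S19D_star_mul act hactmul, AlgEquiv.mul_apply]
  rw [Finset.sum_congr rfl fun q _ => h1 q]
  refine S19D_sum_out H (fun γ => (γ z) • S19D_star act γ f) ?_ σ
  intro γ η hη
  show ((γ * η) z) • S19D_star act (γ * η) f = (γ z) • S19D_star act γ f
  rw [AlgEquiv.mul_apply, hz η hη, S19D_star_mul act hactmul, hf η hη]

end trace

section tools

variable {ℓ : ℕ} [hℓ : Fact ℓ.Prime] (A : ValuationSubring S19PW_Om)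

/-- **Lagrange interpolation** on the roots of unity of order prime to `ℓ`, coefficients in `A`. -/
theorem S19D_lagrange (hA : A.LiesOverPrime ℓ) {m : ℕ} (hm : ¬ ℓ ∣ m) {ζ : S19PW_Om}
    (hζ : ζ ^ m = 1) :
    ∃ (d : ℕ) (c : ℕ → S19PW_Om), (∀ j, c j ∈ A) ∧
      ∀ μ : S19PW_Om, μ ^ m = 1 →
        ∑ j ∈ Finset.range d, c j * μ ^ j = if μ = ζ then 1 else 0 := by
  classical
  have hm0 : m ≠ 0 := fun h => hm (h ▸ dvd_zero ℓ)
  have hint : ∀ μ : S19PW_Om, μ ^ m = 1 → IsIntegral ℤ μ := fun μ hμ =>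
    ⟨Polynomial.X ^ m - 1, Polynomial.monic_X_pow_sub_C 1 hm0, by simp [hμ]⟩
  set Z : Finset S19PW_Om := Polynomial.nthRootsFinset m (1 : S19PW_Om) with hZ
  have hZmem : ∀ μ : S19PW_Om, μ ∈ Z ↔ μ ^ m = 1 := fun μ =>
    Polynomial.mem_nthRootsFinset (Nat.pos_of_ne_zero hm0) (1 : S19PW_Om)
  set P : Polynomial S19PW_Om :=
    ∏ μ' ∈ Z.erase ζ, (Polynomial.C ((ζ - μ')⁻¹) * (Polynomial.X + Polynomial.C (-μ'))) with hP
  have hPl : P ∈ Polynomial.lifts A.subtype := by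
    refine Subsemiring.prod_mem _ fun μ' hμ' => ?_
    have h1 : μ' ≠ ζ := (Finset.mem_erase.mp hμ').1
    have h2 : μ' ^ m = 1 := (hZmem μ').mp (Finset.mem_erase.mp hμ').2
    have h3 : (ζ - μ')⁻¹ ∈ A :=
      S19D_inv_mem (A.toSubring.sub_mem (S19D_int_mem A (hint ζ hζ)) (S19D_int_mem A (hint μ' h2)))
        (S19D_root_unit A hA hm hζ h2 (Ne.symm h1))
    have h4 : -μ' ∈ A := A.toSubring.neg_mem (S19D_int_mem A (hint μ' h2))
    refine Subsemiring.mul_mem _ ?_ (Subsemiring.add_mem _ (Polynomial.X_mem_lifts _) ?_)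
    · exact Polynomial.C_mem_lifts A.subtype ⟨_, h3⟩
    · exact Polynomial.C_mem_lifts A.subtype ⟨_, h4⟩
  refine ⟨P.natDegree + 1, fun j => P.coeff j, fun j => ?_, fun μ hμ => ?_⟩
  · obtain ⟨a, ha⟩ := (Polynomial.lifts_iff_coeff_lifts P).mp hPl j
    show P.coeff j ∈ A
    rw [← ha]
    exact a.2
  · have h1 : ∑ j ∈ Finset.range (P.natDegree + 1), P.coeff j * μ ^ j = P.eval μ :=
      (Polynomial.eval_eq_sum_range (p := P) μ).symm
    rw [h1, hP, Polynomial.eval_prod]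
    by_cases hμζ : μ = ζ
    · rw [if_pos hμζ]
      refine Finset.prod_eq_one fun μ' hμ' => ?_
      have h1 : μ' ≠ ζ := (Finset.mem_erase.mp hμ').1
      have h2 : ζ - μ' ≠ 0 := sub_ne_zero.mpr (Ne.symm h1)
      simp only [Polynomial.eval_mul, Polynomial.eval_C, Polynomial.eval_add, Polynomial.eval_X]
      rw [hμζ, ← sub_eq_add_neg, inv_mul_cancel₀ h2]
    · rw [if_neg hμζ]
      refine Finset.prod_eq_zero (Finset.mem_erase.mpr ⟨hμζ, (hZmem μ).mpr hμ⟩) ?_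
      simp

/-- a uniform bound for the denominators of the conjugates. -/
theorem S19D_denom (hA : A.LiesOverPrime ℓ) (t : S19PW_Om) :
    ∃ k : ℕ, ∀ γ : S19PW_Gal, (ℓ : S19PW_Om) ^ k * γ t ∈ A := by
  obtain ⟨y, hy0, hint⟩ := (S19D_halg t).exists_integral_multiple
  have hyA : ((y : ℤ) : S19PW_Om) ∈ A := intCast_mem A.toSubring y
  have hy0' : ((y : ℤ) : S19PW_Om) ≠ 0 := by exact_mod_cast hy0
  obtain ⟨e, r, hr⟩ := S19T_rankOne hℓ.out A hA ⟨_, hyA⟩ hy0'
  have hr' : (ℓ : S19PW_Om) ^ e = ((y : ℤ) : S19PW_Om) * (r : S19PW_Om) := by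
    have := congrArg (fun a : A => (a : S19PW_Om)) hr
    simpa using this
  refine ⟨e, fun γ => ?_⟩
  have h1 : IsIntegral ℤ (γ (y • t)) := S19D_int_map γ hint
  have h2 : γ (y • t) = ((y : ℤ) : S19PW_Om) * γ t := by
    rw [zsmul_eq_mul, map_mul, map_intCast]
  rw [hr']
  have e1 : ((y : ℤ) : S19PW_Om) * (r : S19PW_Om) * γ t = (r : S19PW_Om) * γ (y • t) := by
    rw [h2]; ring
  rw [e1]
  exact A.mul_mem _ _ r.2 (S19D_int_mem A h1)

/-- a uniform bound for finitely many elements. -/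
theorem S19D_denom_fin (hA : A.LiesOverPrime ℓ) {S : Type} [Finite S] (f : S → S19PW_Om) :
    ∃ k : ℕ, ∀ (γ : S19PW_Gal) (x : S), (ℓ : S19PW_Om) ^ k * γ (f x) ∈ A := by
  classical
  have := Fintype.ofFinite S
  choose k hk using fun x => S19D_denom A hA (f x)
  refine ⟨∑ x, k x, fun γ x => ?_⟩
  have h1 : k x ≤ ∑ x, k x := Finset.single_le_sum (fun _ _ => Nat.zero_le _) (Finset.mem_univ x)
  obtain ⟨j, hj⟩ := Nat.exists_eq_add_of_le h1
  rw [hj, pow_add, mul_comm ((ℓ : S19PW_Om) ^ k x), mul_assoc]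
  exact A.mul_mem _ _ (A.toSubring.pow_mem (natCast_mem A.toSubring ℓ) j) (hk x γ)

variable {S : Type}

theorem S19D_smul_mem (M : Subalgebra ↥A (S → S19PW_Om)) {a : S19PW_Om} (ha : a ∈ A)
    {g : S → S19PW_Om} (hg : g ∈ M) : a • g ∈ M := by
  have h1 := M.smul_mem hg (⟨a, ha⟩ : ↥A)
  have h2 : (⟨a, ha⟩ : ↥A) • g = a • g := by
    funext x
    rfl
  rwa [h2] at h1

/-- **FULL**: a separating integral subalgebra contains `ℓ ^ a₀ · Map(S, A)`. -/
theorem S19D_full [Finite S] (hA : A.LiesOverPrime ℓ) (M : Subalgebra ↥A (S → S19PW_Om))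
    (hint : ∀ f ∈ M, ∀ x, f x ∈ A) (hsep : ∀ x y : S, x ≠ y → ∃ f ∈ M, f x ≠ f y) :
    ∃ a₀ : ℕ, ∀ g : S → S19PW_Om, (∀ x, g x ∈ A) → ((ℓ : S19PW_Om) ^ a₀) • g ∈ M := by
  have hint' : M ≤ S19T_int ↥A S19PW_Om S := by
    intro f hf
    rw [S19T_mem_int]
    intro x
    exact ⟨⟨f x, hint f hf x⟩, rfl⟩
  obtain ⟨d, hd0, hd⟩ := S19T_sep_mul M hint' hsep
  obtain ⟨a₀, r, hr⟩ := S19T_rankOne hℓ.out A hA d hd0
  have hr' : (ℓ : S19PW_Om) ^ a₀ = (r : S19PW_Om) * (d : S19PW_Om) := by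
    have := congrArg (fun a : A => (a : S19PW_Om)) hr
    rw [mul_comm]
    simpa using this
  refine ⟨a₀, fun g hg => ?_⟩
  have h1 : d • g ∈ M := hd g (by
    rw [S19T_mem_int]
    intro x
    exact ⟨⟨g x, hg x⟩, rfl⟩)
  have h2 := S19D_smul_mem A M r.2 h1
  have h3 : (r : S19PW_Om) • (d • g) = ((ℓ : S19PW_Om) ^ a₀) • g := by
    funext x
    rw [hr']
    show (r : S19PW_Om) * ((d : S19PW_Om) * g x) = (r : S19PW_Om) * (d : S19PW_Om) * g x
    ring
  rwa [h3] at h2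

end tools

section loc

variable {ℓ : ℕ} [hℓ : Fact ℓ.Prime] {S : Type} [Finite S] (act : S19PW_Gal → S → S)
  (hact1 : ∀ x, act 1 x = x) (hactmul : ∀ σ τ x, act (σ * τ) x = act σ (act τ x))

include hact1 hactmul in
/-- **the local step**: an inertia-invariant `f ∈ M` is, up to a unit and modulo `ℓ M`, an
`A`-combination of `Γ`-equivariant elements of `M`. -/
theorem S19D_local
    (hcont : ∃ T : Finset S19PW_Om, ∀ σ : S19PW_Gal, (∀ t ∈ T, σ t = t) → ∀ x, act σ x = x)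
    (A : ValuationSubring S19PW_Om) (hA : A.LiesOverPrime ℓ)
    (M : Subalgebra ↥A (S → S19PW_Om))
    (hint : ∀ f ∈ M, ∀ x, f x ∈ A)
    (hsep : ∀ x y : S, x ≠ y → ∃ f ∈ M, f x ≠ f y)
    (hD : ∀ σ ∈ A.decompositionSubgroup ℚ, ∀ f ∈ M, S19D_star act σ f ∈ M)
    (f : S → S19PW_Om) (hfM : f ∈ M)
    (hfI : ∀ τ ∈ A.inertiaSubgroupIn ℚ, ∀ x, f (act τ x) = τ (f x)) :
    ∃ (u : S19PW_Om) (d : ℕ) (c : ℕ → S19PW_Om) (T : ℕ → S → S19PW_Om) (e : S → S19PW_Om),
      u ∈ A ∧ u ∉ A.nonunits ∧ (∀ j, c j ∈ A) ∧ (∀ j, T j ∈ M) ∧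
      (∀ j σ x, T j (act σ x) = σ (T j x)) ∧ e ∈ M ∧
      u • f = ∑ j ∈ Finset.range d, c j • T j + (ℓ : S19PW_Om) • e := by
  classical
  haveI := Fintype.ofFinite S
  obtain ⟨Tc, hTc⟩ := hcont
  set T₀ : Finset S19PW_Om := Tc ∪ Finset.univ.image f with hT₀
  obtain ⟨N, ζ, m, hNn, hNfi, hNc, hNT, hmℓ, hζm, hNζ, hsepD⟩ := S19D_nt A hA T₀
  haveI := hNn
  haveI := hNfi
  obtain ⟨a₀, ha₀⟩ := S19D_full A hA M hint hsep
  obtain ⟨n₁, hn₁⟩ := S19D_denom_fin A hA f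
  obtain ⟨u, huint, huN, huI, huu, hufar⟩ := S19DW_wa A hA N hNc (a₀ + 1 + n₁)
  obtain ⟨d, c, hcA, hc⟩ := S19D_lagrange A hA hmℓ hζm
  have hm0 : m ≠ 0 := fun h => hmℓ (h ▸ dvd_zero ℓ)
  have hζint : IsIntegral ℤ ζ :=
    ⟨Polynomial.X ^ m - 1, Polynomial.monic_X_pow_sub_C 1 hm0, by simp [hζm]⟩
  have hℓA : (ℓ : S19PW_Om) ∈ A := natCast_mem A.toSubring ℓ
  -- `N` acts trivially on `S` and fixes the values of `f`
  have hNact : ∀ ν ∈ N, ∀ x, act ν x = x := fun ν hν =>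
    hTc ν (fun t ht => hNT ν hν t (Finset.mem_union_left _ ht))
  have hNval : ∀ ν ∈ N, ∀ x, ν (f x) = f x := fun ν hν x =>
    hNT ν hν _ (Finset.mem_union_right _ (Finset.mem_image_of_mem f (Finset.mem_univ x)))
  have hNstar : ∀ ν ∈ N, S19D_star act ν f = f := by
    intro ν hν
    funext x
    rw [S19D_star_apply, hNact ν⁻¹ (N.inv_mem hν), hNval ν hν]
  have hIstar : ∀ τ ∈ A.inertiaSubgroupIn ℚ, S19D_star act τ f = f := fun τ hτ =>
    (S19D_star_eq_iff act hact1 hactmul τ f).mpr (hfI τ hτ)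
  set H : Subgroup S19PW_Gal := S19D_stab act hact1 hactmul ζ u f with hH
  have hNH : N ≤ H := fun ν hν => ⟨hNζ ν hν, huN ν hν, hNstar ν hν⟩
  have hIH : ∀ τ ∈ A.inertiaSubgroupIn ℚ, τ ∈ H := fun τ hτ =>
    ⟨S19D_inertia_root A hA hmℓ hζm hτ, huI τ hτ, hIstar τ hτ⟩
  haveI : H.FiniteIndex := Subgroup.finiteIndex_of_le hNH
  letI : Fintype (S19PW_Gal ⧸ H) := Subgroup.fintypeQuotientOfFiniteIndex
  -- the dichotomy
  have hdich : ∀ γ : S19PW_Gal, γ ζ = ζ → γ ∉ H →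
      ¬ ∃ δ ∈ A.decompositionSubgroup ℚ, ∃ ν ∈ N, γ = δ * ν := by
    rintro γ hγζ hγH ⟨δ, hδ, ν, hν, rfl⟩
    have hδζ : δ ζ = ζ := by
      rw [AlgEquiv.mul_apply, hNζ ν hν] at hγζ
      exact hγζ
    obtain ⟨ι, hι, ν', hν', rfl⟩ := hsepD δ hδ hδζ
    exact hγH (H.mul_mem (H.mul_mem (hIH ι hι) (hNH hν')) (hNH hν))
  -- near terms
  have hnear : ∀ γ : S19PW_Gal, (∃ δ ∈ A.decompositionSubgroup ℚ, ∃ ν ∈ N, γ = δ * ν) →
      S19D_star act γ f ∈ M := by
    rintro γ ⟨δ, hδ, ν, hν, rfl⟩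
    rw [S19D_star_mul act hactmul, hNstar ν hν]
    exact hD δ hδ f hfM
  -- far terms
  have hfar : ∀ γ : S19PW_Gal, (¬ ∃ δ ∈ A.decompositionSubgroup ℚ, ∃ ν ∈ N, γ = δ * ν) →
      ∀ b ∈ A, ∃ e ∈ M, (b * γ u) • S19D_star act γ f = (ℓ : S19PW_Om) • e := by
    intro γ hγ b hb
    obtain ⟨y, hy, hyu⟩ := hufar γ hγ
    refine ⟨((ℓ : S19PW_Om) ^ a₀) • ((b * y) • (((ℓ : S19PW_Om) ^ n₁) • S19D_star act γ f)),
      ha₀ _ ?_, ?_⟩
    · intro x
      show b * y * ((ℓ : S19PW_Om) ^ n₁ * γ (f (act γ⁻¹ x))) ∈ A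
      exact A.mul_mem _ _ (A.mul_mem _ _ hb hy) (hn₁ γ _)
    · funext x
      simp only [Pi.smul_apply, smul_eq_mul]
      rw [hyu]
      ring
  -- the traces
  have hHz : ∀ j : ℕ, ∀ η ∈ H, η (u * ζ ^ j) = u * ζ ^ j := by
    intro j η hη
    rw [map_mul, map_pow, hη.1, hη.2.1]
  have hHf : ∀ η ∈ H, S19D_star act η f = f := fun η hη => hη.2.2
  have hcoefA : ∀ (γ : S19PW_Gal) (j : ℕ), γ (u * ζ ^ j) ∈ A := fun γ j =>
    S19D_int_mem A (S19D_int_map γ (huint.mul (hζint.pow j)))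
  have hTM : ∀ j : ℕ, S19D_T act H (u * ζ ^ j) f ∈ M := by
    intro j
    unfold S19D_T
    refine Subalgebra.sum_mem _ fun q _ => ?_
    by_cases hq : ∃ δ ∈ A.decompositionSubgroup ℚ, ∃ ν ∈ N, q.out = δ * ν
    · exact S19D_smul_mem A M (hcoefA _ j) (hnear _ hq)
    · obtain ⟨e, he, hee⟩ := hfar _ hq ((q.out ζ) ^ j)
        (A.toSubring.pow_mem (S19D_int_mem A (S19D_int_map _ hζint)) j)
      have e1 : q.out (u * ζ ^ j) = (q.out ζ) ^ j * q.out u := by
        rw [map_mul, map_pow, mul_comm]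
      rw [e1, hee]
      exact S19D_smul_mem A M hℓA he
  have hTE : ∀ (j : ℕ) (σ : S19PW_Gal) (x : S),
      S19D_T act H (u * ζ ^ j) f (act σ x) = σ (S19D_T act H (u * ζ ^ j) f x) := by
    intro j σ
    exact (S19D_star_eq_iff act hact1 hactmul σ _).mp
      (S19D_T_star act hactmul H (u * ζ ^ j) f (hHz j) hHf σ)
  -- the main identity
  set w : S19PW_Gal ⧸ H → S19PW_Om := fun q => (if q.out ζ = ζ then 1 else 0) * q.out u with hw
  have hmain : ∑ j ∈ Finset.range d, c j • S19D_T act H (u * ζ ^ j) f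
      = ∑ q : S19PW_Gal ⧸ H, w q • S19D_star act q.out f := by
    unfold S19D_T
    simp only [Finset.smul_sum, smul_smul]
    rw [Finset.sum_comm]
    refine Finset.sum_congr rfl fun q _ => ?_
    rw [← Finset.sum_smul]
    congr 1
    have h1 : (q.out ζ) ^ m = 1 := by rw [← map_pow, hζm, map_one]
    have h2 := hc (q.out ζ) h1
    rw [hw]
    simp only
    rw [← h2, Finset.sum_mul]
    refine Finset.sum_congr rfl fun j _ => ?_
    rw [map_mul, map_pow]
    ring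
  set q₁ : S19PW_Gal ⧸ H := ((1 : S19PW_Gal) : S19PW_Gal ⧸ H) with hq₁
  have hq₁H : q₁.out ∈ H := by
    have h1 : ((q₁.out : S19PW_Gal) : S19PW_Gal ⧸ H) = ((1 : S19PW_Gal) : S19PW_Gal ⧸ H) :=
      QuotientGroup.out_eq' q₁
    have h2 := QuotientGroup.eq.mp h1
    have h3 := H.inv_mem h2
    simpa using h3
  have hterm₁ : w q₁ • S19D_star act q₁.out f = u • f := by
    rw [hw]
    simp only
    rw [if_pos hq₁H.1, one_mul, hq₁H.2.1, hq₁H.2.2]
  have hother : ∀ q : S19PW_Gal ⧸ H, ∃ e ∈ M, q ≠ q₁ →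
      w q • S19D_star act q.out f = (ℓ : S19PW_Om) • e := by
    intro q
    by_cases hq : q = q₁
    · exact ⟨0, M.zero_mem, fun h => absurd hq h⟩
    have hqH : q.out ∉ H := by
      intro h
      apply hq
      rw [← QuotientGroup.out_eq' q, hq₁]
      exact QuotientGroup.eq.mpr (by simpa using H.inv_mem h)
    by_cases hqζ : q.out ζ = ζ
    · obtain ⟨e, he, hee⟩ := hfar _ (hdich _ hqζ hqH) 1 A.toSubring.one_mem
      refine ⟨e, he, fun _ => ?_⟩
      rw [hw]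
      simp only
      rw [if_pos hqζ, hee]
    · refine ⟨0, M.zero_mem, fun _ => ?_⟩
      rw [hw]
      simp only
      rw [if_neg hqζ, zero_mul, zero_smul, smul_zero]
  choose e he hee using hother
  refine ⟨u, d, c, fun j => S19D_T act H (u * ζ ^ j) f, -∑ q ∈ Finset.univ.erase q₁, e q,
    S19D_int_mem A huint, huu, hcA, hTM, hTE,
    M.neg_mem (Subalgebra.sum_mem _ fun q _ => he q), ?_⟩
  rw [hmain, ← Finset.add_sum_erase Finset.univ _ (Finset.mem_univ q₁), hterm₁,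
    Finset.sum_congr rfl fun q hq => hee q (Finset.ne_of_mem_erase hq), ← Finset.smul_sum,
    smul_neg, add_neg_cancel_right]

end loc

section core

variable {ℓ : ℕ} [hℓ : Fact ℓ.Prime] {S : Type} [Finite S] (act : S19PW_Gal → S → S)
  (hact1 : ∀ x, act 1 x = x) (hactmul : ∀ σ τ x, act (σ * τ) x = act σ (act τ x))

include hact1 hactmul in
/-- **(K), core**: the descent `M = A·(M ∩ E)` for an `A`-subalgebra `M` of `Map(S, A)`. -/
theorem S19D_K_core
    (hcont : ∃ T : Finset S19PW_Om, ∀ σ : S19PW_Gal, (∀ t ∈ T, σ t = t) → ∀ x, act σ x = x)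
    (A : ValuationSubring S19PW_Om) (hA : A.LiesOverPrime ℓ)
    (M : Subalgebra ↥A (S → S19PW_Om)) (hfg : (Subalgebra.toSubmodule M).FG)
    (hint : ∀ f ∈ M, ∀ x, f x ∈ A)
    (hsep : ∀ x y : S, x ≠ y → ∃ f ∈ M, f x ≠ f y)
    (hD : ∀ σ ∈ A.decompositionSubgroup ℚ, ∀ f ∈ M, (fun x => σ (f (act σ⁻¹ x))) ∈ M)
    (hI : Subalgebra.toSubmodule M ≤ Submodule.span ↥A
      {f | f ∈ M ∧ ∀ τ ∈ A.inertiaSubgroupIn ℚ, ∀ x, f (act τ x) = τ (f x)}) :
    Subalgebra.toSubmodule M ≤ Submodule.span ↥A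
      {f | f ∈ M ∧ ∀ σ x, f (act σ x) = σ (f x)} := by
  have hJ : IsLocalRing.maximalIdeal ↥A ≤ Ideal.jacobson ⊥ :=
    (IsLocalRing.jacobson_eq_maximalIdeal ⊥ bot_ne_top).ge
  refine Submodule.le_of_le_smul_of_le_jacobson_bot hfg hJ ?_
  refine hI.trans (Submodule.span_le.mpr ?_)
  rintro f ⟨hfM, hfI⟩
  obtain ⟨u, d, c, T, e, huA, huu, hcA, hTM, hTE, heM, hid⟩ :=
    S19D_local act hact1 hactmul hcont A hA M hint hsep hD f hfM hfI
  have hu0 : u ≠ 0 := S19D_ne_zero_of_not_nu huu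
  have huinv : u⁻¹ ∈ A := S19D_inv_mem huA huu
  have hf : f = ∑ j ∈ Finset.range d, (⟨u⁻¹ * c j, A.mul_mem _ _ huinv (hcA j)⟩ : ↥A) • T j
      + (⟨(ℓ : S19PW_Om), natCast_mem A.toSubring ℓ⟩ : ↥A) • (u⁻¹ • e) := by
    have h1 : f = u⁻¹ • (u • f) := by rw [smul_smul, inv_mul_cancel₀ hu0, one_smul]
    rw [h1, hid, smul_add, Finset.smul_sum]
    congr 1
    · refine Finset.sum_congr rfl fun j _ => ?_
      rw [smul_smul]
      rfl
    · rw [smul_comm]
      rfl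
  rw [hf]
  refine Submodule.add_mem _ (Submodule.mem_sup_left ?_) (Submodule.mem_sup_right ?_)
  · refine Submodule.sum_mem _ fun j _ => Submodule.smul_mem _ _ (Submodule.subset_span ?_)
    exact ⟨hTM j, hTE j⟩
  · refine Submodule.smul_mem_smul ?_ (S19D_smul_mem A M huinv heM)
    have hℓ' : (ℓ : S19PW_Om) ∈ A.nonunits := hA
    exact ValuationSubring.coe_mem_nonunits_iff.mp hℓ'

end core

end

end Fermat.Agent.S19
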