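import Fermat.Agent.S19.DescNT

/-!
# TRACK 9 "FLAT" (S19 + S32), package DESC (helper26), part 2: lifting of inertia at finite level

* `S19D_exists_N`     : a closed normal subgroup of finite index fixing a given finite set;
* `S19D_nt2`          : `δ ≡ id` on `ℤ̄^N` modulo `𝔪_A` ⇒ `δ ∈ N·I`;
* `S19D_inertia_root` : inertia fixes the roots of unity of order prime to `ℓ`;
* `S19D_nt`           : for a finite set `T₀` there are `N` and a root of unity `ζ` fixed by `N` such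
  that `δ ∈ D`, `δ ζ = ζ` implies `δ ∈ I·N`.
-/

set_option autoImplicit false
set_option linter.unusedSectionVars false
set_option linter.unusedVariables false
set_option linter.style.haveILetI false

open scoped Pointwise
open Fermat.Agent.Lib

namespace Fermat.Agent.S19

noncomputable section

attribute [local instance] S19D_zbarAction S19D_zbarSMulComm S19D_zbarTop S19D_zbarDisc
  S19D_zbarCont S19D_zbarInvariant

/-- a closed normal subgroup of finite index fixing a given finite set pointwise. -/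
theorem S19D_exists_N (T : Finset S19PW_Om) :
    ∃ N : Subgroup S19PW_Gal, N.Normal ∧ N.FiniteIndex ∧ IsClosed (N : Set S19PW_Gal) ∧
      ∀ ν ∈ N, ∀ t ∈ T, ν t = t := by
  haveI := S19D_isGalois
  haveI := S19D_isIntegralExt
  let U : Subgroup S19PW_Gal := ⨅ t ∈ T, MulAction.stabilizer S19PW_Gal t
  have hU : IsOpen (U : Set S19PW_Gal) := by
    have : (U : Set S19PW_Gal) = ⋂ t ∈ T, (MulAction.stabilizer S19PW_Gal t : Set S19PW_Gal) := by
      simp [U, Subgroup.coe_iInf]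
    rw [this]
    exact isOpen_biInter_finset fun t _ => stabilizer_isOpen_of_isIntegral (K := ℚ) t
  have hUc : IsClosed (U : Set S19PW_Gal) := Subgroup.isClosed_of_isOpen U hU
  haveI : Finite (S19PW_Gal ⧸ U) := Subgroup.quotient_finite_of_isOpen U hU
  haveI : U.FiniteIndex := Subgroup.finiteIndex_of_finite_quotient
  refine ⟨U.normalCore, inferInstance, inferInstance, ?_, ?_⟩
  · have : (U.normalCore : Set S19PW_Gal)
        = ⋂ b : S19PW_Gal, (fun a => b * a * b⁻¹) ⁻¹' (U : Set S19PW_Gal) := by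
      ext a
      simp only [Set.mem_iInter, Set.mem_preimage, SetLike.mem_coe]
      rfl
    rw [this]
    exact isClosed_iInter fun b => hUc.preimage (by fun_prop)
  · intro ν hν t ht
    have h1 : ν ∈ U := U.normalCore_le hν
    have h2 : ν ∈ MulAction.stabilizer S19PW_Gal t := by
      have := (Subgroup.mem_iInf.mp h1) t
      exact (Subgroup.mem_iInf.mp this) ht
    exact h2

section lift

variable {ℓ : ℕ} [hℓ : Fact ℓ.Prime] (A : ValuationSubring S19PW_Om)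

/-- **(NT2)** lifting of inertia. -/
theorem S19D_nt2 (hA : A.LiesOverPrime ℓ) (N : Subgroup S19PW_Gal) [N.Normal]
    (hNc : IsClosed (N : Set S19PW_Gal)) (δ : S19PW_Gal)
    (hδ : ∀ b : S19PW_Om, IsIntegral ℤ b → (∀ ν ∈ N, ν b = b) → δ b - b ∈ A.nonunits) :
    ∃ ν ∈ N, ν * δ ∈ A.inertiaSubgroupIn ℚ := by
  haveI := S19D_isGalois
  obtain ⟨τ, hτN, hτ⟩ := inertiaLift_exists (G := S19PW_Gal) (B := S19D_Zbar) N hNc (S19D_Q A) δ
    (fun a ha => (S19D_mem_Q A _).mpr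
      (hδ a.1 a.2 (fun ν hν => congrArg Subtype.val (ha ⟨ν, hν⟩))))
  refine ⟨τ, hτN, ?_⟩
  refine inertiaCrit_mem_inertia_of_forall_isIntegral A hℓ.out hA S19D_halg (τ * δ) ?_
  intro b hb
  exact (S19D_mem_Q A _).mp (hτ ⟨b, hb⟩)

/-- inertia fixes the roots of unity of order prime to `ℓ`. -/
theorem S19D_inertia_root (hA : A.LiesOverPrime ℓ) {m : ℕ} (hm : ¬ ℓ ∣ m) {ζ : S19PW_Om}
    (hζ : ζ ^ m = 1) {τ : S19PW_Gal} (hτ : τ ∈ A.inertiaSubgroupIn ℚ) : τ ζ = ζ := by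
  by_contra hne
  have hm0 : m ≠ 0 := fun h => hm (h ▸ dvd_zero ℓ)
  have hint : IsIntegral ℤ ζ :=
    ⟨Polynomial.X ^ m - 1, Polynomial.monic_X_pow_sub_C 1 hm0, by simp [hζ]⟩
  have h1 : (τ ζ) ^ m = 1 := by rw [← map_pow, hζ, map_one]
  exact S19D_root_unit A hA hm h1 hζ hne (S19D_inertia_sub hτ (S19D_int_mem A hint))

/-- **(SEP-D)** -/
theorem S19D_nt (hA : A.LiesOverPrime ℓ) (T₀ : Finset S19PW_Om) :
    ∃ (N : Subgroup S19PW_Gal) (ζ : S19PW_Om) (m : ℕ), N.Normal ∧ N.FiniteIndex ∧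
      IsClosed (N : Set S19PW_Gal) ∧ (∀ ν ∈ N, ∀ t ∈ T₀, ν t = t) ∧ ¬ ℓ ∣ m ∧ ζ ^ m = 1 ∧
      (∀ ν ∈ N, ν ζ = ζ) ∧
      ∀ δ ∈ A.decompositionSubgroup ℚ, δ ζ = ζ →
        ∃ ι ∈ A.inertiaSubgroupIn ℚ, ∃ ν ∈ N, δ = ι * ν := by
  haveI := S19D_isGalois
  haveI := S19D_isIntegralExt
  obtain ⟨N₀, hN₀n, hN₀f, hN₀c, hN₀T⟩ := S19D_exists_N T₀
  haveI := hN₀n
  haveI := hN₀f
  obtain ⟨F, hF0, hF⟩ := S19D_ff A hA N₀
  have hℓ2 : 2 ≤ ℓ := hℓ.out.two_le
  have hpow : 2 ≤ ℓ ^ F := by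
    calc 2 ≤ ℓ := hℓ2
      _ = ℓ ^ 1 := (pow_one ℓ).symm
      _ ≤ ℓ ^ F := Nat.pow_le_pow_right (by omega) hF0
  set m : ℕ := ℓ ^ F - 1 with hm
  have hm0 : m ≠ 0 := by omega
  have hmℓ : ¬ ℓ ∣ m := by
    intro hdvd
    have h1 : ℓ ∣ ℓ ^ F := dvd_pow_self ℓ (by omega)
    have h2 : ℓ ∣ ℓ ^ F - m := Nat.dvd_sub h1 hdvd
    have h3 : ℓ ^ F - m = 1 := by omega
    rw [h3] at h2
    have := Nat.le_of_dvd one_pos h2
    omega
  haveI : NeZero (m : S19PW_Om) := ⟨by exact_mod_cast hm0⟩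
  haveI : NeZero m := ⟨hm0⟩
  obtain ⟨ζ, hζ⟩ := HasEnoughRootsOfUnity.exists_primitiveRoot S19PW_Om m
  have hζm : ζ ^ m = 1 := hζ.pow_eq_one
  have hintζ : ∀ k : ℕ, IsIntegral ℤ (ζ ^ k) := fun k =>
    (show IsIntegral ℤ ζ from
      ⟨Polynomial.X ^ m - 1, Polynomial.monic_X_pow_sub_C 1 hm0, by simp [hζm]⟩).pow k
  -- the stabiliser of `ζ`
  let Nζ : Subgroup S19PW_Gal := MulAction.stabilizer S19PW_Gal ζ
  have hNζo : IsOpen (Nζ : Set S19PW_Gal) := stabilizer_isOpen_of_isIntegral (K := ℚ) ζ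
  have hNζmem : ∀ σ : S19PW_Gal, σ ∈ Nζ ↔ σ ζ = ζ := fun σ => Iff.rfl
  have hconj : ∀ σ : S19PW_Gal, ∃ k : ℕ, σ ζ = ζ ^ k := by
    intro σ
    have h1 : (σ ζ) ^ m = 1 := by rw [← map_pow, hζm, map_one]
    obtain ⟨k, -, hk⟩ := hζ.eq_pow_of_pow_eq_one h1
    exact ⟨k, hk.symm⟩
  haveI hNζn : Nζ.Normal := by
    refine ⟨fun σ hσ τ => ?_⟩
    rw [hNζmem] at hσ ⊢
    obtain ⟨k, hk⟩ := hconj τ⁻¹
    rw [AlgEquiv.mul_apply, AlgEquiv.mul_apply, hk, map_pow, hσ, ← hk]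
    exact τ.apply_symm_apply ζ
  haveI : Finite (S19PW_Gal ⧸ Nζ) := Subgroup.quotient_finite_of_isOpen Nζ hNζo
  haveI : Nζ.FiniteIndex := Subgroup.finiteIndex_of_finite_quotient
  refine ⟨N₀ ⊓ Nζ, ζ, m, inferInstance, inferInstance,
    hN₀c.inter (Subgroup.isClosed_of_isOpen Nζ hNζo),
    fun ν hν t ht => hN₀T ν hν.1 t ht, hmℓ, hζm, fun ν hν => hν.2, ?_⟩
  intro δ hδD hδζ
  -- `δ` acts trivially on the residues of the `N₀`-invariant integers
  have hres : ∀ b : S19PW_Om, IsIntegral ℤ b → (∀ ν ∈ N₀, ν b = b) → δ b - b ∈ A.nonunits := by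
    intro b hb hbN
    by_cases hbu : b ∈ A.nonunits
    · exact S19D_nu_sub (S19D_dec_nu hδD hbu) hbu
    · -- `b ^ m ≡ 1`, hence `b ≡ ζ ^ k`
      have h1 := hF b hb hbN
      have h2 : b ^ ℓ ^ F - b = b * (b ^ m - 1) := by
        have : ℓ ^ F = m + 1 := by omega
        rw [this, pow_succ]
        ring
      rw [h2] at h1
      have hbA : b ∈ A := S19D_int_mem A hb
      have h3 : b ^ m - 1 ∈ A.nonunits := by
        rcases S19D_nu_of_mul hbA
          (A.toSubring.sub_mem (A.toSubring.pow_mem hbA m) A.toSubring.one_mem) h1 with h | h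
        · exact absurd h hbu
        · exact h
      have h4 : b ^ m - 1 = ∏ μ ∈ Polynomial.nthRootsFinset m (1 : S19PW_Om), (b - μ) := by
        have := hζ.pow_sub_pow_eq_prod_sub_mul b 1 (Nat.pos_of_ne_zero hm0)
        simpa using this
      rw [h4] at h3
      -- some factor is a nonunit
      have h5 : ∃ μ ∈ Polynomial.nthRootsFinset m (1 : S19PW_Om), b - μ ∈ A.nonunits := by
        by_contra hcon
        simp only [not_exists, not_and] at hcon
        have hall : ∀ s : Finset S19PW_Om, s ⊆ Polynomial.nthRootsFinset m (1 : S19PW_Om) →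
            (∏ μ ∈ s, (b - μ)) ∈ A ∧ (∏ μ ∈ s, (b - μ)) ∉ A.nonunits := by
          classical
          intro s
          induction s using Finset.induction_on with
          | empty =>
            intro _
            refine ⟨by simp, ?_⟩
            rw [Finset.prod_empty, A.mem_nonunits_iff, map_one]
            exact lt_irrefl _
          | insert a s ha ih =>
            intro hs
            have hsub : s ⊆ Polynomial.nthRootsFinset m (1 : S19PW_Om) :=
              fun x hx => hs (Finset.mem_insert_of_mem hx)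
            have ham : a ∈ Polynomial.nthRootsFinset m (1 : S19PW_Om) :=
              hs (Finset.mem_insert_self a s)
            have haint : IsIntegral ℤ a := by
              have := (Polynomial.mem_nthRootsFinset (Nat.pos_of_ne_zero hm0) (1 : S19PW_Om)).mp ham
              exact ⟨Polynomial.X ^ m - 1, Polynomial.monic_X_pow_sub_C 1 hm0, by simp [this]⟩
            have hbaA : b - a ∈ A := A.toSubring.sub_mem hbA (S19D_int_mem A haint)
            obtain ⟨ih1, ih2⟩ := ih hsub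
            rw [Finset.prod_insert ha]
            refine ⟨A.mul_mem _ _ hbaA ih1, fun h => ?_⟩
            rcases S19D_nu_of_mul hbaA ih1 h with h' | h'
            · exact hcon a ham h'
            · exact ih2 h'
        exact (hall _ (Finset.Subset.refl _)).2 h3
      obtain ⟨μ, hμ, hbμ⟩ := h5
      have hμm : μ ^ m = 1 :=
        (Polynomial.mem_nthRootsFinset (Nat.pos_of_ne_zero hm0) (1 : S19PW_Om)).mp hμ
      obtain ⟨k, -, hk⟩ := hζ.eq_pow_of_pow_eq_one hμm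
      have hδμ : δ μ = μ := by rw [← hk, map_pow, hδζ]
      have e : δ b - b = δ (b - μ) - (b - μ) := by
        rw [map_sub, hδμ]; ring
      rw [e]
      exact S19D_nu_sub (S19D_dec_nu hδD hbμ) hbμ
  obtain ⟨ν, hνN, hνI⟩ := S19D_nt2 A hA N₀ hN₀c δ hres
  -- `δ = ν⁻¹ (ν δ) = (ν δ) ((ν δ)⁻¹ ν⁻¹ (ν δ))`
  refine ⟨ν * δ, hνI, (ν * δ)⁻¹ * ν⁻¹ * (ν * δ), ⟨?_, ?_⟩, ?_⟩
  · exact hN₀n.conj_mem' ν⁻¹ (N₀.inv_mem hνN) (ν * δ)
  · -- fixes `ζ`
    have hIζ : (ν * δ) ζ = ζ := S19D_inertia_root A hA hmℓ hζm hνI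
    have hνζ : ν ζ = ζ := by
      rw [AlgEquiv.mul_apply, hδζ] at hIζ
      exact hIζ
    have hνiζ : ν⁻¹ ζ = ζ := by
      calc ν⁻¹ ζ = ν⁻¹ (ν ζ) := by rw [hνζ]
        _ = ζ := ν.symm_apply_apply ζ
    have hiζ : (ν * δ)⁻¹ ζ = ζ := by
      calc (ν * δ)⁻¹ ζ = (ν * δ)⁻¹ ((ν * δ) ζ) := by rw [hIζ]
        _ = ζ := (ν * δ).symm_apply_apply ζ
    show ((ν * δ)⁻¹ * ν⁻¹ * (ν * δ)) ζ = ζ
    rw [AlgEquiv.mul_apply, AlgEquiv.mul_apply, hIζ, hνiζ, hiζ]
  · group

end lift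

end

end Fermat.Agent.S19
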