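import Fermat.Agent.S19.DescAdj
import Fermat.Agent.S19.OrdDefs

/-!
# TRACK 9 "FLAT" (S19 + S32): DESC assembly with output `S19FO_HasOrder`  (helper1)

* `S19DA_hasOrder`  : (a), (d), (e) + the conclusion `hK` of the core (K) ⇒ `S19FO_HasOrder ℓ act`;
* `S19DA_hasOrder_of_core` : the same from (a), (b'), (c'), (d), (e) and the core (K) in the form
  `S19D_K_core` (for a general subalgebra `M`: finitely generated, integral, separating, stable
  under the decomposition group, spanned by inertia-equivariant elements ⇒ spanned by equivariant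
  elements), taken as a hypothesis `hcore`.
-/

set_option autoImplicit false
set_option linter.unusedSectionVars false
set_option linter.unusedVariables false

namespace Fermat.Agent.S19

theorem S19DA_hasOrder {ℓ : ℕ} [Fact ℓ.Prime] {G : Type} [AddCommGroup G] [Finite G]
    (act : S19PW_Gal → G → G)
    (hact1 : ∀ x, act 1 x = x) (hactmul : ∀ σ τ x, act (σ * τ) x = act σ (act τ x))
    (hadd : ∀ σ x y, act σ (x + y) = act σ x + act σ y)
    (A : ValuationSubring S19PW_Om) (hA : A.LiesOverPrime ℓ)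
    {ι : Type} [Finite ι] (h : ι → G → S19PW_Om)
    (ha : ∀ i x, h i x ∈ A)
    (hd : ∀ x y, (∀ i, h i x = h i y) → x = y)
    (he : ∀ i, (fun p : G × G => h i (p.1 + p.2)) ∈ Algebra.adjoin ↥A
      (Set.range (fun j (p : G × G) => h j p.1) ∪ Set.range (fun j (p : G × G) => h j p.2)))
    (hK : Subalgebra.toSubmodule (Algebra.adjoin ↥A (Set.range h)) ≤
      Submodule.span ↥A
        {f | f ∈ Algebra.adjoin ↥A (Set.range h) ∧ ∀ σ x, f (act σ x) = σ (f x)}) :
    S19FO_HasOrder ℓ act := by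
  obtain ⟨H₀, -, heq, hfin, hsep, hcomul⟩ :=
    S19DA_main act hact1 hactmul hadd A hA h ha hd he hK
  exact ⟨H₀, heq, hfin, hsep, hcomul⟩

/-- the hypotheses of the core (K) for `M = A[h]`, from (a), (b'), (c'), (d). -/
theorem S19DA_core_hyps {G : Type} [Finite G]
    (act : S19PW_Gal → G → G)
    (hact1 : ∀ x, act 1 x = x) (hactmul : ∀ σ τ x, act (σ * τ) x = act σ (act τ x))
    (A : ValuationSubring S19PW_Om)
    {ι : Type} [Finite ι] (h : ι → G → S19PW_Om)
    (ha : ∀ i x, h i x ∈ A)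
    (hb : ∀ τ ∈ A.inertiaSubgroupIn ℚ, ∀ i x, h i (act τ x) = τ (h i x))
    (hc : ∀ σ ∈ A.decompositionSubgroup ℚ, ∀ i,
      (fun x => σ (h i (act σ⁻¹ x))) ∈ Algebra.adjoin ↥A (Set.range h))
    (hd : ∀ x y, (∀ i, h i x = h i y) → x = y) :
    (Subalgebra.toSubmodule (Algebra.adjoin ↥A (Set.range h))).FG ∧
    (∀ f ∈ Algebra.adjoin ↥A (Set.range h), ∀ x, f x ∈ A) ∧
    (∀ x y : G, x ≠ y → ∃ f ∈ Algebra.adjoin ↥A (Set.range h), f x ≠ f y) ∧
    (∀ σ ∈ A.decompositionSubgroup ℚ, ∀ f ∈ Algebra.adjoin ↥A (Set.range h),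
      (fun x => σ (f (act σ⁻¹ x))) ∈ Algebra.adjoin ↥A (Set.range h)) ∧
    (Subalgebra.toSubmodule (Algebra.adjoin ↥A (Set.range h)) ≤
      Submodule.span ↥A {f | f ∈ Algebra.adjoin ↥A (Set.range h) ∧
        ∀ τ ∈ A.inertiaSubgroupIn ℚ, ∀ x, f (act τ x) = τ (f x)}) := by
  refine ⟨S19DA_fg A h ha, S19DJ_int A h ha, ?_, S19DJ_dstab act A h hact1 hactmul hc,
    S19DJ_ispan act A h hb⟩
  intro x y hxy
  by_contra hcon
  push Not at hcon
  exact hxy (hd x y fun i => hcon (h i) (Algebra.subset_adjoin ⟨i, rfl⟩))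

end Fermat.Agent.S19
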