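import Mathlib
import Fermat.Agent.S19.Iface
import Fermat.Agent.S19.ChartEx
import Fermat.Agent.S19.Eqv

/-!
# TRACK 9 (S19), package (g5) (helper15), prefix `S19G5_`: the invariant chart

Abstract over `S : S18_Spec L F k Fk` and a set `Γ` of semilinear automorphisms of `F / L`
(in the application: the image of the inertia group of `A`).

* `S19G5_chart` : from a `Γ`-invariant orthonormal basis `b` of `L(D₀)` (RATB) and `Γ`-invariant
  lifts of all places of `Fk` (LIFT-P) a chart `C = (b, B₀, P)` with `g • C.b i = C.b i` and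
  `g • C.B₀ = C.B₀` for all `g ∈ Γ` (CHART-EX with `good P := ∀ g ∈ Γ, g • P = P`).
* `S19G5_kappa C` : THE coordinate function `Pic⁰ → L` of a chart (`0` outside `J¹` or if there
  are no coordinates); `S19G5_kappa_isCoord`, `S19G5_kappa_mem`, `S19G5_kappa_eq`.
* `S19G5_kappa_equivariant` : `κ_C p (g • y) = g_L (κ_C p y)` for `y ∈ J¹`, `C` invariant under `g`.
* `S19G5_kappa_transport` : `κ_{gC} p (g • y) = g_L (κ_C p y)` for `y ∈ J¹` (g4, every chart).
* `S19G5_main` : (g5) in the shape of the route note §2.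
-/

set_option autoImplicit false
set_option linter.unusedSectionVars false

open AlgebraicCurve

namespace Fermat.Agent.S19

open Fermat.Agent.S18 Fermat.Agent.Lib

variable {L F k Fk : Type*} [Field L] [Field F] [Algebra L F] [Field k] [Field Fk]
  [Algebra k Fk] {S : S18_Spec L F k Fk} {D₀ : Divisor L F} {n gen : ℕ}

/-- a divisor `∑ single (P i) 1` of `Γ`-fixed places is `Γ`-fixed. -/
theorem S19G5_smul_sum_single (g : SemilinearAut L F) {ι : Type*} [Fintype ι]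
    (P : ι → Place L F) (hP : ∀ i, g • P i = P i) :
    g • (∑ i, Finsupp.single (P i) (1 : ℤ) : Divisor L F) =
      ∑ i, Finsupp.single (P i) (1 : ℤ) := by
  rw [Finset.smul_sum]
  refine Finset.sum_congr rfl fun i _ => ?_
  rw [SemilinearAut.smul_single, hP i]

/-- **the invariant chart**. -/
theorem S19G5_chart [Infinite k] (S : S18_Spec L F k Fk) (hNum : S19IF_Num S D₀ n gen)
    (Γ : Set (SemilinearAut L F))
    (b : Fin n → F) (hbO : ∀ i, b i ∈ S.O) (hb : ∀ i, b i ∈ riemannRochSpace D₀)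
    (hspan : ∀ f ∈ riemannRochSpace D₀, ∃ c : Fin n → L, f = ∑ i, c i • b i)
    (hred : LinearIndependent k (fun i => S.red ⟨b i, hbO i⟩))
    (hbinv : ∀ g ∈ Γ, ∀ i, g • b i = b i)
    (hlift : ∀ Q : Place k Fk, ∃ P : Place L F, S.r P = Q ∧ ∀ g ∈ Γ, g • P = P)
    (T : Finset (Place k Fk)) :
    ∃ C : S19IF_Chart S D₀ n gen, C.b = b ∧ (∀ g ∈ Γ, ∀ i, g • C.b i = C.b i) ∧
      (∀ g ∈ Γ, g • C.B₀ = C.B₀) ∧ ∀ P : Place L F, C.B₀ P ≠ 0 → S.r P ∉ T := by
  classical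
  obtain ⟨C, Pl, hCb, hCB, hgood, -, hT⟩ := S19CX_chart_ex S hNum b hbO hb hspan hred
    (fun P => ∀ g ∈ Γ, g • P = P) hlift T
  refine ⟨C, hCb, fun g hg i => ?_, fun g hg => ?_, fun P hP => ?_⟩
  · rw [hCb]
    exact hbinv g hg i
  · rw [hCB]
    exact S19G5_smul_sum_single g Pl fun i => hgood i g hg
  · rw [hCB, Finsupp.finsetSum_apply] at hP
    obtain ⟨i, -, hi⟩ := Finset.exists_ne_zero_of_sum_ne_zero hP
    rw [Finsupp.single_apply] at hi
    have hPi : Pl i = P := by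
      by_contra hne
      rw [if_neg hne] at hi
      exact hi rfl
    rw [← hPi]
    exact hT i

/-! ## The coordinate function of a chart -/

open Classical in
/-- THE coordinate function of the chart `C`: the coordinates of `y` if `y ∈ J¹` has
coordinates, `0` otherwise. -/
noncomputable def S19G5_kappa (C : S19IF_Chart S D₀ n gen) (p : Fin n × Fin n)
    (y : Pic0 L F) : L :=
  if h : S19IF_J1 S y ∧ ∃ κ : Fin n × Fin n → L, S19IF_IsCoord C y κ then h.2.choose p else 0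

theorem S19G5_kappa_isCoord (C : S19IF_Chart S D₀ n gen) (hEx : S19IF_CoordEx C)
    {y : Pic0 L F} (hy : S19IF_J1 S y) :
    S19IF_IsCoord C y (fun p => S19G5_kappa C p y) := by
  obtain ⟨κ, hκ, -⟩ := hEx y hy
  have h : S19IF_J1 S y ∧ ∃ κ : Fin n × Fin n → L, S19IF_IsCoord C y κ := ⟨hy, κ, hκ⟩
  have h1 : (fun p => S19G5_kappa C p y) = h.2.choose := by
    funext p
    unfold S19G5_kappa
    rw [dif_pos h]
  rw [h1]
  exact h.2.choose_spec

/-- the coordinate function is characterised by `IsCoord`. -/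
theorem S19G5_kappa_eq (C : S19IF_Chart S D₀ n gen) (hEx : S19IF_CoordEx C)
    (hU : S19IF_CoordUniq C) {y : Pic0 L F} (hy : S19IF_J1 S y)
    {κ : Fin n × Fin n → L} (hκ : S19IF_IsCoord C y κ) :
    (fun p => S19G5_kappa C p y) = κ :=
  hU y _ _ hy (S19G5_kappa_isCoord C hEx hy) hκ

/-- (g1): the coordinates of the points of `J¹` are integral. -/
theorem S19G5_kappa_mem (C : S19IF_Chart S D₀ n gen) (hEx : S19IF_CoordEx C)
    (hU : S19IF_CoordUniq C) {y : Pic0 L F} (hy : S19IF_J1 S y) (p : Fin n × Fin n) :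
    S19G5_kappa C p y ∈ S.A := by
  obtain ⟨κ, hκ, hA⟩ := hEx y hy
  have := S19G5_kappa_eq C hEx hU hy hκ
  rw [show S19G5_kappa C p y = (fun p => S19G5_kappa C p y) p from rfl, this]
  exact hA p

/-- (g3): the coordinate function separates the points of `J¹`. -/
theorem S19G5_kappa_sep (C : S19IF_Chart S D₀ n gen) (hEx : S19IF_CoordEx C)
    (hSep : S19IF_Sep C) {y y' : Pic0 L F} (hy : S19IF_J1 S y) (hy' : S19IF_J1 S y')
    (h : ∀ p, S19G5_kappa C p y = S19G5_kappa C p y') : y = y' := by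
  have h1 := S19G5_kappa_isCoord C hEx hy
  have h2 := S19G5_kappa_isCoord C hEx hy'
  have h3 : (fun p => S19G5_kappa C p y) = fun p => S19G5_kappa C p y' := funext h
  rw [h3] at h1
  exact hSep y y' _ hy hy' h1 h2

variable {g : SemilinearAut L F} {gb : SemilinearAut k Fk}

/-- (g4) for coordinate functions: `κ_{gC} (g • y) = g_L (κ_C y)` on `J¹`. -/
theorem S19G5_kappa_transport (hc : S19EQ_Compat S g gb) (hD₀ : g • D₀ = D₀)
    (C : S19IF_Chart S D₀ n gen) (hEx : S19IF_CoordEx C)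
    (hEx' : S19IF_CoordEx (S19EQ_chart hc hD₀ C))
    (hU' : S19IF_CoordUniq (S19EQ_chart hc hD₀ C))
    {y : Pic0 L F} (hy : S19IF_J1 S y) (p : Fin n × Fin n) :
    S19G5_kappa (S19EQ_chart hc hD₀ C) p (g • y) =
      SemilinearAut.baseAut g (S19G5_kappa C p y) := by
  have h1 := S19EQ_isCoord hc hD₀ C (S19G5_kappa_isCoord C hEx hy)
  have h2 := S19G5_kappa_eq (S19EQ_chart hc hD₀ C) hEx' hU' (S19EQ_J1 hc hy) h1
  exact congrFun h2 p

/-- equivariance of the coordinate function of an invariant chart. -/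
theorem S19G5_kappa_equivariant (hc : S19EQ_Compat S g gb) (hD₀ : g • D₀ = D₀)
    (C : S19IF_Chart S D₀ n gen) (hb : ∀ i, g • C.b i = C.b i) (hB : g • C.B₀ = C.B₀)
    (hEx : S19IF_CoordEx C) (hU : S19IF_CoordUniq C)
    {y : Pic0 L F} (hy : S19IF_J1 S y) (p : Fin n × Fin n) :
    S19G5_kappa C p (g • y) = SemilinearAut.baseAut g (S19G5_kappa C p y) := by
  have h1 := S19EQ_coord_equivariant hc hD₀ C hb hB hU hy (S19G5_kappa_isCoord C hEx hy)
    (S19G5_kappa_isCoord C hEx (S19EQ_J1 hc hy))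
  exact congrFun h1 p

/-- **(g5)**: there is a coordinate system `κ`, coming from a chart, which is equivariant
under all `g ∈ Γ` on `J¹`. -/
theorem S19G5_main [Infinite k] (S : S18_Spec L F k Fk) (hNum : S19IF_Num S D₀ n gen)
    (Γ : Set (SemilinearAut L F))
    (hΓ : ∀ g ∈ Γ, ∃ gb : SemilinearAut k Fk, S19EQ_Compat S g gb)
    (hD₀ : ∀ g ∈ Γ, g • D₀ = D₀)
    (b : Fin n → F) (hbO : ∀ i, b i ∈ S.O) (hb : ∀ i, b i ∈ riemannRochSpace D₀)
    (hspan : ∀ f ∈ riemannRochSpace D₀, ∃ c : Fin n → L, f = ∑ i, c i • b i)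
    (hred : LinearIndependent k (fun i => S.red ⟨b i, hbO i⟩))
    (hbinv : ∀ g ∈ Γ, ∀ i, g • b i = b i)
    (hlift : ∀ Q : Place k Fk, ∃ P : Place L F, S.r P = Q ∧ ∀ g ∈ Γ, g • P = P)
    (hEx : ∀ C : S19IF_Chart S D₀ n gen, S19IF_CoordEx C)
    (hU : ∀ C : S19IF_Chart S D₀ n gen, S19IF_CoordUniq C) :
    ∃ (C : S19IF_Chart S D₀ n gen), C.b = b ∧
      (∀ y, S19IF_J1 S y → S19IF_IsCoord C y (fun p => S19G5_kappa C p y)) ∧
      (∀ y, S19IF_J1 S y → ∀ p, S19G5_kappa C p y ∈ S.A) ∧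
      ∀ g ∈ Γ, ∀ y, S19IF_J1 S y → ∀ p,
        S19G5_kappa C p (g • y) = SemilinearAut.baseAut g (S19G5_kappa C p y) := by
  obtain ⟨C, hCb, hCbinv, hCB, -⟩ := S19G5_chart S hNum Γ b hbO hb hspan hred hbinv hlift ∅
  refine ⟨C, hCb, fun y hy => S19G5_kappa_isCoord C (hEx C) hy,
    fun y hy p => S19G5_kappa_mem C (hEx C) (hU C) hy p, fun g hg y hy p => ?_⟩
  obtain ⟨gb, hc⟩ := hΓ g hg
  exact S19G5_kappa_equivariant hc (hD₀ g hg) C (hCbinv g hg) (hCB g hg) (hEx C) (hU C) hy p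

/-- **(g5) in the shape of `hInv` of `S19GI_main`** (abstract): there is a chart `C` such that
for every `g ∈ Γ` the coordinates of `g • y` (`y ∈ J¹`) are `g_L` of the coordinates of `y`. -/
theorem S19G5_inv [Infinite k] (S : S18_Spec L F k Fk) (hNum : S19IF_Num S D₀ n gen)
    (Γ : Set (SemilinearAut L F))
    (hΓ : ∀ g ∈ Γ, ∃ gb : SemilinearAut k Fk, S19EQ_Compat S g gb)
    (hD₀ : ∀ g ∈ Γ, g • D₀ = D₀)
    (b : Fin n → F) (hbO : ∀ i, b i ∈ S.O) (hb : ∀ i, b i ∈ riemannRochSpace D₀)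
    (hspan : ∀ f ∈ riemannRochSpace D₀, ∃ c : Fin n → L, f = ∑ i, c i • b i)
    (hred : LinearIndependent k (fun i => S.red ⟨b i, hbO i⟩))
    (hbinv : ∀ g ∈ Γ, ∀ i, g • b i = b i)
    (hlift : ∀ Q : Place k Fk, ∃ P : Place L F, S.r P = Q ∧ ∀ g ∈ Γ, g • P = P) :
    ∃ C : S19IF_Chart S D₀ n gen, C.b = b ∧
      ∀ g ∈ Γ, ∀ (y : Pic0 L F) (κ : Fin n × Fin n → L), S19IF_J1 S y → S19IF_IsCoord C y κ →
        S19IF_IsCoord C (g • y) (fun p => SemilinearAut.baseAut g (κ p)) := by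
  obtain ⟨C, hCb, hCbinv, hCB, -⟩ := S19G5_chart S hNum Γ b hbO hb hspan hred hbinv hlift ∅
  refine ⟨C, hCb, fun g hg y κ _ hκ => ?_⟩
  obtain ⟨gb, hc⟩ := hΓ g hg
  have h1 := S19EQ_isCoord hc (hD₀ g hg) C hκ
  rw [S19EQ_chart_eq hc (hD₀ g hg) C (hCbinv g hg) (hCB g hg)] at h1
  exact h1

end Fermat.Agent.S19
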