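import Mathlib
import Fermat.Agent.S19.LiftJ
import Fermat.Agent.S19.LiftPX0

/-!
# TRACK 9 (S19), package LIFT-J, concrete form for `X₀(N)` (helper18)

Wiring of `S19LJ_main` (LIFT-J) with `S19LF_liftP_X0` (LIFT-P, helper21): the line `lift` of
`S19GI_main` for `red = reductionModL A N`, `I = A.inertiaSubgroupIn ℚ`, conditional only on the
input RATB (`S19LF_Ratb N A h`).

* `S19LJ_lift_X0`      : every class `c` of the reduced Jacobian is the reduction of a class of
  `J₀(N)` fixed by the inertia group;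
* `S19LJ_lift_X0_line` : the same in the exact shape of the hypothesis `lift` of `S19GI_main`
  (for an arbitrary map `incl : G → J₀(N)`).
-/

set_option autoImplicit false
set_option synthInstance.maxHeartbeats 400000
set_option maxHeartbeats 1000000

open AlgebraicCurve ModularCurve

namespace Fermat.Agent.S19

variable (N : ℕ) [NeZero N] (A : ValuationSubring (AlgebraicClosure ℚ))
  (h : ReductionInputsModL A N)

/-- **LIFT-J for `X₀(N)`**, conditional on RATB only. -/
theorem S19LJ_lift_X0 {ℓ : ℕ} (hℓ : ℓ.Prime) (hA : A.LiesOverPrime ℓ) (hℓN : ¬ ℓ ∣ N)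
    (hR : S19LF_Ratb N A h)
    (c : JZeroC (IsLocalRing.ResidueField A) N) :
    ∃ x : JZero N, reductionModL A N x = c ∧
      ∀ τ ∈ A.inertiaSubgroupIn ℚ, τ • x = x :=
  S19LJ_main N A h (A.inertiaSubgroupIn ℚ : Set (AlgebraicClosure ℚ ≃ₐ[ℚ] AlgebraicClosure ℚ))
    (fun Q => S19LF_liftP_X0 N A h hℓ hA hℓN hR Q) c

/-- The line `lift` of `S19GI_main`, for an arbitrary `incl : G → J₀(N)`. -/
theorem S19LJ_lift_X0_line {ℓ : ℕ} (hℓ : ℓ.Prime) (hA : A.LiesOverPrime ℓ) (hℓN : ¬ ℓ ∣ N)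
    (hR : S19LF_Ratb N A h) {G : Type*} (incl : G → JZero N) :
    ∀ x : G, ∃ xt : JZero N, reductionModL A N xt = reductionModL A N (incl x) ∧
      ∀ τ ∈ A.inertiaSubgroupIn ℚ, τ • xt = xt :=
  fun x => S19LJ_lift_X0 N A h hℓ hA hℓN hR (reductionModL A N (incl x))

end Fermat.Agent.S19

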