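import Mathlib

/-!
# TRACK 9 "FLAT" (S19), package (LA): constant-rank linear algebra over a commutative ring

Mathlib-only.  Prefix `S19LA_`.

`T` is a commutative ring (in the application: the `A`-algebra generated by the chart coordinates
inside `Map(G_c × G_c', A)`), `M` a matrix over `T`.  A *pivot* of size `ρ` for `M` is a choice of
`ρ` rows `r` and `ρ` columns `c` such that the block `M[r, c]` is invertible and `M` factors
through it (`M = M[:, c] · M[r, c]⁻¹ · M[r, :]`), equivalently all bordered `(ρ+1)`-minors vanish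
(`S19LA_Pivot.ofMinors`), e.g. because `M` has rank `≤ ρ` at every point of a jointly injective
family of field-valued points (`S19LA_Pivot.ofPoints`).

* `S19LA_Pivot.kerProj` : the idempotent matrix `Q = 1 - C P⁻¹ M[r, :]` with `range Q = ker M`;
  it is the projector onto `ker M` along the coordinate subspace of the pivot columns.
* `S19LA_Pivot.kerVec`  : the Cramer basis of `ker M` (indexed by the non-pivot columns).
* `S19LA_Pivot.imProj`  : the idempotent matrix `Q' = M[:, c] P⁻¹ R` with `range Q' = range M`;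
  it is the projector onto `range M` along the coordinate subspace of the non-pivot rows.
  The pivot columns of `M` are a basis of `range M` (`mulVec_eq_sum_cols`, `cols_injective`).
* `S19LA_Pivot.map`     : pivots (with both projectors and both bases) commute with every ring
  homomorphism (evaluation at a point, reduction).
-/

set_option autoImplicit false
set_option linter.unusedSectionVars false

open Matrix

namespace Fermat.Agent.S19

variable {T : Type*} [CommRing T]
variable {ι κ : Type*} [Fintype ι] [Fintype κ] [DecidableEq ι] [DecidableEq κ]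

variable (T) in
/-- column selection matrix `C j a = [j = c a]`. -/
def S19LA_colSel {α : Type*} (c : α → κ) : Matrix κ α T :=
  Matrix.of fun j a => if j = c a then 1 else 0

variable (T) in
/-- row selection matrix `R b i = [i = r b]`. -/
def S19LA_rowSel {α : Type*} (r : α → ι) : Matrix α ι T :=
  Matrix.of fun b i => if i = r b then 1 else 0

theorem S19LA_mul_colSel {α : Type*} (M : Matrix ι κ T) (c : α → κ) :
    M * S19LA_colSel T c = M.submatrix id c := by
  ext i a
  rw [Matrix.mul_apply, Matrix.submatrix_apply, id]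
  simp only [S19LA_colSel, Matrix.of_apply]
  rw [Finset.sum_eq_single (c a)]
  · rw [if_pos rfl, mul_one]
  · intro j _ hj
    rw [if_neg hj, mul_zero]
  · intro h
    exact absurd (Finset.mem_univ _) h

theorem S19LA_rowSel_mul {α : Type*} (M : Matrix ι κ T) (r : α → ι) :
    S19LA_rowSel T r * M = M.submatrix r id := by
  ext b j
  rw [Matrix.mul_apply, Matrix.submatrix_apply, id]
  simp only [S19LA_rowSel, Matrix.of_apply]
  rw [Finset.sum_eq_single (r b)]
  · rw [if_pos rfl, one_mul]
  · intro i _ hi
    rw [if_neg hi, zero_mul]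
  · intro h
    exact absurd (Finset.mem_univ _) h

theorem S19LA_colSel_map {T' : Type*} [CommRing T'] (f : T →+* T') {α : Type*} (c : α → κ) :
    (S19LA_colSel T c).map f = S19LA_colSel T' c := by
  ext j a
  simp only [S19LA_colSel, Matrix.map_apply, Matrix.of_apply]
  split_ifs <;> simp

theorem S19LA_rowSel_map {T' : Type*} [CommRing T'] (f : T →+* T') {α : Type*} (r : α → ι) :
    (S19LA_rowSel T r).map f = S19LA_rowSel T' r := by
  ext b i
  simp only [S19LA_rowSel, Matrix.map_apply, Matrix.of_apply]
  split_ifs <;> simp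

/-- A pivot of size `ρ` for the matrix `M`. -/
structure S19LA_Pivot (M : Matrix ι κ T) (ρ : ℕ) where
  r : Fin ρ → ι
  c : Fin ρ → κ
  Pinv : Matrix (Fin ρ) (Fin ρ) T
  hP : M.submatrix r c * Pinv = 1
  schur : M = M.submatrix id c * Pinv * M.submatrix r id

namespace S19LA_Pivot

variable {M : Matrix ι κ T} {ρ : ℕ} (p : S19LA_Pivot M ρ)

theorem hP' : p.Pinv * M.submatrix p.r p.c = 1 :=
  mul_eq_one_comm.mp p.hP

theorem isUnit_det : IsUnit (M.submatrix p.r p.c).det :=
  (Matrix.isUnit_iff_isUnit_det _).mp ⟨⟨_, _, p.hP, p.hP'⟩, rfl⟩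

theorem r_injective [Nontrivial T] : Function.Injective p.r := by
  intro a b hab
  by_contra hne
  have h0 : (M.submatrix p.r p.c).det = 0 :=
    Matrix.det_zero_of_row_eq hne (by ext j; simp [Matrix.submatrix_apply, hab])
  have := p.isUnit_det
  rw [h0] at this
  exact not_isUnit_zero this

theorem c_injective [Nontrivial T] : Function.Injective p.c := by
  intro a b hab
  by_contra hne
  have h0 : (M.submatrix p.r p.c).det = 0 :=
    Matrix.det_zero_of_column_eq hne (by intro i; simp [Matrix.submatrix_apply, hab])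
  have := p.isUnit_det
  rw [h0] at this
  exact not_isUnit_zero this

/-- the entrywise form of the factorisation. -/
theorem schur_apply (i : ι) (j : κ) :
    M i j = ∑ a, ∑ b, M i (p.c a) * p.Pinv a b * M (p.r b) j := by
  conv_lhs => rw [p.schur]
  simp only [Matrix.mul_apply, Matrix.submatrix_apply, id, Finset.sum_mul]
  exact Finset.sum_comm

/-- the projector onto `ker M` along the pivot columns. -/
def kerProj : Matrix κ κ T :=
  1 - S19LA_colSel T p.c * p.Pinv * M.submatrix p.r id

/-- the projector onto `range M` along the non-pivot rows. -/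
def imProj : Matrix ι ι T :=
  M.submatrix id p.c * p.Pinv * S19LA_rowSel T p.r

theorem rows_mul_colSel : M.submatrix p.r id * S19LA_colSel T p.c = M.submatrix p.r p.c := by
  rw [S19LA_mul_colSel]; rfl

theorem rowSel_mul_cols : S19LA_rowSel T p.r * M.submatrix id p.c = M.submatrix p.r p.c := by
  rw [S19LA_rowSel_mul]; rfl

theorem rows_mul_kerProj : M.submatrix p.r id * p.kerProj = 0 := by
  unfold kerProj
  rw [Matrix.mul_sub, Matrix.mul_one, ← Matrix.mul_assoc, ← Matrix.mul_assoc, p.rows_mul_colSel,
    p.hP, Matrix.one_mul, sub_self]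

theorem mul_kerProj : M * p.kerProj = 0 := by
  calc M * p.kerProj = (M.submatrix id p.c * p.Pinv * M.submatrix p.r id) * p.kerProj := by
        rw [← p.schur]
    _ = 0 := by rw [Matrix.mul_assoc, p.rows_mul_kerProj, Matrix.mul_zero]

theorem kerProj_mulVec_of_mem {v : κ → T} (hv : M *ᵥ v = 0) : p.kerProj *ᵥ v = v := by
  unfold kerProj
  have h1 : M.submatrix p.r id *ᵥ v = 0 := by
    ext b
    have := congrFun hv (p.r b)
    simpa [Matrix.mulVec, dotProduct] using this
  rw [Matrix.sub_mulVec, Matrix.one_mulVec, ← Matrix.mulVec_mulVec, h1, Matrix.mulVec_zero,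
    sub_zero]

theorem kerProj_idem : p.kerProj * p.kerProj = p.kerProj := by
  have h : p.kerProj = 1 - S19LA_colSel T p.c * p.Pinv * M.submatrix p.r id := rfl
  conv_lhs => lhs; rw [h]
  rw [Matrix.sub_mul, Matrix.one_mul, Matrix.mul_assoc, p.rows_mul_kerProj, Matrix.mul_zero,
    sub_zero]

/-- `ker M = range kerProj` (fixed-point form). -/
theorem mulVec_eq_zero_iff (v : κ → T) : M *ᵥ v = 0 ↔ p.kerProj *ᵥ v = v := by
  refine ⟨p.kerProj_mulVec_of_mem, fun h => ?_⟩
  rw [← h, Matrix.mulVec_mulVec, p.mul_kerProj, Matrix.zero_mulVec]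

/-- `ker M = range kerProj`. -/
theorem mulVec_eq_zero_iff_exists (v : κ → T) : M *ᵥ v = 0 ↔ ∃ w, v = p.kerProj *ᵥ w := by
  refine ⟨fun h => ⟨v, (p.kerProj_mulVec_of_mem h).symm⟩, ?_⟩
  rintro ⟨w, rfl⟩
  rw [Matrix.mulVec_mulVec, p.mul_kerProj, Matrix.zero_mulVec]

/-- the kernel projector kills the pivot columns. -/
theorem kerProj_mul_colSel : p.kerProj * S19LA_colSel T p.c = 0 := by
  unfold kerProj
  rw [Matrix.sub_mul, Matrix.one_mul, Matrix.mul_assoc, p.rows_mul_colSel, Matrix.mul_assoc,
    p.hP', Matrix.mul_one, sub_self]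

/-- off the pivot columns the kernel projector is the identity: `(Q v) j = v j`. -/
theorem kerProj_mulVec_apply_of_not_mem (v : κ → T) {j : κ} (hj : ∀ a, j ≠ p.c a) :
    (p.kerProj *ᵥ v) j = v j := by
  unfold kerProj
  rw [Matrix.sub_mulVec, Matrix.one_mulVec, Pi.sub_apply, Matrix.mul_assoc,
    ← Matrix.mulVec_mulVec]
  have : (S19LA_colSel T p.c *ᵥ ((p.Pinv * M.submatrix p.r id) *ᵥ v)) j = 0 := by
    simp only [Matrix.mulVec, dotProduct, S19LA_colSel, Matrix.of_apply]
    exact Finset.sum_eq_zero fun a _ => by rw [if_neg (hj a), zero_mul]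
  rw [this, sub_zero]

theorem imProj_mul : p.imProj * M = M := by
  unfold imProj
  rw [Matrix.mul_assoc, S19LA_rowSel_mul]
  exact p.schur.symm

theorem imProj_idem : p.imProj * p.imProj = p.imProj := by
  have h : p.imProj = M.submatrix id p.c * p.Pinv * S19LA_rowSel T p.r := rfl
  conv_lhs => rhs; rw [h]
  rw [← Matrix.mul_assoc, ← Matrix.mul_assoc]
  have h2 : p.imProj * M.submatrix id p.c = M.submatrix id p.c := by
    rw [← S19LA_mul_colSel, ← Matrix.mul_assoc, p.imProj_mul]
  rw [h2]
  exact h.symm

theorem imProj_eq_mul :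
    p.imProj = M * (S19LA_colSel T p.c * p.Pinv * S19LA_rowSel T p.r) := by
  unfold imProj
  rw [← Matrix.mul_assoc, ← Matrix.mul_assoc, S19LA_mul_colSel]

/-- `range M = range imProj`. -/
theorem exists_mulVec_iff (u : ι → T) : (∃ v, u = M *ᵥ v) ↔ p.imProj *ᵥ u = u := by
  constructor
  · rintro ⟨v, rfl⟩
    rw [Matrix.mulVec_mulVec, p.imProj_mul]
  · intro h
    refine ⟨(S19LA_colSel T p.c * p.Pinv * S19LA_rowSel T p.r) *ᵥ u, ?_⟩
    rw [Matrix.mulVec_mulVec, ← p.imProj_eq_mul, h]

/-! ### the Cramer basis of the kernel -/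

/-- the Cramer basis vector of `ker M` attached to the column `j` (zero if `j` is a pivot column). -/
def kerVec (j : κ) : κ → T :=
  p.kerProj *ᵥ Pi.single j 1

theorem mulVec_kerVec (j : κ) : M *ᵥ p.kerVec j = 0 := by
  unfold kerVec
  rw [Matrix.mulVec_mulVec, p.mul_kerProj, Matrix.zero_mulVec]

theorem kerVec_pivot (a : Fin ρ) : p.kerVec (p.c a) = 0 := by
  unfold kerVec
  have h : (Pi.single (p.c a) 1 : κ → T) = S19LA_colSel T p.c *ᵥ Pi.single a 1 := by
    ext j
    simp only [Matrix.mulVec, dotProduct, S19LA_colSel, Matrix.of_apply]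
    rw [Finset.sum_eq_single a]
    · by_cases hj : j = p.c a
      · subst hj; simp
      · rw [if_neg hj, zero_mul, Pi.single_apply, if_neg hj]
    · intro b _ hb
      rw [Pi.single_apply, if_neg hb, mul_zero]
    · intro h
      exact absurd (Finset.mem_univ _) h
  rw [h, Matrix.mulVec_mulVec, p.kerProj_mul_colSel, Matrix.zero_mulVec]

/-- at a non-pivot place `j'` the Cramer vectors are the unit vectors. -/
theorem kerVec_apply_of_not_mem (j : κ) {j' : κ} (hj' : ∀ a, j' ≠ p.c a) :
    p.kerVec j j' = if j' = j then 1 else 0 := by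
  unfold kerVec
  rw [p.kerProj_mulVec_apply_of_not_mem _ hj', Pi.single_apply]

/-- every vector of `ker M` is the combination of the Cramer vectors with its own coordinates. -/
theorem eq_sum_kerVec {v : κ → T} (hv : M *ᵥ v = 0) : v = ∑ j, v j • p.kerVec j := by
  have h1 : v = ∑ j, v j • (Pi.single j 1 : κ → T) := by
    ext j'
    simp [Finset.sum_apply, Pi.single_apply]
  calc v = p.kerProj *ᵥ v := (p.kerProj_mulVec_of_mem hv).symm
    _ = p.kerProj *ᵥ (∑ j, v j • (Pi.single j 1 : κ → T)) := by rw [← h1]
    _ = ∑ j, v j • p.kerVec j := by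
        rw [Matrix.mulVec_sum]
        refine Finset.sum_congr rfl fun j _ => ?_
        rw [Matrix.mulVec_smul]
        rfl

/-- a vector of `ker M` that vanishes at all non-pivot places is zero. -/
theorem eq_zero_of_mem_of_forall {v : κ → T} (hv : M *ᵥ v = 0)
    (h0 : ∀ j, (∀ a, j ≠ p.c a) → v j = 0) : v = 0 := by
  classical
  rw [p.eq_sum_kerVec hv]
  refine Finset.sum_eq_zero fun j _ => ?_
  by_cases hj : ∃ a, j = p.c a
  · obtain ⟨a, rfl⟩ := hj
    rw [p.kerVec_pivot, smul_zero]
  · rw [h0 j fun a ha => hj ⟨a, ha⟩, zero_smul]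

/-! ### the pivot columns are a basis of the range -/

/-- `M v` is the combination of the pivot columns with coefficients `P⁻¹ M[r, :] v`. -/
theorem mulVec_eq_cols (v : κ → T) :
    M *ᵥ v = M.submatrix id p.c *ᵥ ((p.Pinv * M.submatrix p.r id) *ᵥ v) := by
  conv_lhs => rw [p.schur]
  rw [Matrix.mulVec_mulVec, Matrix.mul_assoc]

/-- the pivot columns are linearly independent (over `T`, hence after every base change). -/
theorem cols_injective {y y' : Fin ρ → T}
    (h : M.submatrix id p.c *ᵥ y = M.submatrix id p.c *ᵥ y') : y = y' := by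
  have h1 : M.submatrix p.r p.c *ᵥ y = M.submatrix p.r p.c *ᵥ y' := by
    ext b
    have := congrFun h (p.r b)
    simpa [Matrix.mulVec, dotProduct] using this
  have h2 := congrArg (fun z => p.Pinv *ᵥ z) h1
  simp only [Matrix.mulVec_mulVec, p.hP', Matrix.one_mulVec] at h2
  exact h2

/-- the pivot columns lie in the range. -/
theorem cols_mem_range (y : Fin ρ → T) :
    M.submatrix id p.c *ᵥ y = M *ᵥ (S19LA_colSel T p.c *ᵥ y) := by
  rw [Matrix.mulVec_mulVec, S19LA_mul_colSel]

/-! ### base change -/

section map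

variable {T' : Type*} [CommRing T'] (f : T →+* T')

/-- a pivot is stable under every ring homomorphism. -/
def map : S19LA_Pivot (M.map f) ρ where
  r := p.r
  c := p.c
  Pinv := p.Pinv.map f
  hP := by
    have h := congrArg (fun N : Matrix (Fin ρ) (Fin ρ) T => N.map f) p.hP
    simp only [Matrix.map_mul, Matrix.map_one _ f.map_zero f.map_one] at h
    exact h
  schur := by
    have h := congrArg (fun N : Matrix ι κ T => N.map f) p.schur
    simp only [Matrix.map_mul] at h
    exact h

@[simp] theorem map_r : (p.map f).r = p.r := rfl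
@[simp] theorem map_c : (p.map f).c = p.c := rfl
@[simp] theorem map_Pinv : (p.map f).Pinv = p.Pinv.map f := rfl

theorem map_kerProj : (p.map f).kerProj = p.kerProj.map f := by
  unfold kerProj
  rw [Matrix.map_sub (⇑f) (map_sub f), Matrix.map_one _ f.map_zero f.map_one,
    Matrix.map_mul, Matrix.map_mul, S19LA_colSel_map]
  rfl

theorem map_imProj : (p.map f).imProj = p.imProj.map f := by
  unfold imProj
  rw [Matrix.map_mul, Matrix.map_mul, S19LA_rowSel_map]
  rfl

theorem map_kerVec (j : κ) : (p.map f).kerVec j = fun j' => f (p.kerVec j j') := by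
  unfold kerVec
  rw [p.map_kerProj]
  ext j'
  simp only [Matrix.mulVec, dotProduct, Matrix.map_apply, Pi.single_apply, mul_ite, mul_one,
    mul_zero, Finset.sum_ite_eq', Finset.mem_univ, if_true]

end map

end S19LA_Pivot

/-! ### constructors: bordered minors, points -/

section constructors

variable (M : Matrix ι κ T) {ρ : ℕ}

/-- the bordered `(ρ+1) × (ρ+1)` submatrix: pivot rows and the row `i`, pivot columns and the
column `j`. -/
def S19LA_bordered (r : Fin ρ → ι) (c : Fin ρ → κ) (i : ι) (j : κ) :
    Matrix (Fin ρ ⊕ Unit) (Fin ρ ⊕ Unit) T :=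
  M.submatrix (Sum.elim r fun _ : Unit => i) (Sum.elim c fun _ : Unit => j)

theorem S19LA_bordered_eq_fromBlocks (r : Fin ρ → ι) (c : Fin ρ → κ) (i : ι) (j : κ) :
    S19LA_bordered M r c i j =
      Matrix.fromBlocks (M.submatrix r c) (Matrix.of fun b (_ : Unit) => M (r b) j)
        (Matrix.of fun (_ : Unit) a => M i (c a)) (Matrix.of fun (_ : Unit) (_ : Unit) => M i j) := by
  ext x y
  rcases x with x | x <;> rcases y with y | y <;> rfl

/-- Schur complement: the bordered minor is `det P · (M i j - M[i, c] P⁻¹ M[r, j])`. -/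
theorem S19LA_bordered_det (r : Fin ρ → ι) (c : Fin ρ → κ)
    (hu : IsUnit (M.submatrix r c).det) (i : ι) (j : κ) :
    (S19LA_bordered M r c i j).det =
      (M.submatrix r c).det *
        (M i j - ∑ a, ∑ b, M i (c a) * (M.submatrix r c)⁻¹ a b * M (r b) j) := by
  rw [S19LA_bordered_eq_fromBlocks]
  let _ : Invertible (M.submatrix r c) := Matrix.invertibleOfIsUnitDet _ hu
  rw [Matrix.det_fromBlocks₁₁]
  congr 1
  rw [Matrix.det_unique, Matrix.invOf_eq_nonsing_inv]
  simp only [Matrix.sub_apply, Matrix.of_apply, Matrix.mul_apply, Finset.sum_mul]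
  congr 1
  exact Finset.sum_comm

/-- A pivot from a unit `ρ × ρ` minor all of whose bordered `(ρ+1)`-minors vanish. -/
noncomputable def S19LA_Pivot.ofMinors (r : Fin ρ → ι) (c : Fin ρ → κ)
    (hu : IsUnit (M.submatrix r c).det)
    (hb : ∀ i j, (S19LA_bordered M r c i j).det = 0) : S19LA_Pivot M ρ where
  r := r
  c := c
  Pinv := (M.submatrix r c)⁻¹
  hP := Matrix.mul_nonsing_inv _ hu
  schur := by
    ext i j
    have h := hb i j
    rw [S19LA_bordered_det M r c hu] at h
    have h2 : M i j - ∑ a, ∑ b, M i (c a) * (M.submatrix r c)⁻¹ a b * M (r b) j = 0 := by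
      obtain ⟨u, hu'⟩ := hu
      rw [← hu'] at h
      exact (Units.mul_right_eq_zero u).mp h
    rw [sub_eq_zero] at h2
    rw [h2]
    simp only [Matrix.mul_apply, Matrix.submatrix_apply, id, Finset.sum_mul]
    exact Finset.sum_comm

@[simp] theorem S19LA_Pivot.ofMinors_r (r : Fin ρ → ι) (c : Fin ρ → κ)
    (hu : IsUnit (M.submatrix r c).det) (hb : ∀ i j, (S19LA_bordered M r c i j).det = 0) :
    (S19LA_Pivot.ofMinors M r c hu hb).r = r := rfl

@[simp] theorem S19LA_Pivot.ofMinors_c (r : Fin ρ → ι) (c : Fin ρ → κ)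
    (hu : IsUnit (M.submatrix r c).det) (hb : ∀ i j, (S19LA_bordered M r c i j).det = 0) :
    (S19LA_Pivot.ofMinors M r c hu hb).c = c := rfl

/-- over a field: a square submatrix of size `> rank` has determinant zero. -/
theorem S19LA_det_submatrix_eq_zero {K : Type*} [Field K] {α : Type*} [Fintype α] [DecidableEq α]
    (N : Matrix ι κ K) (f : α → ι) (g : α → κ) (h : N.rank < Fintype.card α) :
    (N.submatrix f g).det = 0 := by
  by_contra hne
  have hU : IsUnit (N.submatrix f g) :=
    (Matrix.isUnit_iff_isUnit_det _).mpr (isUnit_iff_ne_zero.mpr hne)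
  have h1 : (N.submatrix f g).rank = Fintype.card α := Matrix.rank_of_isUnit _ hU
  have h2 : N.submatrix f g = S19LA_rowSel K f * (N * S19LA_colSel K g) := by
    rw [S19LA_mul_colSel, S19LA_rowSel_mul]
    rfl
  have h3 : (N.submatrix f g).rank ≤ N.rank := by
    rw [h2]
    exact (Matrix.rank_mul_le_right _ _).trans (Matrix.rank_mul_le_left _ _)
  omega

/-- A pivot from a unit `ρ × ρ` minor and a jointly injective family of field-valued points at
which the rank is `≤ ρ`. -/
noncomputable def S19LA_Pivot.ofPoints {K S : Type*} [Field K] (φ : S → T →+* K)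
    (hinj : ∀ t : T, (∀ s, φ s t = 0) → t = 0) (r : Fin ρ → ι) (c : Fin ρ → κ)
    (hu : IsUnit (M.submatrix r c).det) (hrk : ∀ s, (M.map (φ s)).rank ≤ ρ) :
    S19LA_Pivot M ρ :=
  S19LA_Pivot.ofMinors M r c hu fun i j => by
    refine hinj _ fun s => ?_
    have h1 : φ s (S19LA_bordered M r c i j).det =
        ((M.map (φ s)).submatrix (Sum.elim r fun _ : Unit => i)
          (Sum.elim c fun _ : Unit => j)).det := by
      rw [RingHom.map_det]
      rfl
    rw [h1]
    refine S19LA_det_submatrix_eq_zero _ _ _ ?_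
    have := hrk s
    simp only [Fintype.card_sum, Fintype.card_fin, Fintype.card_unit]
    omega

end constructors

end Fermat.Agent.S19
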