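import Mathlib

/-!
# TRACK 9 "FLAT" (S19), package LINB (helper6): constant-rank linear algebra over a local ring of
functions — the FAMILY LAYER

Setting (`S19LB_Loc`): `B` a commutative ring with jointly injective evaluations
`ev s : B →+* K` (`s ∈ S`) and a reduction `π : B →+* k` such that `π b ≠ 0 → IsUnit b`
(e.g. `B = A[κ ⊗ 1, 1 ⊗ κ] ⊂ Map(G_c × G_c', A)`, `A` a valuation ring, `π` = residue of any value).

A family `W s ⊂ K^ι` with reduction `Wb ⊂ k^ι` is a **`B`-family** (`S19LB_IsFam`) if it has a basis
of vectors over `B` which stays a basis at every `s` and modulo `π`.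

* `S19LB_rigid` : a vector over `B` lying pointwise in a family is a `B`-combination of its basis;
* `S19LB_span` (`_span_sub`) : spans of vectors over `B` with constant rank are `B`-families;
* `S19LB_ker` : kernels of matrices over `B` with constant rank are `B`-families;
* `S19LB_image`, `S19LB_pre`, `S19LB_graph`, `S19LB_ofGraph` : images, preimages / intersections /
  colons, graph coordinates.
-/

set_option autoImplicit false
set_option linter.unusedSectionVars false
set_option linter.unusedVariables false
set_option linter.unusedDecidableInType false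

namespace Fermat.Agent.S19

open Matrix

structure S19LB_Loc {B K k S : Type*} [CommRing B] [Field K] [Field k]
    (ev : S → B →+* K) (π : B →+* k) : Prop where
  inj : ∀ b : B, (∀ s, ev s b = 0) → b = 0
  unit : ∀ b : B, π b ≠ 0 → IsUnit b

/-- linearly independent vectors `v_1, …, v_ρ ∈ k^ι` have a nonzero `ρ × ρ` minor. -/
theorem S19LB_exists_minor {k : Type*} [Field k] {ι : Type*} [Fintype ι] {ρ : ℕ}
    (v : Fin ρ → ι → k) (hv : LinearIndependent k v) :
    ∃ r : Fin ρ → ι, (Matrix.of fun a b => v b (r a)).det ≠ 0 := by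
  classical
  -- the matrix with rows `v`
  set M : Matrix (Fin ρ) ι k := Matrix.of v with hM
  have hrank : M.rank = ρ := by
    have := LinearIndependent.rank_matrix (M := M) hv
    simpa using this
  -- the columns of `M` span `k^ρ`
  have hfr : Module.finrank k (Submodule.span k (Set.range M.col)) = ρ := by
    rw [← Matrix.rank_eq_finrank_span_cols, hrank]
  obtain ⟨g, hg, -, hli⟩ := Submodule.exists_fun_fin_finrank_span_eq k (Set.range M.col)
  choose f' hf' using hg
  refine ⟨fun j => f' (Fin.cast hfr.symm j), ?_⟩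
  have hunit : IsUnit (Matrix.of fun (a : Fin ρ) (b : Fin ρ) => v b (f' (Fin.cast hfr.symm a))) := by
    rw [← Matrix.linearIndependent_rows_iff_isUnit]
    have : (Matrix.of fun (a : Fin ρ) (b : Fin ρ) => v b (f' (Fin.cast hfr.symm a))).row =
        g ∘ (Fin.cast hfr.symm) := by
      funext a
      rw [Function.comp_apply, ← hf']
      rfl
    rw [this]
    exact hli.comp _ (Fin.cast_injective _)
  exact ((Matrix.isUnit_iff_isUnit_det _).1 hunit).ne_zero


section core

variable {B K k S : Type*} [CommRing B] [Field K] [Field k]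
variable {ev : S → B →+* K} {π : B →+* k}
variable {ι : Type*} [Fintype ι] {ρ : ℕ}

/-- vectors over `B` which are independent modulo `π` have a `ρ × ρ` minor which is a unit. -/
theorem S19LB_unit_minor (h : S19LB_Loc ev π) (vec : Fin ρ → ι → B)
    (hvec : LinearIndependent k (fun a => (π : B → k) ∘ vec a)) :
    ∃ r : Fin ρ → ι, IsUnit (Matrix.of fun a b => vec b (r a)).det := by
  obtain ⟨r, hr⟩ := S19LB_exists_minor _ hvec
  refine ⟨r, h.unit _ ?_⟩
  rw [RingHom.map_det]
  exact hr

/-- a square matrix over `B` with unit determinant has trivial kernel after applying a ring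
homomorphism to a field. -/
theorem S19LB_minor_inj {L : Type*} [Field L] (φ : B →+* L)
    (D : Matrix (Fin ρ) (Fin ρ) B) (hD : IsUnit D.det) (c : Fin ρ → L)
    (hc : ∀ a, ∑ b, c b * φ (D a b) = 0) : c = 0 := by
  have hdet : (D.map φ).det ≠ 0 := by
    have h1 : (D.map φ).det = φ D.det := (RingHom.map_det φ D).symm
    rw [h1]
    exact (hD.map φ).ne_zero
  apply Matrix.eq_zero_of_mulVec_eq_zero hdet
  funext a
  rw [Matrix.mulVec, dotProduct, Pi.zero_apply, ← hc a]
  exact Finset.sum_congr rfl fun b _ => by rw [Matrix.map_apply, mul_comm]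

/-- independence modulo `π` implies independence after every ring homomorphism to a field. -/
theorem S19LB_indep_of_minor {L : Type*} [Field L] (φ : B →+* L) (vec : Fin ρ → ι → B)
    (r : Fin ρ → ι) (hr : IsUnit (Matrix.of fun a b => vec b (r a)).det) :
    LinearIndependent L (fun a => (φ : B → L) ∘ vec a) := by
  rw [Fintype.linearIndependent_iff]
  intro c hc
  have : c = 0 := by
    apply S19LB_minor_inj φ _ hr c
    intro a
    have := congrFun hc (r a)
    simp only [Finset.sum_apply, Pi.smul_apply, Function.comp_apply, smul_eq_mul,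
      Pi.zero_apply] at this
    simpa using this
  intro i
  rw [this]; rfl

theorem S19LB_indep_ev (h : S19LB_Loc ev π) (vec : Fin ρ → ι → B)
    (hvec : LinearIndependent k (fun a => (π : B → k) ∘ vec a)) (s : S) :
    LinearIndependent K (fun a => (ev s : B → K) ∘ vec a) := by
  obtain ⟨r, hr⟩ := S19LB_unit_minor h vec hvec
  exact S19LB_indep_of_minor (ev s) vec r hr

/-- **rigidity**: a vector over `B` which lies pointwise in the span of a family (independent
modulo `π`) is a `B`-linear combination of the family. -/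
theorem S19LB_rigid (h : S19LB_Loc ev π) (vec : Fin ρ → ι → B)
    (hvec : LinearIndependent k (fun a => (π : B → k) ∘ vec a)) (u : ι → B)
    (hu : ∀ s, (ev s : B → K) ∘ u ∈
      Submodule.span K (Set.range fun a => (ev s : B → K) ∘ vec a)) :
    ∃ c : Fin ρ → B, u = ∑ a, c a • vec a := by
  classical
  obtain ⟨r, hr⟩ := S19LB_unit_minor h vec hvec
  set D : Matrix (Fin ρ) (Fin ρ) B := Matrix.of fun a b => vec b (r a) with hD
  have hDu : IsUnit D := (Matrix.isUnit_iff_isUnit_det _).2 hr
  -- solve on the rows `r`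
  set c : Fin ρ → B := D⁻¹ *ᵥ (fun a => u (r a)) with hc
  have hDc : D *ᵥ c = fun a => u (r a) := by
    rw [hc, Matrix.mulVec_mulVec, Matrix.mul_nonsing_inv _ hr, Matrix.one_mulVec]
  refine ⟨c, ?_⟩
  -- the difference vanishes on the rows `r`, and pointwise lies in the span
  set u' : ι → B := u - ∑ a, c a • vec a with hu'
  have hrows : ∀ a, u' (r a) = 0 := by
    intro a
    have := congrFun hDc a
    rw [Matrix.mulVec, dotProduct] at this
    rw [hu', Pi.sub_apply, Finset.sum_apply, ← this, sub_eq_zero]
    exact Finset.sum_congr rfl fun b _ => by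
      rw [Pi.smul_apply, smul_eq_mul, hD, Matrix.of_apply, mul_comm]
  have hzero : u' = 0 := by
    funext i
    apply h.inj
    intro s
    have hmem : (ev s : B → K) ∘ u' ∈
        Submodule.span K (Set.range fun a => (ev s : B → K) ∘ vec a) := by
      have : (ev s : B → K) ∘ u' = (ev s : B → K) ∘ u -
          ∑ a, ev s (c a) • ((ev s : B → K) ∘ vec a) := by
        funext i
        simp [hu']
      rw [this]
      refine Submodule.sub_mem _ (hu s) (Submodule.sum_mem _ fun a _ => ?_)
      exact Submodule.smul_mem _ _ (Submodule.subset_span ⟨a, rfl⟩)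
    obtain ⟨c', hc'⟩ := (Submodule.mem_span_range_iff_exists_fun K).1 hmem
    have hc'0 : c' = 0 := by
      apply S19LB_minor_inj (ev s) D hr c'
      intro a
      have := congrFun hc' (r a)
      simp only [Finset.sum_apply, Pi.smul_apply, Function.comp_apply, smul_eq_mul] at this
      rw [hrows a, map_zero] at this
      rw [← this]
      rfl
    have := congrFun hc' i
    rw [hc'0] at this
    simp only [Pi.zero_apply, zero_smul, Finset.sum_const_zero, Function.comp_apply] at this
    exact this.symm
  rw [hu', sub_eq_zero] at hzero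
  exact hzero

/-- `W(s) ⊂ K^ι` (`s ∈ S`) with reduction `Wb ⊂ k^ι` is a **`B`-family**: there are vectors over
`B`, independent modulo `π`, which span `Wb` modulo `π` and `W s` at every `s`. -/
def S19LB_IsFam (ev : S → B →+* K) (π : B →+* k) {ι : Type*}
    (W : S → Submodule K (ι → K)) (Wb : Submodule k (ι → k)) : Prop :=
  ∃ (ρ : ℕ) (vec : Fin ρ → ι → B), LinearIndependent k (fun a => (π : B → k) ∘ vec a) ∧
    Submodule.span k (Set.range fun a => (π : B → k) ∘ vec a) = Wb ∧
    ∀ s, Submodule.span K (Set.range fun a => (ev s : B → K) ∘ vec a) = W s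

theorem S19LB_nonempty (h : S19LB_Loc ev π) : Nonempty S := by
  by_contra hS
  rw [not_nonempty_iff] at hS
  have h1 : (1 : B) = 0 := h.inj 1 fun s => (hS.false s).elim
  have h2 : π 1 = 0 := by rw [h1, map_zero]
  rw [map_one] at h2
  exact one_ne_zero h2

/-- the rank of a family is the same at every point and on the reduction. -/
theorem S19LB_IsFam.finrank_eq (h : S19LB_Loc ev π) {W : S → Submodule K (ι → K)}
    {Wb : Submodule k (ι → k)} (hW : S19LB_IsFam ev π W Wb) (s : S) :
    Module.finrank K (W s) = Module.finrank k Wb := by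
  obtain ⟨ρ, vec, hli, hb, hs⟩ := hW
  rw [← hs s, ← hb, finrank_span_eq_card hli, finrank_span_eq_card (S19LB_indep_ev h vec hli s)]

/-- **(SPAN), with the subfamily**: if the span of finitely many vectors over `B` has rank `≤ ρ`
at every point and rank `≥ ρ` modulo `π`, a subfamily is a basis everywhere. -/
theorem S19LB_span_sub (h : S19LB_Loc ev π) {J : Type*} (v : J → ι → B) (ρ : ℕ)
    (h1 : ∀ s, Module.finrank K
      (Submodule.span K (Set.range fun j => (ev s : B → K) ∘ v j)) ≤ ρ)
    (h2 : ρ ≤ Module.finrank k (Submodule.span k (Set.range fun j => (π : B → k) ∘ v j))) :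
    ∃ (d : ℕ) (f : Fin d → J), Function.Injective f ∧
      LinearIndependent k (fun a => (π : B → k) ∘ v (f a)) ∧
      Submodule.span k (Set.range fun a => (π : B → k) ∘ v (f a)) =
        Submodule.span k (Set.range fun j => (π : B → k) ∘ v j) ∧
      ∀ s, Submodule.span K (Set.range fun a => (ev s : B → K) ∘ v (f a)) =
        Submodule.span K (Set.range fun j => (ev s : B → K) ∘ v j) := by
  classical
  obtain ⟨g, hg, hspan, hli⟩ :=
    Submodule.exists_fun_fin_finrank_span_eq k (Set.range fun j => (π : B → k) ∘ v j)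
  choose f hf using hg
  have hgf : (fun a => (π : B → k) ∘ v (f a)) = g := funext hf
  have hli' : LinearIndependent k (fun a => (π : B → k) ∘ v (f a)) := by rw [hgf]; exact hli
  refine ⟨_, f, ?_, hli', ?_, fun s => ?_⟩
  · intro a b hab
    apply hli'.injective
    simp only [hab]
  · rw [hgf]; exact hspan
  · apply Submodule.eq_of_le_of_finrank_le
    · apply Submodule.span_mono
      rintro _ ⟨a, rfl⟩
      exact ⟨f a, rfl⟩
    · rw [finrank_span_eq_card (S19LB_indep_ev h (fun a => v (f a)) hli' s), Fintype.card_fin]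
      exact (h1 s).trans h2

/-- **(SPAN)**. -/
theorem S19LB_span (h : S19LB_Loc ev π) {J : Type*} (v : J → ι → B) (ρ : ℕ)
    (h1 : ∀ s, Module.finrank K
      (Submodule.span K (Set.range fun j => (ev s : B → K) ∘ v j)) ≤ ρ)
    (h2 : ρ ≤ Module.finrank k (Submodule.span k (Set.range fun j => (π : B → k) ∘ v j))) :
    S19LB_IsFam ev π (fun s => Submodule.span K (Set.range fun j => (ev s : B → K) ∘ v j))
      (Submodule.span k (Set.range fun j => (π : B → k) ∘ v j)) := by
  obtain ⟨d, f, -, hli, hb, hs⟩ := S19LB_span_sub h v ρ h1 h2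
  exact ⟨d, fun a => v (f a), hli, hb, hs⟩

theorem S19LB_map_mulVec {L : Type*} [Field L] (φ : B →+* L) {m n : Type*} [Fintype n]
    (T : Matrix m n B) (x : n → B) : (φ : B → L) ∘ (T *ᵥ x) = (T.map φ) *ᵥ ((φ : B → L) ∘ x) := by
  funext i
  simp [Matrix.mulVec, dotProduct, map_sum]

theorem S19LB_span_cols {L : Type*} [Field L] (φ : B →+* L) {m n : Type*} [Fintype n]
    (T : Matrix m n B) :
    Submodule.span L (Set.range fun j => (φ : B → L) ∘ (fun i => T i j)) =
      LinearMap.range (T.map φ).mulVecLin := by
  rw [Matrix.range_mulVecLin]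
  rfl

theorem S19LB_finrank_ker {L : Type*} [Field L] (φ : B →+* L) {m n : Type*} [Fintype n]
    [Fintype m] (T : Matrix m n B) :
    Module.finrank L (Submodule.span L (Set.range fun j => (φ : B → L) ∘ (fun i => T i j))) +
      Module.finrank L (LinearMap.ker (T.map φ).mulVecLin) = Fintype.card n := by
  rw [S19LB_span_cols, LinearMap.finrank_range_add_finrank_ker, Module.finrank_fintype_fun_eq_card]

/-- the kernel vectors attached to relations `col j = ∑ b j a • col (f a)`. -/
def S19LB_N {n : Type*} [DecidableEq n] {d : ℕ} (f : Fin d → n) (b : n → Fin d → B) (j : n) :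
    n → B :=
  Pi.single j 1 - ∑ a, b j a • Pi.single (f a) 1

theorem S19LB_N_mulVec {m n : Type*} [Fintype n] [DecidableEq n] (T : Matrix m n B) {d : ℕ}
    (f : Fin d → n) (b : n → Fin d → B)
    (hb : ∀ j, (fun i => T i j) = ∑ a, b j a • (fun i => T i (f a))) (j : n) :
    T *ᵥ S19LB_N f b j = 0 := by
  rw [S19LB_N]
  simp only [Matrix.mulVec_sub, Matrix.mulVec_sum, Matrix.mulVec_smul,
    Matrix.mulVec_single_one]
  rw [sub_eq_zero]
  exact hb j

theorem S19LB_N_apply {n : Type*} [DecidableEq n] {d : ℕ}
    (f : Fin d → n) (b : n → Fin d → B) (j j₀ : n) (hj₀ : j₀ ∉ Set.range f) :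
    S19LB_N f b j j₀ = if j₀ = j then 1 else 0 := by
  rw [S19LB_N]
  simp only [Pi.sub_apply, Finset.sum_apply, Pi.smul_apply, smul_eq_mul, Pi.single_apply]
  have : ∀ a, (if j₀ = f a then (1 : B) else 0) = 0 := fun a =>
    if_neg fun hh => hj₀ ⟨a, hh.symm⟩
  simp [this]

theorem S19LB_N_indep {L : Type*} [Field L] (φ : B →+* L) {n : Type*} [Fintype n]
    [DecidableEq n] {d : ℕ} (f : Fin d → n) (b : n → Fin d → B) :
    LinearIndependent L
      (fun j : {j // j ∉ Set.range f} => (φ : B → L) ∘ S19LB_N f b j.1) := by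
  classical
  rw [Fintype.linearIndependent_iff]
  intro c hc j₀
  have := congrFun hc j₀.1
  simp only [Finset.sum_apply, Pi.smul_apply, Function.comp_apply, smul_eq_mul,
    Pi.zero_apply] at this
  rw [← this]
  symm
  rw [Finset.sum_eq_single j₀]
  · rw [S19LB_N_apply _ _ _ _ j₀.2, if_pos rfl, map_one, mul_one]
  · intro j _ hj
    rw [S19LB_N_apply _ _ _ _ j₀.2, if_neg (fun hh => hj (Subtype.ext hh.symm)), map_zero,
      mul_zero]
  · intro hh; exact absurd (Finset.mem_univ _) hh

theorem S19LB_N_span {L : Type*} [Field L] (φ : B →+* L) {m n : Type*} [Fintype m] [Fintype n]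
    [DecidableEq n] (T : Matrix m n B) {d : ℕ}
    (f : Fin d → n) (hf : Function.Injective f) (b : n → Fin d → B)
    (hb : ∀ j, (fun i => T i j) = ∑ a, b j a • (fun i => T i (f a)))
    (hli : LinearIndependent L (fun a => (φ : B → L) ∘ (fun i => T i (f a)))) :
    Submodule.span L
      (Set.range fun j : {j // j ∉ Set.range f} => (φ : B → L) ∘ S19LB_N f b j.1) =
        LinearMap.ker (T.map φ).mulVecLin := by
  classical
  have hcard : Fintype.card {j // j ∉ Set.range f} = Fintype.card n - d := by
    rw [Fintype.card_subtype_compl, Set.card_range_of_injective hf, Fintype.card_fin]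
  have hsp : Submodule.span L (Set.range fun a => (φ : B → L) ∘ (fun i => T i (f a))) ≤
      Submodule.span L (Set.range fun j => (φ : B → L) ∘ (fun i => T i j)) := by
    apply Submodule.span_mono
    rintro _ ⟨a, rfl⟩
    exact ⟨f a, rfl⟩
  apply Submodule.eq_of_le_of_finrank_le
  · rw [Submodule.span_le]
    rintro _ ⟨j, rfl⟩
    rw [SetLike.mem_coe, LinearMap.mem_ker, Matrix.mulVecLin_apply, ← S19LB_map_mulVec,
      S19LB_N_mulVec T f b hb]
    funext i
    simp
  · rw [finrank_span_eq_card (S19LB_N_indep φ f b), hcard]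
    have h3 := S19LB_finrank_ker φ T
    have h4 := Submodule.finrank_mono hsp
    rw [finrank_span_eq_card hli, Fintype.card_fin] at h4
    omega

/-- **(KER)**: the kernel of a matrix over `B` of constant rank is a `B`-family, with a basis of
vectors over `B` killed by the matrix. -/
theorem S19LB_ker (h : S19LB_Loc ev π) {m n : Type*} [Fintype m] [Fintype n]
    (T : Matrix m n B) (ρ : ℕ)
    (h1 : ∀ s, ρ ≤ Module.finrank K (LinearMap.ker (T.map (ev s)).mulVecLin))
    (h2 : Module.finrank k (LinearMap.ker (T.map π).mulVecLin) ≤ ρ) :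
    ∃ (d : ℕ) (vec : Fin d → n → B), (∀ a, T *ᵥ vec a = 0) ∧
      LinearIndependent k (fun a => (π : B → k) ∘ vec a) ∧
      Submodule.span k (Set.range fun a => (π : B → k) ∘ vec a) =
        LinearMap.ker (T.map π).mulVecLin ∧
      ∀ s, Submodule.span K (Set.range fun a => (ev s : B → K) ∘ vec a) =
        LinearMap.ker (T.map (ev s)).mulVecLin := by
  classical
  have hk := S19LB_finrank_ker π T
  have hK := fun s => S19LB_finrank_ker (ev s) T
  obtain ⟨d, f, hfinj, hli, hb, hs⟩ := S19LB_span_sub h (fun j i => T i j) (Fintype.card n - ρ)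
    (fun s => by have := hK s; have := h1 s; omega) (by omega)
  -- every column is a combination of the chosen ones
  have hrig : ∀ j, ∃ c : Fin d → B, (fun i => T i j) = ∑ a, c a • (fun i => T i (f a)) := by
    intro j
    apply S19LB_rigid h (fun a i => T i (f a)) hli
    intro s
    rw [hs s]
    exact Submodule.subset_span ⟨j, rfl⟩
  choose b hb' using hrig
  -- reindex
  let e : Fin (Fintype.card {j // j ∉ Set.range f}) ≃ {j // j ∉ Set.range f} :=
    (Fintype.equivFin _).symm
  have hrange : ∀ (g : {j // j ∉ Set.range f} → n → B) (F : (n → B) → Prop),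
      (∀ a, F (g (e a))) ↔ ∀ j, F (g j) := fun g F =>
    ⟨fun hh j => by simpa using hh (e.symm j), fun hh a => hh _⟩
  refine ⟨_, fun a => S19LB_N f b (e a).1, fun a => S19LB_N_mulVec T f b hb' _, ?_, ?_,
    fun s => ?_⟩
  · exact (S19LB_N_indep π f b).comp _ e.injective
  · rw [← S19LB_N_span π T f hfinj b hb' hli]
    congr 1
    ext x
    constructor
    · rintro ⟨a, rfl⟩; exact ⟨e a, rfl⟩
    · rintro ⟨j, rfl⟩; exact ⟨e.symm j, by simp⟩
  · rw [← S19LB_N_span (ev s) T f hfinj b hb' (S19LB_indep_ev h _ hli s)]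
    congr 1
    ext x
    constructor
    · rintro ⟨a, rfl⟩; exact ⟨e a, rfl⟩
    · rintro ⟨j, rfl⟩; exact ⟨e.symm j, by simp⟩

end core

end Fermat.Agent.S19
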