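import Fermat.Agent.S19.LinB
import Fermat.Agent.S19.CrkLoc

/-!
# TRACK 9 "FLAT" (S19), package LINB, part 2 (helper10): graphs, constant families, the local ring

On top of `S19/LinB.lean` (helper6: `S19LB_Loc`, `S19LB_IsFam`) and `S19/CrkLoc.lean`:

* `S19LB_ofVec`   : vectors over `B` which are independent modulo `π` span a `B`-family;
* `S19LB_single`  : a vector `u` with `π ∘ u ≠ 0` (the constant family `⊤` is `S19LB_top` in
  `S19/LinB3.lean`);
* `S19LB_graphSub`: the graph `{v | v (inr i₂) = ∑ i₁, Φ i₂ i₁ * v (inl i₁)}` of a matrix;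
* `S19LB_ofGraph` : graphs of matrices over `B` are `B`-families;
* `S19LB_graph`   : a `B`-family on `ι₁ ⊕ ι₂` whose reduction is a graph over `ι₁` is the graph of a
  matrix over `B` (the chart coordinates are in `B`);
* `S19LB_loc_adjoin` : `B = A[gens] ⊂ Map(S, Ω)` (generators with values in `A`, constant modulo
  `𝔪_A`) satisfies `S19LB_Loc` for the evaluations and the reduction `S19CR_pi`.
-/

set_option autoImplicit false
set_option linter.unusedSectionVars false
set_option linter.unusedVariables false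
set_option linter.unusedDecidableInType false
set_option linter.style.haveILetI false

namespace Fermat.Agent.S19

open Matrix

section basic

variable {B K k S : Type*} [CommRing B] [Field K] [Field k]
variable {ev : S → B →+* K} {π : B →+* k}
variable {ι : Type*} [Fintype ι]

/-- vectors over `B` which are independent modulo `π` span a `B`-family. -/
theorem S19LB_ofVec {ρ : ℕ} (vec : Fin ρ → ι → B)
    (hvec : LinearIndependent k (fun a => (π : B → k) ∘ vec a)) :
    S19LB_IsFam ev π (fun s => Submodule.span K (Set.range fun a => (ev s : B → K) ∘ vec a))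
      (Submodule.span k (Set.range fun a => (π : B → k) ∘ vec a)) :=
  ⟨ρ, vec, hvec, rfl, fun _ => rfl⟩

/-- the standard basis vectors, with entries in any ring. -/
def S19LB_std (B : Type*) [CommRing B] (ι : Type*) [DecidableEq ι] (i : ι) : ι → B :=
  Pi.single i 1

theorem S19LB_map_std {L : Type*} [Field L] (φ : B →+* L) [DecidableEq ι] (i : ι) :
    (φ : B → L) ∘ S19LB_std B ι i = Pi.single i (1 : L) := by
  funext j
  by_cases hij : j = i
  · subst hij; simp [S19LB_std]
  · simp [S19LB_std, Pi.single_eq_of_ne hij]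

/-- the standard basis, reindexed by `Fin`, is a basis after any ring homomorphism to a field. -/
theorem S19LB_std_span {L : Type*} [Field L] (φ : B →+* L) (ι : Type*) [Fintype ι]
    [DecidableEq ι] {d : ℕ} (e : Fin d ≃ ι) :
    LinearIndependent L (fun a => (φ : B → L) ∘ S19LB_std B ι (e a)) ∧
      Submodule.span L (Set.range fun a => (φ : B → L) ∘ S19LB_std B ι (e a)) = ⊤ := by
  have hfun : (fun a => (φ : B → L) ∘ S19LB_std B ι (e a)) =
      (fun i => Pi.single i (1 : L)) ∘ e := by
    funext a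
    exact S19LB_map_std φ (e a)
  have hcoe : (fun i => Pi.single i (1 : L)) = ⇑(Pi.basisFun L ι) := by
    funext i
    rw [Pi.basisFun_apply]
  constructor
  · rw [hfun, hcoe]
    exact (Pi.basisFun L ι).linearIndependent.comp _ e.injective
  · rw [hfun, hcoe, Set.range_comp, e.range_eq_univ, Set.image_univ]
    exact (Pi.basisFun L ι).span_eq

/-- **(SINGLE)** a vector over `B` with nonzero reduction spans a `B`-family of rank one. -/
theorem S19LB_single (u : ι → B) (hu : (π : B → k) ∘ u ≠ 0) :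
    S19LB_IsFam ev π (fun s => Submodule.span K {(ev s : B → K) ∘ u})
      (Submodule.span k {(π : B → k) ∘ u}) := by
  refine ⟨1, fun _ => u, ?_, ?_, fun s => ?_⟩
  · exact LinearIndependent.of_subsingleton (v := fun _ : Fin 1 => (π : B → k) ∘ u) 0 hu
  · congr 1
    ext x
    simp
  · congr 1
    ext x
    simp

end basic

section graph

variable {B K k S : Type*} [CommRing B] [Field K] [Field k]
variable {ev : S → B →+* K} {π : B →+* k}
variable {ι₁ ι₂ : Type*} [Fintype ι₁] [Fintype ι₂]

/-- the graph of a matrix `Φ : L^ι₁ → L^ι₂` as a subspace of `L^(ι₁ ⊕ ι₂)`. -/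
def S19LB_graphSub {L : Type*} [Field L] (Φ : Matrix ι₂ ι₁ L) : Submodule L (ι₁ ⊕ ι₂ → L) where
  carrier := {v | ∀ i₂, v (Sum.inr i₂) = ∑ i₁, Φ i₂ i₁ * v (Sum.inl i₁)}
  add_mem' := by
    intro v w hv hw i₂
    simp only [Pi.add_apply, hv i₂, hw i₂, mul_add, Finset.sum_add_distrib]
  zero_mem' := by
    intro i₂
    simp
  smul_mem' := by
    intro c v hv i₂
    simp only [Pi.smul_apply, smul_eq_mul, hv i₂, Finset.mul_sum]
    exact Finset.sum_congr rfl fun i _ => by ring

theorem S19LB_mem_graphSub {L : Type*} [Field L] (Φ : Matrix ι₂ ι₁ L) (v : ι₁ ⊕ ι₂ → L) :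
    v ∈ S19LB_graphSub Φ ↔ ∀ i₂, v (Sum.inr i₂) = ∑ i₁, Φ i₂ i₁ * v (Sum.inl i₁) := Iff.rfl

/-- the echelon vectors of a matrix `Φ` over `B`: `(e_i, Φ e_i)`. -/
def S19LB_ech [DecidableEq ι₁] (Φ : Matrix ι₂ ι₁ B) (i : ι₁) : ι₁ ⊕ ι₂ → B :=
  Sum.elim (Pi.single i 1) (fun i₂ => Φ i₂ i)

theorem S19LB_ech_inl [DecidableEq ι₁] (Φ : Matrix ι₂ ι₁ B) (i j : ι₁) :
    S19LB_ech Φ i (Sum.inl j) = if j = i then 1 else 0 := by
  simp [S19LB_ech, Pi.single_apply]

theorem S19LB_ech_inr [DecidableEq ι₁] (Φ : Matrix ι₂ ι₁ B) (i : ι₁) (i₂ : ι₂) :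
    S19LB_ech Φ i (Sum.inr i₂) = Φ i₂ i := rfl

/-- the echelon vectors are independent and span the graph, after any ring homomorphism to a
field. -/
theorem S19LB_ech_span {L : Type*} [Field L] (φ : B →+* L) [DecidableEq ι₁]
    (Φ : Matrix ι₂ ι₁ B) :
    LinearIndependent L (fun i => (φ : B → L) ∘ S19LB_ech Φ i) ∧
      Submodule.span L (Set.range fun i => (φ : B → L) ∘ S19LB_ech Φ i) =
        S19LB_graphSub (Φ.map φ) := by
  classical
  have hinl : ∀ i j, ((φ : B → L) ∘ S19LB_ech Φ i) (Sum.inl j) = if j = i then 1 else 0 := by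
    intro i j
    rw [Function.comp_apply, S19LB_ech_inl]
    split_ifs <;> simp
  have hinr : ∀ i i₂, ((φ : B → L) ∘ S19LB_ech Φ i) (Sum.inr i₂) = φ (Φ i₂ i) := fun _ _ => rfl
  constructor
  · rw [Fintype.linearIndependent_iff]
    intro c hc j
    have := congrFun hc (Sum.inl j)
    simp only [Finset.sum_apply, Pi.smul_apply, smul_eq_mul, hinl, Pi.zero_apply] at this
    simpa using this
  · apply le_antisymm
    · rw [Submodule.span_le]
      rintro _ ⟨i, rfl⟩
      intro i₂
      show ((φ : B → L) ∘ S19LB_ech Φ i) (Sum.inr i₂) =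
        ∑ i₁, (Φ.map φ) i₂ i₁ * ((φ : B → L) ∘ S19LB_ech Φ i) (Sum.inl i₁)
      rw [hinr]
      simp only [hinl, Matrix.map_apply]
      simp
    · intro v hv
      have hv' : v = ∑ i, v (Sum.inl i) • ((φ : B → L) ∘ S19LB_ech Φ i) := by
        funext x
        rcases x with j | i₂
        · simp only [Finset.sum_apply, Pi.smul_apply, smul_eq_mul, hinl]
          simp
        · simp only [Finset.sum_apply, Pi.smul_apply, smul_eq_mul, hinr]
          rw [hv i₂]
          exact Finset.sum_congr rfl fun i _ => by rw [Matrix.map_apply, mul_comm]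
      rw [hv']
      exact Submodule.sum_mem _ fun i _ =>
        Submodule.smul_mem _ _ (Submodule.subset_span ⟨i, rfl⟩)

/-- the echelon vectors, reindexed by `Fin`. -/
theorem S19LB_ech_span_fin {L : Type*} [Field L] (φ : B →+* L) [DecidableEq ι₁]
    (Φ : Matrix ι₂ ι₁ B) {d : ℕ} (e : Fin d ≃ ι₁) :
    LinearIndependent L (fun a => (φ : B → L) ∘ S19LB_ech Φ (e a)) ∧
      Submodule.span L (Set.range fun a => (φ : B → L) ∘ S19LB_ech Φ (e a)) =
        S19LB_graphSub (Φ.map φ) := by
  obtain ⟨h1, h2⟩ := S19LB_ech_span φ Φ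
  constructor
  · exact h1.comp _ e.injective
  · rw [← h2]
    have : (fun a => (φ : B → L) ∘ S19LB_ech Φ (e a)) =
        (fun i => (φ : B → L) ∘ S19LB_ech Φ i) ∘ e := rfl
    rw [this, Set.range_comp, e.range_eq_univ, Set.image_univ]

/-- **(OFGRAPH)** graphs of matrices over `B` are `B`-families. -/
theorem S19LB_ofGraph [DecidableEq ι₁] (Φ : Matrix ι₂ ι₁ B) :
    S19LB_IsFam ev π (fun s => S19LB_graphSub (Φ.map (ev s))) (S19LB_graphSub (Φ.map π)) := by
  classical
  set e : Fin (Fintype.card ι₁) ≃ ι₁ := (Fintype.equivFin ι₁).symm with he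
  exact ⟨Fintype.card ι₁, fun a => S19LB_ech Φ (e a), (S19LB_ech_span_fin π Φ e).1,
    (S19LB_ech_span_fin π Φ e).2, fun s => (S19LB_ech_span_fin (ev s) Φ e).2⟩

/-- two families of vectors over `B` which are `B`-combinations of each other have the same span
after any ring homomorphism to a field. -/
theorem S19LB_span_eq_of_comb {L : Type*} [Field L] (φ : B →+* L) {ι : Type*} {ρ ρ' : ℕ}
    (v : Fin ρ → ι → B) (w : Fin ρ' → ι → B) (P : Matrix (Fin ρ) (Fin ρ') B)
    (Q : Matrix (Fin ρ') (Fin ρ) B) (h1 : ∀ a x, v a x = ∑ b, P a b * w b x)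
    (h2 : ∀ b x, w b x = ∑ a, Q b a * v a x) :
    Submodule.span L (Set.range fun a => (φ : B → L) ∘ v a) =
      Submodule.span L (Set.range fun b => (φ : B → L) ∘ w b) := by
  apply le_antisymm
  · rw [Submodule.span_le]
    rintro _ ⟨a, rfl⟩
    have : (φ : B → L) ∘ v a = ∑ b, φ (P a b) • ((φ : B → L) ∘ w b) := by
      funext x
      simp only [Function.comp_apply, Finset.sum_apply, Pi.smul_apply, smul_eq_mul]
      rw [h1 a x, map_sum]
      exact Finset.sum_congr rfl fun b _ => by rw [map_mul]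
    show (φ : B → L) ∘ v a ∈ _
    rw [this]
    exact Submodule.sum_mem _ fun b _ =>
      Submodule.smul_mem _ _ (Submodule.subset_span ⟨b, rfl⟩)
  · rw [Submodule.span_le]
    rintro _ ⟨b, rfl⟩
    have : (φ : B → L) ∘ w b = ∑ a, φ (Q b a) • ((φ : B → L) ∘ v a) := by
      funext x
      simp only [Function.comp_apply, Finset.sum_apply, Pi.smul_apply, smul_eq_mul]
      rw [h2 b x, map_sum]
      exact Finset.sum_congr rfl fun a _ => by rw [map_mul]
    show (φ : B → L) ∘ w b ∈ _
    rw [this]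
    exact Submodule.sum_mem _ fun a _ =>
      Submodule.smul_mem _ _ (Submodule.subset_span ⟨a, rfl⟩)

/-- the matrix of the `ι₁`-coordinates of a family of vectors. -/
def S19LB_gN {d : ℕ} (e : Fin d ≃ ι₁) (vec : Fin d → ι₁ ⊕ ι₂ → B) : Matrix (Fin d) (Fin d) B :=
  Matrix.of fun a b => vec a (Sum.inl (e b))

/-- the echelon basis of a family of vectors. -/
noncomputable def S19LB_gVec {d : ℕ} (e : Fin d ≃ ι₁) (vec : Fin d → ι₁ ⊕ ι₂ → B) :
    Fin d → ι₁ ⊕ ι₂ → B :=
  fun b x => ∑ a, (S19LB_gN e vec)⁻¹ b a * vec a x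

/-- the graph coordinates of a family of vectors. -/
noncomputable def S19LB_gPhi {d : ℕ} (e : Fin d ≃ ι₁) (vec : Fin d → ι₁ ⊕ ι₂ → B) :
    Matrix ι₂ ι₁ B :=
  Matrix.of fun i₂ i₁ => S19LB_gVec e vec (e.symm i₁) (Sum.inr i₂)

/-- if the `ι₁`-minor is a unit, the span of the family is the graph of `S19LB_gPhi`, after any
ring homomorphism to a field. -/
theorem S19LB_gSpan {L : Type*} [Field L] (φ : B →+* L) [DecidableEq ι₁] {d : ℕ}
    (e : Fin d ≃ ι₁) (vec : Fin d → ι₁ ⊕ ι₂ → B) (hNdet : IsUnit (S19LB_gN e vec).det) :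
    Submodule.span L (Set.range fun a => (φ : B → L) ∘ vec a) =
      S19LB_graphSub ((S19LB_gPhi e vec).map φ) := by
  classical
  set N := S19LB_gN e vec with hN
  set vec' := S19LB_gVec e vec with hvec'
  set Φ := S19LB_gPhi e vec with hΦ
  have hF1 : ∀ b b', vec' b (Sum.inl (e b')) = if b = b' then 1 else 0 := by
    intro b b'
    have : vec' b (Sum.inl (e b')) = (N⁻¹ * N) b b' := by
      rw [Matrix.mul_apply]
      rfl
    rw [this, Matrix.nonsing_inv_mul _ hNdet, Matrix.one_apply]
  have hF2 : ∀ a x, vec a x = ∑ b, N a b * vec' b x := by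
    intro a x
    have h1 : ∑ b, N a b * vec' b x = ∑ a', (N * N⁻¹) a a' * vec a' x := by
      simp only [hvec', S19LB_gVec, Finset.mul_sum, Matrix.mul_apply, Finset.sum_mul]
      rw [Finset.sum_comm]
      exact Finset.sum_congr rfl fun a' _ => Finset.sum_congr rfl fun b _ => by ring
    rw [h1, Matrix.mul_nonsing_inv _ hNdet]
    simp [Matrix.one_apply]
  have hech : ∀ b, vec' b = S19LB_ech Φ (e b) := by
    intro b
    funext x
    rcases x with j | i₂
    · rw [S19LB_ech_inl]
      have := hF1 b (e.symm j)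
      rw [e.apply_symm_apply] at this
      rw [this]
      by_cases hj : j = e b
      · subst hj; simp
      · have : b ≠ e.symm j := fun hb' => hj (by rw [hb', e.apply_symm_apply])
        simp [hj, this]
    · rw [S19LB_ech_inr, hΦ, S19LB_gPhi, Matrix.of_apply, e.symm_apply_apply]
  rw [S19LB_span_eq_of_comb φ vec vec' N N⁻¹ hF2 (fun b x => rfl)]
  rw [← (S19LB_ech_span_fin φ Φ e).2]
  congr 2
  funext b
  rw [hech b]

/-- **(GRAPH)** a `B`-family on `ι₁ ⊕ ι₂` whose reduction projects isomorphically to the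
`ι₁`-coordinates is the graph of a matrix over `B`: the chart coordinates lie in `B`. -/
theorem S19LB_graph (h : S19LB_Loc ev π) [DecidableEq ι₁]
    {W : S → Submodule K (ι₁ ⊕ ι₂ → K)} {Wb : Submodule k (ι₁ ⊕ ι₂ → k)}
    (hW : S19LB_IsFam ev π W Wb)
    (hinj : ∀ v ∈ Wb, (∀ i, v (Sum.inl i) = 0) → v = 0)
    (hrank : Module.finrank k Wb = Fintype.card ι₁) :
    ∃ Φ : Matrix ι₂ ι₁ B, (∀ s, W s = S19LB_graphSub (Φ.map (ev s))) ∧
      Wb = S19LB_graphSub (Φ.map π) := by
  classical
  obtain ⟨ρ, vec, hli, hb, hs⟩ := hW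
  have hρ : ρ = Fintype.card ι₁ := by
    rw [← hrank, ← hb, finrank_span_eq_card hli, Fintype.card_fin]
  subst hρ
  set e : Fin (Fintype.card ι₁) ≃ ι₁ := (Fintype.equivFin ι₁).symm with he
  have hNdet : IsUnit (S19LB_gN e vec).det := by
    apply h.unit
    rw [RingHom.map_det]
    have hrows : LinearIndependent k (π.mapMatrix (S19LB_gN e vec)).row := by
      rw [Fintype.linearIndependent_iff]
      intro c hc
      have hv : (∑ a, c a • ((π : B → k) ∘ vec a)) ∈ Wb := by
        rw [← hb]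
        exact Submodule.sum_mem _ fun a _ =>
          Submodule.smul_mem _ _ (Submodule.subset_span ⟨a, rfl⟩)
      have hv0 : (∑ a, c a • ((π : B → k) ∘ vec a)) = 0 := by
        apply hinj _ hv
        intro i
        have := congrFun hc (e.symm i)
        simp only [Finset.sum_apply, Pi.smul_apply, smul_eq_mul, Pi.zero_apply] at this
        simp only [Finset.sum_apply, Pi.smul_apply, smul_eq_mul, Function.comp_apply]
        rw [← this]
        refine Finset.sum_congr rfl fun a _ => ?_
        simp [Matrix.row, S19LB_gN]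
      exact (Fintype.linearIndependent_iff.mp hli) c hv0
    exact ((Matrix.isUnit_iff_isUnit_det _).mp
      (Matrix.linearIndependent_rows_iff_isUnit.mp hrows)).ne_zero
  refine ⟨S19LB_gPhi e vec, fun s => ?_, ?_⟩
  · rw [← hs s]
    exact S19LB_gSpan (ev s) e vec hNdet
  · rw [← hb]
    exact S19LB_gSpan π e vec hNdet

end graph

section loc

variable {Ω : Type*} [Field Ω] (A : ValuationSubring Ω) {S : Type*} (s₀ : S)
  (gens : Set (S → Ω))

/-- evaluation at `s` on `A[gens] ⊂ Map(S, Ω)`. -/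
noncomputable def S19LB_evAdj (s : S) : ↥(Algebra.adjoin ↥A gens) →+* Ω :=
  (Pi.evalRingHom (fun _ : S => Ω) s).comp (Algebra.adjoin ↥A gens).val.toRingHom

@[simp] theorem S19LB_evAdj_apply (s : S) (b : ↥(Algebra.adjoin ↥A gens)) :
    S19LB_evAdj A gens s b = (b : S → Ω) s := rfl

/-- **(LOC)** `B = A[gens] ⊂ Map(S, Ω)`, `S` finite, generators with values in `A` and constant
modulo `𝔪_A`, is a local ring of functions in the sense of `S19LB_Loc`. -/
theorem S19LB_loc_adjoin [Finite S] (hint : ∀ f ∈ gens, ∀ s, f s ∈ A)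
    (hconst : ∀ f ∈ gens, ∀ s, f s - f s₀ ∈ A.nonunits) :
    S19LB_Loc (S19LB_evAdj A gens) (S19CR_pi A s₀ gens hint) where
  inj b hb := S19CR_ev_inj A gens b hb
  unit b hb := S19CR_pi_unit A s₀ gens hint hconst b hb

/-- the reduction of `b ∈ A[gens]` is the residue class of any of its values. -/
theorem S19LB_pi_eq (hint : ∀ f ∈ gens, ∀ s, f s ∈ A)
    (hconst : ∀ f ∈ gens, ∀ s, f s - f s₀ ∈ A.nonunits) (b : ↥(Algebra.adjoin ↥A gens))
    (s : S) :
    S19CR_pi A s₀ gens hint b =
      IsLocalRing.residue ↥A ⟨S19LB_evAdj A gens s b, S19CR_adjoin_int A gens hint b b.2 s⟩ :=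
  S19CR_pi_apply A s₀ gens hint hconst b s

end loc

end Fermat.Agent.S19
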