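import Fermat.Agent.S19.OrdDefs

/-!
# TRACK 9 (S19 / S32), package F1.x: operations on Hopf orders (helper11)

For Galois modules with a Hopf order of functions (`S19FO_HasOrder`, helper24):

* `S19FO_of_injective` : transport along an injective equivariant homomorphism `G' → G`;
* `S19FO_sub`          : stable subgroups (b);
* `S19FO_equiv`        : equivariant isomorphisms;
* `S19FO_prod`         : binary products;
* `S19FO_subsingleton` : the trivial group;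
* `S19FO_pi`           : powers `Fin r → G` (a).

Tools: `S19FO_Eq act` (the subalgebra of equivariant functions), `S19FO_Dec H` (the subalgebra
of functions `f` with `(x, y) ↦ f (x + y)` in the image of `H ⊗ H`), `S19FO_dec_iff`.
-/

set_option autoImplicit false

open scoped TensorProduct

namespace Fermat.Agent.S19

/-- every tensor is a finite sum of pure tensors, indexed by `Fin n`. -/
theorem S19FO_exists_sum {R A B : Type*} [CommSemiring R] [AddCommMonoid A] [AddCommMonoid B]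
    [Module R A] [Module R B] (t : A ⊗[R] B) :
    ∃ (n : ℕ) (a : Fin n → A) (b : Fin n → B), t = ∑ i, a i ⊗ₜ[R] b i := by
  induction t using TensorProduct.induction_on with
  | zero => exact ⟨0, Fin.elim0, Fin.elim0, by simp⟩
  | tmul a b => exact ⟨1, fun _ => a, fun _ => b, by simp⟩
  | add s t hs ht =>
    obtain ⟨n, a, b, rfl⟩ := hs
    obtain ⟨m, a', b', rfl⟩ := ht
    refine ⟨n + m, Fin.append a a', Fin.append b b', ?_⟩
    rw [Fin.sum_univ_add]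
    simp

variable {ℓ : ℕ}

theorem S19FO_sigma_algebraMap (σ : (AlgebraicClosure ℚ ≃ₐ[ℚ] AlgebraicClosure ℚ)) (r : ↥(GaloisRep.ratLocalizedAt ℓ)) : σ (algebraMap ↥(GaloisRep.ratLocalizedAt ℓ) (AlgebraicClosure ℚ) r) = algebraMap ↥(GaloisRep.ratLocalizedAt ℓ) (AlgebraicClosure ℚ) r :=
  σ.commutes (r : ℚ)

/-- the subalgebra of equivariant functions. -/
def S19FO_Eq (ℓ : ℕ) {X : Type} (act : (AlgebraicClosure ℚ ≃ₐ[ℚ] AlgebraicClosure ℚ) → X → X) : Subalgebra ↥(GaloisRep.ratLocalizedAt ℓ) (X → (AlgebraicClosure ℚ)) where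
  carrier := {f | ∀ σ x, f (act σ x) = σ (f x)}
  mul_mem' := by
    intro f g hf hg σ x
    rw [Pi.mul_apply, Pi.mul_apply, hf σ x, hg σ x, map_mul]
  add_mem' := by
    intro f g hf hg σ x
    rw [Pi.add_apply, Pi.add_apply, hf σ x, hg σ x, map_add]
  algebraMap_mem' := by
    intro r σ x
    exact (S19FO_sigma_algebraMap σ r).symm

theorem S19FO_mem_Eq {X : Type} {act : (AlgebraicClosure ℚ ≃ₐ[ℚ] AlgebraicClosure ℚ) → X → X} {f : X → (AlgebraicClosure ℚ)} :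
    f ∈ S19FO_Eq ℓ act ↔ ∀ σ x, f (act σ x) = σ (f x) := Iff.rfl

section dec

variable {G : Type} [AddCommGroup G]

/-- the subalgebra of functions whose comultiplication lies in the image of `H ⊗ H`. -/
noncomputable def S19FO_Dec (H : Subalgebra ↥(GaloisRep.ratLocalizedAt ℓ) (G → (AlgebraicClosure ℚ))) : Subalgebra ↥(GaloisRep.ratLocalizedAt ℓ) (G → (AlgebraicClosure ℚ)) :=
  Subalgebra.comap (S19HO_add (R := ↥(GaloisRep.ratLocalizedAt ℓ)) (Ω := (AlgebraicClosure ℚ)) (G := G)) (S19HD_j2 H.val H.val).range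

theorem S19FO_mem_Dec (H : Subalgebra ↥(GaloisRep.ratLocalizedAt ℓ) (G → (AlgebraicClosure ℚ))) (f : G → (AlgebraicClosure ℚ)) :
    f ∈ S19FO_Dec H ↔ ∃ t, S19HD_j2 H.val H.val t = fun p : G × G => f (p.1 + p.2) := by
  rw [S19FO_Dec, Subalgebra.mem_comap, AlgHom.mem_range]
  rfl

theorem S19FO_dec_iff (H : Subalgebra ↥(GaloisRep.ratLocalizedAt ℓ) (G → (AlgebraicClosure ℚ))) (f : G → (AlgebraicClosure ℚ)) :
    f ∈ S19FO_Dec H ↔ ∃ (n : ℕ) (a b : Fin n → G → (AlgebraicClosure ℚ)),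
      (∀ i, a i ∈ H) ∧ (∀ i, b i ∈ H) ∧ ∀ x y, f (x + y) = ∑ i, a i x * b i y := by
  rw [S19FO_mem_Dec]
  constructor
  · rintro ⟨t, ht⟩
    obtain ⟨n, a, b, rfl⟩ := S19FO_exists_sum t
    refine ⟨n, fun i => (a i : G → (AlgebraicClosure ℚ)), fun i => (b i : G → (AlgebraicClosure ℚ)), fun i => (a i).2,
      fun i => (b i).2, ?_⟩
    intro x y
    have h1 := congrFun ht (x, y)
    simp only [map_sum, Finset.sum_apply, S19HD_j2_tmul, Subalgebra.coe_val] at h1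
    exact h1.symm
  · rintro ⟨n, a, b, ha, hb, hab⟩
    refine ⟨∑ i, (⟨a i, ha i⟩ : ↥H) ⊗ₜ[↥(GaloisRep.ratLocalizedAt ℓ)] (⟨b i, hb i⟩ : ↥H), ?_⟩
    funext p
    rw [hab]
    simp only [map_sum, Finset.sum_apply, S19HD_j2_tmul, Subalgebra.coe_val]

theorem S19FO_hasOrder_iff (act : (AlgebraicClosure ℚ ≃ₐ[ℚ] AlgebraicClosure ℚ) → G → G) :
    S19FO_HasOrder ℓ act ↔ ∃ H₀ : Subalgebra ↥(GaloisRep.ratLocalizedAt ℓ) (G → (AlgebraicClosure ℚ)),
      H₀ ≤ S19FO_Eq ℓ act ∧ (Subalgebra.toSubmodule H₀).FG ∧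
      (∀ x y, x ≠ y → ∃ f ∈ H₀, f x ≠ f y) ∧ H₀ ≤ S19FO_Dec H₀ := by
  constructor
  · rintro ⟨H₀, h1, h2, h3, h4⟩
    exact ⟨H₀, fun f hf => h1 f hf, h2, h3, fun f hf => (S19FO_dec_iff H₀ f).2 (h4 f hf)⟩
  · rintro ⟨H₀, h1, h2, h3, h4⟩
    exact ⟨H₀, fun f hf => h1 hf, h2, h3, fun f hf => (S19FO_dec_iff H₀ f).1 (h4 hf)⟩

end dec

/-! ### subgroups, transport -/

section sub

variable {G G' : Type} [AddCommGroup G] [AddCommGroup G']

/-- composition with a map, as an algebra homomorphism. -/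
noncomputable def S19FO_comp (ℓ : ℕ) {X Y : Type} (i : Y → X) : (X → (AlgebraicClosure ℚ)) →ₐ[↥(GaloisRep.ratLocalizedAt ℓ)] (Y → (AlgebraicClosure ℚ)) :=
  AlgHom.pi (fun y : Y => Pi.evalAlgHom ↥(GaloisRep.ratLocalizedAt ℓ) (fun _ : X => (AlgebraicClosure ℚ)) (i y))

@[simp] theorem S19FO_comp_apply {X Y : Type} (i : Y → X) (f : X → (AlgebraicClosure ℚ)) (y : Y) :
    S19FO_comp ℓ i f y = f (i y) := rfl

/-- **transport along an injective equivariant homomorphism**. -/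
theorem S19FO_of_injective {act : (AlgebraicClosure ℚ ≃ₐ[ℚ] AlgebraicClosure ℚ) → G → G} {act' : (AlgebraicClosure ℚ ≃ₐ[ℚ] AlgebraicClosure ℚ) → G' → G'} (i : G' →+ G)
    (hi : Function.Injective i) (hiσ : ∀ σ x, i (act' σ x) = act σ (i x))
    (h : S19FO_HasOrder ℓ act) : S19FO_HasOrder ℓ act' := by
  obtain ⟨H₀, h1, h2, h3, h4⟩ := h
  have hmem : ∀ f ∈ H₀, (fun y : G' => f (i y)) ∈ H₀.map (S19FO_comp ℓ i) :=
    fun f hf => (Subalgebra.mem_map).2 ⟨f, hf, rfl⟩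
  have hex : ∀ f' ∈ H₀.map (S19FO_comp ℓ i), ∃ f ∈ H₀, f' = fun y : G' => f (i y) := by
    intro f' hf'
    obtain ⟨f, hf, rfl⟩ := (Subalgebra.mem_map).1 hf'
    exact ⟨f, hf, rfl⟩
  refine ⟨H₀.map (S19FO_comp ℓ i), ?_, ?_, ?_, ?_⟩
  · intro f' hf' σ x
    obtain ⟨f, hf, rfl⟩ := hex f' hf'
    show f (i (act' σ x)) = σ (f (i x))
    rw [hiσ, h1 f hf]
  · have : Subalgebra.toSubmodule (H₀.map (S19FO_comp ℓ i)) =
        (Subalgebra.toSubmodule H₀).map (S19FO_comp ℓ i).toLinearMap := by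
      ext f
      simp [Subalgebra.mem_map]
    rw [this]
    exact h2.map _
  · intro x y hxy
    obtain ⟨f, hf, hfxy⟩ := h3 (i x) (i y) (fun hh => hxy (hi hh))
    exact ⟨fun y : G' => f (i y), hmem f hf, hfxy⟩
  · intro f' hf'
    obtain ⟨f, hf, rfl⟩ := hex f' hf'
    obtain ⟨n, a, b, ha, hb, hab⟩ := h4 f hf
    refine ⟨n, fun k y => a k (i y), fun k y => b k (i y),
      fun k => hmem _ (ha k), fun k => hmem _ (hb k), ?_⟩
    intro x y
    show f (i (x + y)) = _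
    rw [map_add]
    exact hab (i x) (i y)

/-- **(b) stable subgroups**. -/
theorem S19FO_sub {act : (AlgebraicClosure ℚ ≃ₐ[ℚ] AlgebraicClosure ℚ) → G → G} (P : AddSubgroup G) (hP : ∀ σ x, x ∈ P → act σ x ∈ P)
    (h : S19FO_HasOrder ℓ act) :
    S19FO_HasOrder ℓ (fun σ (x : ↥P) => (⟨act σ x, hP σ x x.2⟩ : ↥P)) :=
  S19FO_of_injective P.subtype Subtype.val_injective (fun _ _ => rfl) h

/-- **equivariant isomorphisms**. -/
theorem S19FO_equiv {act : (AlgebraicClosure ℚ ≃ₐ[ℚ] AlgebraicClosure ℚ) → G → G} {act' : (AlgebraicClosure ℚ ≃ₐ[ℚ] AlgebraicClosure ℚ) → G' → G'} (e : G' ≃+ G)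
    (heσ : ∀ σ x, e (act' σ x) = act σ (e x)) (h : S19FO_HasOrder ℓ act) :
    S19FO_HasOrder ℓ act' :=
  S19FO_of_injective e.toAddMonoidHom e.injective heσ h

end sub

/-! ### the trivial group -/

theorem S19FO_subsingleton {G : Type} [AddCommGroup G] [Subsingleton G] (act : (AlgebraicClosure ℚ ≃ₐ[ℚ] AlgebraicClosure ℚ) → G → G) :
    S19FO_HasOrder ℓ act := by
  refine ⟨⊥, ?_, ?_, ?_, ?_⟩
  · intro f hf σ x
    obtain ⟨r, rfl⟩ := Algebra.mem_bot.1 hf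
    exact (S19FO_sigma_algebraMap σ r).symm
  · rw [Algebra.toSubmodule_bot, Submodule.one_eq_span]
    exact Submodule.fg_span_singleton _
  · intro x y hxy
    exact absurd (Subsingleton.elim x y) hxy
  · intro f hf
    refine ⟨1, fun _ => f, fun _ => 1, fun _ => hf, fun _ => Subalgebra.one_mem _, ?_⟩
    intro x y
    obtain ⟨r, rfl⟩ := Algebra.mem_bot.1 hf
    simp

/-! ### products -/

section prod

variable {G₁ G₂ : Type} [AddCommGroup G₁] [AddCommGroup G₂]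

/-- **binary products**. -/
theorem S19FO_prod {act₁ : (AlgebraicClosure ℚ ≃ₐ[ℚ] AlgebraicClosure ℚ) → G₁ → G₁} {act₂ : (AlgebraicClosure ℚ ≃ₐ[ℚ] AlgebraicClosure ℚ) → G₂ → G₂}
    (h₁ : S19FO_HasOrder ℓ act₁) (h₂ : S19FO_HasOrder ℓ act₂) :
    S19FO_HasOrder ℓ (fun σ (p : G₁ × G₂) => (act₁ σ p.1, act₂ σ p.2)) := by
  classical
  obtain ⟨H₁, h11, h12, h13, h14⟩ := h₁
  obtain ⟨H₂, h21, h22, h23, h24⟩ := h₂
  set j := S19HD_j2 H₁.val H₂.val with hj
  -- the generators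
  have hL : ∀ a : ↥H₁, j (a ⊗ₜ[↥(GaloisRep.ratLocalizedAt ℓ)] (1 : ↥H₂)) = fun p : G₁ × G₂ => (a : G₁ → (AlgebraicClosure ℚ)) p.1 := by
    intro a
    funext p
    rw [hj, S19HD_j2_tmul]
    simp
  have hR : ∀ b : ↥H₂, j ((1 : ↥H₁) ⊗ₜ[↥(GaloisRep.ratLocalizedAt ℓ)] b) = fun p : G₁ × G₂ => (b : G₂ → (AlgebraicClosure ℚ)) p.2 := by
    intro b
    funext p
    rw [hj, S19HD_j2_tmul]
    simp
  have hLm : ∀ a : ↥H₁, (fun p : G₁ × G₂ => (a : G₁ → (AlgebraicClosure ℚ)) p.1) ∈ j.range :=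
    fun a => (AlgHom.mem_range j).2 ⟨_, hL a⟩
  have hRm : ∀ b : ↥H₂, (fun p : G₁ × G₂ => (b : G₂ → (AlgebraicClosure ℚ)) p.2) ∈ j.range :=
    fun b => (AlgHom.mem_range j).2 ⟨_, hR b⟩
  -- induction principle for subalgebras
  have hind : ∀ S : Subalgebra ↥(GaloisRep.ratLocalizedAt ℓ) (G₁ × G₂ → (AlgebraicClosure ℚ)),
      (∀ a : ↥H₁, (fun p : G₁ × G₂ => (a : G₁ → (AlgebraicClosure ℚ)) p.1) ∈ S) →
      (∀ b : ↥H₂, (fun p : G₁ × G₂ => (b : G₂ → (AlgebraicClosure ℚ)) p.2) ∈ S) → j.range ≤ S := by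
    intro S hS1 hS2 f hf
    obtain ⟨t, rfl⟩ := (AlgHom.mem_range j).1 hf
    induction t using TensorProduct.induction_on with
    | zero => rw [map_zero]; exact S.zero_mem
    | tmul a b =>
      have : a ⊗ₜ[↥(GaloisRep.ratLocalizedAt ℓ)] b = (a ⊗ₜ[↥(GaloisRep.ratLocalizedAt ℓ)] (1 : ↥H₂)) * ((1 : ↥H₁) ⊗ₜ[↥(GaloisRep.ratLocalizedAt ℓ)] b) := by
        rw [Algebra.TensorProduct.tmul_mul_tmul, mul_one, one_mul]
      rw [this, map_mul, hL a, hR b]
      exact S.mul_mem (hS1 a) (hS2 b)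
    | add s t hs ht =>
      rw [map_add]
      exact S.add_mem (hs ((AlgHom.mem_range j).2 ⟨_, rfl⟩)) (ht ((AlgHom.mem_range j).2 ⟨_, rfl⟩))
  have hF1 : Module.Finite ↥(GaloisRep.ratLocalizedAt ℓ) ↥H₁ := Module.Finite.iff_fg.mpr h12
  have hF2 : Module.Finite ↥(GaloisRep.ratLocalizedAt ℓ) ↥H₂ := Module.Finite.iff_fg.mpr h22
  refine (S19FO_hasOrder_iff _).2 ⟨j.range, ?_, ?_, ?_, ?_⟩
  · apply hind
    · intro a σ p
      exact h11 a a.2 σ p.1
    · intro b σ p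
      exact h21 b b.2 σ p.2
  · have : Subalgebra.toSubmodule j.range = LinearMap.range j.toLinearMap := by
      ext f
      simp
    rw [this, LinearMap.range_eq_map]
    exact (Module.Finite.fg_top).map _
  · intro x y hxy
    by_cases h1 : x.1 = y.1
    · have h2 : x.2 ≠ y.2 := fun h2 => hxy (Prod.ext h1 h2)
      obtain ⟨f, hf, hfxy⟩ := h23 x.2 y.2 h2
      exact ⟨_, hRm ⟨f, hf⟩, hfxy⟩
    · obtain ⟨f, hf, hfxy⟩ := h13 x.1 y.1 h1
      exact ⟨_, hLm ⟨f, hf⟩, hfxy⟩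
  · apply hind
    · intro a
      rw [S19FO_dec_iff]
      obtain ⟨n, u, v, hu, hv, huv⟩ := h14 a a.2
      exact ⟨n, fun k p => u k p.1, fun k p => v k p.1, fun k => hLm ⟨u k, hu k⟩,
        fun k => hLm ⟨v k, hv k⟩, fun x y => huv x.1 y.1⟩
    · intro b
      rw [S19FO_dec_iff]
      obtain ⟨n, u, v, hu, hv, huv⟩ := h24 b b.2
      exact ⟨n, fun k p => u k p.2, fun k p => v k p.2, fun k => hRm ⟨u k, hu k⟩,
        fun k => hRm ⟨v k, hv k⟩, fun x y => huv x.2 y.2⟩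

end prod

/-! ### powers -/

/-- **(a) powers**. -/
theorem S19FO_pi {G : Type} [AddCommGroup G] {act : (AlgebraicClosure ℚ ≃ₐ[ℚ] AlgebraicClosure ℚ) → G → G} (r : ℕ)
    (h : S19FO_HasOrder ℓ act) :
    S19FO_HasOrder ℓ (fun σ (x : Fin r → G) i => act σ (x i)) := by
  induction r with
  | zero => exact S19FO_subsingleton _
  | succ r ih =>
    have hp := S19FO_prod h ih
    let i : (Fin (r + 1) → G) →+ G × (Fin r → G) :=
      { toFun := fun x => (x 0, fun k => x k.succ)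
        map_zero' := rfl
        map_add' := fun _ _ => rfl }
    refine S19FO_of_injective i ?_ (fun _ _ => rfl) hp
    intro x y hxy
    funext k
    have h1 : x 0 = y 0 := congrArg Prod.fst hxy
    have h2 : (fun k : Fin r => x k.succ) = fun k => y k.succ := congrArg Prod.snd hxy
    refine Fin.cases h1 (fun k' => congrFun h2 k') k

end Fermat.Agent.S19
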