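import Mathlib
import Fermat.Prelude.Def_GaloisRep_Flat
import Fermat.Agent.S19.PwBase
import Fermat.Agent.S19.HopfMain
import Fermat.Agent.S19.OrdDefs

/-!
# TRACK 9 (S19 / S32), package F1.x (c): the Hopf order of an equivariant quotient

`G` a finite abelian group with Galois action `act` and a Hopf order `H₀` (`S19FO_HasOrder`),
`φ : G →+ Q` a surjective equivariant homomorphism.  Then `Q` has a Hopf order:
`H'' := {f : Q → Ω | f ∘ φ ∈ H₀}` (`S19FO_quot`).

Ingredients: the trace `h ↦ (x ↦ ∑_{k ∈ ker φ} h (x + k))` maps `H₀` to `H₀` (Δ-closure + the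
coefficients `∑_k b (k)` are Galois-fixed and integral, hence in `ℤ_(ℓ)`); `ker φ`-invariant functions
form a saturated submodule, hence a direct summand (retraction `π`); Dedekind independence of the
evaluations gives the separation of points.
-/

set_option autoImplicit false

noncomputable section

namespace Fermat.Agent.S19

open scoped TensorProduct

local notation "Ω" => AlgebraicClosure ℚ
local notation "Γ" => (AlgebraicClosure ℚ ≃ₐ[ℚ] AlgebraicClosure ℚ)

section

variable {ℓ : ℕ} [Fact ℓ.Prime]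

/-- A Galois-fixed element of `ℚ̄`, integral over `ℤ_(ℓ)`, lies in `ℤ_(ℓ)`. -/
theorem S19FO_mem_R (z : Ω) (hfix : ∀ σ : Γ, σ z = z)
    (hint : IsIntegral ↥(GaloisRep.ratLocalizedAt ℓ) z) :
    z ∈ Set.range (algebraMap ↥(GaloisRep.ratLocalizedAt ℓ) Ω) := by
  have := S19F_isGalois
  obtain ⟨q, hq⟩ := (InfiniteGalois.mem_range_algebraMap_iff_fixed (k := ℚ)
    (K := AlgebraicClosure ℚ) z).mpr hfix
  have hintq : IsIntegral ↥(GaloisRep.ratLocalizedAt ℓ) q := by
    rw [← hq] at hint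
    exact (isIntegral_algHom_iff
      (IsScalarTower.toAlgHom ↥(GaloisRep.ratLocalizedAt ℓ) ℚ (AlgebraicClosure ℚ))
      (algebraMap ℚ (AlgebraicClosure ℚ)).injective).mp hint
  exact ⟨⟨q, S19F_mem_of_isIntegral ℓ q hintq⟩, hq⟩

variable {G : Type} [AddCommGroup G]

omit [Fact ℓ.Prime] [AddCommGroup G] in
/-- the values of the functions of an order are integral. -/
theorem S19FO_isIntegral_apply
    (H₀ : Subalgebra ↥(GaloisRep.ratLocalizedAt ℓ) (G → Ω))
    (hfin : (Subalgebra.toSubmodule H₀).FG) (a : G → Ω) (ha : a ∈ H₀) (x : G) :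
    IsIntegral ↥(GaloisRep.ratLocalizedAt ℓ) (a x) :=
  (IsIntegral.of_mem_of_fg H₀ hfin a ha).map
    (Pi.evalAlgHom ↥(GaloisRep.ratLocalizedAt ℓ) (fun _ : G => AlgebraicClosure ℚ) x)

/-- the trace over a Galois-stable subgroup maps the order to itself. -/
theorem S19FO_tr_mem
    (act : Γ → G → G) (hinj : ∀ σ, Function.Injective (act σ))
    (H₀ : Subalgebra ↥(GaloisRep.ratLocalizedAt ℓ) (G → Ω))
    (heq : ∀ f ∈ H₀, ∀ σ x, f (act σ x) = σ (f x))
    (hfin : (Subalgebra.toSubmodule H₀).FG)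
    (hcomul : ∀ f ∈ H₀, ∃ (n : ℕ) (a b : Fin n → G → Ω),
      (∀ i, a i ∈ H₀) ∧ (∀ i, b i ∈ H₀) ∧ ∀ x y, f (x + y) = ∑ i, a i x * b i y)
    (K : AddSubgroup G) [Fintype ↥K] (hK : ∀ σ, ∀ k ∈ K, act σ k ∈ K)
    (h : G → Ω) (hh : h ∈ H₀) : (fun x => ∑ k : ↥K, h (x + k)) ∈ H₀ := by
  classical
  obtain ⟨n, a, b, ha, hb, hab⟩ := hcomul h hh
  have hc : ∀ i, ∃ c : ↥(GaloisRep.ratLocalizedAt ℓ),
      algebraMap ↥(GaloisRep.ratLocalizedAt ℓ) Ω c = ∑ k : ↥K, b i k := by
    intro i
    refine S19FO_mem_R _ ?_ ?_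
    · intro σ
      have hbij : Function.Bijective (fun k : ↥K => (⟨act σ k, hK σ k k.2⟩ : ↥K)) := by
        apply Function.Injective.bijective_of_finite
        intro k k' hkk
        exact Subtype.ext (hinj σ (congrArg Subtype.val hkk))
      rw [map_sum]
      have h1 : ∀ k : ↥K, σ (b i k) = b i ((Equiv.ofBijective _ hbij k : ↥K) : G) := by
        intro k
        rw [← heq (b i) (hb i) σ k]
        rfl
      rw [Finset.sum_congr rfl (fun k _ => h1 k)]
      exact Equiv.sum_comp (Equiv.ofBijective _ hbij) (fun k : ↥K => b i (k : G))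
    · exact IsIntegral.sum _ (fun k _ => S19FO_isIntegral_apply H₀ hfin (b i) (hb i) k)
  choose c hc using hc
  have hfun : (fun x => ∑ k : ↥K, h (x + k)) = ∑ i, c i • a i := by
    funext x
    rw [Finset.sum_apply]
    simp only [Pi.smul_apply, Algebra.smul_def, hc]
    simp_rw [hab]
    rw [Finset.sum_comm]
    refine Finset.sum_congr rfl fun i _ => ?_
    rw [Finset.sum_mul]
    exact Finset.sum_congr rfl fun k _ => mul_comm _ _
  rw [hfun]
  exact Subalgebra.sum_mem _ (fun i _ => H₀.smul_mem (ha i) (c i))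

omit [AddCommGroup G] in
/-- a saturated submodule of a module-finite order is a direct summand. -/
theorem S19FO_exists_retraction
    (H₀ : Subalgebra ↥(GaloisRep.ratLocalizedAt ℓ) (G → Ω))
    (hfin : (Subalgebra.toSubmodule H₀).FG)
    (N : Submodule ↥(GaloisRep.ratLocalizedAt ℓ) ↥H₀)
    (hsat : ∀ (r : ↥(GaloisRep.ratLocalizedAt ℓ)) (h : ↥H₀), r ≠ 0 → r • h ∈ N → h ∈ N) :
    ∃ π : ↥H₀ →ₗ[↥(GaloisRep.ratLocalizedAt ℓ)] ↥H₀, (∀ h, π h ∈ N) ∧ ∀ h ∈ N, π h = h := by
  have hF : Module.Finite ↥(GaloisRep.ratLocalizedAt ℓ) ↥H₀ := Module.Finite.iff_fg.mpr hfin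
  have hB := S19F_isBezout ℓ
  have hL := S19F_isLocalRing ℓ
  have htors : Submodule.torsion ↥(GaloisRep.ratLocalizedAt ℓ) (↥H₀ ⧸ N) = ⊥ := by
    rw [eq_bot_iff]
    rintro m ⟨⟨r, hr⟩, h⟩
    obtain ⟨m, rfl⟩ := Submodule.Quotient.mk_surjective N m
    have h1 : r • m ∈ N := by
      have h2 : (Submodule.Quotient.mk (r • m) : ↥H₀ ⧸ N) = 0 := by
        rw [Submodule.Quotient.mk_smul]
        exact h
      exact (Submodule.Quotient.mk_eq_zero N).mp h2
    have h3 := hsat r m (nonZeroDivisors.ne_zero hr) h1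
    exact (Submodule.Quotient.mk_eq_zero N).mpr h3
  have hflat : Module.Flat ↥(GaloisRep.ratLocalizedAt ℓ) (↥H₀ ⧸ N) :=
    Module.Flat.flat_iff_torsion_eq_bot_of_isBezout.mpr htors
  have hfree : Module.Free ↥(GaloisRep.ratLocalizedAt ℓ) (↥H₀ ⧸ N) :=
    Module.free_of_flat_of_isLocalRing
  obtain ⟨s, hs⟩ := Module.projective_lifting_property N.mkQ LinearMap.id
    (Submodule.mkQ_surjective N)
  refine ⟨LinearMap.id - s.comp N.mkQ, ?_, ?_⟩
  · intro h
    rw [← Submodule.Quotient.mk_eq_zero N]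
    have h1 : N.mkQ (s (N.mkQ h)) = N.mkQ h := by
      have := LinearMap.congr_fun hs (N.mkQ h)
      simpa using this
    simp only [LinearMap.sub_apply, LinearMap.id_coe, id_eq, LinearMap.coe_comp,
      Function.comp_apply, Submodule.Quotient.mk_sub]
    rw [sub_eq_zero]
    exact h1.symm
  · intro h hh
    have h1 : N.mkQ h = 0 := (Submodule.Quotient.mk_eq_zero N).mpr hh
    simp only [LinearMap.sub_apply, LinearMap.id_coe, id_eq, LinearMap.coe_comp,
      Function.comp_apply, h1, map_zero, sub_zero]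

omit [Fact ℓ.Prime] in
/-- a sum over a coset. -/
theorem S19FO_sum_coset [Fintype G] (K : AddSubgroup G) [Fintype ↥K] [DecidablePred (· ∈ K)]
    (x : G) (h : G → Ω) :
    ∑ y : G, (if y - x ∈ K then h y else 0) = ∑ k : ↥K, h (x + k) := by
  rw [← Equiv.sum_comp (Equiv.addLeft x) (fun y => if y - x ∈ K then h y else 0)]
  simp only [Equiv.coe_addLeft, add_sub_cancel_left]
  rw [← Finset.sum_filter]
  exact Finset.sum_subtype (Finset.univ.filter (· ∈ K)) (fun z => by simp) (fun z => h (x + z))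

/-- pull-back of functions along `φ`. -/
def S19FO_pb (ℓ : ℕ) {Q : Type} (φ : G → Q) :
    (Q → Ω) →ₐ[↥(GaloisRep.ratLocalizedAt ℓ)] (G → Ω) :=
  AlgHom.pi (fun x : G => Pi.evalAlgHom ↥(GaloisRep.ratLocalizedAt ℓ) (fun _ : Q => Ω) (φ x))

omit [Fact ℓ.Prime] [AddCommGroup G] in
@[simp] theorem S19FO_pb_apply {Q : Type} (φ : G → Q) (f : Q → Ω) (x : G) :
    S19FO_pb ℓ φ f x = f (φ x) := rfl

/-- **F1.x (c)**: an equivariant quotient of a Galois module with a Hopf order has a Hopf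
order. -/
theorem S19FO_quot {Q : Type} [AddCommGroup Q] [Finite G]
    (act : Γ → G → G) (hact0 : ∀ σ, act σ 0 = 0) (hsurj : ∀ σ, Function.Surjective (act σ))
    (act' : Γ → Q → Q) (φ : G →+ Q) (hφ : Function.Surjective φ)
    (heqv : ∀ σ x, φ (act σ x) = act' σ (φ x))
    (h : S19FO_HasOrder ℓ act) : S19FO_HasOrder ℓ act' := by
  classical
  obtain ⟨H₀, heq, hfin, hsep, hcomul⟩ := h
  obtain ⟨K, hKdef⟩ : ∃ K : AddSubgroup G, K = φ.ker := ⟨_, rfl⟩
  have hmemK : ∀ k, k ∈ K ↔ φ k = 0 := fun k => by rw [hKdef, AddMonoidHom.mem_ker]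
  let _ : Fintype G := Fintype.ofFinite G
  let _ : Fintype ↥K := Fintype.ofFinite _
  have hinj : ∀ σ, Function.Injective (act σ) :=
    fun σ => Finite.injective_iff_surjective.mpr (hsurj σ)
  have hK : ∀ σ, ∀ k ∈ K, act σ k ∈ K := by
    intro σ k hk
    rw [hmemK] at hk ⊢
    rw [heqv, hk, ← map_zero φ, ← heqv, hact0]
  have hT := S19FO_tr_mem act hinj H₀ heq hfin hcomul K hK
  -- the trace is invariant
  have hTinv : ∀ (h : G → Ω) (y z : G), φ y = φ z →
      ∑ k : ↥K, h (y + k) = ∑ k : ↥K, h (z + k) := by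
    intro h y z hyz
    have hk₀ : z - y ∈ K := by rw [hmemK, map_sub, hyz, sub_self]
    rw [← Equiv.sum_comp (Equiv.addLeft (⟨z - y, hk₀⟩ : ↥K)) (fun k : ↥K => h (y + k))]
    refine Finset.sum_congr rfl fun k _ => ?_
    congr 1
    simp only [Equiv.coe_addLeft, AddSubgroup.coe_add]
    abel
  have hsec : ∀ y : G, φ (Function.surjInv hφ (φ y)) = φ y :=
    fun y => Function.surjInv_eq hφ (φ y)
  refine ⟨H₀.comap (S19FO_pb ℓ φ), ?_, ?_, ?_, ?_⟩
  · -- equivariance
    intro f hf σ q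
    obtain ⟨x, rfl⟩ := hφ q
    rw [← heqv]
    exact heq _ hf σ x
  · -- finiteness
    have hN : IsNoetherian ↥(GaloisRep.ratLocalizedAt ℓ) ↥(Subalgebra.toSubmodule H₀) :=
      isNoetherian_of_fg_of_noetherian _ hfin
    have hpbinj : Function.Injective (S19FO_pb ℓ φ).toLinearMap := by
      intro f g hfg
      funext q
      obtain ⟨x, rfl⟩ := hφ q
      exact congrFun hfg x
    apply Submodule.fg_of_fg_map_injective (S19FO_pb ℓ φ).toLinearMap hpbinj
    apply isNoetherian_submodule.mp hN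
    rintro _ ⟨f, hf, rfl⟩
    exact hf
  · -- separation
    intro q q' hqq
    obtain ⟨x, rfl⟩ := hφ q
    obtain ⟨x', rfl⟩ := hφ q'
    by_contra hcon
    push Not at hcon
    have hTx : ∀ h ∈ H₀, ∑ k : ↥K, h (x + k) = ∑ k : ↥K, h (x' + k) := by
      intro h hh
      let f : Q → Ω := fun q => ∑ k : ↥K, h (Function.surjInv hφ q + k)
      have hpf : S19FO_pb ℓ φ f = fun y => ∑ k : ↥K, h (y + k) := by
        funext y
        exact hTinv h _ _ (hsec y)
      have hf : f ∈ H₀.comap (S19FO_pb ℓ φ) := by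
        rw [Subalgebra.mem_comap, hpf]
        exact hT h hh
      have h1 := hcon f hf
      have e1 : f (φ x) = ∑ k : ↥K, h (x + k) := congrFun hpf x
      have e2 : f (φ x') = ∑ k : ↥K, h (x' + k) := congrFun hpf x'
      rw [← e1, ← e2]
      exact h1
    have hli : LinearIndependent Ω (fun y : G => (fun h : ↥H₀ => (h : G → Ω) y)) := by
      have h1 := linearIndependent_monoidHom ↥H₀ Ω
      let ev : G → (↥H₀ →* Ω) := fun y =>
        (((Pi.evalAlgHom ↥(GaloisRep.ratLocalizedAt ℓ) (fun _ : G => Ω) y).comp H₀.val :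
          ↥H₀ →ₐ[↥(GaloisRep.ratLocalizedAt ℓ)] Ω) : ↥H₀ →* Ω)
      have hev : Function.Injective ev := by
        intro y z hyz
        by_contra hne
        obtain ⟨f, hf, hfy⟩ := hsep y z hne
        exact hfy (DFunLike.congr_fun hyz ⟨f, hf⟩)
      exact h1.comp ev hev
    rw [Fintype.linearIndependent_iff] at hli
    let c : G → Ω := fun y => (if y - x ∈ K then 1 else 0) - (if y - x' ∈ K then 1 else 0)
    have hc : ∑ y, c y • (fun h : ↥H₀ => (h : G → Ω) y) = 0 := by
      funext h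
      simp only [Finset.sum_apply, Pi.smul_apply, smul_eq_mul, Pi.zero_apply, c, sub_mul,
        Finset.sum_sub_distrib, ite_mul, one_mul, zero_mul]
      rw [S19FO_sum_coset K x, S19FO_sum_coset K x', hTx _ h.2, sub_self]
    have h2 := hli c hc x
    have h3 : x - x' ∉ K := by
      rw [hmemK, map_sub, sub_eq_zero]
      exact hqq
    simp only [c, sub_self, K.zero_mem, if_true, h3, if_false, sub_zero] at h2
    exact one_ne_zero h2
  · -- comultiplication
    intro f hf
    rw [Subalgebra.mem_comap] at hf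
    obtain ⟨n, a, b, ha, hb, hab⟩ := hcomul _ hf
    -- the saturated submodule of invariant functions
    let N : Submodule ↥(GaloisRep.ratLocalizedAt ℓ) ↥H₀ :=
      { carrier := {h | ∀ x, ∀ k ∈ K, (h : G → Ω) (x + k) = (h : G → Ω) x}
        add_mem' := by
          intro h h' hh hh' x k hk
          simp only [Subalgebra.coe_add, Pi.add_apply]
          rw [hh x k hk, hh' x k hk]
        zero_mem' := by
          intro x k _
          rfl
        smul_mem' := by
          intro r h hh x k hk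
          simp only [Subalgebra.coe_smul, Pi.smul_apply]
          rw [hh x k hk] }
    have hNmem : ∀ h : ↥H₀, h ∈ N ↔ ∀ x, ∀ k ∈ K, (h : G → Ω) (x + k) = (h : G → Ω) x :=
      fun h => Iff.rfl
    have hsat : ∀ (r : ↥(GaloisRep.ratLocalizedAt ℓ)) (h : ↥H₀), r ≠ 0 → r • h ∈ N → h ∈ N := by
      intro r h hr hrh x k hk
      have h1 := hrh x k hk
      simp only [Algebra.smul_def] at h1
      have hr' : algebraMap ↥(GaloisRep.ratLocalizedAt ℓ) Ω r ≠ 0 := by
        intro h0
        exact hr (S19F_algebraMap_injective ℓ (h0.trans (map_zero _).symm))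
      exact mul_left_cancel₀ hr' h1
    obtain ⟨π, hπN, hπid⟩ := S19FO_exists_retraction H₀ hfin N hsat
    let T : ↥H₀ → ↥H₀ := fun h => ⟨fun x => ∑ k : ↥K, (h : G → Ω) (x + k), hT _ h.2⟩
    have hTapp : ∀ (h : ↥H₀) (x : G), (T h : G → Ω) x = ∑ k : ↥K, (h : G → Ω) (x + k) :=
      fun _ _ => rfl
    have hTN : ∀ h, T h ∈ N := by
      intro h x k hk
      rw [hTapp, hTapp]
      apply hTinv
      rw [map_add, (hmemK k).mp hk, add_zero]
    have hNinv : ∀ h ∈ N, ∀ y z : G, φ y = φ z → (h : G → Ω) y = (h : G → Ω) z := by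
      intro h hh y z hyz
      have hk₀ : y - z ∈ K := by rw [hmemK, map_sub, hyz, sub_self]
      have := hh z (y - z) hk₀
      rwa [add_sub_cancel] at this
    let t : ↥H₀ ⊗[↥(GaloisRep.ratLocalizedAt ℓ)] ↥H₀ :=
      ∑ i, (⟨a i, ha i⟩ : ↥H₀) ⊗ₜ (⟨b i, hb i⟩ : ↥H₀)
    let t' : ↥H₀ ⊗[↥(GaloisRep.ratLocalizedAt ℓ)] ↥H₀ :=
      ∑ i, T ⟨a i, ha i⟩ ⊗ₜ T ⟨b i, hb i⟩
    have hj := S19F_j2_injective act hsurj H₀ heq hfin
    have hjt : ∀ x y, S19HD_j2 H₀.val H₀.val t (x, y) = f (φ (x + y)) := by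
      intro x y
      have h0 : f (φ (x + y)) = S19FO_pb ℓ φ f (x + y) := rfl
      rw [h0, hab, map_sum, Finset.sum_apply]
      refine Finset.sum_congr rfl fun i _ => ?_
      rw [S19HD_j2_tmul]
      rfl
    have hcard : (Fintype.card ↥K : Ω) ≠ 0 := by
      exact_mod_cast Fintype.card_ne_zero
    have e1 : (Fintype.card ↥K ^ 2) • t = t' := by
      apply hj
      funext p
      obtain ⟨x, y⟩ := p
      rw [map_nsmul, Pi.smul_apply, hjt, map_sum, Finset.sum_apply]
      simp only [S19HD_j2_tmul, Subalgebra.coe_val, hTapp]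
      have h1 : ∀ i : Fin n, (∑ k : ↥K, a i (x + k)) * (∑ k' : ↥K, b i (y + k')) =
          ∑ k : ↥K, ∑ k' : ↥K, a i (x + k) * b i (y + k') := fun i => Finset.sum_mul_sum _ _ _ _
      rw [Finset.sum_congr rfl (fun i _ => h1 i), Finset.sum_comm]
      have h2 : ∀ k : ↥K, ∑ i : Fin n, ∑ k' : ↥K, a i (x + k) * b i (y + k') =
          ∑ k' : ↥K, f (φ (x + y)) := by
        intro k
        rw [Finset.sum_comm]
        refine Finset.sum_congr rfl fun k' _ => ?_
        have h3 := hab (x + k) (y + k')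
        rw [← h3, S19FO_pb_apply]
        congr 1
        rw [map_add, map_add, map_add, map_add, (hmemK k).mp k.2, (hmemK k').mp k'.2, add_zero,
          add_zero]
      rw [Finset.sum_congr rfl (fun k _ => h2 k)]
      simp only [Finset.sum_const, Finset.card_univ, smul_smul, pow_two]
    have e2 : TensorProduct.map π π t' = t' := by
      simp only [t', map_sum, TensorProduct.map_tmul]
      refine Finset.sum_congr rfl fun i _ => ?_
      rw [hπid _ (hTN _), hπid _ (hTN _)]
    have e3 : TensorProduct.map π π t = t := by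
      have e4 : (Fintype.card ↥K ^ 2) • (TensorProduct.map π π t) = (Fintype.card ↥K ^ 2) • t := by
        rw [← map_nsmul, e1, e2]
      apply hj
      have e5 := congrArg (S19HD_j2 H₀.val H₀.val) e4
      rw [map_nsmul, map_nsmul] at e5
      funext p
      have e6 := congrFun e5 p
      simp only [Pi.smul_apply, nsmul_eq_mul] at e6
      have hc2 : ((Fintype.card ↥K ^ 2 : ℕ) : Ω) ≠ 0 := by
        push_cast
        exact pow_ne_zero 2 hcard
      exact mul_left_cancel₀ hc2 e6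
    -- descend to `Q`
    let a' : Fin n → Q → Ω := fun i q => (π ⟨a i, ha i⟩ : G → Ω) (Function.surjInv hφ q)
    let b' : Fin n → Q → Ω := fun i q => (π ⟨b i, hb i⟩ : G → Ω) (Function.surjInv hφ q)
    have ha' : ∀ i, S19FO_pb ℓ φ (a' i) = (π ⟨a i, ha i⟩ : G → Ω) := by
      intro i
      funext y
      exact hNinv _ (hπN _) _ _ (hsec y)
    have hb' : ∀ i, S19FO_pb ℓ φ (b' i) = (π ⟨b i, hb i⟩ : G → Ω) := by
      intro i
      funext y
      exact hNinv _ (hπN _) _ _ (hsec y)
    refine ⟨n, a', b', ?_, ?_, ?_⟩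
    · intro i
      rw [Subalgebra.mem_comap, ha']
      exact (π ⟨a i, ha i⟩).2
    · intro i
      rw [Subalgebra.mem_comap, hb']
      exact (π ⟨b i, hb i⟩).2
    · intro q q'
      obtain ⟨x, rfl⟩ := hφ q
      obtain ⟨y, rfl⟩ := hφ q'
      rw [← map_add, ← hjt, ← e3]
      simp only [t, map_sum, TensorProduct.map_tmul, Finset.sum_apply, S19HD_j2_tmul,
        Subalgebra.coe_val]
      refine Finset.sum_congr rfl fun i _ => ?_
      rw [← ha' i, ← hb' i]
      rfl

end

end Fermat.Agent.S19
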