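import Fermat.Agent.S19.PwBase

/-!
# TRACK 9 "FLAT" (S19 + S32), package PW (helper1), part 2: the descent `(A·M) ∩ E = M`

`Ω = AlgebraicClosure ℚ`, `R = GaloisRep.ratLocalizedAt ℓ`, `A` a valuation subring of `Ω` over `ℓ`,
`S` a set with an action of `Gal(Ω/ℚ)` by surjective maps.

* `S19PW_li_rat`   : `R`-independent ⇒ `ℚ`-independent;
* `S19PW_descent`  : `M ⊂ Map(S, Ω)` a finitely generated `R`-module of Galois-equivariant functions,
  `F` Galois-equivariant, `F = Σ c_i m_i` with `c_i ∈ A`, `m_i ∈ M`  ⇒  `F ∈ M`;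
* `S19PW_main0`    : an `R`-order `H₀ ⊂ Map(G, Ω)` of equivariant functions whose comultiplication
  and antipode are defined over `A` (pointwise, `A`-linear combinations) has them over `R`:
  the hypotheses `hcomul`, `hneg` of `S19F_main` (helper24).
-/

set_option autoImplicit false
set_option linter.unusedSectionVars false
set_option linter.unusedVariables false
set_option linter.style.haveILetI false

open Finset

namespace Fermat.Agent.S19

section smul

variable {ℓ : ℕ} {S : Type}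

theorem S19PW_smul_apply (r : ↥(GaloisRep.ratLocalizedAt ℓ)) (f : S → S19PW_Om) (s : S) :
    (r • f) s = algebraMap ℚ S19PW_Om (r : ℚ) * f s := by
  rw [Pi.smul_apply, Algebra.smul_def]
  rfl

theorem S19PW_smul_eq (r : ↥(GaloisRep.ratLocalizedAt ℓ)) (f : S → S19PW_Om) :
    r • f = algebraMap ℚ S19PW_Om (r : ℚ) • f := by
  funext s
  rw [S19PW_smul_apply, Pi.smul_apply, smul_eq_mul]

end smul

section descent

variable {ℓ : ℕ} [hℓ : Fact ℓ.Prime]

/-- `R`-linearly independent vectors of a `ℚ`-vector space are `ℚ`-linearly independent. -/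
theorem S19PW_li_rat {V : Type*} [AddCommGroup V] [Module ℚ V]
    [Module ↥(GaloisRep.ratLocalizedAt ℓ) V] [IsScalarTower ↥(GaloisRep.ratLocalizedAt ℓ) ℚ V]
    {ι : Type*} (h : ι → V) (hli : LinearIndependent ↥(GaloisRep.ratLocalizedAt ℓ) h) :
    LinearIndependent ℚ h := by
  classical
  rw [linearIndependent_iff']
  intro T q hsum i hi
  -- common denominator
  set N : ℕ := ∏ j ∈ T, (q j).den with hN
  have hN0 : N ≠ 0 := Finset.prod_ne_zero_iff.mpr fun j _ => (q j).den_ne_zero
  have hint : ∀ j ∈ T, ∃ z : ℤ, (N : ℚ) * q j = z := by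
    intro j hj
    obtain ⟨N', hN'⟩ : (q j).den ∣ N := Finset.dvd_prod_of_mem (fun j => (q j).den) hj
    refine ⟨(N' : ℤ) * (q j).num, ?_⟩
    rw [hN']
    push_cast
    have := Rat.mul_den_eq_num (q j)
    calc ((q j).den : ℚ) * (N' : ℚ) * q j = (N' : ℚ) * (q j * (q j).den) := by ring
      _ = (N' : ℚ) * (q j).num := by rw [this]
  have hmem : ∀ j, ∃ r : ↥(GaloisRep.ratLocalizedAt ℓ), j ∈ T → (r : ℚ) = (N : ℚ) * q j := by
    intro j
    by_cases hj : j ∈ T
    · obtain ⟨z, hz⟩ := hint j hj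
      exact ⟨⟨(z : ℚ), S19PW_int_mem_R ℓ z⟩, fun _ => hz.symm⟩
    · exact ⟨0, fun h => absurd h hj⟩
  choose r hr using hmem
  have hsum' : ∑ j ∈ T, r j • h j = 0 := by
    have : ∑ j ∈ T, r j • h j = (N : ℚ) • ∑ j ∈ T, q j • h j := by
      rw [Finset.smul_sum]
      refine Finset.sum_congr rfl fun j hj => ?_
      rw [smul_smul, ← hr j hj]
      exact (algebraMap_smul ℚ (r j) (h j)).symm
    rw [this, hsum, smul_zero]
  have h0 := (linearIndependent_iff'.mp hli) T r hsum' i hi
  have h1 := hr i hi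
  rw [h0] at h1
  have h2 : (N : ℚ) * q i = 0 := by
    rw [← h1]
    rfl
  rcases mul_eq_zero.mp h2 with h | h
  · exact absurd (by exact_mod_cast h) hN0
  · exact h

variable {S : Type} (actS : S19PW_Gal → S → S)

/-- **the descent** `(A·M) ∩ E = M`. -/
theorem S19PW_descent (hsurj : ∀ σ, Function.Surjective (actS σ))
    (A : ValuationSubring S19PW_Om) (hA : A.LiesOverPrime ℓ)
    (M : Submodule ↥(GaloisRep.ratLocalizedAt ℓ) (S → S19PW_Om)) (hfg : M.FG)
    (heq : ∀ m ∈ M, ∀ σ s, m (actS σ s) = σ (m s))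
    (F : S → S19PW_Om) (hF : ∀ σ s, F (actS σ s) = σ (F s))
    (hFA : ∃ (n : ℕ) (c : Fin n → S19PW_Om) (m : Fin n → S → S19PW_Om),
      (∀ i, c i ∈ A) ∧ (∀ i, m i ∈ M) ∧ F = ∑ i, c i • m i) : F ∈ M := by
  classical
  haveI : Module.Finite ↥(GaloisRep.ratLocalizedAt ℓ) ↥M := Module.Finite.of_fg hfg
  haveI : Module.IsTorsionFree ↥(GaloisRep.ratLocalizedAt ℓ) ↥M := by
    refine ⟨fun r hr x y hxy => ?_⟩
    have hr0 : (r : ℚ) ≠ 0 := by
      intro h
      have : r = 0 := Subtype.ext h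
      rw [this] at hr
      exact not_isRegular_zero hr
    apply Subtype.ext
    funext s
    have h1 : ((r • x : ↥M) : S → S19PW_Om) s = ((r • y : ↥M) : S → S19PW_Om) s := by
      have : (r • x : ↥M) = r • y := hxy
      rw [this]
    have h2 : ∀ z : ↥M, ((r • z : ↥M) : S → S19PW_Om) s
        = algebraMap ℚ S19PW_Om (r : ℚ) * (z : S → S19PW_Om) s := fun z => by
      rw [Submodule.coe_smul, S19PW_smul_apply]
    rw [h2, h2] at h1
    exact mul_left_cancel₀ (by simpa using hr0) h1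
  haveI : Module.Free ↥(GaloisRep.ratLocalizedAt ℓ) ↥M := Module.free_of_finite_type_torsion_free'
  let b := Module.Free.chooseBasis ↥(GaloisRep.ratLocalizedAt ℓ) ↥M
  let h : Module.Free.ChooseBasisIndex ↥(GaloisRep.ratLocalizedAt ℓ) ↥M → S → S19PW_Om :=
    fun i => ((b i : ↥M) : S → S19PW_Om)
  have hliR : LinearIndependent ↥(GaloisRep.ratLocalizedAt ℓ) h := by
    have := b.linearIndependent.map' M.subtype (Submodule.ker_subtype M)
    exact this
  have hliQ : LinearIndependent ℚ h := S19PW_li_rat h hliR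
  have hliΩ : LinearIndependent S19PW_Om h :=
    S19PW_ld actS hsurj h (fun i σ s => heq _ (b i).2 σ s) hliQ
  -- coordinates of `F`
  obtain ⟨n, c, m, hc, hm, rfl⟩ := hFA
  have hrepr : ∀ x : ↥M, (x : S → S19PW_Om)
      = ∑ k, algebraMap ℚ S19PW_Om ((b.repr x k : ↥(GaloisRep.ratLocalizedAt ℓ)) : ℚ) • h k := by
    intro x
    have h1 := b.sum_repr x
    have h2 := congrArg (fun z : ↥M => (z : S → S19PW_Om)) h1
    simp only [Submodule.coe_sum, Submodule.coe_smul] at h2
    rw [← h2]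
    exact Finset.sum_congr rfl fun k _ => S19PW_smul_eq _ _
  set d : Module.Free.ChooseBasisIndex ↥(GaloisRep.ratLocalizedAt ℓ) ↥M → S19PW_Om :=
    fun k => ∑ i, c i * algebraMap ℚ S19PW_Om
      ((b.repr ⟨m i, hm i⟩ k : ↥(GaloisRep.ratLocalizedAt ℓ)) : ℚ) with hd
  have hdA : ∀ k, d k ∈ A := fun k =>
    A.toSubring.sum_mem fun i _ => A.mul_mem _ _ (hc i) (S19PW_R_le_A A hA _)
  have hFd : ∑ i, c i • m i = ∑ k, d k • h k := by
    have h1 : ∀ i, c i • m i = ∑ k, (c i * algebraMap ℚ S19PW_Om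
        ((b.repr ⟨m i, hm i⟩ k : ↥(GaloisRep.ratLocalizedAt ℓ)) : ℚ)) • h k := by
      intro i
      conv_lhs => rw [show m i = ((⟨m i, hm i⟩ : ↥M) : S → S19PW_Om) from rfl, hrepr ⟨m i, hm i⟩]
      rw [Finset.smul_sum]
      exact Finset.sum_congr rfl fun k _ => by rw [smul_smul]
    simp only [h1]
    rw [Finset.sum_comm]
    exact Finset.sum_congr rfl fun k _ => by rw [hd, Finset.sum_smul]
  rw [hFd] at hF ⊢
  -- the coordinates are Galois invariant
  have hfix : ∀ (σ : S19PW_Gal) k, σ (d k) = d k := by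
    intro σ
    have h1 : ∑ k, (σ (d k) - d k) • h k = 0 := by
      funext s
      obtain ⟨s', rfl⟩ := hsurj σ s
      have h2 := hF σ s'
      simp only [Finset.sum_apply, Pi.smul_apply, smul_eq_mul, Pi.zero_apply, sub_mul,
        Finset.sum_sub_distrib] at h2 ⊢
      rw [h2, map_sum, sub_eq_zero]
      refine Finset.sum_congr rfl fun k _ => ?_
      rw [map_mul]
      congr 1
      exact heq _ (b k).2 σ s'
    intro k
    have h3 := (Fintype.linearIndependent_iff.mp hliΩ) (fun k => σ (d k) - d k) h1 k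
    exact sub_eq_zero.mp h3
  have hrat : ∀ k, ∃ r : ↥(GaloisRep.ratLocalizedAt ℓ), algebraMap ℚ S19PW_Om (r : ℚ) = d k := by
    intro k
    obtain ⟨q, hq⟩ := S19PW_fixed_rat (d k) (fun σ => hfix σ k)
    exact ⟨⟨q, S19PW_rat_mem_R A hA q (by rw [hq]; exact hdA k)⟩, hq⟩
  choose r hr using hrat
  have hfin : ∑ k, d k • h k = ((∑ k, r k • b k : ↥M) : S → S19PW_Om) := by
    simp only [Submodule.coe_sum, Submodule.coe_smul]
    refine Finset.sum_congr rfl fun k _ => ?_
    rw [← hr k]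
    exact (S19PW_smul_eq _ _).symm
  rw [hfin]
  exact Submodule.coe_mem _

end descent

section main0

variable {ℓ : ℕ} [hℓ : Fact ℓ.Prime] {G : Type} [AddCommGroup G]

/-- the external product `(a, b) ↦ ((x, y) ↦ a x * b y)` as an `R`-bilinear map. -/
noncomputable def S19PW_ext (ℓ : ℕ) (G : Type) :
    (G → S19PW_Om) →ₗ[↥(GaloisRep.ratLocalizedAt ℓ)] (G → S19PW_Om)
      →ₗ[↥(GaloisRep.ratLocalizedAt ℓ)] (G × G → S19PW_Om) :=
  LinearMap.mk₂ ↥(GaloisRep.ratLocalizedAt ℓ) (fun a b => fun p => a p.1 * b p.2)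
    (fun a a' b => by funext p; simp [add_mul])
    (fun r a b => by
      funext p
      rw [S19PW_smul_apply, S19PW_smul_apply, mul_assoc])
    (fun a b b' => by funext p; simp [mul_add])
    (fun r a b => by
      funext p
      rw [S19PW_smul_apply, S19PW_smul_apply, mul_left_comm])

theorem S19PW_ext_apply (a b : G → S19PW_Om) (p : G × G) :
    S19PW_ext ℓ G a b p = a p.1 * b p.2 := rfl

/-- the diagonal action on pairs. -/
def S19PW_act2 (act : S19PW_Gal → G → G) : S19PW_Gal → G × G → G × G :=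
  fun σ p => (act σ p.1, act σ p.2)

theorem S19PW_act2_surj (act : S19PW_Gal → G → G) (hsurj : ∀ σ, Function.Surjective (act σ))
    (σ : S19PW_Gal) : Function.Surjective (S19PW_act2 act σ) := by
  rintro ⟨x, y⟩
  obtain ⟨x', rfl⟩ := hsurj σ x
  obtain ⟨y', rfl⟩ := hsurj σ y
  exact ⟨(x', y'), rfl⟩

theorem S19PW_act_neg (act : S19PW_Gal → G → G)
    (hadd : ∀ σ x y, act σ (x + y) = act σ x + act σ y) (σ : S19PW_Gal) (x : G) :
    act σ (-x) = -act σ x := by
  have h0 : act σ 0 = 0 := by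
    have h := hadd σ 0 0
    rw [add_zero] at h
    exact left_eq_add.mp h
  have h1 := hadd σ x (-x)
  rw [add_neg_cancel, h0] at h1
  exact eq_neg_of_add_eq_zero_right h1.symm

/-- **PW, core**: comultiplication and antipode defined over `A` are defined over `R`. -/
theorem S19PW_main0 [Finite G] (act : S19PW_Gal → G → G)
    (hadd : ∀ σ x y, act σ (x + y) = act σ x + act σ y)
    (hsurj : ∀ σ, Function.Surjective (act σ))
    (A : ValuationSubring S19PW_Om) (hA : A.LiesOverPrime ℓ)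
    (H₀ : Subalgebra ↥(GaloisRep.ratLocalizedAt ℓ) (G → S19PW_Om))
    (heq : ∀ f ∈ H₀, ∀ σ x, f (act σ x) = σ (f x))
    (hfin : (Subalgebra.toSubmodule H₀).FG)
    (hcomulA : ∀ f ∈ H₀, ∃ (n : ℕ) (c : Fin n → S19PW_Om) (a b : Fin n → G → S19PW_Om),
      (∀ i, c i ∈ A) ∧ (∀ i, a i ∈ H₀) ∧ (∀ i, b i ∈ H₀) ∧
        ∀ x y, f (x + y) = ∑ i, c i * (a i x * b i y))
    (hnegA : ∀ f ∈ H₀, ∃ (n : ℕ) (c : Fin n → S19PW_Om) (a : Fin n → G → S19PW_Om),
      (∀ i, c i ∈ A) ∧ (∀ i, a i ∈ H₀) ∧ ∀ x, f (-x) = ∑ i, c i * a i x) :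
    (∀ f ∈ H₀, ∃ (n : ℕ) (a b : Fin n → G → S19PW_Om), (∀ i, a i ∈ H₀) ∧ (∀ i, b i ∈ H₀) ∧
        ∀ x y, f (x + y) = ∑ i, a i x * b i y) ∧
      (∀ f ∈ H₀, (fun x => f (-x)) ∈ H₀) := by
  classical
  constructor
  · intro f hf
    set M₂ : Submodule ↥(GaloisRep.ratLocalizedAt ℓ) (G × G → S19PW_Om) :=
      Submodule.map₂ (S19PW_ext ℓ G) (Subalgebra.toSubmodule H₀) (Subalgebra.toSubmodule H₀)
      with hM₂
    have hfg₂ : M₂.FG := Submodule.FG.map₂ _ hfin hfin
    -- the elements of `M₂` are equivariant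
    let Eq₂ : Submodule ↥(GaloisRep.ratLocalizedAt ℓ) (G × G → S19PW_Om) :=
      { carrier := {F | ∀ σ p, F (S19PW_act2 act σ p) = σ (F p)}
        add_mem' := by
          intro F F' hF hF' σ p
          rw [Pi.add_apply, Pi.add_apply, hF σ p, hF' σ p, map_add]
        zero_mem' := by
          intro σ p
          simp
        smul_mem' := by
          intro r F hF σ p
          rw [S19PW_smul_apply, S19PW_smul_apply, hF σ p, map_mul, AlgEquiv.commutes] }
    have hEq₂ : M₂ ≤ Eq₂ := by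
      rw [hM₂, Submodule.map₂_le]
      intro a ha b hb σ p
      rw [S19PW_ext_apply, S19PW_ext_apply, map_mul]
      show a (act σ p.1) * b (act σ p.2) = _
      rw [heq a ha σ p.1, heq b hb σ p.2]
    -- the elements of `M₂` are sums of pure tensors
    let Fm₂ : Submodule ↥(GaloisRep.ratLocalizedAt ℓ) (G × G → S19PW_Om) :=
      { carrier := {F | ∃ (n : ℕ) (a b : Fin n → G → S19PW_Om), (∀ i, a i ∈ H₀) ∧ (∀ i, b i ∈ H₀) ∧
          ∀ x y, F (x, y) = ∑ i, a i x * b i y}
        add_mem' := by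
          rintro F F' ⟨n, a, b, ha, hb, hF⟩ ⟨n', a', b', ha', hb', hF'⟩
          refine ⟨n + n', Fin.append a a', Fin.append b b', ?_, ?_, ?_⟩
          · intro i
            refine Fin.addCases (fun j => ?_) (fun j => ?_) i
            · rw [Fin.append_left]; exact ha j
            · rw [Fin.append_right]; exact ha' j
          · intro i
            refine Fin.addCases (fun j => ?_) (fun j => ?_) i
            · rw [Fin.append_left]; exact hb j
            · rw [Fin.append_right]; exact hb' j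
          · intro x y
            rw [Pi.add_apply, hF, hF', Fin.sum_univ_add]
            simp only [Fin.append_left, Fin.append_right]
        zero_mem' := ⟨0, Fin.elim0, Fin.elim0, fun i => i.elim0, fun i => i.elim0, fun x y => by simp⟩
        smul_mem' := by
          rintro r F ⟨n, a, b, ha, hb, hF⟩
          refine ⟨n, fun i => r • a i, b, fun i => H₀.smul_mem (ha i) r, hb, ?_⟩
          intro x y
          rw [S19PW_smul_apply, hF, Finset.mul_sum]
          refine Finset.sum_congr rfl fun i _ => ?_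
          show _ = (r • a i) x * b i y
          rw [S19PW_smul_apply, mul_assoc] }
    have hFm₂ : M₂ ≤ Fm₂ := by
      rw [hM₂, Submodule.map₂_le]
      intro a ha b hb
      exact ⟨1, fun _ => a, fun _ => b, fun _ => ha, fun _ => hb, fun x y => by simp [S19PW_ext_apply]⟩
    obtain ⟨n, c, a, b, hc, ha, hb, hsum⟩ := hcomulA f hf
    have hmem : (fun p : G × G => f (p.1 + p.2)) ∈ M₂ := by
      refine S19PW_descent (S19PW_act2 act) (S19PW_act2_surj act hsurj) A hA M₂ hfg₂
        (fun m hm => hEq₂ hm) _ ?_ ⟨n, c, fun i => S19PW_ext ℓ G (a i) (b i), hc, ?_, ?_⟩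
      · intro σ p
        show f (act σ p.1 + act σ p.2) = σ (f (p.1 + p.2))
        rw [← hadd, heq f hf]
      · intro i
        exact Submodule.apply_mem_map₂ _ (ha i) (hb i)
      · funext p
        rw [hsum p.1 p.2, Finset.sum_apply]
        refine Finset.sum_congr rfl fun i _ => ?_
        rw [Pi.smul_apply, smul_eq_mul]
        rfl
    obtain ⟨n', a', b', ha', hb', hF'⟩ := hFm₂ hmem
    exact ⟨n', a', b', ha', hb', fun x y => hF' x y⟩
  · intro f hf
    obtain ⟨n, c, a, hc, ha, hsum⟩ := hnegA f hf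
    refine S19PW_descent act hsurj A hA (Subalgebra.toSubmodule H₀) hfin
      (fun m hm => heq m hm) _ ?_ ⟨n, c, a, hc, ha, ?_⟩
    · intro σ x
      show f (-act σ x) = σ (f (-x))
      rw [← S19PW_act_neg act hadd, heq f hf]
    · funext x
      rw [hsum x, Finset.sum_apply]
      refine Finset.sum_congr rfl fun i _ => ?_
      rw [Pi.smul_apply, smul_eq_mul]

end main0

end Fermat.Agent.S19
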