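import Mathlib
import Fermat.Agent.S18.Spec
import Fermat.Agent.Lib.DiffExpand

/-!
# TRACK 9 "FLAT" (S19), geometry package VALPT (helper20): values at points and reduction

Abstract over a specialisation datum `S : S18_Spec L F k Fk` (valuation ring `A ⊂ L`, Gauss
valuation ring `O ⊂ F`, specialisation of places `r`).  The value of a function at a place is
`FD_c0 P f` (`Lib/DiffExpand.lean`).

* `S19VP_c0_mem`   : `x ∈ O` regular on the residue disc `r⁻¹(r P)` ⇒ `x(P) ∈ A`;
* `S19VP_c0_red`   : and `(red x)(r P) = res (x(P))`;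
* `S19VP_red_regular` : `red x` is regular at `r P`;
* `S19VP_unit_iff` : `x(P) ∈ Aˣ ↔ (red x)(r P) ≠ 0`;
* `S19VP_c0_red_eq_zero` : `x(P) = 0 ⇒ (red x)(r P) = 0`;
* `S19VP_reg_of_pole` : a function with poles only at `O₀` is regular on every residue disc
  not containing `O₀`; `S19VP_c0_mem_of_pole`, `S19VP_c0_red_of_pole`: the same statements for
  such functions (e.g. for the elements of `L(a·O₀) ∩ O`).
-/

set_option autoImplicit false
set_option linter.unusedVariables false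
set_option linter.unusedSectionVars false

open AlgebraicCurve

namespace Fermat.Agent.S19

open Fermat.Agent.S18 Fermat.Agent.Lib

variable {L F k Fk : Type*} [Field L] [Field F] [Algebra L F] [Field k] [Field Fk]
  [Algebra k Fk] (S : S18_Spec L F k Fk)

/-- the value of a constant. -/
theorem S19VP_c0_algebraMap {K E : Type*} [Field K] [Field E] [Algebra K E] (Q : Place K E)
    (c : K) : FD_c0 Q (algebraMap K E c) = c :=
  FD_c0_unique Q (by rw [sub_self, map_zero]; exact zero_lt_one)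

/-- `val_Q f < 1` iff `f = 0` or `f` vanishes at `Q`. -/
theorem S19VP_val_lt_one_iff {K E : Type*} [Field K] [Field E] [Algebra K E] (Q : Place K E)
    {f : E} : Q.adicValuation f < 1 ↔ f = 0 ∨ 0 < Q.ord f := by
  rcases eq_or_ne f 0 with rfl | hf
  · simp
  · rw [Q.adicValuation_eq_exp_neg_ord hf, ← WithZero.exp_zero, WithZero.exp_lt_exp,
      or_iff_right hf]
    omega

variable (hPD : HasPrincipalDivisors L F)

include hPD

/-- **values are integral and commute with reduction** (one statement). -/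
theorem S19VP_main (x : S.O) (P : Place L F) (hdeg : P.deg = 1)
    (hreg : ∀ P', S.r P' = S.r P → 0 ≤ P'.ord (x : F)) :
    ∃ h : FD_c0 P (x : F) ∈ S.A,
      FD_c0 (S.r P) (S.red x) = S.res ⟨FD_c0 P (x : F), h⟩ := by
  have hregP : P.adicValuation (x : F) ≤ 1 :=
    P.adicValuation_le_one_iff.mpr (Or.inr (hreg P rfl))
  have hval := FD_c0_spec P hdeg hregP
  rcases (S19VP_val_lt_one_iff P).1 hval with h0 | hpos
  · -- `x` is the constant `a`
    have hx : (x : F) = algebraMap L F (FD_c0 P (x : F)) := sub_eq_zero.mp h0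
    have hO : algebraMap L F (FD_c0 P (x : F)) ∈ S.O := hx ▸ x.2
    have hA : FD_c0 P (x : F) ∈ S.A := (S.algebraMap_mem_iff _).mp hO
    refine ⟨hA, ?_⟩
    have hxe : x = ⟨algebraMap L F (FD_c0 P (x : F)), hO⟩ := Subtype.ext hx
    have hred : S.red x = algebraMap k Fk (S.res ⟨FD_c0 P (x : F), hA⟩) := by
      conv_lhs => rw [hxe]
      exact S.red_algebraMap _ hA hO
    rw [hred, S19VP_c0_algebraMap]
  · obtain ⟨hA, h⟩ := S.value_reduction hPD x (S.r P) hreg P rfl (FD_c0 P (x : F)) hpos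
    refine ⟨hA, ?_⟩
    rcases h with h | h
    · rw [h, S19VP_c0_algebraMap]
    · exact FD_c0_unique _ ((S19VP_val_lt_one_iff _).2 (Or.inr h))

/-- `x ∈ O` regular on the residue disc of `P` ⇒ `x(P) ∈ A`. -/
theorem S19VP_c0_mem (x : S.O) (P : Place L F) (hdeg : P.deg = 1)
    (hreg : ∀ P', S.r P' = S.r P → 0 ≤ P'.ord (x : F)) : FD_c0 P (x : F) ∈ S.A :=
  (S19VP_main S hPD x P hdeg hreg).1

/-- `(red x)(r P) = res (x(P))`. -/
theorem S19VP_c0_red (x : S.O) (P : Place L F) (hdeg : P.deg = 1)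
    (hreg : ∀ P', S.r P' = S.r P → 0 ≤ P'.ord (x : F)) :
    FD_c0 (S.r P) (S.red x) = S.res ⟨FD_c0 P (x : F), S19VP_c0_mem S hPD x P hdeg hreg⟩ :=
  (S19VP_main S hPD x P hdeg hreg).2

/-- `red x` is regular at `r P`. -/
theorem S19VP_red_regular (x : S.O) (P : Place L F)
    (hreg : ∀ P', S.r P' = S.r P → 0 ≤ P'.ord (x : F)) :
    S.red x = 0 ∨ 0 ≤ (S.r P).ord (S.red x) := by
  classical
  by_cases hred : S.red x = 0
  · exact Or.inl hred
  · right
    obtain ⟨D, hD, -⟩ := hPD.exists_divisor (x : F) (S.ne_zero_of_red_ne_zero hred)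
    rw [← S.mapDomain_div x hred D hD (S.r P), Finsupp.mapDomain, Finsupp.sum_apply,
      Finsupp.sum]
    refine Finset.sum_nonneg fun P' _ => ?_
    rw [Finsupp.single_apply]
    split_ifs with h
    · rw [hD P']
      exact hreg P' h
    · exact le_refl _

/-- `x(P)` is a unit of `A` iff `red x` does not vanish at `r P`. -/
theorem S19VP_unit_iff (x : S.O) (P : Place L F) (hdeg : P.deg = 1)
    (hreg : ∀ P', S.r P' = S.r P → 0 ≤ P'.ord (x : F)) :
    IsUnit (⟨FD_c0 P (x : F), S19VP_c0_mem S hPD x P hdeg hreg⟩ : S.A) ↔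
      FD_c0 (S.r P) (S.red x) ≠ 0 := by
  rw [S19VP_c0_red S hPD x P hdeg hreg, Ne, S.res_eq_zero_iff, not_not]

/-- zeros reduce to zeros. -/
theorem S19VP_c0_red_eq_zero (x : S.O) (P : Place L F) (hdeg : P.deg = 1)
    (hreg : ∀ P', S.r P' = S.r P → 0 ≤ P'.ord (x : F)) (h0 : FD_c0 P (x : F) = 0) :
    FD_c0 (S.r P) (S.red x) = 0 := by
  rw [S19VP_c0_red S hPD x P hdeg hreg]
  have : (⟨FD_c0 P (x : F), S19VP_c0_mem S hPD x P hdeg hreg⟩ : S.A) = 0 := Subtype.ext h0
  rw [this, map_zero]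

omit hPD in
/-- a function with poles only at `O₀` is regular on every residue disc not containing `O₀`. -/
theorem S19VP_reg_of_pole (O₀ : Place L F) (f : F)
    (hf : ∀ P' : Place L F, P' ≠ O₀ → 0 ≤ P'.ord f) (P : Place L F)
    (hP : S.r P ≠ S.r O₀) : ∀ P', S.r P' = S.r P → 0 ≤ P'.ord f := by
  intro P' hP'
  refine hf P' ?_
  rintro rfl
  exact hP hP'.symm

/-- values of integral functions with poles only at `O₀`, off the residue disc of `O₀`. -/
theorem S19VP_c0_mem_of_pole (O₀ : Place L F) (x : S.O)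
    (hf : ∀ P' : Place L F, P' ≠ O₀ → 0 ≤ P'.ord (x : F)) (P : Place L F) (hdeg : P.deg = 1)
    (hP : S.r P ≠ S.r O₀) : FD_c0 P (x : F) ∈ S.A :=
  S19VP_c0_mem S hPD x P hdeg (S19VP_reg_of_pole S O₀ _ hf P hP)

theorem S19VP_c0_red_of_pole (O₀ : Place L F) (x : S.O)
    (hf : ∀ P' : Place L F, P' ≠ O₀ → 0 ≤ P'.ord (x : F)) (P : Place L F) (hdeg : P.deg = 1)
    (hP : S.r P ≠ S.r O₀) :
    FD_c0 (S.r P) (S.red x) =
      S.res ⟨FD_c0 P (x : F), S19VP_c0_mem_of_pole S hPD O₀ x hf P hdeg hP⟩ :=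
  S19VP_c0_red S hPD x P hdeg (S19VP_reg_of_pole S O₀ _ hf P hP)

end Fermat.Agent.S19
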